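import Fermat.Agent.CurveRed.Ext
import Fermat.Agent.CurveRed.Residue

/-!
# Moving constant reductions along isomorphisms; the size of constants in `ℚ̄`
-/

set_option autoImplicit false
set_option linter.style.haveILetI false
set_option linter.unusedSectionVars false

noncomputable section

namespace FA.ModField

open AlgebraicCurve FA.CurveRed Polynomial

section Transport

variable {K F F' k Fk : Type*} [Field K] [Field F] [Algebra K F] [Field F'] [Algebra K F']
  [Field k] [Field Fk] [Algebra k Fk] {A : ValuationSubring K}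

/-- A constant reduction read through an isomorphism. -/
def redComap (C : ConstRed K F k Fk A) (e : F' ≃ₐ[K] F) : ConstRed K F' k Fk A where
  π := C.π
  π_surjective := C.π_surjective
  π_eq_zero := C.π_eq_zero
  G := C.G.comap e.toRingEquiv.toRingHom
  algebraMap_mem a := by
    show e (algebraMap K F' a) ∈ C.G
    rw [e.commutes]
    exact C.algebraMap_mem a
  red := C.red.comp ((e.toRingEquiv.toRingHom.comp (Subring.subtype _)).codRestrict C.G fun g => g.2)
  red_algebraMap a := by
    refine Eq.trans (congrArg C.red (Subtype.ext ?_)) (C.red_algebraMap a)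
    exact e.commutes _
  red_inv g hg := by
    obtain ⟨h1, h2⟩ := C.red_inv ⟨e g, g.2⟩ hg
    have hmem : ((g : F'))⁻¹ ∈ C.G.comap e.toRingEquiv.toRingHom := by
      show e (g : F')⁻¹ ∈ C.G
      rw [map_inv₀]
      exact h1
    refine ⟨hmem, Eq.trans (congrArg C.red (Subtype.ext ?_)) h2⟩
    exact map_inv₀ e (g : F')

theorem redComap_red {C : ConstRed K F k Fk A} {e : F' ≃ₐ[K] F} {f : F'} {r : Fk} :
    (redComap C e).Red f r ↔ C.Red (e f) r :=
  Iff.rfl

theorem scaled_redComap {C : ConstRed K F k Fk A} (hC : C.Scaled) (e : F' ≃ₐ[K] F) :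
    (redComap C e).Scaled := fun f _ hf => by
  obtain ⟨c, g, r, he, hg, hr⟩ := hC (e f) (Set.mem_univ _) (by simpa using hf)
  refine ⟨c, e.symm g, r, e.injective ?_, redComap_red.2 (by rw [e.apply_symm_apply]; exact hg), hr⟩
  rw [he, map_mul, e.commutes, e.apply_symm_apply]

theorem redComap_pi (C : ConstRed K F k Fk A) (e : F' ≃ₐ[K] F) : (redComap C e).π = C.π := rfl

end Transport

section Arch

variable {K : Type*} [Field K] {A : ValuationSubring K}

theorem valuation_intCast_ge {q : ℕ} (hq : q.Prime) (hA : A.LiesOverPrime q) {a : ℤ} (ha : a ≠ 0) :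
    ∃ e : ℕ, A.valuation ((q : K) ^ e) ≤ A.valuation (a : K) := by
  obtain ⟨e, u, hu, hau⟩ := Nat.exists_eq_pow_mul_and_not_dvd (Int.natAbs_ne_zero.2 ha) q hq.ne_one
  refine ⟨e, le_of_eq ?_⟩
  have h1 : A.valuation (a : K) = A.valuation ((a.natAbs : ℕ) : K) := by
    rcases Int.natAbs_eq a with h | h
    · conv_lhs => rw [h]
      rw [Int.cast_natCast]
    · conv_lhs => rw [h]
      rw [Int.cast_neg, Valuation.map_neg, Int.cast_natCast]
  rw [h1, hau, Nat.cast_mul, map_mul, valuation_natCast_eq_one A hq hA hu, mul_one, Nat.cast_pow]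

/-- Nonzero algebraic numbers are not infinitely small. -/
theorem exists_pow_lt_valuation [CharZero K] [Algebra ℚ K] [Algebra.IsAlgebraic ℚ K] {q : ℕ}
    (hq : q.Prime) (hA : A.LiesOverPrime q) (c : K) (hc : c ≠ 0) :
    ∃ m : ℕ, A.valuation ((q : K) ^ m) < A.valuation c := by
  have hqlt : A.valuation (q : K) < 1 := (A.mem_nonunits_iff).1 hA
  have hq0 : A.valuation (q : K) ≠ 0 := by
    simp [Nat.cast_ne_zero.2 hq.ne_zero]
  have hbig : ∀ e : ℕ, A.valuation ((q : K) ^ (e + 1)) < A.valuation ((q : K) ^ e) := fun e => by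
    rw [pow_succ, map_mul]
    have h0 : A.valuation ((q : K) ^ e) ≠ 0 := by
      rw [map_pow]; exact pow_ne_zero _ hq0
    calc A.valuation ((q : K) ^ e) * A.valuation (q : K)
        < A.valuation ((q : K) ^ e) * 1 := mul_lt_mul_of_pos_left hqlt (zero_lt_iff.2 h0)
      _ = _ := mul_one _
  rcases lt_or_ge (A.valuation c) 1 with hc1 | hc1
  swap
  · exact ⟨1, by rw [pow_one]; exact lt_of_lt_of_le hqlt hc1⟩
  obtain ⟨p, hp0, hp⟩ : ∃ p : Polynomial ℤ, p.coeff 0 ≠ 0 ∧ Polynomial.aeval c p = 0 :=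
    ((IsFractionRing.isAlgebraic_iff ℤ ℚ K).2 (Algebra.IsAlgebraic.isAlgebraic (R := ℚ) c)).exists_nonzero_coeff_and_aeval_eq_zero
      (mem_nonZeroDivisors_of_ne_zero hc)
  obtain ⟨e, he⟩ := valuation_intCast_ge hq hA hp0
  refine ⟨e + 1, lt_of_lt_of_le ((hbig e).trans_le he) ?_⟩
  have hcA : c ∈ A := (A.valuation_le_one_iff c).1 hc1.le
  have hsum : (p.coeff 0 : K) = -(c * ∑ i ∈ Finset.range p.natDegree,
      (p.coeff (i + 1) : K) * c ^ i) := by
    rw [Polynomial.aeval_eq_sum_range, Finset.sum_range_succ'] at hp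
    simp only [zsmul_eq_mul, pow_zero, mul_one] at hp
    rw [eq_neg_iff_add_eq_zero, add_comm, Finset.mul_sum, ← hp]
    congr 1
    exact Finset.sum_congr rfl fun i _ => by ring
  rw [hsum, Valuation.map_neg, map_mul]
  refine mul_le_of_le_one_right' ((A.valuation_le_one_iff _).2 (sum_mem fun i _ => ?_))
  exact mul_mem (intCast_mem A _) (pow_mem hcA i)

end Arch

end FA.ModField
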