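import Fermat.Agent.ModField.Semistable.FrobRelation
import Fermat.Agent.ModField.Semistable.Transport
import Fermat.Agent.JTorsion.Point
import Fermat.Agent.CurveRed.ModularBase
import Fermat.Agent.Deform.MatrixRep
import Fermat.Agent.Frob.Reduction

/-!
# The `λ`-adic representation of a newform at a prime exactly dividing the level, given the fibre
-/

set_option autoImplicit false
set_option linter.style.haveILetI false
set_option linter.unusedSectionVars false
set_option synthInstance.maxHeartbeats 200000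
set_option maxHeartbeats 800000

noncomputable section

namespace FA.ModField

open ModularCurve AlgebraicCurve FA.Curve FA.CurveRed FA.Level FA.JTorsion IsLocalRing Polynomial
open CuspForm

local notation "Qb" => AlgebraicClosure ℚ

/-- The special fibre of `X₀(M q)` exists at every place over `q`, in the residue field. -/
def HasFibreData : Prop :=
  ∀ (M q : ℕ) [NeZero M] [Fact q.Prime] [NeZero q] [Algebra Qb ℂ] (hqM : ¬ q ∣ M)
    (A : ValuationSubring Qb) [IsAlgClosed (IsLocalRing.ResidueField A)]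
    [CharP (IsLocalRing.ResidueField A) q]
    (hπ0 : ∀ a : A, IsLocalRing.residue A a = 0 ↔ A.valuation a < 1)
    (harch : ∀ c : Qb, c ≠ 0 → ∃ m : ℕ, A.valuation ((q : Qb) ^ m) < A.valuation c),
    A.LiesOverPrime q →
      Nonempty (FibreData M q A (IsLocalRing.residue A) IsLocalRing.residue_surjective hπ0 hqM harch)

/-- Every Galois element, on a module over a larger ring. -/
theorem exists_hecke_of_gal_along (p : ℕ) [Fact p.Prime] {D R : Type} [CommRing D] [CommRing R]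
    (f : D →+* R) {X : Type} [AddCommGroup X] [Module R X] (n : ℕ) (hX : ∀ x : X, p ^ n • x = 0)
    (act : GalQ →* Module.End R X) {Q : Type} [CommRing Q] (hQ : ((p ^ n : ℕ) : Q) = 0)
    (r : GalQ →* Matrix (Fin 2) (Fin 2) Q) (π : D →+* Q)
    (hact : ∃ L : IntermediateField ℚ Qb, FiniteDimensional ℚ L ∧
      ∀ σ : GalQ, (∀ a ∈ L, σ a = a) → act σ = 1)
    (hr : ∃ L : IntermediateField ℚ Qb, FiniteDimensional ℚ L ∧
      ∀ σ : GalQ, (∀ a ∈ L, σ a = a) → r σ = 1)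
    (bad : Finset ℕ) (hp : p ∈ bad)
    (hfrob : ∀ ℓ : ℕ, ℓ.Prime → ℓ ∉ bad → ∀ B : ValuationSubring Qb, B.LiesOverPrime ℓ →
      ∀ τ : GalQ, B.IsFrobeniusAt τ ℓ → ∃ t : D,
        (∀ x, act τ x + ℓ • act τ⁻¹ x = f t • x) ∧ (r τ).trace = π t ∧ (r τ).det = (ℓ : Q))
    (τ : GalQ) :
    ∃ h : D, (∀ x, act τ x + ((cycMod p n τ : (ZMod (p ^ n))ˣ) : ZMod (p ^ n)).val • act τ⁻¹ x =
        f h • x) ∧ (r τ).trace = π h ∧
      (r τ).det = ((((cycMod p n τ : (ZMod (p ^ n))ˣ) : ZMod (p ^ n))).val : Q) := by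
  letI : Module D X := Module.compHom _ f
  let act' : GalQ →* Module.End D X :=
    { toFun := fun σ =>
        { toFun := act σ
          map_add' := map_add (act σ)
          map_smul' := fun d x => map_smul (act σ) (f d) x }
      map_one' := LinearMap.ext fun x => (show act 1 x = x by rw [map_one]; rfl)
      map_mul' := fun σ τ => LinearMap.ext fun x =>
        (show act (σ * τ) x = act σ (act τ x) by rw [map_mul]; rfl) }
  obtain ⟨L, hL, hL'⟩ := hact
  exact exists_hecke_of_gal p n hX act' hQ r π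
    ⟨L, hL, fun σ hσ => LinearMap.ext fun x => (show act σ x = x by rw [hL' σ hσ]; rfl)⟩
    hr bad hp hfrob τ

/-- Saturation through an injection of rings. -/
theorem exists_saturation_along (p : ℕ) (hp : p ≠ 0) {D R : Type} [CommRing D] [CommRing R]
    (f : D →+* R) (hf : Function.Injective f) {X : Type} [AddCommGroup X] [Module R X]
    [Module.Free ℤ X] [Module.Finite ℤ X] (hX : ∀ t : R, (∀ x : X, t • x = 0) → t = 0) :
    ∃ c : ℕ, ∀ (n : ℕ) (s : D) (y : R), f s = p ^ (n + c) • y → ∃ s', s = p ^ n • s' := by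
  letI : Module D X := Module.compHom _ f
  obtain ⟨c, hc⟩ := exists_saturation p hp (T := D) (X := X)
    (fun s h => hf ((hX (f s) h).trans (map_zero f).symm))
  exact ⟨c, fun n s y h => hc n s fun x => ⟨y • x, show f s • x = _ by rw [h, smul_assoc]⟩⟩

variable {N : ℕ} [NeZero N] (S : Finset ℕ)

/-- The inclusion of the anemic Hecke algebra in the full one. -/
def inclFull : CuspForm.heckeAlgebra N 2 (↑S : Set ℕ) →+* HFull N :=
  (Subalgebra.inclusion (CuspForm.heckeAlgebra_mono (Set.empty_subset _))).toRingHom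

theorem inclFull_injective : Function.Injective (inclFull (N := N) S) :=
  Subalgebra.inclusion_injective _

theorem inclFull_T {ℓ : ℕ} (hℓ : ℓ.Prime) (hℓN : ¬ ℓ ∣ N) (hℓS : ℓ ∉ (↑S : Set ℕ)) :
    inclFull S (CuspForm.heckeAlgebra.T (k := 2) hℓ hℓN hℓS) =
      CuspForm.heckeAlgebra.T (k := 2) hℓ hℓN (Set.notMem_empty _) := rfl

theorem exists_inclFull_eq {M : ℕ} [NeZero M] (hMN : M ∣ N) {t : HFull N × HFull M}
    (ht : t ∈ pairRing N M hMN S) : ∃ h, inclFull S h = t.1 := by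
  induction ht using Subring.closure_induction with
  | mem x hx =>
    obtain ⟨ℓ, hℓ, hℓN, hS, rfl⟩ := hx
    exact ⟨_, inclFull_T S hℓ hℓN (by simpa using hS)⟩
  | zero => exact ⟨0, map_zero _⟩
  | one => exact ⟨1, map_one _⟩
  | add x y _ _ hx hy =>
    obtain ⟨a, ha⟩ := hx
    obtain ⟨b, hb⟩ := hy
    exact ⟨a + b, by rw [map_add, ha, hb]; rfl⟩
  | neg x _ hx =>
    obtain ⟨a, ha⟩ := hx
    exact ⟨-a, by rw [map_neg, ha]; rfl⟩
  | mul x y _ _ hx hy =>
    obtain ⟨a, ha⟩ := hx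
    obtain ⟨b, hb⟩ := hy
    exact ⟨a * b, by rw [map_mul, ha, hb]; rfl⟩

/-- A homomorphism of the range of a character to a ring of characteristic zero is injective. -/
theorem range_hom_injective {H O : Type} [CommRing H] [Module.Finite ℤ H] [CommRing O] [CharZero O]
    [IsDomain O] (χ : H →+* ℂ) (ι : χ.range →+* O) : Function.Injective ι := by
  haveI : Algebra.IsIntegral ℤ χ.range := ⟨fun x => by
    obtain ⟨h, hh⟩ := χ.rangeRestrict_surjective x
    rw [← hh]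
    exact map_isIntegral_int χ.rangeRestrict (Algebra.IsIntegral.isIntegral h)⟩
  rw [RingHom.injective_iff_ker_eq_bot]
  refine Ideal.eq_bot_of_comap_eq_bot (R := ℤ) ((Submodule.eq_bot_iff _).2 fun a ha => ?_)
  rw [Ideal.mem_comap, RingHom.mem_ker, eq_intCast, map_intCast] at ha
  exact_mod_cast ha

theorem eigenChar_inclFull {g : CuspForm (CongruenceSubgroup.Gamma0 N) 2}
    (hNS : ∀ q : ℕ, q.Prime → q ∣ N → q ∈ S)
    (chig : CuspForm.heckeAlgebra N 2 (↑S : Set ℕ) →+* ℂ)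
    (hchig : ∀ (ℓ : ℕ) (hℓ : ℓ.Prime) (hℓN : ¬ ℓ ∣ N) (hℓS : ℓ ∉ (↑S : Set ℕ)),
      chig (CuspForm.heckeAlgebra.T hℓ hℓN hℓS) = ModularFormClass.qCoeff g ℓ)
    (ψ : HFull N →+* ℂ)
    (hψ : ∀ (ℓ : ℕ) (hℓ : ℓ.Prime) (hℓN : ¬ ℓ ∣ N),
      ψ (CuspForm.heckeAlgebra.T hℓ hℓN (Set.notMem_empty _)) = ModularFormClass.qCoeff g ℓ)
    (h : CuspForm.heckeAlgebra N 2 (↑S : Set ℕ)) : ψ (inclFull S h) = chig h := by
  have e : (ψ.comp (inclFull S)).toIntAlgHom = chig.toIntAlgHom := by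
    refine AlgHom.adjoin_ext ?_
    intro x hx
    rcases hx with ⟨ℓ, hℓ, hℓN, hℓS, rfl⟩ | ⟨r, hrN, hr, hrS, rfl⟩
    · exact ((congrArg ψ (inclFull_T S hℓ hℓN hℓS)).trans (hψ ℓ hℓ hℓN)).trans
        (hchig ℓ hℓ hℓN hℓS).symm
    · exact absurd (Finset.mem_coe.2 (hNS r hr hrN)) hrS
  exact congrArg (fun φ => φ h) e

variable {O : Type} [CommRing O] [IsDomain O] [IsDiscreteValuationRing O]
  [IsAdicComplete (maximalIdeal O) O] [CharZero O]

/-- The square of the trace at `q` is `(q + 1)²` for a representation attached to an eigensystem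
new at `q`. -/
theorem trace_sq_of_new (M q : ℕ) [NeZero M] [hq : Fact q.Prime] [NeZero q]
    (hfib : HasFibreData) (hqM : ¬ q ∣ M) {g : CuspForm (CongruenceSubgroup.Gamma0 (M * q)) 2}
    (hg : g.IsNormalizedEigenform) (hnew : ¬ CuspForm.GoodEigensystemOccursAt g M)
    (p : ℕ) [hp : Fact p.Prime] (hqp : q ≠ p) (S : Finset ℕ) (hpS : p ∈ S)
    (hNS : ∀ r : ℕ, r.Prime → r ∣ M * q → r ∈ S)
    (chig : CuspForm.heckeAlgebra (M * q) 2 (↑S : Set ℕ) →+* ℂ)
    (hchig : ∀ (ℓ : ℕ) (hℓ : ℓ.Prime) (hℓN : ¬ ℓ ∣ M * q) (hℓS : ℓ ∉ (↑S : Set ℕ)),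
      chig (CuspForm.heckeAlgebra.T hℓ hℓN hℓS) = ModularFormClass.qCoeff g ℓ)
    (χ : CuspForm.heckeAlgebra (M * q) 2 (↑S : Set ℕ) →+* O)
    (hχ : ∀ h, χ h = 0 → chig h = 0) (hpO : (p : O) ∈ maximalIdeal O)
    (ρ : GaloisRepAdic O)
    (hρ : ∀ (ℓ : ℕ) (hℓ : ℓ.Prime) (hℓN : ¬ ℓ ∣ M * q) (hℓS : ℓ ∉ (↑S : Set ℕ)),
      ∀ B : ValuationSubring Qb, B.LiesOverPrime ℓ → ∀ τ : GalQ, B.IsFrobeniusAt τ ℓ →
        LinearMap.charpoly (ρ.ρ τ) =
          X ^ 2 - C (χ (CuspForm.heckeAlgebra.T hℓ hℓN hℓS)) * X + C ((ℓ : O)))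
    {A : ValuationSubring Qb} (hA : A.LiesOverPrime q) {σ : GalQ} (hσ : A.IsFrobeniusAt σ q) :
    LinearMap.charpoly (ρ.ρ σ) = X ^ 2 - C ((q : O) + 1) * X + C ((q : O)) ∨
      LinearMap.charpoly (ρ.ρ σ) = X ^ 2 + C ((q : O) + 1) * X + C ((q : O)) := by
  classical
  obtain ⟨alg⟩ := exists_algebra_qbar
  letI := alg
  haveI : NeZero p := ⟨hp.out.ne_zero⟩
  haveI : IsAlgClosed (IsLocalRing.ResidueField A) := FA.Frob.residueField_isAlgClosed A
  haveI : CharP (IsLocalRing.ResidueField A) q := residueAt_charP hA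
  haveI : Algebra.IsAlgebraic ℚ Qb := AlgebraicClosure.isAlgebraic ℚ
  obtain ⟨D⟩ := hfib M q hqM A residueAt_eq_zero
    (fun c hc => exists_pow_lt_valuation hq.out hA c hc) hA
  obtain ⟨ψ₀, hψ₀⟩ := exists_eigenChar (∅ : Set ℕ) hg
  let ψ : HFull (M * q) →+* ℂ := (algebraMap (integralClosure ℤ ℂ) ℂ).comp ψ₀
  have hψ : ∀ (ℓ : ℕ) (hℓ : ℓ.Prime) (hℓN : ¬ ℓ ∣ M * q),
      ψ (CuspForm.heckeAlgebra.T hℓ hℓN (Set.notMem_empty _)) = ModularFormClass.qCoeff g ℓ :=
    fun ℓ hℓ hℓN => hψ₀ ℓ hℓ hℓN (Set.notMem_empty _)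
  obtain ⟨t, ht, ht2, htψ⟩ := exists_pair_killer (M * q) M (dvd_mul_right M q) hg hnew ψ hψ S
  obtain ⟨fS, hfS⟩ := exists_inclFull_eq S (dvd_mul_right M q) ht
  have hχf : χ fS ≠ 0 := fun h0 => htψ (by
    rw [← hfS, eigenChar_inclFull S hNS chig hchig ψ hψ, hχ fS h0])
  obtain ⟨K, c, hK, hrel⟩ := exists_frob_relation M q hqM p hpS ht ht2 D hA hqp hσ
    (inducesOn_frobenius hσ)
  haveI := latMod_free (M * q) (∅ : Set ℕ)
  obtain ⟨cS, hcS⟩ := exists_saturation_along p hp.out.ne_zero (inclFull (N := M * q) S)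
    (inclFull_injective S) (X := LatMod (M * q) (∅ : Set ℕ))
    (fun _ h => latMod_faithful (M * q) (∅ : Set ℕ) h)
  let b := FA.Deform.repBasis ρ
  let r := FA.Deform.matrixOf ρ b
  have key : ∀ j : ℕ, (K : O) * ((((1 : O) + q) ^ 2 - (r σ).trace ^ 2) * χ fS) ∈
      maximalIdeal O ^ j ∧ (r σ).det - (q : O) ∈ maximalIdeal O ^ j := by
    intro j
    let n := j + cS + c
    let I := maximalIdeal O ^ n
    have hle : I ≤ maximalIdeal O ^ j := Ideal.pow_le_pow_right (by omega)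
    have hQ : ((p ^ n : ℕ) : O ⧸ I) = 0 := by
      rw [← map_natCast (Ideal.Quotient.mk I), Ideal.Quotient.eq_zero_iff_mem, Nat.cast_pow]
      exact Ideal.pow_mem_pow hpO n
    obtain ⟨L₃, hL₃, h₃⟩ := FA.Deform.isContRep_matrixOf ρ b n
    have hkill : ∀ z : ModN (M * q) (∅ : Set ℕ) (p ^ n), p ^ n • z = 0 := fun z =>
      toTors_injective (M * q) _ _ (by rw [map_nsmul, nsmul_toTors, map_zero])
    obtain ⟨h, hx, htr, hdet⟩ := exists_hecke_of_gal_along p (inclFull S) n hkill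
      (galMod (M * q) (∅ : Set ℕ) (p ^ n)) hQ (FA.Deform.mapRep (Ideal.Quotient.mk I) r)
      ((Ideal.Quotient.mk I).comp χ) (exists_field_galMod (M * q) (∅ : Set ℕ) (p ^ n))
      ⟨L₃, hL₃, fun τ hτ => by
        show (Ideal.Quotient.mk I).mapMatrix (r τ) = 1
        rw [← map_one (Ideal.Quotient.mk I).mapMatrix]
        ext i k
        exact Ideal.Quotient.eq.2 (h₃ τ hτ i k)⟩
      S hpS
      (fun ℓ hℓ hℓS B hB τ hτ => by
        have hℓN : ¬ ℓ ∣ M * q := fun hd => hℓS (hNS ℓ hℓ hd)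
        have hℓS' : ℓ ∉ (↑S : Set ℕ) := by simpa using hℓS
        have hℓn : ¬ ℓ ∣ p ^ n := fun hd =>
          hℓS ((Nat.prime_dvd_prime_iff_eq hℓ hp.out).1 (hℓ.dvd_of_dvd_pow hd) ▸ hpS)
        have h := hρ ℓ hℓ hℓN hℓS' B hB τ hτ
        rw [← LinearMap.charpoly_toMatrix (ρ.ρ τ) b, ← FA.Deform.matrixOf_apply,
          Matrix.charpoly_fin_two] at h
        have h1 := congrArg (fun f => coeff f 1) h
        have h0 := congrArg (fun f => coeff f 0) h
        simp [coeff_X, coeff_C] at h1 h0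
        refine ⟨CuspForm.heckeAlgebra.T hℓ hℓN hℓS', fun x => ?_, ?_, ?_⟩
        · rw [inclFull_T]
          exact galMod_frobenius (M * q) _ _ (goodRed_all _) hℓ hℓN hℓn hB (Set.notMem_empty _) hτ x
        · show ((Ideal.Quotient.mk I).mapMatrix (r τ)).trace = _
          rw [RingHom.mapMatrix_apply, ← AddMonoidHom.map_trace]
          exact congrArg (Ideal.Quotient.mk I) h1
        · show ((Ideal.Quotient.mk I).mapMatrix (r τ)).det = _
          rw [← RingHom.map_det, ← map_natCast (Ideal.Quotient.mk I)]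
          exact congrArg (Ideal.Quotient.mk I) h0) σ
    have hmod : ∀ a : ℕ, ((a % p ^ n : ℕ) : O ⧸ I) = (a : O ⧸ I) := fun a => by
      conv_rhs => rw [← Nat.mod_add_div a (p ^ n), Nat.cast_add, Nat.cast_mul, hQ, zero_mul,
        add_zero]
    rw [cycMod_frobenius p n hq.out hqp hA hσ, ZMod.val_natCast] at hdet
    refine ⟨?_, hle (Ideal.Quotient.eq.1 ?_)⟩
    · obtain ⟨y, hy⟩ := hrel (j + cS) (inclFull S h) fun z => by
        have e := hx z
        rwa [cycMod_frobenius p n hq.out hqp hA hσ, ZMod.val_natCast,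
          nsmul_mod_of_kill (hkill _)] at e
      obtain ⟨y', hy'⟩ := hcS j (K • ((((1 : CuspForm.heckeAlgebra (M * q) 2 (↑S : Set ℕ)) +
          (q : CuspForm.heckeAlgebra (M * q) 2 (↑S : Set ℕ))) ^ 2 - h ^ 2) * fS)) y (by
        rw [map_nsmul, map_mul, map_sub, map_pow, map_pow, map_add, map_one, map_natCast, hfS, hy])
      have e := congrArg χ hy'
      simp only [nsmul_eq_mul, map_mul, map_natCast, map_sub, map_pow, map_add, map_one] at e
      have htr' : (r σ).trace - χ h ∈ maximalIdeal O ^ j := by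
        refine hle (Ideal.Quotient.eq.1 ?_)
        exact (AddMonoidHom.map_trace (Ideal.Quotient.mk I).toAddMonoidHom (r σ)).trans htr
      have hKy : (K : O) * ((((1 : O) + q) ^ 2 - χ h ^ 2) * χ fS) ∈ maximalIdeal O ^ j := by
        rw [e, Nat.cast_pow]
        exact Ideal.mul_mem_right _ _ (Ideal.pow_mem_pow hpO j)
      rw [show (K : O) * ((((1 : O) + q) ^ 2 - (r σ).trace ^ 2) * χ fS) =
        (K : O) * ((((1 : O) + q) ^ 2 - χ h ^ 2) * χ fS) -
          ((K : O) * χ fS * ((r σ).trace + χ h)) * ((r σ).trace - χ h) by ring]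
      exact sub_mem hKy (Ideal.mul_mem_left _ _ htr')
    · rw [map_natCast, ← hmod, ← hdet]
      show _ = ((Ideal.Quotient.mk I).mapMatrix (r σ)).det
      rw [← RingHom.map_det]
  have haus : ∀ a : O, (∀ j, a ∈ maximalIdeal O ^ j) → a = 0 := fun a ha =>
    IsHausdorff.haus (I := maximalIdeal O) inferInstance _ fun j => by
      rw [SModEq.zero, smul_eq_mul, Ideal.mul_top]
      exact ha j
  have hdet : (r σ).det = (q : O) := sub_eq_zero.1 (haus _ fun j => (key j).2)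
  have htr2 : (r σ).trace = (q : O) + 1 ∨ (r σ).trace = -((q : O) + 1) := by
    have h := haus _ fun j => (key j).1
    rcases mul_eq_zero.1 h with h | h
    · exact absurd h (Nat.cast_ne_zero.2 hK)
    · rcases mul_eq_zero.1 h with h | h
      · refine sq_eq_sq_iff_eq_or_eq_neg.1 ?_
        linear_combination (-1 : O) * h
      · exact absurd h hχf
  rw [← LinearMap.charpoly_toMatrix (ρ.ρ σ) b, ← FA.Deform.matrixOf_apply, Matrix.charpoly_fin_two,
    hdet]
  rcases htr2 with h | h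
  · exact Or.inl (by rw [h])
  · exact Or.inr (by rw [h, map_neg]; ring)

omit N S O in
/-- The statement of S35, given the special fibres. -/
theorem exists_galoisRep_newform_of_fibre (hfib : HasFibreData)
    {M : ℕ} [NeZero M] {g : CuspForm (CongruenceSubgroup.Gamma0 M) 2} (hg : g.IsNewform)
    (lam : ℕ) [Fact lam.Prime] (S : Finset ℕ)
    (O' : Type) [CommRing O'] [IsDomain O'] [IsDiscreteValuationRing O']
    [IsAdicComplete (maximalIdeal O') O'] [Finite (ResidueField O')]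
    [CharZero O'] (hlamO' : (lam : O') ∈ maximalIdeal O')
    (chig : CuspForm.heckeAlgebra M 2 (↑S : Set ℕ) →+* ℂ)
    (hchig : ∀ (ℓ : ℕ) (hℓ : ℓ.Prime) (hℓM : ¬ ℓ ∣ M) (hℓS : ℓ ∉ (↑S : Set ℕ)),
      chig (CuspForm.heckeAlgebra.T hℓ hℓM hℓS) = ModularFormClass.qCoeff g ℓ)
    (iota : chig.range →+* O') (hlamS : lam ∈ S) (hMS : ∀ q : ℕ, q.Prime → q ∣ M → q ∈ S) :
    ∃ (O'' : Type) (_ : CommRing O'') (_ : IsDomain O'') (_ : IsDiscreteValuationRing O'')
      (_ : IsAdicComplete (maximalIdeal O'') O'') (_ : Finite (ResidueField O''))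
      (_ : CharZero O'') (_ : Algebra O' O'') (_ : Module.Finite O' O'')
      (_ : IsLocalHom (algebraMap O' O'')),
      Function.Injective (algebraMap O' O'') ∧
      ∃ ρ : GaloisRepAdic O'',
        (∀ (ℓ : ℕ) (hℓ : ℓ.Prime) (hℓM : ¬ ℓ ∣ M) (hℓS : ℓ ∉ (↑S : Set ℕ)),
          ∀ A : ValuationSubring Qb, A.LiesOverPrime ℓ →
            ∀ σ : GalQ, A.IsFrobeniusAt σ ℓ →
              LinearMap.charpoly (ρ.ρ σ) =
                X ^ 2 - C (algebraMap O' O'' ((iota.comp chig.rangeRestrict)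
                  (CuspForm.heckeAlgebra.T hℓ hℓM hℓS))) * X + C ((ℓ : O''))) ∧
        (∀ q : ℕ, q.Prime → q ≠ lam → q ∣ M → ¬ q ^ 2 ∣ M →
          ∀ A : ValuationSubring Qb, A.LiesOverPrime q →
            ∀ σ : GalQ, A.IsFrobeniusAt σ q →
              LinearMap.charpoly (ρ.ρ σ) = X ^ 2 - C ((q : O'') + 1) * X + C ((q : O'')) ∨
              LinearMap.charpoly (ρ.ρ σ) = X ^ 2 + C ((q : O'') + 1) * X + C ((q : O''))) := by
  haveI : Module.Finite ℤ (CuspForm.heckeAlgebra M 2 (↑S : Set ℕ)) :=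
    FA.Period.moduleFinite_heckeAlgebra M 2 _
  obtain ⟨O'', i₁, i₂, i₃, i₄, i₅, i₆, i₇, i₈, i₉, hinj, ρ, hρ, -⟩ :=
    exists_galoisRep_of_point lam M (goodRed_all M) S hlamS O' hlamO'
      (iota.comp chig.rangeRestrict)
  refine ⟨O'', i₁, i₂, i₃, i₄, i₅, i₆, i₇, i₈, i₉, hinj, ρ, hρ, ?_⟩
  intro q hq hqlam hqM hq2 A hA σ hσ
  obtain ⟨M₀, rfl⟩ : ∃ M₀, M = M₀ * q := ⟨M / q, (Nat.div_mul_cancel hqM).symm⟩
  haveI : Fact q.Prime := ⟨hq⟩
  haveI : NeZero q := ⟨hq.ne_zero⟩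
  haveI : NeZero M₀ := ⟨left_ne_zero_of_mul (NeZero.ne (M₀ * q))⟩
  have hqM₀ : ¬ q ∣ M₀ := fun hd => hq2 (by rw [sq]; exact mul_dvd_mul_right hd q)
  have hlamT : (lam : O'') ∈ maximalIdeal O'' := by
    rw [← map_natCast (algebraMap O' O'')]
    exact map_nonunit (algebraMap O' O'') _ hlamO'
  refine trace_sq_of_new M₀ q hfib hqM₀ hg.isNormalizedEigenform
    (hg.2 M₀ (dvd_mul_right M₀ q) ?_) lam hqlam S hlamS hMS chig hchig
    ((algebraMap O' O'').comp (iota.comp chig.rangeRestrict)) (fun h h0 => ?_) hlamT ρ hρ hA hσ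
  · intro h
    exact hq.ne_one ((Nat.eq_div_of_mul_eq_right (NeZero.ne M₀) h.symm).trans
      (Nat.div_self (NeZero.pos M₀)))
  · have h1 := range_hom_injective chig iota
      (((map_eq_zero_iff _ hinj).1 h0).trans (map_zero iota).symm)
    exact congrArg Subtype.val h1

end FA.ModField
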