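import Fermat.Agent.ModField.Semistable.SemistableTorsion
import Fermat.Agent.ModField.Semistable.NewformFrobenius

/-!
# Unipotent inertia from the special fibre data
-/

set_option autoImplicit false
set_option linter.style.haveILetI false
set_option synthInstance.maxHeartbeats 200000
set_option maxHeartbeats 800000

noncomputable section

namespace FA.ModField

open ModularCurve AlgebraicCurve FA.CurveRed

local notation "Qb" => AlgebraicClosure ℚ

theorem hasInertiaFibre_of_fibreData (hfib : HasFibreData) (M q : ℕ) [NeZero M] [hq : Fact q.Prime]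
    [NeZero (M * q)] (hqM : ¬ q ∣ M) {A : ValuationSubring Qb} (hA : A.LiesOverPrime q) :
    HasInertiaFibre M q A := by
  obtain ⟨alg⟩ := FA.JTorsion.exists_algebra_qbar
  letI := alg
  haveI : NeZero q := ⟨hq.out.ne_zero⟩
  haveI : Algebra.IsAlgebraic ℚ Qb := AlgebraicClosure.isAlgebraic ℚ
  haveI : IsAlgClosed (IsLocalRing.ResidueField A) := FA.Frob.residueField_isAlgClosed A
  haveI : CharP (IsLocalRing.ResidueField A) q := residueAt_charP hA
  obtain ⟨D⟩ := hfib M q hqM A residueAt_eq_zero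
    (fun c hc => exists_pow_lt_valuation hq.out hA c hc) hA
  intro s hs
  obtain ⟨S, hSs, hθk, hθ, he⟩ := D.symm_inertia s (inducesOn_inertia hs)
  exact ⟨D.β, D.σ, D.fintypeβ, D.fintypeσ, D.X, S, ⟨hθ, hθk, he⟩, hSs⟩

/-- The statement of S34, given the special fibre data. -/
theorem isUnipotentOnInertiaAt_of_fibreData (hfib : HasFibreData) {p N : ℕ} [NeZero N]
    {S : Finset ℕ} {O : Type} [CommRing O] [IsDomain O] [IsDiscreteValuationRing O]
    [IsAdicComplete (IsLocalRing.maximalIdeal O) O]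
    {θ : CuspForm.heckeAlgebra N 2 (↑S : Set ℕ) →+* IsLocalRing.ResidueField O}
    {T : Type} [CommRing T] [IsLocalRing T] [IsNoetherianRing T]
    [IsAdicComplete (IsLocalRing.maximalIdeal T) T] [Algebra O T] [IsLocalHom (algebraMap O T)]
    [Module.Finite O T] [Module.Free O T]
    (hp : p.Prime) (hpO : (p : O) ∈ IsLocalRing.maximalIdeal O) (hpS : p ∈ S)
    (H : CuspForm.HeckeGaloisRepDatum N (↑S : Set ℕ) O θ T)
    (q : ℕ) (hq : q.Prime) (hqp : q ≠ p) (hqN : q ∣ N) (hq2 : ¬ q ^ 2 ∣ N) :
    H.ρ.IsUnipotentOnInertiaAt q :=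
  isUnipotentOnInertiaAt_of_fibre hp hpO hpS (FA.JTorsion.goodRed_all N) H q hq hqp hqN hq2
    fun M _ _ hqM A hA => by
      haveI : Fact q.Prime := ⟨hq⟩
      exact hasInertiaFibre_of_fibreData hfib M q hqM hA

end FA.ModField
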