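import Fermat.Agent.ModField.Semistable.X0.FibreData
import Fermat.Agent.ModField.Semistable.NewformFrobenius

/-!
# The special fibres exist at every place
-/

set_option autoImplicit false
set_option synthInstance.maxHeartbeats 400000
set_option maxHeartbeats 800000

noncomputable section

namespace FA.ModField

theorem hasFibreData : HasFibreData := fun M q _ _ _ _ hqM A _ _ hπ0 harch _ =>
  nonempty_fibreData M q A _ IsLocalRing.residue_surjective hπ0 hqM harch

end FA.ModField
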