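import Fermat.Agent.ModField.Semistable.Chebotarev
import Fermat.Agent.JTorsion.Unramified
import Fermat.Agent.JTorsion.GoodRedAll
import Fermat.Agent.HeckeH1.EigenSystem
import Fermat.Agent.HeckeH1.Eigenvector
import Fermat.Prelude.Def_CuspForm_Newforms

/-!
# Good Hecke operators on two levels at once

The pairs of operators at two levels generated by almost all good primes contain a multiple of all
of them; an eigensystem not occurring at the lower level is seen on the kernel to that level.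
-/

set_option autoImplicit false
set_option linter.style.haveILetI false
set_option linter.unusedSectionVars false
set_option synthInstance.maxHeartbeats 200000
set_option maxHeartbeats 800000

noncomputable section

namespace FA.ModField

open FA.Level FA.JTorsion ModularCurve CongruenceSubgroup

local notation "Qb" => AlgebraicClosure ℚ

section Torsion

/-- An element congruent to a submodule modulo all powers of `p` has a multiple in it. -/
theorem exists_nsmul_mem_of_forall_pow {G : Type} [AddCommGroup G] [Module.Finite ℤ G]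
    (D : Submodule ℤ G) {p : ℕ} (hp : 1 < p) {x : G}
    (h : ∀ n : ℕ, ∃ y : G, x - p ^ n • y ∈ D) : ∃ m : ℕ, m ≠ 0 ∧ m • x ∈ D := by
  classical
  let T := Submodule.torsion ℤ (G ⧸ D)
  haveI : Module.Free ℤ ((G ⧸ D) ⧸ T) := Module.free_of_finite_type_torsion_free'
  let b := Module.Free.chooseBasis ℤ ((G ⧸ D) ⧸ T)
  have hx : T.mkQ (D.mkQ x) = 0 := b.ext_elem fun i => by
    rw [map_zero, Finsupp.zero_apply]
    by_contra hne
    obtain ⟨y, hy⟩ := h (b.repr (T.mkQ (D.mkQ x)) i).natAbs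
    have e : D.mkQ x = p ^ (b.repr (T.mkQ (D.mkQ x)) i).natAbs • D.mkQ y := by
      rw [← map_nsmul, Submodule.mkQ_apply, Submodule.mkQ_apply, Submodule.Quotient.eq]
      exact hy
    set c := b.repr (T.mkQ (D.mkQ x)) i with hc
    have hd : ((p ^ c.natAbs : ℕ) : ℤ) ∣ c := ⟨b.repr (T.mkQ (D.mkQ y)) i, by
      conv_lhs => rw [hc, e, map_nsmul, map_nsmul]
      rw [Finsupp.smul_apply, nsmul_eq_mul]⟩
    have h1 := Nat.le_of_dvd (Int.natAbs_pos.2 hne) (Int.natCast_dvd.1 hd)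
    exact absurd h1 (not_le.2 (Nat.lt_pow_self hp))
  obtain ⟨a, ha⟩ := (Submodule.mem_torsion_iff _).1 ((Submodule.Quotient.mk_eq_zero T).1 hx)
  refine ⟨(a : ℤ).natAbs, Int.natAbs_ne_zero.2 (nonZeroDivisors.ne_zero a.2), ?_⟩
  have h1 : (a : ℤ) • x ∈ D := by
    rw [← Submodule.Quotient.mk_eq_zero, Submodule.Quotient.mk_smul]
    exact ha
  rcases Int.natAbs_eq (a : ℤ) with he | he
  · rw [he, natCast_zsmul] at h1
    exact h1
  · rw [he, neg_smul, natCast_zsmul] at h1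
    simpa using D.neg_mem h1

end Torsion

section Pair

variable (p : ℕ) [Fact p.Prime]

/-- The relation of all Galois elements on two modules at once. -/
theorem exists_hecke_of_gal_pair {D R R' : Type} [CommRing D] [CommRing R] [CommRing R']
    {X X' : Type} [AddCommGroup X] [Module R X] [AddCommGroup X'] [Module R' X'] (n : ℕ)
    (f : D →+* R) (f' : D →+* R') (hX : ∀ x : X, p ^ n • x = 0) (hX' : ∀ x : X', p ^ n • x = 0)
    (a : GalQ →* Module.End R X) (a' : GalQ →* Module.End R' X')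
    (ha : ∃ L : IntermediateField ℚ Qb, FiniteDimensional ℚ L ∧
      ∀ σ : GalQ, (∀ a ∈ L, σ a = a) → a σ = 1)
    (ha' : ∃ L : IntermediateField ℚ Qb, FiniteDimensional ℚ L ∧
      ∀ σ : GalQ, (∀ a ∈ L, σ a = a) → a' σ = 1)
    (bad : Finset ℕ) (hp : p ∈ bad)
    (hfrob : ∀ ℓ : ℕ, ℓ.Prime → ℓ ∉ bad → ∀ B : ValuationSubring Qb, B.LiesOverPrime ℓ →
      ∀ τ : GalQ, B.IsFrobeniusAt τ ℓ → ∃ t : D,
        (∀ x, a τ x + ℓ • a τ⁻¹ x = f t • x) ∧ (∀ x, a' τ x + ℓ • a' τ⁻¹ x = f' t • x))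
    (τ : GalQ) :
    ∃ h : D,
      (∀ x, a τ x + ((cycMod p n τ : (ZMod (p ^ n))ˣ) : ZMod (p ^ n)).val • a τ⁻¹ x = f h • x) ∧
      ∀ x, a' τ x + ((cycMod p n τ : (ZMod (p ^ n))ˣ) : ZMod (p ^ n)).val • a' τ⁻¹ x =
        f' h • x := by
  letI : Module D X := Module.compHom _ f
  letI : Module D X' := Module.compHom _ f'
  let act : GalQ →* Module.End D (X × X') :=
    { toFun := fun σ =>
        { toFun := fun x => (a σ x.1, a' σ x.2)
          map_add' := fun x y => Prod.ext (map_add _ x.1 y.1) (map_add _ x.2 y.2)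
          map_smul' := fun d x => Prod.ext (map_smul (a σ) (f d) x.1) (map_smul (a' σ) (f' d) x.2) }
      map_one' := LinearMap.ext fun x => Prod.ext
        (show a 1 x.1 = x.1 by rw [map_one]; rfl) (show a' 1 x.2 = x.2 by rw [map_one]; rfl)
      map_mul' := fun σ τ => LinearMap.ext fun x => Prod.ext
        (show a (σ * τ) x.1 = _ by rw [map_mul]; rfl)
        (show a' (σ * τ) x.2 = _ by rw [map_mul]; rfl) }
  obtain ⟨L₁, hL₁, h₁⟩ := ha
  obtain ⟨L₂, hL₂, h₂⟩ := ha'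
  obtain ⟨h, hx, -, -⟩ := exists_hecke_of_gal p n (fun x => Prod.ext (hX x.1) (hX' x.2)) act
    (Q := PUnit) (Subsingleton.elim _ _) 1
    { toFun := fun _ => PUnit.unit, map_one' := rfl, map_mul' := fun _ _ => rfl,
      map_zero' := rfl, map_add' := fun _ _ => rfl }
    ⟨L₁ ⊔ L₂, IntermediateField.finiteDimensional_sup L₁ L₂, fun σ hσ => LinearMap.ext fun x =>
      Prod.ext
        (show a σ x.1 = x.1 by
          rw [h₁ σ fun b hb => hσ b ((le_sup_left : L₁ ≤ L₁ ⊔ L₂) hb)]; rfl)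
        (show a' σ x.2 = x.2 by
          rw [h₂ σ fun b hb => hσ b ((le_sup_right : L₂ ≤ L₁ ⊔ L₂) hb)]; rfl)⟩
    ⟨⊥, inferInstance, fun _ _ => Subsingleton.elim _ _⟩ bad hp
    (fun ℓ hℓ hb C hC σ hσ => by
      obtain ⟨t, ht, ht'⟩ := hfrob ℓ hℓ hb C hC σ hσ
      exact ⟨t, fun x => Prod.ext (ht x.1) (ht' x.2), Subsingleton.elim _ _, Subsingleton.elim _ _⟩) τ
  exact ⟨h, fun x => congrArg Prod.fst (hx (x, 0)), fun x => congrArg Prod.snd (hx (0, x))⟩

end Pair

/-- The full Hecke algebra of level `N`. -/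
abbrev HFull (N : ℕ) [NeZero N] : Type := CuspForm.heckeAlgebra N 2 (∅ : Set ℕ)

variable (N M : ℕ) [NeZero N] [NeZero M] (hMN : M ∣ N)

/-- The operator `T_ℓ` at both levels. -/
def pairT {ℓ : ℕ} (hℓ : ℓ.Prime) (hℓN : ¬ ℓ ∣ N) : HFull N × HFull M :=
  (CuspForm.heckeAlgebra.T (k := 2) hℓ hℓN (Set.notMem_empty _),
    CuspForm.heckeAlgebra.T (k := 2) hℓ (fun h => hℓN (h.trans hMN)) (Set.notMem_empty _))

/-- The ring generated by the good operators outside `B` at both levels. -/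
def pairRing (B : Finset ℕ) : Subring (HFull N × HFull M) :=
  Subring.closure {x | ∃ (ℓ : ℕ) (hℓ : ℓ.Prime) (hℓN : ¬ ℓ ∣ N), ℓ ∉ B ∧
    x = pairT N M hMN hℓ hℓN}

theorem pairT_mem {B : Finset ℕ} {ℓ : ℕ} (hℓ : ℓ.Prime) (hℓN : ¬ ℓ ∣ N) (hB : ℓ ∉ B) :
    pairT N M hMN hℓ hℓN ∈ pairRing N M hMN B :=
  Subring.subset_closure ⟨ℓ, hℓ, hℓN, hB, rfl⟩

theorem pairRing_anti {B B' : Finset ℕ} (h : B ⊆ B') :
    pairRing N M hMN B' ≤ pairRing N M hMN B :=
  Subring.closure_mono fun _ ⟨ℓ, hℓ, hℓN, hB, e⟩ => ⟨ℓ, hℓ, hℓN, fun hb => hB (h hb), e⟩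

/-- A good operator has a multiple among the pairs generated outside a finite set. -/
theorem exists_nsmul_pairT_mem (B : Finset ℕ) {ℓ₀ : ℕ} (hℓ₀ : ℓ₀.Prime) (hℓ₀N : ¬ ℓ₀ ∣ N) :
    ∃ m : ℕ, m ≠ 0 ∧ m • pairT N M hMN hℓ₀ hℓ₀N ∈ pairRing N M hMN B := by
  classical
  obtain ⟨alg⟩ := exists_algebra_qbar
  letI := alg
  obtain ⟨p, hp, hp0⟩ : ∃ p : ℕ, p.Prime ∧ p ≠ ℓ₀ := by
    rcases eq_or_ne ℓ₀ 2 with rfl | h
    · exact ⟨3, Nat.prime_three, by norm_num⟩
    · exact ⟨2, Nat.prime_two, h.symm⟩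
  haveI : Fact p.Prime := ⟨hp⟩
  haveI : NeZero p := ⟨hp.ne_zero⟩
  let bad : Finset ℕ := insert p (B ∪ N.primeFactors)
  let D : Subring (HFull N × HFull M) := pairRing N M hMN bad
  let fN : D →+* HFull N := (RingHom.fst _ _).comp D.subtype
  let fM : D →+* HFull M := (RingHom.snd _ _).comp D.subtype
  haveI : Module.Finite ℤ (HFull N) := FA.Period.moduleFinite_heckeAlgebra N 2 _
  haveI : Module.Finite ℤ (HFull M) := FA.Period.moduleFinite_heckeAlgebra M 2 _
  haveI := latMod_free N (∅ : Set ℕ)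
  haveI := latMod_free M (∅ : Set ℕ)
  obtain ⟨cN, hcN⟩ := exists_saturation p hp.ne_zero
    (fun _ h => latMod_faithful N (∅ : Set ℕ) h)
  obtain ⟨cM, hcM⟩ := exists_saturation p hp.ne_zero
    (fun _ h => latMod_faithful M (∅ : Set ℕ) h)
  suffices key : ∀ k, ∃ y, pairT N M hMN hℓ₀ hℓ₀N - p ^ k • y ∈ D by
    obtain ⟨m, hm, hmem⟩ :=
      exists_nsmul_mem_of_forall_pow D.toAddSubgroup.toIntSubmodule hp.one_lt key
    exact ⟨m, hm, pairRing_anti N M hMN
      (Finset.subset_union_left.trans (Finset.subset_insert _ _)) hmem⟩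
  intro k
  let n := k + cN + cM
  have hkill : ∀ (N : ℕ) [NeZero N] (x : ModN N (∅ : Set ℕ) (p ^ n)), p ^ n • x = 0 :=
    fun N _ x => toTors_injective N _ _ (by rw [map_nsmul, nsmul_toTors, map_zero])
  have hd : ∀ ℓ : ℕ, ℓ.Prime → ℓ ≠ p → ¬ ℓ ∣ p ^ n := fun ℓ hℓ hℓp h =>
    hℓp ((Nat.prime_dvd_prime_iff_eq hℓ hp).1 (hℓ.dvd_of_dvd_pow h))
  obtain ⟨C, hC⟩ := FA.Deform.exists_liesOverPrime hℓ₀
  obtain ⟨σ, hσ⟩ := FA.Deform.exists_isFrobeniusAt hℓ₀ hC
  obtain ⟨h, hxN, hxM⟩ := exists_hecke_of_gal_pair p n fN fM (hkill N) (hkill M)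
    (galMod N (∅ : Set ℕ) (p ^ n)) (galMod M (∅ : Set ℕ) (p ^ n))
    (exists_field_galMod N (∅ : Set ℕ) (p ^ n)) (exists_field_galMod M (∅ : Set ℕ) (p ^ n))
    bad (Finset.mem_insert_self _ _)
    (fun ℓ hℓ hℓbad C hC τ hτ => by
      have hℓbad' := hℓbad
      simp only [bad, Finset.mem_insert, Finset.mem_union, Nat.mem_primeFactors, not_or] at hℓbad'
      have hℓN : ¬ ℓ ∣ N := fun hd => hℓbad'.2.2 ⟨hℓ, hd, NeZero.ne N⟩
      exact ⟨⟨_, pairT_mem N M hMN hℓ hℓN hℓbad⟩,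
        fun x => galMod_frobenius N _ _ (goodRed_all N) hℓ hℓN (hd ℓ hℓ hℓbad'.1) hC
          (Set.notMem_empty _) hτ x,
        fun x => galMod_frobenius M _ _ (goodRed_all M) hℓ (fun h => hℓN (h.trans hMN))
          (hd ℓ hℓ hℓbad'.1) hC (Set.notMem_empty _) hτ x⟩) σ
  set t := pairT N M hMN hℓ₀ hℓ₀N with ht
  have heN : ∀ x, fN h • x = t.1 • x := fun x => by
    have e := hxN x
    rw [cycMod_frobenius p n hℓ₀ hp0.symm hC hσ, ZMod.val_natCast,
      nsmul_mod_of_kill (hkill N _), galMod_frobenius N _ _ (goodRed_all N) hℓ₀ hℓ₀N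
        (hd ℓ₀ hℓ₀ hp0.symm) hC (Set.notMem_empty _) hσ x] at e
    exact e.symm
  have heM : ∀ x, fM h • x = t.2 • x := fun x => by
    have e := hxM x
    rw [cycMod_frobenius p n hℓ₀ hp0.symm hC hσ, ZMod.val_natCast,
      nsmul_mod_of_kill (hkill M _), galMod_frobenius M _ _ (goodRed_all M) hℓ₀
        (fun h => hℓ₀N (h.trans hMN)) (hd ℓ₀ hℓ₀ hp0.symm) hC (Set.notMem_empty _) hσ x] at e
    exact e.symm
  have hN' : ∀ z : LatMod N (∅ : Set ℕ), ∃ y, (t.1 - fN h) • z = p ^ (k + cM + cN) • y := fun z => by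
    have e := heN (Submodule.Quotient.mk z)
    simp only [← Submodule.Quotient.mk_smul] at e
    rw [eq_comm, ← sub_eq_zero, ← Submodule.Quotient.mk_sub, ← sub_smul,
      Submodule.Quotient.mk_eq_zero, mem_nMultiples] at e
    obtain ⟨y, hy⟩ := e
    exact ⟨y, by rw [← hy, show n = k + cM + cN by omega]⟩
  have hM' : ∀ z : LatMod M (∅ : Set ℕ), ∃ y, (t.2 - fM h) • z = p ^ (k + cN + cM) • y := fun z => by
    have e := heM (Submodule.Quotient.mk z)
    simp only [← Submodule.Quotient.mk_smul] at e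
    rw [eq_comm, ← sub_eq_zero, ← Submodule.Quotient.mk_sub, ← sub_smul,
      Submodule.Quotient.mk_eq_zero, mem_nMultiples] at e
    obtain ⟨y, hy⟩ := e
    exact ⟨y, hy.symm⟩
  obtain ⟨y₁, hy₁⟩ := hcN (k + cM) _ hN'
  obtain ⟨y₂, hy₂⟩ := hcM (k + cN) _ hM'
  refine ⟨(p ^ cM • y₁, p ^ cN • y₂), ?_⟩
  have : t - p ^ k • (p ^ cM • y₁, p ^ cN • y₂) = (h : HFull N × HFull M) := by
    refine Prod.ext ?_ ?_
    · rw [Prod.fst_sub, Prod.smul_fst, ← mul_nsmul', ← pow_add, ← hy₁]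
      exact sub_sub_cancel _ _
    · rw [Prod.snd_sub, Prod.smul_snd, ← mul_nsmul', ← pow_add, ← hy₂]
      exact sub_sub_cancel _ _
  rw [this]
  exact h.2

/-- All pairs have multiples among the pairs generated outside a finite set. -/
theorem exists_nsmul_mem_pairRing (B : Finset ℕ) {x : HFull N × HFull M}
    (hx : x ∈ pairRing N M hMN ∅) : ∃ m : ℕ, m ≠ 0 ∧ m • x ∈ pairRing N M hMN B := by
  induction hx using Subring.closure_induction with
  | mem x hx =>
    obtain ⟨ℓ, hℓ, hℓN, -, rfl⟩ := hx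
    exact exists_nsmul_pairT_mem N M hMN B hℓ hℓN
  | zero => exact ⟨1, one_ne_zero, by rw [smul_zero]; exact zero_mem _⟩
  | one => exact ⟨1, one_ne_zero, by rw [one_smul]; exact one_mem _⟩
  | add x y _ _ hx hy =>
    obtain ⟨a, ha, hax⟩ := hx
    obtain ⟨b, hb, hby⟩ := hy
    refine ⟨a * b, mul_ne_zero ha hb, ?_⟩
    rw [smul_add, mul_nsmul x a b, mul_nsmul' y a b]
    exact add_mem (nsmul_mem hax b) (nsmul_mem hby a)
  | neg x _ hx =>
    obtain ⟨a, ha, hax⟩ := hx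
    exact ⟨a, ha, by rw [smul_neg]; exact neg_mem hax⟩
  | mul x y _ _ hx hy =>
    obtain ⟨a, ha, hax⟩ := hx
    obtain ⟨b, hb, hby⟩ := hy
    refine ⟨a * b, mul_ne_zero ha hb, ?_⟩
    rw [← smul_mul_smul_comm a x b y]
    exact mul_mem hax hby

/-- A character of an algebra of operators on `S₂(Γ₀(M))` has an eigenform. -/
theorem exists_form_of_char {A : Type} [CommRing A] (ι : A →+* HFull M) (χ : A →+* ℂ)
    (hker : ∀ a, ι a = 0 → χ a = 0) :
    ∃ f : CuspForm (Gamma0 M) 2, f ≠ 0 ∧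
      ∀ a, (ι a : Module.End ℂ (CuspForm (Gamma0 M) 2)) f = χ a • f := by
  classical
  obtain ⟨alg⟩ := exists_algebra_qbar
  letI := alg
  haveI := (cuspLat_free_finite (lvlGamma0 M)).1
  haveI := (cuspLat_free_finite (lvlGamma0 M)).2
  let b := Module.Free.chooseBasis ℤ (cuspLat (lvlGamma0 M))
  let R : A →ₐ[ℤ] Matrix _ _ ℤ :=
    ((LinearMap.toMatrixAlgEquiv b).toRingEquiv.toRingHom.comp
      ((latRep M (∅ : Set ℕ)).comp ι)).toIntAlgHom
  obtain ⟨w, hw0, hw⟩ := FA.HeckeH1.exists_common_eigenvector R χ.toIntAlgHom fun a ha =>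
    hker a (latRep_injective M (∅ : Set ℕ) ((LinearMap.toMatrixAlgEquiv b).injective
      ((show _ = R a from rfl).trans (ha.trans (by rw [map_zero, map_zero])))))
  choose pp hpp using fun i => exists_pairPeriod_eq M (toComplex_mem M (b i))
  let P : FormPair M := ∑ i, w i • pp i
  have hP : pairPeriod M P = ∑ i, w i • toComplex M (b i) := by
    rw [map_sum]
    exact Finset.sum_congr rfl fun i _ => by rw [map_smul, hpp]
  have hP0 : P ≠ 0 := fun h0 => hw0 (by
    refine FA.HeckeH1.eq_zero_of_sum_comp (Γ := Gamma0 M)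
      (fun i => ((b i : cuspLat (lvlGamma0 M)) : Additive (lvlGamma0 M).grp →+ ℤ))
      (b.linearIndependent.map' (cuspLat (lvlGamma0 M)).subtype (Submodule.ker_subtype _)) w ?_
    exact hP.symm.trans ((congrArg (pairPeriod M) h0).trans (map_zero _)))
  have heig : ∀ a, (ι a : Module.End ℂ (CuspForm (Gamma0 M) 2)).prodMap
      (ι a : Module.End ℂ (CuspForm (Gamma0 M) 2)) P = χ a • P := fun a => by
    refine pairPeriod_injective M ?_
    rw [map_smul, hP, map_sum (LinearMap.prodMap _ _)]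
    simp only [map_smul]
    rw [map_sum]
    have h1 : ∀ i, pairPeriod M ((ι a : Module.End ℂ (CuspForm (Gamma0 M) 2)).prodMap
        (ι a : Module.End ℂ (CuspForm (Gamma0 M) 2)) (pp i)) =
        ∑ j, ((R a j i : ℤ) : ℂ) • toComplex M (b j) := fun i => by
      rw [LinearMap.prodMap_apply, compat_latRep M (∅ : Set ℕ) (ι a) (b i) (pp i) (hpp i)]
      conv_lhs => rw [← b.sum_repr (latRep M (∅ : Set ℕ) (ι a) (b i))]
      rw [map_sum]
      refine Finset.sum_congr rfl fun j _ => ?_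
      rw [map_zsmul, Int.cast_smul_eq_zsmul,
        ← LinearMap.toMatrixAlgEquiv_apply b (latRep M (∅ : Set ℕ) (ι a)) j i]
      rfl
    simp only [map_smul, h1, Finset.smul_sum, smul_smul]
    rw [Finset.sum_comm]
    refine Finset.sum_congr rfl fun j _ => ?_
    rw [← Finset.sum_smul]
    congr 1
    have h2 := congrFun (hw a) j
    simp only [Matrix.mulVec, dotProduct, Matrix.map_apply, Pi.smul_apply, smul_eq_mul] at h2
    refine Eq.trans (Finset.sum_congr rfl fun i _ => mul_comm _ _) h2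
  rcases eq_or_ne P.1 0 with h1 | h1
  · exact ⟨P.2, fun h2 => hP0 (Prod.ext h1 h2), fun a => congrArg Prod.snd (heig a)⟩
  · exact ⟨P.1, h1, fun a => congrArg Prod.fst (heig a)⟩

/-- An eigensystem not occurring at level `M` does not vanish on the operators killed there. -/
theorem exists_pair_killer {g : CuspForm (Gamma0 N) 2} (hg : g.IsNormalizedEigenform)
    (hnew : ¬ CuspForm.GoodEigensystemOccursAt g M) (ψ : HFull N →+* ℂ)
    (hψ : ∀ (ℓ : ℕ) (hℓ : ℓ.Prime) (hℓN : ¬ ℓ ∣ N),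
      ψ (CuspForm.heckeAlgebra.T hℓ hℓN (Set.notMem_empty _)) = ModularFormClass.qCoeff g ℓ)
    (B : Finset ℕ) :
    ∃ t ∈ pairRing N M hMN B, t.2 = 0 ∧ ψ t.1 ≠ 0 := by
  classical
  by_contra hcon
  push Not at hcon
  let D := pairRing N M hMN ∅
  let ι : D →+* HFull M := (RingHom.snd _ _).comp D.subtype
  let χ : D →+* ℂ := ψ.comp ((RingHom.fst _ _).comp D.subtype)
  have hker : ∀ a : D, ι a = 0 → χ a = 0 := fun a ha => by
    obtain ⟨m, hm, hmem⟩ := exists_nsmul_mem_pairRing N M hMN B a.2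
    have h := hcon _ hmem (by
      rw [Prod.smul_snd]
      exact (congrArg (m • ·) ha).trans (smul_zero m))
    rw [Prod.smul_fst, map_nsmul, nsmul_eq_mul] at h
    exact (mul_eq_zero.1 h).resolve_left (Nat.cast_ne_zero.2 hm)
  obtain ⟨f₀, hf₀, hf₀e⟩ := exists_form_of_char M ι χ hker
  let W : Submodule ℂ (CuspForm (Gamma0 M) 2) :=
    { carrier := {f | ∀ a, (ι a : Module.End ℂ (CuspForm (Gamma0 M) 2)) f = χ a • f}
      zero_mem' := fun a => by simp
      add_mem' := fun hf hf' a => by rw [map_add, hf a, hf' a, smul_add]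
      smul_mem' := fun c f hf a => by rw [map_smul, hf a, smul_comm] }
  have hst : ∀ t : HFull M, ∀ v ∈ W, (t : Module.End ℂ (CuspForm (Gamma0 M) 2)) v ∈ W :=
    fun t v hv a => by
      rw [← Module.End.mul_apply, ← MulMemClass.coe_mul, mul_comm, MulMemClass.coe_mul,
        Module.End.mul_apply, hv a, map_smul]
  obtain ⟨g', hg'W, hg'⟩ := FA.HeckeH1.exists_normalized_mem W
    (fun h => hf₀ ((Submodule.mem_bot ℂ).1 (h ▸ (show f₀ ∈ W from hf₀e)))) hst
  refine hnew ⟨g', hg', fun ℓ hℓ hℓN => ?_⟩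
  have h1 := hg'W ⟨pairT N M hMN hℓ hℓN, pairT_mem N M hMN hℓ hℓN (Finset.notMem_empty _)⟩
  have h2 : (CuspForm.heckeTLin 2 hℓ (fun h => hℓN (h.trans hMN)) g' : CuspForm (Gamma0 M) 2) =
      ModularFormClass.qCoeff g ℓ • g' := by
    rw [← hψ ℓ hℓ hℓN]
    exact h1
  rw [heckeT_eigen hg' hℓ] at h2
  exact smul_left_injective ℂ hg'.ne_zero h2

end FA.ModField
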