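import Fermat.Agent.ModField.Semistable.Push
import Fermat.Agent.ModField.Semistable.PairHecke

/-!
# The pushforward to level `M` and the good Hecke operators

On torsion the pushforward intertwines the good operators of the two levels, so an eigensystem not
occurring at level `M` is seen on a part of the torsion killed by the pushforward.
-/

set_option autoImplicit false
set_option linter.style.haveILetI false
set_option linter.unusedSectionVars false
set_option synthInstance.maxHeartbeats 200000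
set_option maxHeartbeats 400000

noncomputable section

namespace FA.ModField

open ModularCurve AlgebraicCurve FA.Curve FA.CurveRed FA.Level FA.JTorsion CongruenceSubgroup

section Gen

variable {K F F' : Type} [Field K] [Field F] [Algebra K F] [Field F'] [Algebra K F']
  (φ : F →ₐ[K] F') (hφ : φ.toRingHom.IsIntegral) (hfin : FiniteAlong K φ)
  (hN : NormFormulaAlong K φ hfin)

/-- Pushforward on classes. -/
def pic0Push : Pic0 K F' →+ Pic0 K F :=
  QuotientAddGroup.map _ _
    (((Divisor.pushforwardAlong φ hφ).comp (Divisor.degZero (K := K) (F := F')).subtype).codRestrict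
      (Divisor.degZero (K := K) (F := F)) fun D => Divisor.pushforwardAlong_mem_degZero φ hφ D.2)
    (by
      rintro ⟨D, hD0⟩ hD
      simp only [AddSubgroup.mem_addSubgroupOf, AddSubgroup.mem_comap] at hD ⊢
      exact Divisor.isPrincipal_pushforwardAlong φ hφ hfin hN hD)

include hN in
theorem pushforward_principal_of_pic0Push {D : Divisor.degZero (K := K) (F := F')}
    (h : pic0Push φ hφ hfin hN (Pic0.mk D) = 0) :
    Divisor.pushforwardAlong φ hφ (D : Divisor K F') ∈ Divisor.principal := by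
  rw [Pic0.mk, pic0Push] at h
  have h1 := (QuotientAddGroup.eq_zero_iff _).1 h
  exact h1

theorem pic0Push_smul [HasPrincipalDivisors K F'] [IsAlgClosed K] (hF : IsFunctionField K F) (hF' : IsFunctionField K F')
    {g : SemilinearAut K F} {g' : SemilinearAut K F'}
    (h : SemilinearAut.IntertwinesAlong φ.toRingHom g g') (x : Pic0 K F') :
    pic0Push φ hφ hfin hN (g' • x) = g • pic0Push φ hφ hfin hN x := by
  obtain ⟨D, rfl⟩ := Pic0.mk_surjective x
  show pic0Push φ hφ hfin hN (g' • Pic0.mk D) = _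
  rw [SemilinearAut.pic0_smul_mk]
  refine Eq.trans ?_ (SemilinearAut.pic0_smul_mk g _).symm
  refine congrArg Pic0.mk (Subtype.ext ?_)
  rw [SemilinearAut.coe_degZeroSMulHom]
  show Divisor.pushforwardAlong φ hφ
    ((SemilinearAut.degZeroSMulHom g' D : Divisor.degZero) : Divisor K F') = _
  rw [SemilinearAut.coe_degZeroSMulHom, pushforwardAlong_smul hF hF' hφ h]
  rfl

end Gen

local notation "Qb" => AlgebraicClosure ℚ

variable (M q : ℕ) [NeZero M] [hq : Fact q.Prime] [hq0 : NeZero q] [Algebra Qb ℂ]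

/-- The pushforward to level `M` along the inclusion. -/
def pushLvl : JZero (M * q) →+ JZero M :=
  pic0Push (heckeAlphaBar Qb M q)
    (isIntegral_toRingHom (isFunctionField_level Qb M) (isFunctionField_level Qb (M * q))
      (heckeAlphaBar Qb M q))
    (finiteAlong (isFunctionField_level Qb M) (isFunctionField_level Qb (M * q))
      (heckeAlphaBar Qb M q))
    (normFormulaAlong (isFunctionField_level Qb M) (isFunctionField_level Qb (M * q))
      (heckeAlphaBar Qb M q) _)

theorem pushDown_principal {D : Divisor.degZero (K := Qb) (F := levelField (M * q) Qb)}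
    (h : pushLvl M q (Pic0.mk D) = 0) :
    pushDown M q Qb (D : Divisor Qb (levelField (M * q) Qb)) ∈ Divisor.principal :=
  pushforward_principal_of_pic0Push _ _ _ _ h

theorem pushLvl_gal (σ : GalQ) (x : JZero (M * q)) :
    pushLvl M q (σ • x) = σ • pushLvl M q x := by
  rw [galois_smul_pic0_def, galois_smul_pic0_def]
  haveI := FA.Curve.hasPrincipalDivisors (isFunctionField_level Qb (M * q))
  exact pic0Push_smul _ _ _ _ (isFunctionField_level Qb M) (isFunctionField_level Qb (M * q))
    (intertwines_alpha M q σ) x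

variable (p : ℕ) [hp : Fact p.Prime] [NeZero p]

/-- A pair of operators commutes with the pushforward on `p`-power torsion. -/
def IsPushCompat (t : HFull (M * q) × HFull M) : Prop :=
  ∀ (n : ℕ) (z : ModN (M * q) (∅ : Set ℕ) (p ^ n)) (w : ModN M (∅ : Set ℕ) (p ^ n)),
    pushLvl M q (toTors (M * q) (∅ : Set ℕ) (p ^ n) z) = toTors M (∅ : Set ℕ) (p ^ n) w →
    pushLvl M q (toTors (M * q) (∅ : Set ℕ) (p ^ n) (t.1 • z)) =
      toTors M (∅ : Set ℕ) (p ^ n) (t.2 • w)

theorem isPushCompat_pairT {ℓ : ℕ} (hℓ : ℓ.Prime) (hℓN : ¬ ℓ ∣ M * q) (hℓp : ℓ ≠ p) :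
    IsPushCompat M q p (pairT (M * q) M (dvd_mul_right M q) hℓ hℓN) := by
  intro n z w h
  obtain ⟨C, hC⟩ := FA.Deform.exists_liesOverPrime hℓ
  obtain ⟨σ, hσ⟩ := FA.Deform.exists_isFrobeniusAt hℓ hC
  have hd : ¬ ℓ ∣ p ^ n := fun h =>
    hℓp ((Nat.prime_dvd_prime_iff_eq hℓ hp.out).1 (hℓ.dvd_of_dvd_pow h))
  have e1 := galMod_frobenius (M * q) (∅ : Set ℕ) (p ^ n) (goodRed_all (M * q)) hℓ hℓN hd hC
    (Set.notMem_empty _) hσ z
  have e2 := galMod_frobenius M (∅ : Set ℕ) (p ^ n) (goodRed_all M) hℓ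
    (fun h => hℓN (h.mul_right q)) hd hC (Set.notMem_empty _) hσ w
  show pushLvl M q (toTors (M * q) (∅ : Set ℕ) (p ^ n)
      (CuspForm.heckeAlgebra.T hℓ hℓN (Set.notMem_empty _) • z)) =
    toTors M (∅ : Set ℕ) (p ^ n) (CuspForm.heckeAlgebra.T hℓ _ (Set.notMem_empty _) • w)
  rw [← e1, ← e2, map_add, map_add, map_add, map_nsmul, map_nsmul, map_nsmul, toTors_galMod,
    toTors_galMod, toTors_galMod, toTors_galMod, pushLvl_gal, pushLvl_gal, h]

theorem isPushCompat_of_mem {B : Finset ℕ} (hpB : p ∈ B) {t : HFull (M * q) × HFull M}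
    (ht : t ∈ pairRing (M * q) M (dvd_mul_right M q) B) : IsPushCompat M q p t := by
  induction ht using Subring.closure_induction with
  | mem x hx =>
    obtain ⟨ℓ, hℓ, hℓN, hB, rfl⟩ := hx
    exact isPushCompat_pairT M q p hℓ hℓN fun h => hB (h ▸ hpB)
  | zero =>
    intro n z w _
    rw [Prod.fst_zero, Prod.snd_zero, zero_smul, zero_smul, map_zero, map_zero, map_zero]
  | one =>
    intro n z w h
    rwa [Prod.fst_one, Prod.snd_one, one_smul, one_smul]
  | add x y _ _ hx hy =>
    intro n z w h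
    rw [Prod.fst_add, Prod.snd_add, add_smul, add_smul, map_add, map_add, map_add, hx n z w h,
      hy n z w h]
  | neg x _ hx =>
    intro n z w h
    rw [Prod.fst_neg, Prod.snd_neg, neg_smul, neg_smul, map_neg, map_neg, map_neg, hx n z w h]
  | mul x y _ _ hx hy =>
    intro n z w h
    rw [Prod.fst_mul, Prod.snd_mul, mul_smul, mul_smul]
    exact hx n _ _ (hy n z w h)

theorem exists_toTors_pushLvl (n : ℕ) (z : ModN (M * q) (∅ : Set ℕ) (p ^ n)) :
    ∃ w, toTors M (∅ : Set ℕ) (p ^ n) w = pushLvl M q (toTors (M * q) (∅ : Set ℕ) (p ^ n) z) := by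
  obtain ⟨x, rfl⟩ := Submodule.Quotient.mk_surjective _ z
  refine exists_toTors_eq M _ _ (mem_liftedTors_iff.2
    ⟨pushLvl M q (latTors (lvlGamma0 (M * q)) Qb (liftExp (lvlGamma0 M) * p ^ n)
      (LatMod.val (M * q) _ x)).1, ?_, ?_⟩)
  · set u := latTors (lvlGamma0 (M * q)) Qb (liftExp (lvlGamma0 M) * p ^ n)
      (LatMod.val (M * q) (∅ : Set ℕ) x)
    show pushLvl M q u.1 ∈ Pic0.torsion Qb (levelField M Qb) _
    rw [Pic0.mem_torsion]
    exact (map_zsmul (pushLvl M q) _ u.1).symm.trans
      ((congrArg (pushLvl M q) (Pic0.mem_torsion.1 u.2)).trans (map_zero _))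
  · exact (map_nsmul (pushLvl M q) _ _).symm.trans
      (congrArg (pushLvl M q) (nsmul_latTors (LatMod.val (M * q) (∅ : Set ℕ) x)))

/-- The good operators not seen at level `M` land in the kernel of the pushforward. -/
theorem pushLvl_killer {B : Finset ℕ} (hpB : p ∈ B) {t : HFull (M * q) × HFull M}
    (ht : t ∈ pairRing (M * q) M (dvd_mul_right M q) B) (h2 : t.2 = 0) (n : ℕ)
    (z : ModN (M * q) (∅ : Set ℕ) (p ^ n)) :
    pushLvl M q (toTors (M * q) (∅ : Set ℕ) (p ^ n) (t.1 • z)) = 0 := by
  obtain ⟨w, hw⟩ := exists_toTors_pushLvl M q p n z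
  rw [isPushCompat_of_mem M q p hpB ht n z w hw.symm, h2, zero_smul, map_zero]

end FA.ModField
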