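import Fermat.Agent.ModField.Semistable.SecondOrder

/-!
# The toric datum is injective on torsion prime to the residue characteristic
-/

set_option autoImplicit false
set_option linter.style.haveILetI false
set_option linter.unusedSectionVars false

noncomputable section

namespace FA.ModField.SemiFibre

open AlgebraicCurve FA.Curve FA.CurveRed

variable {K F k : Type*} [Field K] [Field F] [Algebra K F] [Field k] {ι : Type*} [Fintype ι]
  {Fk : ι → Type*} [∀ i, Field (Fk i)] [∀ i, Algebra k (Fk i)] {A : ValuationSubring K}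
  {β σ : Type*} [Fintype β] [Fintype σ] {X : SemiFibre K F k Fk A β σ}

variable [IsAlgClosed K] [IsAlgClosed k] [Nonempty ι] (hF : IsFunctionField K F)
  (hk : ∀ i, IsFunctionField k (Fk i)) {n : ℕ}

include hF hk

/-- A class with trivial datum is given by a twist glued by `1`. -/
theorem exists_glued_twist (hn : n ≠ 0) {x : X.toricKer hF n}
    (h0 : X.toricHom hF hk hn x = 0) {D : Divisor.degZero (K := K) (F := F)} {g : F}
    (hD : Pic0.mk D = ((x : Pic0.torsion K F n) : Pic0 K F)) (hg : g ≠ 0)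
    (hgD : ∀ P, (n : ℤ) * (D : Divisor K F) P = P.ord g) :
    ∃ t : X.Twist n, t.D = D ∧ t.IsDatum fun _ => 1 := by
  obtain ⟨t, rfl⟩ := exists_twist hF hn x.2 hD hg hgD
  obtain ⟨u, hu⟩ := t.exists_datum hF hk hn
  rw [toricHom_mk hF hk hn x t hD, hu.toric_eq hF hk hn, cls_eq_zero_iff hu.1] at h0
  obtain ⟨s, c, hsc⟩ := h0
  have hcn : ∀ i j, (c i : k) ^ n * ((c j : k) ^ n)⁻¹ = 1 := fun i j => by
    have h := X.connected (fun i => (c i : k) ^ n) (fun b b' h => by
      have h1 := hu.pow_eq hF hk hn h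
      rw [hsc, hsc, h, mul_pow, mul_pow] at h1
      exact mul_left_cancel₀ (pow_ne_zero n (s (X.pt b')).ne_zero) h1) i j
    rw [show (c i : k) ^ n = (c j : k) ^ n from h, mul_inv_cancel₀ (pow_ne_zero n (c j).ne_zero)]
  set i₀ := Classical.arbitrary ι
  obtain ⟨a, ha⟩ := X.π_surjective (((c i₀ : k) ^ n)⁻¹)
  have ha0 : (a : K) ≠ 0 := fun h => pow_ne_zero n (c i₀).ne_zero (inv_eq_zero.1 (by
    rw [← ha, show a = 0 from Subtype.ext h, map_zero]))
  refine ⟨⟨t.D, algebraMap K F a * t.g, mul_ne_zero (by simpa using ha0) t.g_ne, fun P => by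
      rw [t.div_eq, P.ord_mul (by simpa using ha0) t.g_ne, place_ord_algebraMap, zero_add],
    t.c, t.c_ne, fun i => algebraMap k (Fk i) (c i : k)⁻¹ * t.h i,
    fun i => mul_ne_zero (by simp) (t.h_ne i), fun i => ?_⟩, rfl, fun _ => one_ne_zero, ?_⟩
  · have h := (X.red_const i a).mul (t.red i)
    rw [mul_left_comm, ha] at h
    rw [inv_pow] at h
    rw [mul_pow, ← map_pow, inv_pow, inv_pow]
    have he : ((c i : k) ^ n)⁻¹ = ((c i₀ : k) ^ n)⁻¹ :=
      congrArg Inv.inv (eq_of_div_eq_one (by rw [div_eq_mul_inv]; exact hcn i i₀))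
    rwa [he]
  · intro E hE H ⟨f, hf, hH⟩
    have hmem : (fun i => algebraMap k (Fk i) (c i : k) * H i) ∈ t.space E := by
      refine ⟨f, hf, fun i => ?_⟩
      obtain ⟨r, hr, e⟩ := hH i
      refine ⟨r, hr, ?_⟩
      show algebraMap k (Fk i) (c i : k) * H i = _
      rw [e]
      show _ * (r * (algebraMap k (Fk i) (c i : k)⁻¹ * t.h i)) = _
      rw [map_inv₀]
      field_simp
    obtain ⟨v, hv⟩ := hu.2 E hE _ hmem
    refine ⟨fun z => v z * (s z : k), fun b => ?_⟩
    have h := (hv b).smul ((c (X.br b).1 : k)⁻¹)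
    rw [← mul_assoc, ← map_mul, inv_mul_cancel₀ (c _).ne_zero, map_one, one_mul, hsc b] at h
    convert h using 1
    field_simp

/-- The divisors of a glued twist, with one point in each disc. -/
theorem exists_disc_divisor (hn : n ≠ 0) {t : X.Twist n} (ht : t.IsDatum fun _ => 1)
    {S : Finset (Σ i, Place k (Fk i))} (hS : ∀ x ∈ S, ∀ b, X.br b ≠ x) (hcard : S.card = genus K F)
    (hell : ∀ H ∈ X.gluedSpace (compDiv S), ∃ a, ∀ i, H i = algebraMap k (Fk i) a)
    {P₀ : S → Place K F} (hP₀ : ∀ x, X.spl (P₀ x) = some x.1)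
    (hclean : X.Clean (∑ x, Finsupp.single (P₀ x) 1))
    (hpush : X.push (∑ x, Finsupp.single (P₀ x) 1) = compDiv S) :
    ∃ (P : S → Place K F) (f : F), (∀ x, X.spl (P x) = some x.1) ∧ f ≠ 0 ∧
      (∑ x, Finsupp.single (P x) (1 : ℤ)) =
        (∑ x, Finsupp.single (P₀ x) (1 : ℤ)) + (t.D : Divisor K F) + divOf hF f := by
  classical
  set E₀ := ∑ x : S, Finsupp.single (P₀ x) (1 : ℤ) with hE₀
  have hdeg : Divisor.degree E₀ = genus K F := by simp [hE₀, hF.deg_eq_one, hcard]
  have hE₀pos : 0 ≤ E₀ := Finset.sum_nonneg fun x _ => Finsupp.single_nonneg.2 zero_le_one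
  have hpos : 0 < ell ((t.D : Divisor K F) + E₀) := by
    have := riemann_inequality hF ((t.D : Divisor K F) + E₀)
    have hD : Divisor.degree (t.D : Divisor K F) = 0 := t.D.2
    rw [map_add, hD] at this
    omega
  obtain ⟨f, hfmem, hf0⟩ := exists_ne_zero_of_ell_pos hpos
  obtain ⟨a, r, ha, hr, i₁, hi₁⟩ := X.exists_joint_scale
    (f := fun i => algebraMap K F (t.c i) * f) fun i => mul_ne_zero (by simpa using t.c_ne i) hf0
  set f' := algebraMap K F a * f with hf'def
  have hf'0 : f' ≠ 0 := mul_ne_zero (by simpa using ha) hf0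
  have hf'mem : f' ∈ riemannRochSpace ((t.D : Divisor K F) + E₀) := by
    rw [hf'def, ← Algebra.smul_def]; exact Submodule.smul_mem _ _ hfmem
  set H : ∀ i, Fk i := fun i => r i * t.h i
  have hH : t.TRed f' H := fun i => ⟨r i, by rw [hf'def, mul_left_comm]; exact hr i, rfl⟩
  obtain ⟨v, hv⟩ := ht.2 E₀ hclean H ⟨f', hf'mem, hH⟩
  obtain ⟨b, hb⟩ := hell H ⟨fun i => by rw [← hpush]; exact hH.mem hF t hn hclean hf'mem i,
    fun b => v (X.pt b), X.mem_gluedVals.2 ⟨v, fun _ => rfl⟩, fun b => by simpa using hv b⟩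
  have hb0 : b ≠ 0 := fun h => mul_ne_zero hi₁ (t.h_ne i₁) (by
    show H i₁ = 0
    rw [hb, h, map_zero])
  set φ := f' ^ n * t.g with hφdef
  have hφred : ∀ i, (X.C i).Red φ (algebraMap k (Fk i) (b ^ n)) := fun i => by
    rw [map_pow, ← hb i]; exact hH.pow t i
  have hφ0 : φ ≠ 0 := mul_ne_zero (pow_ne_zero n hf'0) t.g_ne
  set E := E₀ + (t.D : Divisor K F) + divOf hF f' with hEdef
  have hEφ : ∀ Y, (n : ℤ) * E Y = (n : ℤ) * E₀ Y + divOf hF φ Y := fun Y => by
    rw [hEdef, divOf_apply, hφdef, Y.ord_mul (pow_ne_zero n hf'0) t.g_ne, place_ord_pow,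
      Finsupp.add_apply, Finsupp.add_apply, divOf_apply, ← t.div_eq Y]
    ring
  have hEpos : ∀ Y, 0 ≤ E Y := fun Y => by
    have := (atLeast_iff hf'0).1 (FA.Curve.mem_riemannRochSpace.1 hf'mem Y)
    rw [Finsupp.add_apply] at this
    rw [hEdef, Finsupp.add_apply, Finsupp.add_apply, divOf_apply]
    omega
  have hn' : (0 : ℤ) < n := by exact_mod_cast Nat.pos_of_ne_zero hn
  have hpushφ : ∀ i, X.push (divOf hF φ) i = 0 := fun i => Finsupp.ext fun Q => by
    by_cases hb' : ∀ b', X.br b' ≠ ⟨i, Q⟩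
    · rw [X.push_divOf hF (hφred i) (by simpa using pow_ne_zero n hb0) hb', place_ord_algebraMap,
        Finsupp.zero_apply]
    · push Not at hb'
      obtain ⟨b', hb'⟩ := hb'
      have := X.avoids_push (divOf hF φ) b'
      rwa [hb'] at this
  -- no point in a tube
  have htube : ∀ Y, X.spl Y = none → E Y = 0 := by
    set Φ₁ := (divOf hF φ).filter fun Y => X.spl Y = none
    set Φ₂ := (divOf hF φ).filter fun Y => ¬ X.spl Y = none
    have hsum : Φ₁ + Φ₂ = divOf hF φ := Finsupp.filter_pos_add_filter_neg _ _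
    have h2 : X.Clean Φ₂ := fun Y hY => Finsupp.filter_apply_neg _ _ (fun h => h hY)
    have h1 : ∀ i, X.push Φ₁ i = 0 := fun i => Finsupp.ext fun Q => X.push_eq_zero fun Y hY =>
      Finsupp.filter_apply_neg _ _ (by rw [hY]; simp)
    have hd2 : Divisor.degree Φ₂ = 0 := by
      rw [← X.degree_push hF hk Φ₂ h2]
      refine Finset.sum_eq_zero fun i _ => ?_
      have := hpushφ i
      rw [← hsum, push_add, h1, zero_add] at this
      rw [this, map_zero]
    have hd1 : Divisor.degree Φ₁ = 0 := by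
      have := degree_divOf hF φ
      rw [← hsum, map_add, hd2, add_zero] at this
      exact this
    have hΦ : ∀ Y, X.spl Y = none → Φ₁ Y = divOf hF φ Y := fun Y hY =>
      Finsupp.filter_apply_pos (fun Y => X.spl Y = none) _ hY
    have hΦ' : ∀ Y, ¬ X.spl Y = none → Φ₁ Y = 0 := fun Y hY =>
      Finsupp.filter_apply_neg (fun Y => X.spl Y = none) _ hY
    have hnn : ∀ Y, 0 ≤ Φ₁ Y := fun Y => by
      by_cases hY : X.spl Y = none
      · rw [hΦ Y hY]
        have h3 := hEφ Y
        have := mul_nonneg hn'.le (hEpos Y)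
        rw [hclean Y hY, mul_zero, zero_add] at h3
        omega
      · rw [hΦ' Y hY]
    intro Y hY
    have h3 := hEφ Y
    rw [hclean Y hY, mul_zero, zero_add] at h3
    have h4 : Φ₁ Y = 0 := by
      rw [degree_eq_sum hF, Finsupp.sum, Finset.sum_eq_zero_iff_of_nonneg fun Z _ => hnn Z] at hd1
      by_contra hne
      exact hne (hd1 Y (Finsupp.mem_support_iff.2 hne))
    rw [hΦ Y hY] at h4
    rw [h4] at h3
    exact (mul_eq_zero.1 h3).resolve_left hn'.ne'
  have hpushE : X.push E = compDiv S := by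
    refine funext fun i => Finsupp.ext fun Q => mul_left_cancel₀ hn'.ne' ?_
    have h := congrArg (fun D : Divisor K F => X.push D i Q)
      (show n • E = n • E₀ + divOf hF φ from Finsupp.ext fun Y => by
        simpa [nsmul_eq_mul] using hEφ Y)
    simpa only [push_add, push_nsmul, hpushφ, add_zero, nsmul_eq_mul, Finsupp.smul_apply, hpush]
      using h
  -- one place in each disc
  have hone : ∀ x : S, ∃ P, X.spl P = some x.1 ∧ E P = 1 ∧
      ∀ P', X.spl P' = some x.1 → P' ≠ P → E P' = 0 := by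
    intro x
    have hsum : ∑ P ∈ E.support.filter (fun P => X.spl P = some x.1), E P = 1 := by
      rw [Finset.sum_filter, ← mapDomain_spl X E (some x.1)]
      have := congrFun hpushE x.1.1
      have := DFunLike.congr_fun this x.1.2
      rw [push_apply, compDiv_apply, if_pos x.2] at this
      exact this
    obtain ⟨P, hP, -⟩ := Finset.exists_ne_zero_of_sum_ne_zero (hsum.symm ▸ one_ne_zero)
    have hne : E P ≠ 0 := Finsupp.mem_support_iff.1 (Finset.mem_filter.1 hP).1
    rw [Finset.mem_filter] at hP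
    refine ⟨P, hP.2, ?_, fun P' hP' hne' => ?_⟩
    · have h1 := Finset.single_le_sum (f := fun P => E P)
        (s := E.support.filter (fun P => X.spl P = some x.1)) (fun Y _ => hEpos Y)
        (Finset.mem_filter.2 hP)
      rw [hsum] at h1
      have := hEpos P
      omega
    · by_contra h
      have h2 := Finset.sum_le_sum_of_subset_of_nonneg (f := fun P => E P)
        (show ({P, P'} : Finset _) ⊆ E.support.filter (fun P => X.spl P = some x.1) by
          intro z hz
          rcases Finset.mem_insert.1 hz with rfl | hz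
          · exact Finset.mem_filter.2 hP
          · rw [Finset.mem_singleton.1 hz]
            exact Finset.mem_filter.2 ⟨Finsupp.mem_support_iff.2 h, hP'⟩)
        (fun Y _ _ => hEpos Y)
      rw [Finset.sum_pair (Ne.symm hne'), hsum] at h2
      have := hEpos P
      have := hEpos P'
      omega
  choose P hP hP1 hP0 using hone
  refine ⟨P, f', hP, hf'0, Finsupp.ext fun Y => ?_⟩
  rw [← hEdef]
  by_cases hY : ∃ x : S, X.spl Y = some x.1
  · obtain ⟨x, hx⟩ := hY
    rw [X.sum_single_over Subtype.val_injective hP hx]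
    split_ifs with h
    · rw [h, hP1]
    · rw [hP0 x Y hx h]
  · push Not at hY
    rw [X.sum_single_off hP hY]
    rcases hY' : X.spl Y with - | y
    · exact (htube Y hY').symm
    · have hy : (⟨y.1, y.2⟩ : Σ i, Place k (Fk i)) ∉ S := fun h => hY ⟨y, h⟩ hY'
      have hzero : Finsupp.mapDomain X.spl E (some y) = 0 := by
        have := DFunLike.congr_fun (congrFun hpushE y.1) y.2
        rw [push_apply, compDiv_apply, if_neg hy] at this
        exact this
      rw [mapDomain_spl, ← Finset.sum_filter, Finset.sum_eq_zero_iff_of_nonneg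
        fun Z _ => hEpos Z] at hzero
      by_contra hne
      exact Ne.symm hne (hzero Y (Finset.mem_filter.2
        ⟨Finsupp.mem_support_iff.2 (Ne.symm hne), hY'⟩))

omit hF hk [IsAlgClosed K] [IsAlgClosed k] [Nonempty ι] in
theorem pic0_mk_nsmul (D : Divisor.degZero (K := K) (F := F)) (m : ℕ) :
    Pic0.mk (m • D) = m • Pic0.mk D := by
  induction m with
  | zero => rw [zero_nsmul, zero_nsmul]; rfl
  | succ m ih => rw [succ_nsmul, succ_nsmul, ← ih, ← Pic0.mk_add]

/-- The toric datum is injective on torsion prime to the residue characteristic. -/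
theorem toricHom_injective (hn : n ≠ 0) (hn1 : A.valuation (n : K) = 1) :
    Function.Injective (X.toricHom hF hk hn) := by
  classical
  rw [injective_iff_map_eq_zero]
  intro x hx0
  obtain ⟨D, g, hD, hg, hgD⟩ := exists_torsion_fn n (x : Pic0.torsion K F n)
  obtain ⟨S, hS, hScard, hell⟩ := X.exists_nonspecial_glued hF hk
  obtain ⟨P₀, hP₀, hclean, hpush⟩ := X.exists_over hk hS
  set E₀ : Divisor K F := ∑ Q : S, Finsupp.single (P₀ Q) (1 : ℤ) with hE₀
  -- the divisors in linear progression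
  have hexists : ∀ m : ℕ, ∃ (P : S → Place K F) (f : F), (∀ Q, X.spl (P Q) = some Q.1) ∧ f ≠ 0 ∧
      (∑ Q, Finsupp.single (P Q) (1 : ℤ)) = E₀ + m • (D : Divisor K F) + divOf hF f := by
    intro m
    have hmx : X.toricHom hF hk hn (m • x) = 0 := by
      induction m with
      | zero => rw [zero_nsmul, map_zero]
      | succ j ih =>
        rw [succ_nsmul, map_add, ih, hx0]
        exact zero_add (0 : X.ToricTarget)
    obtain ⟨t, htD, ht⟩ := exists_glued_twist hF hk hn (x := m • x) hmx (D := m • D) (g := g ^ m)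
      (by rw [pic0_mk_nsmul, hD]; rfl) (pow_ne_zero m hg) fun P => by
        rw [place_ord_pow, ← hgD P, AddSubgroup.coe_nsmul, Finsupp.smul_apply, nsmul_eq_mul]
        ring
    obtain ⟨P, f, hP, hf, he⟩ := exists_disc_divisor hF hk hn ht hS hScard hell hP₀ hclean hpush
    refine ⟨P, f, hP, hf, ?_⟩
    rw [htD, AddSubgroup.coe_nsmul] at he
    exact he
  choose P₁ f₁ hP₁ hf₁ hE₁ using hexists
  set P : ℕ → S → Place K F := fun m => if m = 0 ∨ m = n then P₀ else P₁ m with hPdef
  have hPspl : ∀ m Q, X.spl (P m Q) = some Q.1 := fun m Q => by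
    simp only [hPdef]; split_ifs
    · exact hP₀ Q
    · exact hP₁ m Q
  have hEP : ∀ m, m ≤ n → ∃ f : F, f ≠ 0 ∧
      (∑ Q, Finsupp.single (P m Q) (1 : ℤ)) = E₀ + m • (D : Divisor K F) + divOf hF f := by
    intro m _
    by_cases hm : m = 0 ∨ m = n
    · rcases hm with rfl | rfl
      · refine ⟨1, one_ne_zero, Finsupp.ext fun Y => ?_⟩
        simp [hPdef, hE₀, Place.ord_one]
      · refine ⟨g⁻¹, inv_ne_zero hg, Finsupp.ext fun Y => ?_⟩
        have := hgD Y
        simp only [hPdef, or_true, if_true, hE₀, Finsupp.add_apply, divOf_apply, Place.ord_inv,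
          Finsupp.smul_apply, nsmul_eq_mul, ← this]
        ring
    · exact ⟨f₁ m, hf₁ m, by simp only [hPdef, if_neg hm]; exact hE₁ m⟩
  suffices hD0 : ∃ f : F, f ≠ 0 ∧ ∀ Y : Place K F, (D : Divisor K F) Y = Y.ord f by
    refine Subtype.ext (Subtype.ext ?_)
    rw [← hD, AddSubgroup.coe_zero, AddSubgroup.coe_zero, Pic0.mk, QuotientAddGroup.eq_zero_iff,
      AddSubgroup.mem_addSubgroupOf]
    exact hD0
  rcases isEmpty_or_nonempty S with hempty | hne
  · obtain ⟨f, hf0, hfe⟩ := hEP 1 (Nat.pos_of_ne_zero hn)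
    refine ⟨f⁻¹, inv_ne_zero hf0, fun Y => ?_⟩
    have := congrArg (fun E : Divisor K F => E Y) hfe
    simp [hE₀] at this
    rw [Y.ord_inv]; omega
  choose t ht using fun Q : S => X.exists_coord hF hk Q.1 (hS Q.1 Q.2)
  choose α hα hαlt _ _ using fun m Q =>
    (ht Q).exists_value X hF (hS Q.1 Q.2) (hPspl m Q)
  set δ : ℕ → S → K := fun m Q => α (m + 1) Q - α m Q
  haveI : Nonempty (Fin n) := ⟨⟨0, Nat.pos_of_ne_zero hn⟩⟩
  obtain ⟨⟨n₀, Q₀⟩, -, hmax⟩ := Finset.exists_max_image (Finset.univ : Finset (Fin n × S))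
    (fun p => A.valuation (δ p.1 p.2)) Finset.univ_nonempty
  set ε := A.valuation (δ n₀ Q₀)
  have hε : ε < 1 := by
    show A.valuation (α ((n₀ : ℕ) + 1) Q₀ - α (n₀ : ℕ) Q₀) < 1
    exact lt_of_le_of_lt (Valuation.map_sub _ _ _) (max_lt (hαlt _ _) (hαlt _ _))
  have hδle : ∀ m < n, ∀ Q, A.valuation (δ m Q) ≤ ε := fun m hm Q =>
    hmax (⟨m, hm⟩, Q) (Finset.mem_univ _)
  have hrec : ∀ m, m + 1 < n → ∀ Q, A.valuation (δ (m + 1) Q - δ m Q) ≤ ε * ε := by
    intro m hm Q
    obtain ⟨fa, hfa, ea⟩ := hEP (m + 1) hm.le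
    obtain ⟨fp, hfp, ep⟩ := hEP (m + 2) hm
    obtain ⟨fq, hfq, eq'⟩ := hEP m (by omega)
    have hne0 : fp * fq * (fa * fa)⁻¹ ≠ 0 :=
      mul_ne_zero (mul_ne_zero hfp hfq) (inv_ne_zero (mul_ne_zero hfa hfa))
    have hdiv : divOf hF (fp * fq * (fa * fa)⁻¹) = (∑ i, Finsupp.single (P (m + 2) i) (1 : ℤ)) +
        (∑ i, Finsupp.single (P m i) (1 : ℤ)) - (∑ i, Finsupp.single (P (m + 1) i) (1 : ℤ)) -
        ∑ i, Finsupp.single (P (m + 1) i) (1 : ℤ) := by
      rw [ea, ep, eq']
      ext Y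
      simp only [divOf_apply, Finsupp.sub_apply, Finsupp.add_apply, Finsupp.smul_apply,
        nsmul_eq_mul]
      rw [Y.ord_mul (mul_ne_zero hfp hfq) (inv_ne_zero (mul_ne_zero hfa hfa)), Y.ord_inv,
        Y.ord_mul hfp hfq, Y.ord_mul hfa hfa]
      push_cast; ring
    have h := X.second_order hF hk (Q := fun Q : S => Q.1) Subtype.val_injective
      (fun Q => hS Q.1 Q.2) (S := S) (fun y => ⟨fun h => ⟨⟨y, h⟩, rfl⟩, by rintro ⟨Q, rfl⟩; exact Q.2⟩)
      hell ht (hPspl (m + 1)) (hPspl (m + 2)) (hPspl m)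
      (hα (m + 1)) (hα (m + 2)) (hα m) hne0 hdiv (γ := ε)
      (fun i => hδle (m + 1) hm i)
      (fun i => by rw [← Valuation.map_neg, neg_sub]; exact hδle m (by omega) i) Q
    have he : α (m + 2) Q + α m Q - 2 * α (m + 1) Q = δ (m + 1) Q - δ m Q := by
      simp only [δ]; ring
    rwa [he] at h
  have hclose : ∀ m, m < n → ∀ Q, A.valuation (δ m Q - δ 0 Q) ≤ ε * ε := by
    intro m
    induction m with
    | zero => intro _ Q; simp
    | succ m ih =>
      intro hm Q
      have := Valuation.map_add_le A.valuation (hrec m hm Q) (ih (by omega) Q)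
      rwa [sub_add_sub_cancel] at this
  have htel : ∀ Q, ∑ m ∈ Finset.range n, δ m Q = 0 := fun Q => by
    simp only [δ]
    rw [Finset.sum_range_sub (fun m => α m Q), sub_eq_zero]
    exact ((hα n Q).unique (by
      have := hα 0 Q
      rwa [show P 0 Q = P n Q by simp [hPdef]] at this))
  have hsmall : ∀ m < n, ∀ Q, A.valuation (δ m Q) ≤ ε * ε := by
    have h0 : ∀ Q, A.valuation (δ 0 Q) ≤ ε * ε := fun Q => by
      have hs : (n : K) * δ 0 Q = -∑ m ∈ Finset.range n, (δ m Q - δ 0 Q) := by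
        rw [Finset.sum_sub_distrib, htel Q, Finset.sum_const, Finset.card_range, nsmul_eq_mul]
        ring
      have h1 : A.valuation ((n : K) * δ 0 Q) ≤ ε * ε := by
        rw [hs, Valuation.map_neg]
        exact Valuation.map_sum_le _ fun m hm => hclose m (Finset.mem_range.1 hm) Q
      rwa [map_mul, hn1, one_mul] at h1
    intro m hm Q
    have := Valuation.map_add_le A.valuation (hclose m hm Q) (h0 Q)
    rwa [sub_add_cancel] at this
  have hεzero : ε = 0 := by
    by_contra h
    have h1 : ε ≤ ε * ε := hsmall n₀ n₀.2 Q₀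
    have h2 : ε * ε < ε * 1 := mul_lt_mul_of_pos_left hε (zero_lt_iff.2 h)
    rw [mul_one] at h2
    exact lt_irrefl _ (h1.trans_lt h2)
  have hP01 : ∀ Q, P 1 Q = P₀ Q := by
    intro Q
    have hd : δ 0 Q = 0 := by
      have := hδle 0 (Nat.pos_of_ne_zero hn) Q
      rw [hεzero, le_zero_iff, map_eq_zero] at this
      exact this
    have ha : α 1 Q = α 0 Q := sub_eq_zero.1 hd
    have hP0Q : P 0 Q = P₀ Q := by simp [hPdef]
    by_contra hne
    obtain ⟨b, hb, -, -, hb2⟩ := (ht Q).exists_value X hF (hS Q.1 Q.2) (hPspl 0 Q)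
    have h1 := hb2 (P 1 Q) (hPspl 1 Q) (hP0Q.symm ▸ hne)
    obtain ⟨b', hb', -, hb1', -⟩ := (ht Q).exists_value X hF (hS Q.1 Q.2) (hPspl 1 Q)
    rw [(hα 1 Q).unique hb' |>.symm, ha, (hα 0 Q).unique hb] at hb1'
    omega
  obtain ⟨f, hf0, hfe⟩ := hEP 1 (Nat.pos_of_ne_zero hn)
  refine ⟨f⁻¹, inv_ne_zero hf0, fun Y => ?_⟩
  simp only [hP01, one_smul] at hfe
  have := congrArg (fun E : Divisor K F => E Y) hfe
  simp only [hE₀, Finsupp.add_apply, divOf_apply] at this
  rw [Y.ord_inv]
  omega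

/-- An automorphism fixing the residue field and the branches fixes the toric kernel. -/
theorem Symm.smul_eq_self (S : X.Symm) (hθ : S.θk = RingHom.id k) (he : S.e = Equiv.refl β)
    (hn : n ≠ 0) (hn1 : A.valuation (n : K) = 1) {x : Pic0.torsion K F n}
    (hx : x ∈ X.toricKer hF n) : S.s • x = x := by
  have h := toricHom_smul hF hk S hn ⟨x, hx⟩ (smul_mem_toricKer hF S hx)
  rw [S.onTarget_eq_self hθ he] at h
  exact congrArg Subtype.val (toricHom_injective hF hk hn hn1 h)

/-- An automorphism inducing `a ↦ a ^ m` and fixing the branches is `m` on the toric kernel. -/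
theorem Symm.smul_eq_nsmul (S : X.Symm) {m : ℕ} (hθ : ∀ a, S.θk a = a ^ m)
    (he : S.e = Equiv.refl β) (hn : n ≠ 0) (hn1 : A.valuation (n : K) = 1)
    {x : Pic0.torsion K F n} (hx : x ∈ X.toricKer hF n) : S.s • x = m • x := by
  have h := toricHom_smul hF hk S hn ⟨x, hx⟩ (smul_mem_toricKer hF S hx)
  rw [S.onTarget_eq_nsmul hθ he, ← map_nsmul] at h
  exact congrArg Subtype.val (toricHom_injective hF hk hn hn1 h)

end FA.ModField.SemiFibre
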