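import Fermat.Agent.JTorsion.Unramified
import Fermat.Prelude.Def_GaloisRep_LocalConditions

/-!
# Hecke Galois data are unipotent on inertia where the Jacobian is semistable

If `(σ - 1)² = 0` on the torsion of `J₀(N)` for inertia elements `σ` at `q`, the trace of a Hecke
Galois datum at `σ` is `2` and its determinant is `1`.
-/

set_option autoImplicit false
set_option linter.style.haveILetI false
set_option linter.unusedSectionVars false
set_option synthInstance.maxHeartbeats 100000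
set_option maxHeartbeats 4000000

noncomputable section

namespace FA.ModField

open FA.Level ModularCurve IsLocalRing Polynomial FA.JTorsion

local notation "Qb" => AlgebraicClosure ℚ

/-- Inertia at `q` acts unipotently on the torsion of order prime to `q`. -/
def SemistableTors (N : ℕ) [NeZero N] (q : ℕ) : Prop :=
  ∀ A : ValuationSubring Qb, A.LiesOverPrime q → ∀ σ ∈ A.inertiaSubgroupIn ℚ,
    ∀ n : ℕ, ¬ q ∣ n → ∀ x : JZero N, n • x = 0 → σ • σ • x + x = 2 • (σ • x)

variable {p : ℕ} {N : ℕ} [NeZero N] {S : Finset ℕ}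
  {O : Type} [CommRing O] [IsDomain O] [IsDiscreteValuationRing O]
  [IsAdicComplete (maximalIdeal O) O]
  {θ : CuspForm.heckeAlgebra N 2 (↑S : Set ℕ) →+* ResidueField O}
  {T : Type} [CommRing T] [IsLocalRing T] [IsNoetherianRing T]
  [IsAdicComplete (maximalIdeal T) T] [Algebra O T] [IsLocalHom (algebraMap O T)]
  [Module.Finite O T] [Module.Free O T]

section

variable [Algebra Qb ℂ]

theorem galMod_add_inv {q : ℕ} (hss : SemistableTors N q) {n : ℕ} [NeZero n] (hqn : ¬ q ∣ n)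
    {A : ValuationSubring Qb} (hA : A.LiesOverPrime q) {σ : GalQ}
    (hσ : σ ∈ A.inertiaSubgroupIn ℚ) (x : ModN N (↑S : Set ℕ) n) :
    galMod N (↑S : Set ℕ) n σ x + galMod N (↑S : Set ℕ) n σ⁻¹ x = 2 • x := by
  obtain ⟨y, rfl⟩ : ∃ y, galMod N (↑S : Set ℕ) n σ y = x :=
    ⟨galMod N (↑S : Set ℕ) n σ⁻¹ x, by
      rw [← Module.End.mul_apply, ← map_mul, mul_inv_cancel, map_one, Module.End.one_apply]⟩
  rw [← Module.End.mul_apply (galMod N (↑S : Set ℕ) n σ⁻¹), ← map_mul, inv_mul_cancel, map_one,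
    Module.End.one_apply]
  refine toTors_injective N (↑S : Set ℕ) n ?_
  rw [map_add, map_nsmul, toTors_galMod, toTors_galMod]
  exact hss A hA σ hσ n hqn _ (nsmul_toTors N (↑S : Set ℕ) n y)

variable [Fact p.Prime]

/-- The trace of inertia is `2` and the determinant `1`, modulo any power. -/
theorem trace_det_inertia_mem (hGR : GoodRed N) (hp : p.Prime) (hpT : (p : T) ∈ maximalIdeal T)
    (hpS : p ∈ S) (H : CuspForm.HeckeGaloisRepDatum N (↑S : Set ℕ) O θ T)
    (b : Module.Basis (Fin 2) T H.ρ.V) {q : ℕ} (hq : q.Prime) (hss : SemistableTors N q)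
    (hqp : q ≠ p) {A : ValuationSubring Qb} (hA : A.LiesOverPrime q) {σ : GalQ}
    (hσ : σ ∈ A.inertiaSubgroupIn ℚ) {c : ℕ}
    (hc : ∀ (n : ℕ) (t : CuspForm.heckeAlgebra N 2 (↑S : Set ℕ)),
      (∀ x : LatMod N (↑S : Set ℕ), ∃ y, t • x = (p ^ (n + c)) • y) → ∃ t', t = (p ^ n) • t')
    (j : ℕ) :
    (FA.Deform.matrixOf H.ρ b σ).trace - 2 ∈ maximalIdeal T ^ j ∧
      (FA.Deform.matrixOf H.ρ b σ).det - 1 ∈ maximalIdeal T ^ j := by
  classical
  haveI : NeZero p := ⟨hp.ne_zero⟩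
  let r := FA.Deform.matrixOf H.ρ b
  have hfrob := trace_det_frobenius H b
  let n := j + c
  let act := galMod N (↑S : Set ℕ) (p ^ n)
  let cn : GalQ →* (ZMod (p ^ n))ˣ :=
    (Units.map (PadicInt.toZModPow n).toMonoidHom).comp (cycP p)
  let rn := FA.Deform.mapRep (Ideal.Quotient.mk (maximalIdeal T ^ n)) r
  let K := ((act.prod cn).prod rn).ker
  obtain ⟨L₁, hL₁, h₁⟩ := exists_field_galMod N (↑S : Set ℕ) (p ^ n)
  obtain ⟨L₂, hL₂, h₂⟩ := exists_field_cycP p n
  obtain ⟨L₃, hL₃, h₃⟩ := FA.Deform.isContRep_matrixOf H.ρ b n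
  have hK : IsOpen (K : Set GalQ) :=
    Subgroup.isOpen_mono (H₁ := (L₁ ⊔ L₂ ⊔ L₃).fixingSubgroup) (fun τ hτ => by
      have hfix := (IntermediateField.mem_fixingSubgroup_iff _ _).1 hτ
      refine MonoidHom.mem_ker.2 (Prod.ext (Prod.ext
        (h₁ τ fun a ha => hfix a ((le_sup_left.trans le_sup_left : L₁ ≤ L₁ ⊔ L₂ ⊔ L₃) ha))
        (Units.ext (h₂ τ fun a ha =>
          hfix a ((le_sup_right.trans le_sup_left : L₂ ≤ L₁ ⊔ L₂ ⊔ L₃) ha)))) ?_)
      show (Ideal.Quotient.mk (maximalIdeal T ^ n)).mapMatrix (r τ) = 1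
      rw [← map_one (Ideal.Quotient.mk (maximalIdeal T ^ n)).mapMatrix]
      ext i k
      exact Ideal.Quotient.eq.2
        (h₃ τ (fun a ha => hfix a ((le_sup_right : L₃ ≤ L₁ ⊔ L₂ ⊔ L₃) ha)) i k))
      (IntermediateField.fixingSubgroup_isOpen _)
  have hmod : ∀ a : ℕ, Ideal.Quotient.mk (maximalIdeal T ^ n) ((a % p ^ n : ℕ) : T) =
      Ideal.Quotient.mk (maximalIdeal T ^ n) (a : T) := fun a => by
    conv_rhs => rw [← Nat.mod_add_div a (p ^ n), Nat.cast_add, Nat.cast_mul, Nat.cast_pow, map_add,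
      map_mul, Ideal.Quotient.eq_zero_iff_mem.2 (Ideal.pow_mem_pow hpT n), zero_mul, add_zero]
  let Φ : GalQ → Prop := fun τ => ∃ h : CuspForm.heckeAlgebra N 2 (↑S : Set ℕ),
    (∀ x, act τ x + ((cn τ : ZMod (p ^ n))).val • act τ⁻¹ x = h • x) ∧
      Ideal.Quotient.mk (maximalIdeal T ^ n) (r τ).trace =
        Ideal.Quotient.mk (maximalIdeal T ^ n) (H.π h) ∧
      Ideal.Quotient.mk (maximalIdeal T ^ n) (r τ).det =
        Ideal.Quotient.mk (maximalIdeal T ^ n) (((cn τ : ZMod (p ^ n))).val : T)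
  have hall : ∀ τ, Φ τ := by
    refine fun τ => FA.Density.forall_of_frobenius_pow K hK Φ ?_ (S ∪ N.primeFactors) ?_ τ
    · intro τ η hη ⟨h, hx, htr, hdet⟩
      obtain ⟨hη', hr⟩ := Prod.ext_iff.1 (MonoidHom.mem_ker.1 hη)
      obtain ⟨h1, h2⟩ := Prod.ext_iff.1 hη'
      change act η = 1 at h1
      change cn η = 1 at h2
      change rn η = 1 at hr
      have h1' : act η⁻¹ = 1 := by
        have h4 : act η⁻¹ * act η = 1 := by rw [← map_mul, inv_mul_cancel, map_one]
        rwa [h1, mul_one] at h4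
      have e : rn (τ * η) = rn τ := by rw [map_mul, hr, mul_one]
      refine ⟨h, fun x => ?_, ?_, ?_⟩
      · rw [map_mul, map_mul, h2, mul_one, mul_inv_rev, map_mul, h1, h1', mul_one, one_mul]
        exact hx x
      · rw [← htr]
        simp only [Matrix.trace_fin_two, map_add]
        exact congrArg₂ (· + ·) (congrFun (congrFun e 0) 0) (congrFun (congrFun e 1) 1)
      · rw [map_mul cn, h2, mul_one, ← hdet]
        simp only [RingHom.map_det]
        exact congrArg Matrix.det e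
    · intro ℓ hℓ hℓS B hB τ hτ k
      simp only [Finset.mem_union, Nat.mem_primeFactors, not_or] at hℓS
      have hℓN : ¬ ℓ ∣ N := fun h => hℓS.2 ⟨hℓ, h, NeZero.ne N⟩
      have hℓS' : ℓ ∉ (↑S : Set ℕ) := by simpa using hℓS.1
      have hℓp : ℓ ≠ p := fun h => hℓS.1 (h ▸ hpS)
      have hℓn : ¬ ℓ ∣ p ^ n := fun h =>
        hℓp ((Nat.prime_dvd_prime_iff_eq hℓ hp).1 (hℓ.dvd_of_dvd_pow h))
      let t := CuspForm.heckeAlgebra.T (k := 2) hℓ hℓN hℓS'
      have hcn : ((cn (τ ^ k) : (ZMod (p ^ n))ˣ) : ZMod (p ^ n)) = ((ℓ ^ k : ℕ) : ZMod (p ^ n)) := by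
        rw [map_pow, Units.val_pow_eq_pow_val, Nat.cast_pow]
        congr 1
        show PadicInt.toZModPow n ((cycP p τ : ℤ_[p]ˣ) : ℤ_[p]) = _
        rw [cycP_frobenius p hℓ hℓp hB hτ, map_natCast]
      refine ⟨powSum t (ℓ : CuspForm.heckeAlgebra N 2 (↑S : Set ℕ)) k, fun x => ?_, ?_, ?_⟩
      · have hrel : act τ + (ℓ : CuspForm.heckeAlgebra N 2 (↑S : Set ℕ)) • act τ⁻¹ = t • 1 :=
          LinearMap.ext fun y => by
            rw [LinearMap.add_apply, LinearMap.smul_apply, LinearMap.smul_apply,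
              Nat.cast_smul_eq_nsmul, Module.End.one_apply]
            exact galMod_frobenius N (↑S : Set ℕ) (p ^ n) hGR hℓ hℓN hℓn hB hℓS' hτ y
        have hpow := LinearMap.congr_fun (pow_add_smul_pow
          (by rw [← map_mul, mul_inv_cancel, map_one])
          (by rw [← map_mul, inv_mul_cancel, map_one]) hrel k) x
        rw [LinearMap.add_apply, LinearMap.smul_apply, LinearMap.smul_apply, ← Nat.cast_pow,
          Nat.cast_smul_eq_nsmul, Module.End.one_apply, ← map_pow, ← map_pow, inv_pow] at hpow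
        rw [hcn, ZMod.val_natCast, nsmul_mod_eq]
        exact hpow
      · rw [map_pow, trace_pow_fin_two, map_powSum H.π, (hfrob ℓ hℓ hℓN hℓS' B hB τ hτ).1,
          (hfrob ℓ hℓ hℓN hℓS' B hB τ hτ).2, map_natCast]
      · rw [hcn, ZMod.val_natCast, hmod, map_pow r, Matrix.det_pow,
          (hfrob ℓ hℓ hℓN hℓS' B hB τ hτ).2, Nat.cast_pow]
  obtain ⟨h₁, hx₁, ht₁, hd₁⟩ := hall σ
  have hqn : ¬ q ∣ p ^ n := fun h => hqp ((Nat.prime_dvd_prime_iff_eq hq hp).1 (hq.dvd_of_dvd_pow h))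
  have hσ2 : cn σ = 1 := by
    show Units.map _ (cycP p σ) = 1
    rw [cycP_inertia p hq hqp hA hσ, map_one]
  have hval : (((cn σ : (ZMod (p ^ n))ˣ) : ZMod (p ^ n))).val = 1 % p ^ n := by
    rw [hσ2, Units.val_one, ← Nat.cast_one, ZMod.val_natCast]
  have hle : maximalIdeal T ^ n ≤ maximalIdeal T ^ j := Ideal.pow_le_pow_right (Nat.le_add_right j c)
  refine ⟨?_, ?_⟩
  · obtain ⟨h', hh'⟩ := hc j (h₁ - 2) fun z => by
      have e1 := hx₁ (Submodule.Quotient.mk z)
      rw [hval, nsmul_mod_eq, one_nsmul, galMod_add_inv hss hqn hA hσ] at e1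
      have e2 : Submodule.Quotient.mk ((h₁ - 2) • z) =
          (0 : ModN N (↑S : Set ℕ) (p ^ n)) := by
        rw [Submodule.Quotient.mk_smul, sub_smul, sub_eq_zero, ← e1]
        exact (Nat.cast_smul_eq_nsmul _ 2 _).symm
      obtain ⟨y, hy⟩ := (mem_nMultiples N (↑S : Set ℕ)).1 ((Submodule.Quotient.mk_eq_zero _).1 e2)
      exact ⟨y, hy.symm⟩
    have hπ : H.π h₁ - 2 ∈ maximalIdeal T ^ j := by
      rw [show H.π h₁ - 2 = H.π (h₁ - 2) by rw [map_sub, map_ofNat], hh', map_nsmul, nsmul_eq_mul,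
        Nat.cast_pow]
      exact Ideal.mul_mem_right _ _ (Ideal.pow_mem_pow hpT j)
    convert add_mem (hle (Ideal.Quotient.eq.1 ht₁)) hπ using 1
    ring
  · rw [hval, hmod, Nat.cast_one] at hd₁
    exact hle (Ideal.Quotient.eq.1 hd₁)

end

/-- The statement of S34, given semistable torsion. -/
theorem isUnipotentOnInertiaAt_of_semistable (hp : p.Prime) (hpO : (p : O) ∈ maximalIdeal O)
    (hpS : p ∈ S) (hGR : GoodRed N) (H : CuspForm.HeckeGaloisRepDatum N (↑S : Set ℕ) O θ T)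
    (q : ℕ) (hq : q.Prime) (hqp : q ≠ p) (hss : SemistableTors N q) :
    H.ρ.IsUnipotentOnInertiaAt q := by
  classical
  intro A hA σ hσ
  obtain ⟨alg⟩ := exists_algebra_qbar
  letI := alg
  haveI : Fact p.Prime := ⟨hp⟩
  haveI : NeZero p := ⟨hp.ne_zero⟩
  haveI := latMod_free N (↑S : Set ℕ)
  let b := FA.Deform.repBasis H.ρ
  let r := FA.Deform.matrixOf H.ρ b
  have hpT : (p : T) ∈ maximalIdeal T := by
    have h := Ideal.mem_map_of_mem (algebraMap O T) hpO
    rw [map_natCast] at h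
    have hle : (maximalIdeal O).map (algebraMap O T) ≤ maximalIdeal T :=
      ((local_hom_TFAE (algebraMap O T)).out 0 2).mp (inferInstance : IsLocalHom (algebraMap O T))
    exact hle h
  obtain ⟨c, hc⟩ := exists_saturation p hp.ne_zero
    (fun _ h => latMod_faithful N (↑S : Set ℕ) h)
  have key := fun j => trace_det_inertia_mem hGR hp hpT hpS H b hq hss hqp hA hσ hc j
  have haus : ∀ a : T, (∀ j, a ∈ maximalIdeal T ^ j) → a = 0 := fun a ha =>
    IsHausdorff.haus (I := maximalIdeal T) inferInstance _ fun j => by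
      rw [SModEq.zero, smul_eq_mul, Ideal.mul_top]
      exact ha j
  have htr := sub_eq_zero.1 (haus _ fun j => (key j).1)
  have hdet := sub_eq_zero.1 (haus _ fun j => (key j).2)
  rw [← LinearMap.charpoly_toMatrix (H.ρ.ρ σ) b, ← FA.Deform.matrixOf_apply,
    Matrix.charpoly_fin_two, htr, hdet, map_one, map_ofNat]
  ring

end FA.ModField
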