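import Fermat.Agent.ModField.Semistable.Inertia
import Fermat.Agent.ModField.Semistable.UnipotentDatum
import Fermat.Agent.CurveRed.Residue
import Fermat.Agent.CurveRed.ModularBase
import Fermat.Agent.ModField.Congruence.Charpoly

/-!
# Semistable torsion of `J₀(M q)` at `q`, given the special fibre
-/

set_option autoImplicit false
set_option linter.style.haveILetI false
set_option linter.unusedSectionVars false
set_option synthInstance.maxHeartbeats 200000
set_option maxHeartbeats 800000

noncomputable section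

namespace FA.ModField

open ModularCurve AlgebraicCurve FA.Curve FA.CurveRed FA.CurveRed.Modular

local notation "Qb" => AlgebraicClosure ℚ
local notation "GQ" => AlgebraicClosure ℚ ≃ₐ[ℚ] AlgebraicClosure ℚ

/-- A special fibre of `X₀(M q)` at `A` on whose components and branches inertia is trivial. -/
def HasInertiaFibre (M q : ℕ) [NeZero M] [NeZero (M * q)] (A : ValuationSubring Qb) : Prop :=
  ∀ s ∈ A.inertiaSubgroupIn ℚ, ∃ (β σ : Type) (_ : Fintype β) (_ : Fintype σ)
    (X : SemiFibre Qb (levelField (M * q) Qb) (IsLocalRing.ResidueField A)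
      (fun _ : Fin 2 => modularFunctionFieldFullC (IsLocalRing.ResidueField A) M) A β σ)
    (S : X.Symm), SemiFibre.IsTrivialSymm S ∧
      S.s = arithmeticGalois (modularFunctionFieldFull (M * q)) s

/-- Inertia at `q` is unipotent on torsion of order prime to `q`, given the special fibres. -/
theorem semistableTors_of_fibre (M q : ℕ) [NeZero M] [hq : Fact q.Prime] [NeZero (M * q)]
    (h : ∀ A : ValuationSubring Qb, A.LiesOverPrime q → HasInertiaFibre M q A) :
    SemistableTors (M * q) q := by
  intro A hA s hs n hn x hx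
  obtain ⟨alg⟩ := FA.JTorsion.exists_algebra_qbar
  letI := alg
  haveI : IsAlgClosed (IsLocalRing.ResidueField A) := isAlgClosed_residueField A
  obtain ⟨β, σ, hβ, hσ, X, S, hS, hSs⟩ := h A hA s hs
  have hn0 : n ≠ 0 := fun h0 => hn (h0 ▸ dvd_zero q)
  have hn1 : A.valuation (n : Qb) = 1 :=
    FA.CurveRed.valuation_natCast_eq_one A hq.out hA hn
  have hmem : x ∈ Pic0.torsion Qb (levelField (M * q) Qb) n :=
    Pic0.mem_torsion.2 ((natCast_zsmul x n).trans hx)
  have key := SemiFibre.smul_smul_add (X := X) (isFunctionField_level Qb (M * q))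
    (fun _ => isFunctionField_fullC (IsLocalRing.ResidueField A) M) hS hn0 hn1 ⟨x, hmem⟩
  rw [hSs] at key
  have key' := congrArg Subtype.val key
  simp only [AddMemClass.coe_add, SemilinearAut.coe_torsion_smul,
    AddSubgroupClass.coe_nsmul] at key'
  exact key'

/-- The statement of S34 for a datum of level `N` with `q ∥ N`, given the special fibres. -/
theorem isUnipotentOnInertiaAt_of_fibre {p N : ℕ} [NeZero N] {S : Finset ℕ}
    {O : Type} [CommRing O] [IsDomain O] [IsDiscreteValuationRing O]
    [IsAdicComplete (IsLocalRing.maximalIdeal O) O]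
    {θ : CuspForm.heckeAlgebra N 2 (↑S : Set ℕ) →+* IsLocalRing.ResidueField O}
    {T : Type} [CommRing T] [IsLocalRing T] [IsNoetherianRing T]
    [IsAdicComplete (IsLocalRing.maximalIdeal T) T] [Algebra O T] [IsLocalHom (algebraMap O T)]
    [Module.Finite O T] [Module.Free O T]
    (hp : p.Prime) (hpO : (p : O) ∈ IsLocalRing.maximalIdeal O) (hpS : p ∈ S)
    (hGR : FA.JTorsion.GoodRed N) (H : CuspForm.HeckeGaloisRepDatum N (↑S : Set ℕ) O θ T)
    (q : ℕ) (hq : q.Prime) (hqp : q ≠ p) (hqN : q ∣ N) (hq2 : ¬ q ^ 2 ∣ N)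
    (h : ∀ (M : ℕ) [NeZero M] [NeZero (M * q)], ¬ q ∣ M →
      ∀ A : ValuationSubring Qb, A.LiesOverPrime q → HasInertiaFibre M q A) :
    H.ρ.IsUnipotentOnInertiaAt q := by
  obtain ⟨M, rfl⟩ : ∃ M, N = M * q := ⟨N / q, (Nat.div_mul_cancel hqN).symm⟩
  haveI : Fact q.Prime := ⟨hq⟩
  haveI : NeZero M := ⟨fun h0 => NeZero.ne (M * q) (by rw [h0, zero_mul])⟩
  have hqM : ¬ q ∣ M := fun hd => hq2 (by rw [sq]; exact mul_dvd_mul_right hd q)
  exact isUnipotentOnInertiaAt_of_semistable hp hpO hpS hGR H q hq hqp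
    (semistableTors_of_fibre M q (h M hqM))

end FA.ModField
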