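import Fermat.Agent.JTorsion.LatMod
import Fermat.Agent.JTorsion.Transfer
import Fermat.Prelude.Def_ModularCurve_PeriodHomPair

/-!
# Complex conjugation on Kummer characters

For `σ` the restriction of complex conjugation, the character of `σ x` is `γ ↦ - c (J γ J)`,
`J = diag (-1, 1)`.
-/

set_option autoImplicit false
set_option linter.style.haveILetI false
set_option linter.unusedSectionVars false
set_option synthInstance.maxHeartbeats 200000
set_option maxHeartbeats 800000

noncomputable section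

namespace FA.ModField

open UpperHalfPlane hiding I
open Complex ModularCurve AlgebraicCurve FA.Level FA.JTorsion
open scoped MatrixGroups ComplexConjugate Manifold

/-- `z ↦ - conj z`. -/
def flipH (z : ℍ) : ℍ := ⟨-conj (z : ℂ), by simpa using z.im_pos⟩

theorem coe_flipH (z : ℍ) : (flipH z : ℂ) = -conj (z : ℂ) := rfl

theorem flipH_flipH (z : ℍ) : flipH (flipH z) = z :=
  UpperHalfPlane.ext (by simp [coe_flipH])

theorem flipH_smul (γ : SL(2, ℤ)) (z : ℍ) :
    flipH (γ • z) = ModularCurve.Period.jConjSL γ • flipH z := by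
  refine UpperHalfPlane.ext ?_
  rw [coe_flipH, UpperHalfPlane.coe_specialLinearGroup_apply,
    UpperHalfPlane.coe_specialLinearGroup_apply, coe_flipH]
  simp [ModularCurve.Period.jConjMat, map_div₀]
  ring

theorem qp_flipH (N : ℕ) (z : ℍ) : qp N (flipH z) = conj (qp N z) := by
  rw [qp_eq, qp_eq, coe_flipH, ← Complex.exp_conj]
  congr 1
  simp [Complex.conj_ofNat]

theorem mdiff_conj_flip {f : ℍ → ℂ} (hf : MDiff f) : MDiff fun z => conj (f (flipH z)) := by
  rw [UpperHalfPlane.mdifferentiable_iff] at hf ⊢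
  intro w hw
  have hw' : 0 < (-conj w).im := by simpa using hw
  have h1 : DifferentiableAt ℂ (f ∘ ofComplex) (-conj w) :=
    (hf _ hw').differentiableAt ((isOpen_lt continuous_const Complex.continuous_im).mem_nhds hw')
  have h2 : DifferentiableAt ℂ (fun u : ℂ => (f ∘ ofComplex) (-u)) (conj w) :=
    DifferentiableAt.comp (g := (f ∘ ofComplex : ℂ → ℂ)) (conj w) h1
      differentiable_neg.differentiableAt
  have h3 : DifferentiableAt ℂ (conj ∘ (fun u : ℂ => (f ∘ ofComplex) (-u)) ∘ conj) w := by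
    simpa using h2.conj_conj
  refine (h3.congr_of_eventuallyEq ?_).differentiableWithinAt
  filter_upwards [(isOpen_lt continuous_const Complex.continuous_im).mem_nhds hw] with u hu
  have hu' : 0 < (-conj u).im := by simpa using hu
  simp only [Function.comp_apply, ofComplex_apply_of_im_pos hu, ofComplex_apply_of_im_pos hu']
  rfl

/-- Conjugation of holomorphic functions. -/
def conjHol : holSub →+* holSub where
  toFun f := ⟨fun z => conj ((f : ℍ → ℂ) (flipH z)), mdiff_conj_flip f.2⟩
  map_one' := Subtype.ext (funext fun _ => map_one (starRingEnd ℂ))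
  map_mul' _ _ := Subtype.ext (funext fun _ => map_mul (starRingEnd ℂ) _ _)
  map_zero' := Subtype.ext (funext fun _ => map_zero (starRingEnd ℂ))
  map_add' _ _ := Subtype.ext (funext fun _ => map_add (starRingEnd ℂ) _ _)

theorem conjHol_apply (f : holSub) (z : ℍ) :
    (conjHol f : ℍ → ℂ) z = conj ((f : ℍ → ℂ) (flipH z)) := rfl

theorem conjHol_injective : Function.Injective conjHol := fun f g h =>
  Subtype.ext (funext fun w => by
    have := congrFun (congrArg Subtype.val h) (flipH w)
    rw [conjHol_apply, conjHol_apply, flipH_flipH] at this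
    exact (starRingEnd ℂ).injective this)

/-- Conjugation of meromorphic functions. -/
def merConj : Mer →+* Mer :=
  IsFractionRing.lift (K := Mer) (g := toMer.comp conjHol)
    (toMer_injective.comp conjHol_injective)

theorem merConj_toMer (f : holSub) : merConj (toMer f) = toMer (conjHol f) :=
  IsFractionRing.lift_algebraMap _ _

theorem merConj_merC (c : ℂ) : merConj (merC c) = merC (conj c) := by
  rw [merC_eq, merConj_toMer, merC_eq]
  rfl

theorem merSL_merConj (γ : SL(2, ℤ)) (x : Mer) :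
    merSL γ (merConj x) = merConj (merSL (ModularCurve.Period.jConjSL γ) x) := by
  have : (merSL γ).comp merConj = merConj.comp (merSL (ModularCurve.Period.jConjSL γ)) :=
    ringHom_mer_ext fun f => by
      rw [RingHom.comp_apply, RingHom.comp_apply, merConj_toMer, merSL_toMer, merSL_toMer,
        merConj_toMer]
      refine congrArg toMer (Subtype.ext (funext fun z => ?_))
      show conj ((f : ℍ → ℂ) (flipH (γ • z))) = _
      rw [flipH_smul]
      rfl
  exact RingHom.congr_fun this x

/-- `σ` is complex conjugation. -/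
def IsConj (L : Type) [Field L] [Algebra ℚ L] [Algebra L ℂ] (σ : L ≃ₐ[ℚ] L) : Prop :=
  ∀ a : L, algebraMap L ℂ (σ a) = conj (algebraMap L ℂ a)

section Field

variable {V : Lvl} {L : Type} [Field L] [Algebra ℚ L] [Algebra L ℂ]

theorem coeffMap_mem_alg (σ : L ≃ₐ[ℚ] L) {a : LaurentSeries L} (ha : a ∈ V.alg L) :
    coeffMap (σ : L →+* L) a ∈ V.alg L := by
  induction ha using Algebra.adjoin_induction with
  | mem x hx =>
    obtain ⟨y, hy, rfl⟩ := hx
    refine Algebra.subset_adjoin ⟨y, hy, ?_⟩
    rw [coeffEmb, coeffMap_coeffMap]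
    exact coeffMap_congr (RingHom.ext fun r => (σ.commutes r).symm) y
  | algebraMap c =>
    rw [algebraMap_laurentSeries_eq_single, coeffMap_single, ← algebraMap_laurentSeries_eq_single]
    exact Subalgebra.algebraMap_mem _ _
  | add x y _ _ hx hy => rw [map_add]; exact add_mem hx hy
  | mul x y _ _ hx hy => rw [map_mul]; exact mul_mem hx hy

theorem hasExp_conj {f : ℍ → ℂ} {S : LaurentSeries ℂ} (h : HasExp (qp 1) f S) :
    HasExp (qp 1) (fun z => conj (f (flipH z))) (coeffMap (starRingEnd ℂ) S) := fun z => by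
  have h1 := h (flipH z)
  rw [← Complex.hasSum_conj', qp_flipH] at h1
  simpa [coeffMap_coeff, map_mul, map_zpow₀] using h1

theorem theta_gal {σ : L ≃ₐ[ℚ] L} (hσ : IsConj L σ) (f : V.fld L) :
    theta (arithmeticGalois V.F₀ σ • f) = merConj (theta f) := by
  have key : ∀ a : V.alg L, theta (arithmeticGalois V.F₀ σ • V.toFld L a) =
      merConj (theta (V.toFld L a)) := fun a => by
    have e : arithmeticGalois V.F₀ σ • V.toFld L a =
        V.toFld L ⟨_, coeffMap_mem_alg σ a.2⟩ := Subtype.ext rfl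
    rw [e, theta_toFld, theta_toFld, merConj_toMer]
    refine congrArg toMer (Subtype.ext ?_)
    refine V.fn_eq L ?_
    have h := hasExp_conj (V.funHom_exp L a)
    rw [coeffMap_coeffMap] at h
    show HasExp (qp 1) _ (coeffMap (algebraMap L ℂ) (coeffMap (σ : L →+* L) (a : LaurentSeries L)))
    rw [coeffMap_coeffMap]
    rwa [coeffMap_congr (g := (algebraMap L ℂ).comp (σ : L →+* L))
      (RingHom.ext fun x => (hσ x).symm)] at h
  obtain ⟨a, b, hb, hab⟩ := V.exists_fraction L f
  have hb' : theta (V.toFld L b) ≠ 0 := (map_ne_zero_iff _ theta.injective).2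
    ((map_ne_zero_iff _ (V.toFld_injective L)).2 hb)
  have h1 : theta (arithmeticGalois V.F₀ σ • f) * merConj (theta (V.toFld L b)) =
      merConj (theta f) * merConj (theta (V.toFld L b)) := by
    rw [← key, ← map_mul, ← smul_mul', hab, key, key, ← map_mul, ← map_mul, hab]
  exact mul_right_cancel₀ ((_root_.map_ne_zero merConj).2 hb') h1

end Field

theorem exists_isConj [Algebra (AlgebraicClosure ℚ) ℂ] :
    ∃ σ : GalQ, IsConj (AlgebraicClosure ℚ) σ := by
  haveI : IsScalarTower ℚ (AlgebraicClosure ℚ) ℂ :=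
    IsScalarTower.of_algebraMap_eq' (Subsingleton.elim _ _)
  haveI : IsAlgClosure ℚ (AlgebraicClosure ℚ) :=
    ⟨inferInstance, AlgebraicClosure.isAlgebraic ℚ⟩
  haveI : Normal ℚ (AlgebraicClosure ℚ) := IsAlgClosure.normal ℚ (AlgebraicClosure ℚ)
  exact ⟨(Complex.conjAe.restrictScalars ℚ).restrictNormal (AlgebraicClosure ℚ),
    fun a => AlgEquiv.restrictNormal_commutes _ _ a⟩

local notation "Qb" => AlgebraicClosure ℚ

variable [Algebra Qb ℂ] {N : ℕ} [NeZero N]

theorem kumFun_gal {σ : GalQ} (hσ : IsConj Qb σ) {n : ℕ} [NeZero n]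
    (x y : tors (lvlGamma0 N) Qb n)
    (hy : (y.1 : JZero N) = σ • (x.1 : JZero N)) (γ : (lvlGamma0 N).grp) :
    kumFun y γ = - kumFun x (jEquiv N γ) := by
  obtain ⟨D, h, hD, H⟩ := exists_witness_of_kumFun x
  obtain ⟨f, hf, hfD, hh⟩ := H.div
  set g := arithmeticGalois (lvlGamma0 N).F₀ σ
  have H' : IsWitness n ((SemilinearAut.degZeroSMulHom g D : Divisor.degZero) :
      Divisor Qb ((lvlGamma0 N).fld Qb)) (merConj h)
      (fun δ => - kumFun x (jEquiv N δ)) := by
    refine ⟨(_root_.map_ne_zero merConj).2 H.ne, ⟨g • f, ?_, fun v => ?_, ?_⟩, fun δ => ?_⟩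
    · exact fun h0 => hf (smul_left_cancel g (h0.trans (smul_zero g).symm))
    · rw [SemilinearAut.coe_degZeroSMulHom, SemilinearAut.divisor_smul_apply, hfD]
      have := SemilinearAut.ord_smul g (g⁻¹ • v) f
      rw [smul_inv_smul] at this
      exact this.symm
    · rw [← map_pow, hh, theta_gal hσ]
    · rw [merSL_merConj]
      have hc := H.char (jEquiv N δ)
      rw [coe_jEquiv] at hc
      rw [hc, map_mul, merConj_merC, AddChar.map_neg_eq_conj]
  have hD' : Pic0.mk (SemilinearAut.degZeroSMulHom g D) = (y : Pic0 Qb ((lvlGamma0 N).fld Qb)) := by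
    rw [hy]
    exact (SemilinearAut.pic0_smul_mk g D).symm.trans (congrArg (g • ·) hD)
  exact congrFun (kumFun_eq hD' H') γ

/-- `φ ↦ φ ∘ J` on the lattice. -/
theorem cuspLat_jConj {φ : Additive (lvlGamma0 N).grp →+ ℤ} (hφ : φ ∈ cuspLat (lvlGamma0 N)) :
    φ.comp (MonoidHom.toAdditive (jEquiv N).toMonoidHom) ∈ cuspLat (lvlGamma0 N) := by
  intro δ
  have e : jEquiv N ⟨_, (lvlGamma0 N).conj_T_pow_mem δ⟩ =
      (⟨_, (lvlGamma0 N).conj_T_pow_mem (ModularCurve.Period.jConjSL δ)⟩ : (lvlGamma0 N).grp)⁻¹ := by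
    refine Subtype.ext ?_
    rw [coe_jEquiv]
    show ModularCurve.Period.jConjSL (δ * ModularGroup.T ^ ((lvlGamma0 N).M : ℤ) * δ⁻¹) =
      (ModularCurve.Period.jConjSL δ * ModularGroup.T ^ ((lvlGamma0 N).M : ℤ) *
        (ModularCurve.Period.jConjSL δ)⁻¹)⁻¹
    have hT : ModularCurve.Period.jConjSL ModularGroup.T = ModularGroup.T⁻¹ := by
      apply Subtype.ext
      rw [ModularCurve.Period.jConjSL_coe, ModularGroup.coe_T_inv, ModularGroup.coe_T]
      ext i j
      fin_cases i <;> fin_cases j <;> simp [ModularCurve.Period.jConjMat]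
    rw [map_mul, map_mul, map_inv, map_zpow, hT, inv_zpow]
    group
  show φ (Additive.ofMul (jEquiv N ⟨_, (lvlGamma0 N).conj_T_pow_mem δ⟩)) = 0
  rw [e, ofMul_inv, map_neg, hφ _, neg_zero]

variable (N) in
/-- The involution of the lattice given by `J`. -/
def jLat (S : Set ℕ) : LatMod N S →+ LatMod N S :=
  AddMonoidHom.mk' (fun x => (LatMod.val N S).symm ⟨_, cuspLat_jConj (LatMod.val N S x).2⟩)
    fun x y => (LatMod.val N S).injective (by
      simp only [map_add, AddEquiv.apply_symm_apply]
      exact Subtype.ext (AddMonoidHom.ext fun _ => rfl))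

theorem val_jLat (S : Set ℕ) (x : LatMod N S) (γ : (lvlGamma0 N).grp) :
    ((LatMod.val N S (jLat N S x) : cuspLat (lvlGamma0 N)) : Additive (lvlGamma0 N).grp →+ ℤ)
        (Additive.ofMul γ) =
      ((LatMod.val N S x : cuspLat (lvlGamma0 N)) : Additive (lvlGamma0 N).grp →+ ℤ)
        (Additive.ofMul (jEquiv N γ)) := rfl

/-- Complex conjugation on the lattice modulo `n`. -/
theorem galMod_conj {σ : GalQ} (hσ : IsConj Qb σ) (S : Set ℕ) (n : ℕ) [NeZero n]
    (x : LatMod N S) :
    galMod N S n σ (Submodule.Quotient.mk x) = Submodule.Quotient.mk (-jLat N S x) := by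
  refine toTors_injective N S n ?_
  rw [toTors_galMod, toTors_mk, toTors_mk]
  set u := latTors (lvlGamma0 N) Qb n (LatMod.val N S x)
  set w := latTors (lvlGamma0 N) Qb n (LatMod.val N S (-jLat N S x))
  show σ • (u.1 : JZero N) = (w.1 : JZero N)
  have hmem : σ • (u.1 : JZero N) ∈ tors (lvlGamma0 N) Qb n := galois_smul_mem_tors N u.2 σ
  refine congrArg Subtype.val (?_ : (⟨_, hmem⟩ : tors (lvlGamma0 N) Qb n) = w)
  refine kum_injective (lvlGamma0 N) Qb n (AddMonoidHom.ext fun g => ?_)
  obtain ⟨γ, rfl⟩ := Additive.ofMul.surjective g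
  rw [kum_apply, kumFun_gal hσ u ⟨_, hmem⟩ rfl γ, kum_latTors, ← kum_apply, kum_latTors, map_neg,
    NegMemClass.coe_neg, AddMonoidHom.neg_apply, val_jLat, Int.cast_neg]

end FA.ModField
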