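import Fermat.Agent.JTorsion.TraceTools
import Fermat.Agent.JTorsion.Cyclo
import Fermat.Agent.Density.Places
import Fermat.Agent.ModField.Semistable.ComplexConj

/-!
# Hecke operators attached to all Galois elements

If Frobenius elements act with a quadratic relation given by a commutative algebra, every Galois
element does, compatibly with a matrix representation. Complex conjugation has character `-1`.
-/

set_option autoImplicit false
set_option linter.style.haveILetI false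
set_option linter.unusedSectionVars false
set_option synthInstance.maxHeartbeats 200000
set_option maxHeartbeats 800000

noncomputable section

namespace FA.ModField

open FA.JTorsion ModularCurve

local notation "Qb" => AlgebraicClosure ℚ

variable (p : ℕ) [Fact p.Prime]

/-- The cyclotomic character modulo `p ^ n`. -/
def cycMod (n : ℕ) : GalQ →* (ZMod (p ^ n))ˣ :=
  (Units.map (PadicInt.toZModPow n).toMonoidHom).comp (cycP p)

theorem coe_cycMod (n : ℕ) (σ : GalQ) :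
    ((cycMod p n σ : (ZMod (p ^ n))ˣ) : ZMod (p ^ n)) =
      PadicInt.toZModPow n ((cycP p σ : ℤ_[p]ˣ) : ℤ_[p]) := rfl

theorem cycMod_frobenius (n : ℕ) {q : ℕ} (hq : q.Prime) (hqp : q ≠ p) {A : ValuationSubring Qb}
    (hA : A.LiesOverPrime q) {σ : GalQ} (hσ : A.IsFrobeniusAt σ q) :
    ((cycMod p n σ : (ZMod (p ^ n))ˣ) : ZMod (p ^ n)) = (q : ZMod (p ^ n)) := by
  rw [coe_cycMod, cycP_frobenius p hq hqp hA hσ, map_natCast]

/-- Complex conjugation inverts roots of unity. -/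
theorem cycMod_conj [Algebra Qb ℂ] (n : ℕ) {σ : GalQ} (hσ : IsConj Qb σ) :
    ((cycMod p n σ : (ZMod (p ^ n))ˣ) : ZMod (p ^ n)) = -1 := by
  haveI : NeZero (p ^ n) := ⟨pow_ne_zero _ (Fact.out : p.Prime).ne_zero⟩
  rw [coe_cycMod, cycP_toZModPow]
  symm
  refine modularCyclotomicCharacter.unique Qb _ _ fun t ht => ?_
  have ht' : (t : Qb) ^ p ^ n = 1 := by
    rw [← Units.val_pow_eq_pow_val, (mem_rootsOfUnity _ t).mp ht, Units.val_one]
  show σ (t : Qb) = _
  apply (algebraMap Qb ℂ).injective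
  have hn1 : ‖algebraMap Qb ℂ (t : Qb)‖ = 1 :=
    Complex.norm_eq_one_of_pow_eq_one (by rw [← map_pow, ht', map_one]) (NeZero.ne (p ^ n))
  rw [hσ, ← Complex.inv_eq_conj hn1, ← map_inv₀]
  congr 1
  have hk : ((-1 : ZMod (p ^ n))).val = (p ^ n - 1) % (p ^ n) := by
    have e : (((p ^ n - 1 : ℕ) : ℕ) : ZMod (p ^ n)) = -1 := by
      rw [Nat.cast_sub (NeZero.pos (p ^ n)), ZMod.natCast_self, zero_sub, Nat.cast_one]
    rw [← e, ZMod.val_natCast]
  rw [hk, ← pow_eq_pow_mod (p ^ n - 1) ht']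
  refine inv_eq_of_mul_eq_one_right ?_
  rw [← pow_succ', Nat.sub_add_cancel (NeZero.pos (p ^ n)), ht']

theorem nsmul_mod_of_kill {X : Type} [AddCommMonoid X] {m : ℕ} {x : X} (h : m • x = 0) (a : ℕ) :
    (a % m) • x = a • x := by
  conv_rhs => rw [← Nat.mod_add_div a m, add_nsmul, mul_comm m, mul_nsmul', h, nsmul_zero,
    add_zero]

/-- Every Galois element satisfies a quadratic relation with coefficient in `D`. -/
theorem exists_hecke_of_gal {D : Type} [CommRing D] {X : Type} [AddCommGroup X] [Module D X]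
    (n : ℕ) (hX : ∀ x : X, p ^ n • x = 0) (act : GalQ →* Module.End D X)
    {Q : Type} [CommRing Q] (hQ : ((p ^ n : ℕ) : Q) = 0)
    (r : GalQ →* Matrix (Fin 2) (Fin 2) Q) (π : D →+* Q)
    (hact : ∃ L : IntermediateField ℚ Qb, FiniteDimensional ℚ L ∧
      ∀ σ : GalQ, (∀ a ∈ L, σ a = a) → act σ = 1)
    (hr : ∃ L : IntermediateField ℚ Qb, FiniteDimensional ℚ L ∧
      ∀ σ : GalQ, (∀ a ∈ L, σ a = a) → r σ = 1)
    (bad : Finset ℕ) (hp : p ∈ bad)
    (hfrob : ∀ ℓ : ℕ, ℓ.Prime → ℓ ∉ bad → ∀ B : ValuationSubring Qb, B.LiesOverPrime ℓ →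
      ∀ τ : GalQ, B.IsFrobeniusAt τ ℓ → ∃ t : D,
        (∀ x, act τ x + ℓ • act τ⁻¹ x = t • x) ∧ (r τ).trace = π t ∧ (r τ).det = (ℓ : Q))
    (τ : GalQ) :
    ∃ h : D, (∀ x, act τ x + ((cycMod p n τ : (ZMod (p ^ n))ˣ) : ZMod (p ^ n)).val • act τ⁻¹ x =
        h • x) ∧ (r τ).trace = π h ∧
      (r τ).det = ((((cycMod p n τ : (ZMod (p ^ n))ˣ) : ZMod (p ^ n))).val : Q) := by
  classical
  obtain ⟨L₁, hL₁, h₁⟩ := hact
  obtain ⟨L₂, hL₂, h₂⟩ := exists_field_cycP p n
  obtain ⟨L₃, hL₃, h₃⟩ := hr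
  let K := ((act.prod (cycMod p n)).prod r).ker
  have hK : IsOpen (K : Set GalQ) :=
    Subgroup.isOpen_mono (H₁ := (L₁ ⊔ L₂ ⊔ L₃).fixingSubgroup) (fun τ hτ => by
      have hfix := (IntermediateField.mem_fixingSubgroup_iff _ _).1 hτ
      exact MonoidHom.mem_ker.2 (Prod.ext (Prod.ext
        (h₁ τ fun a ha => hfix a ((le_sup_left.trans le_sup_left : L₁ ≤ L₁ ⊔ L₂ ⊔ L₃) ha))
        (Units.ext (h₂ τ fun a ha =>
          hfix a ((le_sup_right.trans le_sup_left : L₂ ≤ L₁ ⊔ L₂ ⊔ L₃) ha))))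
        (h₃ τ fun a ha => hfix a ((le_sup_right : L₃ ≤ L₁ ⊔ L₂ ⊔ L₃) ha))))
      (IntermediateField.fixingSubgroup_isOpen _)
  let Φ : GalQ → Prop := fun τ => ∃ h : D,
    (∀ x, act τ x + ((cycMod p n τ : (ZMod (p ^ n))ˣ) : ZMod (p ^ n)).val • act τ⁻¹ x = h • x) ∧
      (r τ).trace = π h ∧
        (r τ).det = ((((cycMod p n τ : (ZMod (p ^ n))ˣ) : ZMod (p ^ n))).val : Q)
  refine FA.Density.forall_of_frobenius_pow K hK Φ ?_ bad ?_ τ
  · intro τ η hη ⟨h, hx, htr, hdet⟩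
    obtain ⟨hη', h3⟩ := Prod.ext_iff.1 (MonoidHom.mem_ker.1 hη)
    obtain ⟨h1, h2⟩ := Prod.ext_iff.1 hη'
    change act η = 1 at h1
    change cycMod p n η = 1 at h2
    change r η = 1 at h3
    have h1' : act η⁻¹ = 1 := by
      have h4 : act η⁻¹ * act η = 1 := by rw [← map_mul, inv_mul_cancel, map_one]
      rwa [h1, mul_one] at h4
    refine ⟨h, fun x => ?_, ?_, ?_⟩
    · rw [map_mul, map_mul, h2, mul_one, mul_inv_rev, map_mul, h1, h1', mul_one, one_mul]
      exact hx x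
    · rw [map_mul, h3, mul_one, htr]
    · rw [map_mul r, map_mul (cycMod p n), h3, h2, mul_one, mul_one, hdet]
  · intro ℓ hℓ hℓbad B hB τ hτ k
    have hℓp : ℓ ≠ p := fun h => hℓbad (h ▸ hp)
    obtain ⟨t, ht, htr, hdet⟩ := hfrob ℓ hℓ hℓbad B hB τ hτ
    have hcn : ((cycMod p n (τ ^ k) : (ZMod (p ^ n))ˣ) : ZMod (p ^ n)) =
        ((ℓ ^ k : ℕ) : ZMod (p ^ n)) := by
      rw [map_pow, Units.val_pow_eq_pow_val, cycMod_frobenius p n hℓ hℓp hB hτ, Nat.cast_pow]
    refine ⟨powSum t (ℓ : D) k, fun x => ?_, ?_, ?_⟩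
    · have hrel : act τ + (ℓ : D) • act τ⁻¹ = t • 1 := LinearMap.ext fun y => by
        rw [LinearMap.add_apply, LinearMap.smul_apply, LinearMap.smul_apply,
          Nat.cast_smul_eq_nsmul, Module.End.one_apply]
        exact ht y
      have hpow := LinearMap.congr_fun (pow_add_smul_pow
        (by rw [← map_mul, mul_inv_cancel, map_one])
        (by rw [← map_mul, inv_mul_cancel, map_one]) hrel k) x
      rw [LinearMap.add_apply, LinearMap.smul_apply, LinearMap.smul_apply, ← Nat.cast_pow,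
        Nat.cast_smul_eq_nsmul, Module.End.one_apply, ← map_pow, ← map_pow, inv_pow] at hpow
      rw [hcn, ZMod.val_natCast, nsmul_mod_of_kill (hX _)]
      exact hpow
    · rw [map_pow, trace_pow_fin_two, map_powSum π, htr, hdet, map_natCast]
    · rw [hcn, ZMod.val_natCast, map_pow r, Matrix.det_pow, hdet, ← Nat.cast_pow]
      conv_lhs => rw [← Nat.mod_add_div (ℓ ^ k) (p ^ n), Nat.cast_add, Nat.cast_mul, hQ, zero_mul,
        add_zero]

end FA.ModField
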