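import Fermat.Agent.ModField.Congruence.Integral

/-!
# The `ℓ`-th power of a series in characteristic `ℓ`, and series in `T ^ ℓ`
-/

set_option autoImplicit false

noncomputable section

namespace FA.ModField

open ModularCurve

variable {k : Type*} [Field k] (ℓ : ℕ) [hℓ : Fact ℓ.Prime] [CharP k ℓ]

/-- `f ^ ℓ` is `f^φ (T ^ ℓ)`. -/
theorem pow_char_eq_qExpand (f : LaurentSeries k) :
    f ^ ℓ = qExpand k ℓ (coeffMap (frobenius k ℓ) f) := by
  haveI : CharP (LaurentSeries k) ℓ :=
    charP_of_injective_ringHom (f := (HahnSeries.C : k →+* LaurentSeries k))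
      HahnSeries.C_injective ℓ
  let D : LaurentSeries k →+* LaurentSeries k := frobenius _ ℓ
  let E : LaurentSeries k →+* LaurentSeries k :=
    (qExpand k ℓ).comp (coeffMap (frobenius k ℓ))
  have hsingle : ∀ (j : ℤ) (r : k), D (HahnSeries.single j r) = E (HahnSeries.single j r) := by
    intro j r
    show frobenius _ ℓ _ = qExpand k ℓ (coeffMap (frobenius k ℓ) _)
    rw [frobenius_def, HahnSeries.single_pow, coeffMap_single, qExpand_single, frobenius_def,
      nsmul_eq_mul]
  ext n
  set a : ℤ := min f.order (-1)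
  set b : ℤ := max (n + 1) 1
  set f₀ : LaurentSeries k := ∑ j ∈ Finset.Icc a b, HahnSeries.single j (f.coeff j) with hf₀
  have hc : ∀ i, f₀.coeff i = if i ∈ Finset.Icc a b then f.coeff i else 0 := by
    intro i
    rw [hf₀, HahnSeries.coeff_sum]
    simp only [HahnSeries.coeff_single]
    convert Finset.sum_ite_eq (Finset.Icc a b) i fun x => f.coeff x using 1
    refine Finset.sum_congr rfl fun x _ => ?_
    split_ifs <;> rfl
  have hrest : OrdGE (b + 1) (f - f₀) := by
    intro i hi
    rw [HahnSeries.coeff_sub, hc]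
    split_ifs with h
    · exact sub_self _
    · rw [Finset.mem_Icc, not_and] at h
      have hia : i < a := by
        by_contra h'
        exact h (not_lt.1 h') (by omega)
      have : f.coeff i = 0 := HahnSeries.coeff_eq_zero_of_lt_order (by omega)
      rw [this, sub_self]
  have hn : n < (ℓ : ℤ) * (b + 1) := by
    have h2 : (2 : ℤ) ≤ ℓ := by exact_mod_cast hℓ.out.two_le
    nlinarith [le_max_left (n + 1) 1, le_max_right (n + 1) 1]
  have h1 : (D (f - f₀)).coeff n = 0 := by
    show (frobenius _ ℓ (f - f₀)).coeff n = 0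
    rw [frobenius_def]
    refine hrest.pow ℓ n ?_
    simpa [mul_comm] using hn
  have h2 : (E (f - f₀)).coeff n = 0 := by
    show (qExpand k ℓ (coeffMap (frobenius k ℓ) (f - f₀))).coeff n = 0
    by_cases hd : (ℓ : ℤ) ∣ n
    · obtain ⟨m, rfl⟩ := hd
      rw [qExpand_coeff_mul, coeffMap_coeff]
      rw [hrest m (by
        have hl : (0 : ℤ) < ℓ := by exact_mod_cast hℓ.out.pos
        nlinarith), map_zero]
    · exact qExpand_coeff_of_not_dvd ℓ _ hd
  have h0 : D f₀ = E f₀ := by
    rw [hf₀, map_sum, map_sum]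
    exact Finset.sum_congr rfl fun j _ => hsingle j _
  have e1 : f ^ ℓ = D (f - f₀) + D f₀ := by rw [← map_add, sub_add_cancel]; rfl
  have e2 : qExpand k ℓ (coeffMap (frobenius k ℓ) f) = E (f - f₀) + E f₀ := by
    rw [← map_add, sub_add_cancel]; rfl
  rw [e1, e2, HahnSeries.coeff_add, HahnSeries.coeff_add, h1, h2, h0]

variable {A L : Type*} [CommRing A] [Field L]

omit hℓ in
/-- A series over a subring that is a series in `T ^ ℓ` over the field is one over the subring. -/
theorem exists_qExpand_of_coeffMap [NeZero ℓ] {ι : A →+* L} (hι : Function.Injective ι)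
    {P : LaurentSeries A} {g : LaurentSeries L} (h : coeffMap ι P = qExpand L ℓ g) :
    ∃ Z : LaurentSeries A, coeffMap ι Z = g ∧ qExpand A ℓ Z = P := by
  have hsup : ∀ n, P.coeff ((ℓ : ℤ) * n) = 0 ↔ g.coeff n = 0 := fun n => by
    have := congrArg (fun s : LaurentSeries L => s.coeff ((ℓ : ℤ) * n)) h
    simp only [coeffMap_coeff, qExpand_coeff_mul] at this
    rw [← this, map_eq_zero_iff ι hι]
  let Z : LaurentSeries A :=
    { coeff := fun n => P.coeff ((ℓ : ℤ) * n)
      isPWO_support' := g.isPWO_support.mono fun n hn h0 => hn ((hsup n).2 h0) }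
  have hZ : coeffMap ι Z = g := by
    ext n
    have := congrArg (fun s : LaurentSeries L => s.coeff ((ℓ : ℤ) * n)) h
    simp only [coeffMap_coeff, qExpand_coeff_mul] at this
    rw [coeffMap_coeff]
    exact this
  refine ⟨Z, hZ, coeffMap_injective' hι ?_⟩
  rw [coeffMap_qExpand, hZ, h]

end FA.ModField
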