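import Fermat.Agent.ModField.Semistable.WSquare
import Fermat.Agent.ModField.Semistable.FrobSeries
import Fermat.Agent.ModField.Congruence.Fibre
import Fermat.Agent.ModField.Congruence.Integral
import Fermat.Agent.Dim.PsiSum

/-!
# The norm along `β` from level `M q²` to level `M q`

Its conjugates are the twists by the `q`-th roots of unity.
-/

set_option autoImplicit false
set_option linter.style.haveILetI false
set_option linter.unusedSectionVars false
set_option synthInstance.maxHeartbeats 200000
set_option maxHeartbeats 800000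

noncomputable section

namespace FA.ModField

open ModularCurve AlgebraicCurve FA.Curve FA.Level Polynomial

variable (M q : ℕ) [NeZero M] [hq : Fact q.Prime] [hq0 : NeZero q]
variable (L : Type) [Field L] [Algebra ℚ L] [Algebra L ℂ] [IsAlgClosed L] (hqM : ¬ q ∣ M)

include hqM in
theorem psi_mul_sq : dedekindPsi (M * q * q) = dedekindPsi (M * q) * q := by
  have hc : Nat.Coprime M q := ((hq.out.coprime_iff_not_dvd).2 hqM).symm
  have h2 : dedekindPsi (q * q) = q * q + q := by
    rw [show q * q = q ^ (1 + 1) by rw [sq], FA.Dim.dedekindPsi_prime_pow hq.out, pow_one]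
  rw [mul_assoc, FA.Dim.dedekindPsi_mul (hc.mul_right hc), h2, FA.Dim.dedekindPsi_mul hc,
    dedekindPsi_prime hq.out]
  ring

include hqM in
theorem finrank_alpha_sq : finrankAlong L (heckeAlphaBar L (M * q) q) = q := by
  letI := algebraAlong (heckeAlphaBar L (M * q) q)
  haveI := isScalarTower_along (heckeAlphaBar L (M * q) q)
  have h := finrank_adjoin_algebraMap (K := L) (F' := levelField (M * q * q) L) (levelJ (M * q) L)
  have hj : algebraMap (levelField (M * q) L) (levelField (M * q * q) L) (levelJ (M * q) L) =
      levelJ (M * q * q) L := Subtype.ext (coe_heckeAlphaBar (M * q) q _)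
  rw [hj, finrank_levelJ, finrank_levelJ, psi_mul_sq M q hqM] at h
  have hpos : 0 < dedekindPsi (M * q) := by
    rw [← FA.Dim.card_cos]
    haveI : Nonempty (FA.Dim.Cos (M * q)) := ⟨QuotientGroup.mk 1⟩
    haveI : Finite (FA.Dim.Cos (M * q)) := (inferInstance : Finite (lvlGamma0 (M * q)).Cos)
    exact Nat.card_pos
  exact (Nat.eq_of_mul_eq_mul_left hpos h).symm

theorem finrankAlong_congr {K F F' : Type*} [Field K] [Field F] [Algebra K F] [Field F']
    [Algebra K F'] (φ ψ : F →ₐ[K] F') (u : F ≃ₐ[K] F) (v : F' ≃ₐ[K] F')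
    (h : ∀ x, v (φ x) = ψ (u x)) : finrankAlong K φ = finrankAlong K ψ := by
  unfold finrankAlong
  exact @Algebra.finrank_eq_of_equiv_equiv F F' _ _ (algebraAlong φ) F F' _ _ (algebraAlong ψ)
    u.toRingEquiv v.toRingEquiv (RingHom.ext fun x => (h x).symm)

include hqM in
theorem finrank_beta_sq : finrankAlong L (heckeBetaBar L (M * q) q) = q :=
  (finrankAlong_congr (heckeBetaBar L (M * q) q) (heckeAlphaBar L (M * q) q)
    (wLvl M q L hqM) (wSq M q L hqM) (wSq_beta M q L hqM)).trans (finrank_alpha_sq M q L hqM)

theorem norm_conj {F F' Ω : Type*} [Field F] [Field F'] [Field Ω] [Algebra F F']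
    [FiniteDimensional F F'] [Algebra.IsSeparable F F'] (τ : F →+* Ω) {ι : Type*} [Fintype ι]
    (σ : ι → F' →+* Ω) (hσ : Function.Injective σ) (hτ : ∀ i, (σ i).comp (algebraMap F F') = τ)
    (hcard : Fintype.card ι = Module.finrank F F') (hinf : Infinite F) (x : F') :
    τ (Algebra.norm F x) = ∏ i, σ i x := by
  have h := congrArg (Polynomial.eval (τ 0))
    (map_mulCharpoly τ σ hσ hτ hcard hinf (-x))
  rw [Polynomial.eval_map, Polynomial.eval₂_at_apply, eval_mulCharpoly, map_zero, zero_sub,
    neg_neg, Polynomial.eval_prod] at h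
  rw [h]
  exact Finset.prod_congr rfl fun i _ => by simp

/-- The norm along `β`. -/
def normBeta (y : levelField (M * q * q) L) : levelField (M * q) L :=
  letI := algebraAlong (heckeBetaBar L (M * q) q)
  Algebra.norm (levelField (M * q) L) y

theorem normBeta_mul (y z : levelField (M * q * q) L) :
    normBeta M q L (y * z) = normBeta M q L y * normBeta M q L z :=
  letI := algebraAlong (heckeBetaBar L (M * q) q)
  map_mul (Algebra.norm (levelField (M * q) L)) y z

include hqM in
/-- The conjugates along `β`. -/
theorem qExpand_normBeta {ζ : Lˣ} (hζ : IsPrimitiveRoot (ζ : L) q)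
    (y : levelField (M * q * q) L) :
    qExpand L q (normBeta M q L y : LaurentSeries L) =
      ∏ b : Fin q, twist (ζ ^ (b : ℕ)) (y : LaurentSeries L) := by
  letI := algebraAlong (heckeBetaBar L (M * q) q)
  haveI : FiniteDimensional (levelField (M * q) L) (levelField (M * q * q) L) :=
    finiteAlong (isFunctionField_level L _) (isFunctionField_level L _)
      (heckeBetaBar L (M * q) q)
  haveI := charZero_levelField (M * q) (L := L)
  have hζq : ζ ^ q = 1 := Units.ext (by rw [Units.val_pow_eq_pow_val, hζ.pow_eq_one, Units.val_one])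
  refine norm_conj (F := levelField (M * q) L)
    ((qExpand L q).comp (levelField (M * q) L).val.toRingHom)
    (fun b : Fin q => (twist (ζ ^ (b : ℕ))).comp (levelField (M * q * q) L).val.toRingHom)
    ?_ ?_ ?_ inferInstance y
  · intro i j h
    have h1 := congrArg (fun s : LaurentSeries L => s.coeff (-1))
      (RingHom.congr_fun h (levelJ (M * q * q) L))
    simp only [RingHom.comp_apply, AlgHom.toRingHom_eq_coe, RingHom.coe_coe,
      IntermediateField.coe_val, coe_levelJ, twist_coeff, jqModC_coeff_neg_one, mul_one,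
      Units.val_inj, zpow_neg, zpow_one, inv_inj] at h1
    exact Fin.ext ((IsPrimitiveRoot.coe_units_iff.1 hζ).pow_inj i.2 j.2 h1)
  · intro b
    refine RingHom.ext fun x => ?_
    show twist (ζ ^ (b : ℕ)) ((heckeBetaBar L (M * q) q x : levelField (M * q * q) L) :
      LaurentSeries L) = _
    rw [coe_heckeBetaBar, twist_qExpand, ← pow_mul, mul_comm, pow_mul, hζq, one_pow,
      twist_one_apply]
    rfl
  · rw [Fintype.card_fin]
    exact (finrank_beta_sq M q L hqM).symm

include hqM in
/-- Integral series have integral norm, reducing to the Frobenius of the reduction. -/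
theorem exists_normBeta_series (A : ValuationSubring L) {k : Type} [Field k] [CharP k q]
    (π : A →+* k) (Y : LaurentSeries A) (y : levelField (M * q * q) L)
    (hY : coeffMap (A.subtype : A →+* L) Y = (y : LaurentSeries L)) :
    ∃ Z : LaurentSeries A,
      coeffMap (A.subtype : A →+* L) Z = (normBeta M q L y : LaurentSeries L) ∧
        coeffMap π Z = coeffMap (frobenius k q) (coeffMap π Y) := by
  obtain ⟨ζ, hζC, hζπ⟩ := exists_zeta_val q L A π
  set ζL : Lˣ := Units.map (A.subtype : A →+* L).toMonoidHom ζ
  have hζ : IsPrimitiveRoot (ζL : L) q := by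
    refine IsPrimitiveRoot.of_map_of_injective ?_ (algebraMap L ℂ).injective
    show IsPrimitiveRoot (algebraMap L ℂ ((ζ : A) : L)) q
    rw [hζC]
    exact zetaN_prim q
  have hP : coeffMap (A.subtype : A →+* L) (∏ b : Fin q, twist (ζ ^ (b : ℕ)) Y) =
      qExpand L q (normBeta M q L y : LaurentSeries L) := by
    rw [qExpand_normBeta M q L hqM hζ, map_prod]
    refine Finset.prod_congr rfl fun b _ => ?_
    rw [coeffMap_twist, hY, map_pow]
    rfl
  obtain ⟨Z, hZ, hZP⟩ := exists_qExpand_of_coeffMap q A.subtype_injective hP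
  refine ⟨Z, hZ, qExpand_injective q ?_⟩
  rw [← coeffMap_qExpand, hZP, ← pow_char_eq_qExpand, map_prod, ← Fin.prod_const]
  refine Finset.prod_congr rfl fun b _ => ?_
  have h1 : Units.map (π : A →* k) ζ = 1 := Units.ext hζπ
  rw [coeffMap_twist, map_pow, h1, one_pow, twist_one_apply]

/-- The norm along `α` is the norm along `β` read through the involutions. -/
theorem wLvl_normAlpha (g : levelField (M * q) L) :
    wLvl M q L hqM (letI := algebraAlong (heckeAlphaBar L (M * q) q)
      Algebra.norm (levelField (M * q) L) (heckeBetaBar L (M * q) q g)) =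
      normBeta M q L (heckeAlphaBar L (M * q) q (wLvl M q L hqM g)) := by
  have h := @Algebra.norm_eq_of_equiv_equiv (levelField (M * q) L) (levelField (M * q * q) L)
    (levelField (M * q) L) (levelField (M * q * q) L) _ _ _ _
    (algebraAlong (heckeAlphaBar L (M * q) q)) (algebraAlong (heckeBetaBar L (M * q) q))
    (wLvl M q L hqM).toRingEquiv (wSq M q L hqM).toRingEquiv
    (RingHom.ext fun x => (wSq_alpha M q L hqM x).symm) (heckeBetaBar L (M * q) q g)
  rw [h]
  simp only [normBeta]
  show wLvl M q L hqM ((wLvl M q L hqM).toRingEquiv.symm _) = _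
  rw [show (wLvl M q L hqM).toRingEquiv.symm = (wLvl M q L hqM).symm.toRingEquiv from rfl]
  refine (AlgEquiv.apply_symm_apply _ _).trans ?_
  exact congrArg _ (wSq_beta M q L hqM g)

end FA.ModField
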