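import Fermat.Agent.CurveRed.Ext
import Fermat.Agent.Curve.Along

/-!
# Reduction of torsion classes along a constant reduction

A class killed by `n` is `[D]` with `n D` the divisor of a function `g`; the reduction of `g`,
modulo constants and `n`-th powers, only depends on the class.
-/

set_option autoImplicit false
set_option linter.style.haveILetI false
set_option linter.unusedSectionVars false

noncomputable section

namespace FA.ModField

open AlgebraicCurve FA.Curve FA.CurveRed Polynomial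

section Target

variable (k Fk : Type*) [Field k] [Field Fk] [Algebra k Fk] (n : ℕ)

/-- Constants and `n`-th powers. -/
def powConst : Subgroup Fkˣ :=
  (Units.map (algebraMap k Fk).toMonoidHom).range ⊔ (powMonoidHom n).range

/-- Nonzero functions modulo constants and `n`-th powers. -/
abbrev RedTarget : Type _ := Additive (Fkˣ ⧸ powConst k Fk n)

variable {k Fk}

open Classical in
/-- The class of a function. -/
def redCls (r : Fk) : RedTarget k Fk n :=
  if h : r ≠ 0 then Additive.ofMul (QuotientGroup.mk (Units.mk0 r h)) else 0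

theorem redCls_mul {r s : Fk} (hr : r ≠ 0) (hs : s ≠ 0) :
    redCls (k := k) n (r * s) = redCls n r + redCls n s := by
  rw [redCls, redCls, redCls, dif_pos hr, dif_pos hs, dif_pos (mul_ne_zero hr hs), Units.mk0_mul,
    QuotientGroup.mk_mul]
  rfl

theorem redCls_const {a : k} (ha : a ≠ 0) : redCls (k := k) n (algebraMap k Fk a) = 0 := by
  have h : algebraMap k Fk a ≠ 0 := by simpa using ha
  rw [redCls, dif_pos h, ofMul_eq_zero, QuotientGroup.eq_one_iff]
  exact Subgroup.mem_sup_left ⟨Units.mk0 a ha, Units.ext rfl⟩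

theorem redCls_pow (r : Fk) : redCls (k := k) n (r ^ n) = 0 := by
  rw [redCls]
  split_ifs with h
  · rcases eq_or_ne n 0 with rfl | hn
    · rw [ofMul_eq_zero, QuotientGroup.eq_one_iff]
      convert one_mem (powConst k Fk 0)
      exact Units.ext (pow_zero r)
    · have hr : r ≠ 0 := fun h0 => h (by rw [h0, zero_pow hn])
      rw [ofMul_eq_zero, QuotientGroup.eq_one_iff]
      exact Subgroup.mem_sup_right ⟨Units.mk0 r hr, Units.ext rfl⟩
  · rfl

theorem redCls_eq_zero_iff {r : Fk} (hr : r ≠ 0) :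
    redCls (k := k) n r = 0 ↔ ∃ (a : k) (h : Fk), a ≠ 0 ∧ r = algebraMap k Fk a * h ^ n := by
  rw [redCls, dif_pos hr, ofMul_eq_zero, QuotientGroup.eq_one_iff, powConst, Subgroup.mem_sup]
  constructor
  · rintro ⟨_, ⟨a, rfl⟩, _, ⟨h, rfl⟩, e⟩
    exact ⟨a, h, a.ne_zero, (congrArg Units.val e).symm⟩
  · rintro ⟨a, h, ha, e⟩
    rcases eq_or_ne n 0 with rfl | hn
    · exact ⟨_, ⟨Units.mk0 a ha, rfl⟩, 1, one_mem _, Units.ext (by simp [e])⟩
    · have hh : h ≠ 0 := fun h0 => hr (by rw [e, h0, zero_pow hn, mul_zero])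
      exact ⟨_, ⟨Units.mk0 a ha, rfl⟩, _, ⟨Units.mk0 h hh, rfl⟩, Units.ext e.symm⟩

theorem redCls_pow_left (r : Fk) (hr : r ≠ 0) (m : ℕ) :
    redCls (k := k) n (r ^ m) = m • redCls n r := by
  induction m with
  | zero => rw [pow_zero, zero_nsmul, ← map_one (algebraMap k Fk), redCls_const n one_ne_zero]
  | succ m ih => rw [pow_succ, redCls_mul n (pow_ne_zero _ hr) hr, ih, succ_nsmul]

/-- A semilinear endomorphism acts on the target. -/
def mapRedTarget (θ : Fk →+* Fk) (hθ : ∀ a : k, θ (algebraMap k Fk a) ∈ (algebraMap k Fk).range) :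
    RedTarget k Fk n →+ RedTarget k Fk n :=
  MonoidHom.toAdditive (QuotientGroup.map (powConst k Fk n) (powConst k Fk n)
    (Units.map θ.toMonoidHom) (sup_le
      (by
        rintro _ ⟨a, rfl⟩
        obtain ⟨b, hb⟩ := hθ a
        have hb0 : b ≠ 0 := fun h => by
          rw [h, map_zero] at hb
          exact (map_ne_zero θ).2 (show algebraMap k Fk (a : k) ≠ 0 by simp) hb.symm
        exact Subgroup.mem_sup_left ⟨Units.mk0 b hb0, Units.ext hb⟩)
      (by
        rintro _ ⟨h, rfl⟩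
        exact Subgroup.mem_sup_right ⟨Units.map θ.toMonoidHom h,
          (map_pow (Units.map θ.toMonoidHom) h n).symm⟩)))

theorem mapRedTarget_redCls {θ : Fk →+* Fk}
    (hθ : ∀ a : k, θ (algebraMap k Fk a) ∈ (algebraMap k Fk).range) {r : Fk} (hr : r ≠ 0) :
    mapRedTarget n θ hθ (redCls n r) = redCls n (θ r) := by
  rw [redCls, dif_pos hr, redCls, dif_pos ((map_ne_zero θ).2 hr)]
  exact congrArg Additive.ofMul (congrArg QuotientGroup.mk (Units.ext rfl))

theorem mapRedTarget_id (x : RedTarget k Fk n) :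
    mapRedTarget (k := k) n (RingHom.id Fk)
      (fun a : k => (⟨a, rfl⟩ : algebraMap k Fk a ∈ (algebraMap k Fk).range)) x = x := by
  obtain ⟨u, rfl⟩ : ∃ u : Fkˣ, Additive.ofMul (QuotientGroup.mk u) = x :=
    ⟨_, QuotientGroup.out_eq' (Additive.toMul x)⟩
  exact congrArg Additive.ofMul (congrArg QuotientGroup.mk (Units.ext rfl))

end Target

section Map

variable {K F k Fk : Type*} [Field K] [IsAlgClosed K] [Field F] [Algebra K F] [Field k] [Field Fk]
  [Algebra k Fk] {A : ValuationSubring K} (C : ConstRed K F k Fk A) (n : ℕ)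

open Classical in
/-- The class of the reduction of a function after scaling. -/
def redFn (f : F) : RedTarget k Fk n :=
  if h : ∃ (c : K) (g : F) (r : Fk), c ≠ 0 ∧ f = algebraMap K F c * g ∧ C.Red g r ∧ r ≠ 0 then
    redCls n h.choose_spec.choose_spec.choose
  else 0

variable {C}

theorem redCls_eq_of_scaled {g g' : F} {r r' : Fk} {c c' : K} (hc' : c' ≠ 0)
    (he : algebraMap K F c * g = algebraMap K F c' * g') (hg : C.Red g r) (hr : r ≠ 0)
    (hg' : C.Red g' r') (hr' : r' ≠ 0) : redCls (k := k) n r' = redCls n r := by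
  have hce : algebraMap K F (c / c') * g = g' := by
    rw [map_div₀, div_mul_eq_mul_div, div_eq_iff (by simpa using hc'), he, mul_comm]
  rw [← hce] at hg'
  obtain ⟨hcA, e⟩ := hg.smul_cancel hr (c := c / c') hg'
  have hπ : C.π ⟨_, hcA⟩ ≠ 0 := fun h0 => hr' (by rw [e, h0, map_zero, zero_mul])
  rw [e, redCls_mul n (by simpa using hπ) hr, redCls_const n hπ]
  exact zero_add (redCls (k := k) n r : RedTarget k Fk n)

theorem redFn_eq {f g : F} {r : Fk} {c : K} (hc : c ≠ 0) (hf : f = algebraMap K F c * g)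
    (hg : C.Red g r) (hr : r ≠ 0) : redFn C n f = redCls n r := by
  have h : ∃ (c : K) (g : F) (r : Fk), c ≠ 0 ∧ f = algebraMap K F c * g ∧ C.Red g r ∧ r ≠ 0 :=
    ⟨c, g, r, hc, hf, hg, hr⟩
  rw [redFn, dif_pos h]
  obtain ⟨hc', hf', hg', hr'⟩ := h.choose_spec.choose_spec.choose_spec
  exact redCls_eq_of_scaled n hc' (hf.symm.trans hf') hg hr hg' hr'

theorem redFn_red {g : F} {r : Fk} (hg : C.Red g r) (hr : r ≠ 0) : redFn C n g = redCls n r :=
  redFn_eq n one_ne_zero (by rw [map_one, one_mul]) hg hr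

theorem exists_scaled (hC : C.Scaled) {f : F} (hf : f ≠ 0) :
    ∃ (c : K) (g : F) (r : Fk), c ≠ 0 ∧ f = algebraMap K F c * g ∧ C.Red g r ∧ r ≠ 0 := by
  obtain ⟨c, g, r, h, hg, hr⟩ := hC f (Set.mem_univ f) hf
  exact ⟨c, g, r, fun h0 => hf (by rw [h, h0, map_zero, zero_mul]), h, hg, hr⟩

theorem redFn_mul (hC : C.Scaled) {f f' : F} (hf : f ≠ 0) (hf' : f' ≠ 0) :
    redFn C n (f * f') = redFn C n f + redFn C n f' := by
  obtain ⟨c, g, r, hc, e, hg, hr⟩ := exists_scaled hC hf
  obtain ⟨c', g', r', hc', e', hg', hr'⟩ := exists_scaled hC hf'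
  rw [redFn_eq n hc e hg hr, redFn_eq n hc' e' hg' hr',
    redFn_eq n (mul_ne_zero hc hc') (by rw [e, e', map_mul]; ring) (hg.mul hg')
      (mul_ne_zero hr hr'), redCls_mul n hr hr']

theorem redFn_const {c : K} (hc : c ≠ 0) : redFn C n (algebraMap K F c) = 0 := by
  rw [redFn_eq n hc (mul_one _).symm ConstRed.red_one one_ne_zero, ← map_one (algebraMap k Fk),
    redCls_const n one_ne_zero]

theorem redFn_pow (hC : C.Scaled) {f : F} (hf : f ≠ 0) : redFn C n (f ^ n) = 0 := by
  obtain ⟨c, g, r, hc, e, hg, hr⟩ := exists_scaled hC hf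
  rw [redFn_eq n (pow_ne_zero n hc) (by rw [e, mul_pow, map_pow]) (hg.pow n) (pow_ne_zero n hr),
    redCls_pow]

variable (hF : IsFunctionField K F)

theorem exists_torsion_fn (x : Pic0.torsion K F n) :
    ∃ (D : Divisor.degZero (K := K) (F := F)) (g : F), Pic0.mk D = (x : Pic0 K F) ∧ g ≠ 0 ∧
      ∀ P, (n : ℤ) * (D : Divisor K F) P = P.ord g := by
  obtain ⟨D, hD⟩ := Pic0.mk_surjective (x : Pic0 K F)
  have h : Pic0.mk ((n : ℤ) • D) = 0 := by
    have := Pic0.mem_torsion.1 x.2
    rw [← hD] at this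
    exact this
  rw [Pic0.mk, QuotientAddGroup.eq_zero_iff, AddSubgroup.mem_addSubgroupOf] at h
  obtain ⟨g, hg, hgD⟩ := h
  exact ⟨D, g, hD, hg, fun P => by simpa using hgD P⟩

include hF in
theorem exists_const_of_ord_eq {f g : F} (hf : f ≠ 0) (hg : g ≠ 0)
    (h : ∀ P : Place K F, P.ord f = P.ord g) : ∃ c : K, c ≠ 0 ∧ f = algebraMap K F c * g := by
  by_cases hex : ∃ c : K, f / g = algebraMap K F c
  · obtain ⟨c, hc⟩ := hex
    refine ⟨c, fun h0 => div_ne_zero hf hg (by rw [hc, h0, map_zero]), ?_⟩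
    rw [← hc, div_mul_cancel₀ f hg]
  · push Not at hex
    obtain ⟨P, hP⟩ := exists_ord_neg hF (transcendental_of_not_const hex)
    rw [div_eq_mul_inv, P.ord_mul hf (inv_ne_zero hg), P.ord_inv, h P] at hP
    omega

variable (C) in
/-- The reduction of `n`-torsion classes, as a function. -/
def redTorFun (x : Pic0.torsion K F n) : RedTarget k Fk n :=
  redFn C n (exists_torsion_fn n x).choose_spec.choose

include hF in
theorem redFn_congr (hC : C.Scaled) {D D₀ : Divisor.degZero (K := K) (F := F)} {g g₀ : F}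
    (he : Pic0.mk D₀ = Pic0.mk D) (hg : g ≠ 0)
    (hgD : ∀ P, (n : ℤ) * (D : Divisor K F) P = P.ord g) (hg₀ : g₀ ≠ 0)
    (hgD₀ : ∀ P, (n : ℤ) * (D₀ : Divisor K F) P = P.ord g₀) : redFn C n g₀ = redFn C n g := by
  rw [Pic0.mk, Pic0.mk, QuotientAddGroup.eq, AddSubgroup.mem_addSubgroupOf] at he
  obtain ⟨h, hh, hhD⟩ := he
  have hDh : ∀ P, (D : Divisor K F) P = (D₀ : Divisor K F) P + P.ord h := fun P => by
    rw [← hhD P]; simp
  obtain ⟨c, hc, e⟩ := exists_const_of_ord_eq hF hg (mul_ne_zero hg₀ (pow_ne_zero n hh)) fun P => by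
    rw [P.ord_mul hg₀ (pow_ne_zero n hh), FA.ModField.place_ord_pow, ← hgD₀ P, ← hgD P, hDh P]
    ring
  rw [e, redFn_mul n hC (by simpa using hc) (mul_ne_zero hg₀ (pow_ne_zero n hh)), redFn_const n hc,
    redFn_mul n hC hg₀ (pow_ne_zero n hh), redFn_pow n hC hh]
  exact ((zero_add (redFn C n g₀ + 0 : RedTarget k Fk n)).trans
    (add_zero (redFn C n g₀ : RedTarget k Fk n))).symm

include hF in
theorem redTorFun_mk (hC : C.Scaled) (x : Pic0.torsion K F n)
    {D : Divisor.degZero (K := K) (F := F)} {g : F} (hD : Pic0.mk D = (x : Pic0 K F)) (hg : g ≠ 0)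
    (hgD : ∀ P, (n : ℤ) * (D : Divisor K F) P = P.ord g) : redTorFun C n x = redFn C n g := by
  obtain ⟨hD₀, hg₀, hgD₀⟩ := (exists_torsion_fn n x).choose_spec.choose_spec
  exact redFn_congr n hF hC (hD₀.trans hD.symm) hg hgD hg₀ hgD₀

/-- The reduction of `n`-torsion classes. -/
def redTor (hC : C.Scaled) : Pic0.torsion K F n →+ RedTarget k Fk n :=
  AddMonoidHom.mk' (redTorFun C n) fun x y => by
    obtain ⟨D, g, hD, hg, hgD⟩ := exists_torsion_fn n x
    obtain ⟨E, f, hE, hf, hfE⟩ := exists_torsion_fn n y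
    rw [redTorFun_mk n hF hC x hD hg hgD, redTorFun_mk n hF hC y hE hf hfE,
      redTorFun_mk n hF hC (x + y) (D := D + E) (g := g * f)
        (by rw [Pic0.mk_add, hD, hE]; rfl) (mul_ne_zero hg hf) (fun P => by
          rw [P.ord_mul hg hf, ← hgD P, ← hfE P]; simp [mul_add]),
      redFn_mul n hC hg hf]

theorem redTor_mk (hC : C.Scaled) (x : Pic0.torsion K F n)
    {D : Divisor.degZero (K := K) (F := F)} {g : F} (hD : Pic0.mk D = (x : Pic0 K F)) (hg : g ≠ 0)
    (hgD : ∀ P, (n : ℤ) * (D : Divisor K F) P = P.ord g) :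
    redTor n hF hC x = redFn C n g :=
  redTorFun_mk n hF hC x hD hg hgD

/-! ### Semilinear automorphisms -/

variable (C) in
/-- `s` preserves the integral functions and reduces to `θ`. -/
def IntertwinesRed (s : SemilinearAut K F) (θ : Fk →+* Fk) : Prop :=
  ∀ f r, C.Red f r → C.Red (s • f) (θ r)

theorem redTor_smul (hC : C.Scaled) {s : SemilinearAut K F} {θ : Fk →+* Fk}
    (hs : IntertwinesRed C s θ) (hθ : ∀ a : k, θ (algebraMap k Fk a) ∈ (algebraMap k Fk).range)
    (x : Pic0.torsion K F n) :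
    redTor n hF hC (s • x) = mapRedTarget n θ hθ (redTor n hF hC x) := by
  obtain ⟨D, g, hD, hg, hgD⟩ := exists_torsion_fn n x
  obtain ⟨c, f, r, hc, e, hfr, hr⟩ := exists_scaled hC hg
  have hsg : s • g = algebraMap K F (SemilinearAut.baseAut s c) * (s • f) := by
    rw [e, smul_mul', SemilinearAut.smul_algebraMap]
  have hsgD : ∀ P, (n : ℤ) * ((SemilinearAut.degZeroSMulHom s D : Divisor.degZero) :
      Divisor K F) P = P.ord (s • g) := fun P => by
    rw [SemilinearAut.coe_degZeroSMulHom, SemilinearAut.divisor_smul_apply, hgD]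
    have := SemilinearAut.ord_smul s (s⁻¹ • P) g
    rw [smul_inv_smul] at this
    exact this.symm
  rw [redTor_mk n hF hC (s • x) (D := SemilinearAut.degZeroSMulHom s D) (g := s • g)
      (by rw [SemilinearAut.coe_torsion_smul, ← hD, SemilinearAut.pic0_smul_mk])
      (fun h0 => hg (smul_left_cancel s (h0.trans (smul_zero s).symm))) hsgD,
    redFn_eq n (by simpa using hc) hsg (hs f r hfr) ((map_ne_zero θ).2 hr),
    redTor_mk n hF hC x hD hg hgD, redFn_eq n hc e hfr hr, mapRedTarget_redCls n hθ hr]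

/-! ### Correspondences -/

variable {F' : Type*} [Field F'] [Algebra K F'] [HasPrincipalDivisors K F']

theorem redTor_correspondence (hC : C.Scaled) (φ ψ : F →ₐ[K] F') (hφ : φ.toRingHom.IsIntegral)
    (hψ : ψ.toRingHom.IsIntegral) (hFI : FundamentalIdentityAlong K φ hφ)
    (hfin : FiniteAlong K ψ) (hN : NormFormulaAlong K ψ hfin) {θ : Fk →+* Fk}
    (hθ : ∀ a : k, θ (algebraMap k Fk a) ∈ (algebraMap k Fk).range)
    (hnorm : ∀ (f : F) (r : Fk), C.Red f r → r ≠ 0 →
      C.Red (letI := algebraAlong ψ; Algebra.norm F (φ f)) (θ r))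
    (x y : Pic0.torsion K F n)
    (hy : (y : Pic0 K F) = Pic0.correspondence φ ψ hφ hψ hFI hfin hN (x : Pic0 K F)) :
    redTor n hF hC y = mapRedTarget n θ hθ (redTor n hF hC x) := by
  obtain ⟨D, g, hD, hg, hgD⟩ := exists_torsion_fn n x
  obtain ⟨c, f, r, hc, e, hfr, hr⟩ := exists_scaled hC hg
  letI := algebraAlong ψ
  haveI := isScalarTower_along ψ
  haveI := isIntegral_along ψ hψ
  haveI : Module.Finite F F' := hfin
  have hnφ : φ g ≠ 0 := (map_ne_zero φ.toRingHom).2 hg
  have hng : Algebra.norm F (φ g) ≠ 0 := Algebra.norm_ne_zero_iff.2 hnφ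
  have hpull : ∀ w, ((n : ℤ) • Divisor.pullbackAlong φ hφ (D : Divisor K F)) w = w.ord (φ g) :=
    fun w => by
      rw [Finsupp.smul_apply, smul_eq_mul, Divisor.pullbackAlong_apply, Place.ord_restrictAlong φ hφ,
        ← hgD]
      ring
  have hdiv : ∀ P, (n : ℤ) *
      ((Pic0.degZeroCorrespondence φ ψ hφ hψ hFI D : Divisor.degZero) : Divisor K F) P =
        P.ord (Algebra.norm F (φ g)) := by
    intro P
    rw [Pic0.coe_degZeroCorrespondence, Divisor.correspondence_apply, ← smul_eq_mul,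
      ← Finsupp.smul_apply, ← map_zsmul]
    exact hN (φ g) hnφ _ hpull P
  have hnc : Algebra.norm F (φ g) =
      algebraMap K F (c ^ Module.finrank F F') * Algebra.norm F (φ f) := by
    rw [e, map_mul, map_mul, φ.commutes, IsScalarTower.algebraMap_apply K F F',
      Algebra.norm_algebraMap, map_pow]
  rw [redTor_mk n hF hC y (D := Pic0.degZeroCorrespondence φ ψ hφ hψ hFI D)
      (g := Algebra.norm F (φ g))
      (by rw [hy, ← hD, Pic0.correspondence_mk]) hng hdiv,
    redFn_eq n (pow_ne_zero _ hc) hnc (hnorm f r hfr hr) ((map_ne_zero θ).2 hr),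
    redTor_mk n hF hC x hD hg hgD, redFn_eq n hc e hfr hr, mapRedTarget_redCls n hθ hr]

end Map

end FA.ModField
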