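import Fermat.Agent.ModField.Semistable.RedInf
import Fermat.Agent.ModField.Semistable.RedMap
import Fermat.Agent.ModField.Semistable.Transport
import Fermat.Agent.ModField.Semistable.NormU
import Fermat.Agent.ModField.Congruence.Galois

/-!
# The two constant reductions of `X₀(M q)` at `q`

`cInf` is the reduction of `q`-expansions, `cZero` its composite with the Atkin–Lehner involution.
Both intertwine the Galois action with the action on coefficients; the transpose of `U_q` on
`cInf`, and `U_q` on `cZero`, reduce to the Frobenius of coefficients.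
-/

set_option autoImplicit false
set_option linter.style.haveILetI false
set_option linter.unusedSectionVars false
set_option synthInstance.maxHeartbeats 200000
set_option maxHeartbeats 800000

noncomputable section

namespace FA.ModField

open ModularCurve AlgebraicCurve FA.Curve FA.CurveRed FA.CurveRed.Modular

variable (M : ℕ) [NeZero M] {k : Type} [Field k]

theorem coeffMap_mem_fullC (φ : k →+* k) {x : LaurentSeries k}
    (hx : x ∈ modularFunctionFieldFullC k M) :
    coeffMap φ x ∈ modularFunctionFieldFullC k M := by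
  induction hx using IntermediateField.adjoin_induction with
  | mem y hy =>
    obtain ⟨d, hne, hd, rfl⟩ := hy
    haveI := hne
    rw [coeffMap_qExpand, coeffMap_jqModC]
    exact jqModCd_mem_full k M hd
  | algebraMap c =>
    rw [algebraMap_laurentSeries_eq_single, coeffMap_single, ← algebraMap_laurentSeries_eq_single]
    exact IntermediateField.algebraMap_mem _ _
  | add y z _ _ hy hz => rw [map_add]; exact add_mem hy hz
  | inv y _ hy => rw [map_inv₀]; exact inv_mem hy
  | mul y z _ _ hy hz => rw [map_mul]; exact mul_mem hy hz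

/-- A map of constants acting on coefficients. -/
def fullMap (φ : k →+* k) :
    modularFunctionFieldFullC k M →+* modularFunctionFieldFullC k M :=
  ((coeffMap φ).comp (modularFunctionFieldFullC k M).val.toRingHom).codRestrict _
    fun x => coeffMap_mem_fullC M φ x.2

theorem coe_fullMap (φ : k →+* k) (x : modularFunctionFieldFullC k M) :
    (fullMap M φ x : LaurentSeries k) = coeffMap φ (x : LaurentSeries k) := rfl

theorem fullMap_const (φ : k →+* k) (a : k) :
    fullMap M φ (algebraMap k (modularFunctionFieldFullC k M) a) ∈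
      (algebraMap k (modularFunctionFieldFullC k M)).range := by
  refine ⟨φ a, Subtype.ext ?_⟩
  rw [coe_fullMap]
  show algebraMap k (LaurentSeries k) (φ a) = coeffMap φ (algebraMap k (LaurentSeries k) a)
  rw [algebraMap_laurentSeries_eq_single, algebraMap_laurentSeries_eq_single, coeffMap_single]

theorem fullMap_id (x : modularFunctionFieldFullC k M) : fullMap M (RingHom.id k) x = x :=
  Subtype.ext (by rw [coe_fullMap, coeffMap_id])

variable (q : ℕ) [hq : Fact q.Prime] [hq0 : NeZero q]
variable {L : Type} [Field L] [Algebra ℚ L] [Algebra L ℂ] [IsAlgClosed L]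
variable (A : ValuationSubring L) [IsAlgClosed k] [CharP k q] (π : A →+* k)
  (hπs : Function.Surjective π) (hπ0 : ∀ a : A, π a = 0 ↔ A.valuation a < 1) (hqM : ¬ q ∣ M)
  (harch : ∀ c : L, c ≠ 0 → ∃ m : ℕ, A.valuation ((q : L) ^ m) < A.valuation c)

/-- The component of the cusp `∞`. -/
def cInf : ConstRed L (levelField (M * q) L) k (modularFunctionFieldFullC k M) A :=
  redComap (redInf M q A π hπs hπ0 hqM harch) (lvlEquiv L (M * q))

/-- The component of the cusp `0`. -/
def cZero : ConstRed L (levelField (M * q) L) k (modularFunctionFieldFullC k M) A :=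
  redComap (cInf M q A π hπs hπ0 hqM harch) (wLvl M q L hqM)

theorem scaled_cInf : (cInf M q A π hπs hπ0 hqM harch).Scaled :=
  scaled_redComap (scaled_redInf M q A π hπs hπ0 hqM harch) _

theorem scaled_cZero : (cZero M q A π hπs hπ0 hqM harch).Scaled :=
  scaled_redComap (scaled_cInf M q A π hπs hπ0 hqM harch) _

theorem cInf_pi : (cInf M q A π hπs hπ0 hqM harch).π = π := rfl

theorem cZero_pi : (cZero M q A π hπs hπ0 hqM harch).π = π := rfl

theorem cZero_red {f : levelField (M * q) L} {r : modularFunctionFieldFullC k M} :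
    (cZero M q A π hπs hπ0 hqM harch).Red f r ↔
      (cInf M q A π hπs hπ0 hqM harch).Red (wLvl M q L hqM f) r :=
  redComap_red

/-- The reduction to the component of `∞` is the reduction of quotients of integral series. -/
theorem cInf_red {f : levelField (M * q) L} {r : modularFunctionFieldFullC k M} :
    (cInf M q A π hπs hπ0 hqM harch).Red f r ↔
      ∃ Y Y' : LaurentSeries A,
        coeffMap (A.subtype : A →+* L) Y ∈ levelField (M * q) L ∧
        coeffMap (A.subtype : A →+* L) Y' ∈ levelField (M * q) L ∧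
        coeffMap π Y' ≠ 0 ∧
        (f : LaurentSeries L) * coeffMap (A.subtype : A →+* L) Y' =
          coeffMap (A.subtype : A →+* L) Y ∧
        (r : LaurentSeries k) * coeffMap π Y' = coeffMap π Y := by
  rw [cInf, redComap_red, redInf_iff, redBig, constRedOfQuot_red]
  constructor
  · rintro ⟨y, y', hy', hf, hr⟩
    refine ⟨y, y', (laurentBaseChange_full L (M * q)).ge y.2,
      (laurentBaseChange_full L (M * q)).ge y'.2, hy', ?_, hr⟩
    have h := congrArg Subtype.val hf
    rw [← coe_lvlEquiv L (M * q) f]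
    exact h
  · rintro ⟨Y, Y', hY, hY', hne, hf, hr⟩
    refine ⟨⟨Y, (laurentBaseChange_full L (M * q)).le hY⟩,
      ⟨Y', (laurentBaseChange_full L (M * q)).le hY'⟩, hne, Subtype.ext ?_, hr⟩
    rw [← coe_lvlEquiv L (M * q) f] at hf
    exact hf

/-! ### The Galois action -/

theorem wLvl_gal (σ : L ≃ₐ[ℚ] L) (f : levelField (M * q) L) :
    wLvl M q L hqM (galAut (M * q) L σ • f) = galAut (M * q) L σ • wLvl M q L hqM f := by
  have h : (wLvl M q L hqM).toRingEquiv.toRingHom.comp
      ((SemilinearAut.toRingAut (galAut (M * q) L σ)).toRingHom.comp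
        (lvlEquiv L (M * q)).symm.toRingEquiv.toRingHom) =
      (SemilinearAut.toRingAut (galAut (M * q) L σ)).toRingHom.comp
        ((wLvl M q L hqM).toRingEquiv.toRingHom.comp
          (lvlEquiv L (M * q)).symm.toRingEquiv.toRingHom) := by
    refine RingHom.ext fun ⟨x, hx⟩ => ?_
    induction hx using IntermediateField.adjoin_induction with
    | mem y hy =>
      obtain ⟨d, hne, hd, rfl⟩ := hy
      haveI := hne
      haveI : NeZero (swapDiv q d) :=
        ⟨(Nat.pos_of_dvd_of_pos (swapDiv_dvd M q hd) (NeZero.pos _)).ne'⟩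
      have hfix : galAut (M * q) L σ • lvlGenD L (M * q) d hd = lvlGenD L (M * q) d hd := by
        apply Subtype.ext
        show coeffMap (σ : L →+* L) (lvlGenD L (M * q) d hd : LaurentSeries L) = _
        rw [coe_lvlGenD, coeffMap_qExpand, coeffMap_jqModC]
      show wLvl M q L hqM (galAut (M * q) L σ • lvlGenD L (M * q) d hd) =
        galAut (M * q) L σ • wLvl M q L hqM (lvlGenD L (M * q) d hd)
      rw [hfix]
      apply Subtype.ext
      show _ = coeffMap (σ : L →+* L) (wLvl M q L hqM (lvlGenD L (M * q) d hd) : LaurentSeries L)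
      rw [coe_wLvl_gen, coeffMap_qExpand, coeffMap_jqModC]
    | algebraMap c =>
      show wLvl M q L hqM (galAut (M * q) L σ • (lvlEquiv L (M * q)).symm (algebraMap L _ c)) =
        galAut (M * q) L σ • wLvl M q L hqM ((lvlEquiv L (M * q)).symm (algebraMap L _ c))
      rw [AlgEquiv.commutes, AlgEquiv.commutes, SemilinearAut.smul_algebraMap, AlgEquiv.commutes]
    | add y z hy hz h1 h2 =>
      refine (map_add _ (⟨y, hy⟩ : modularFunctionFieldFullC L (M * q)) ⟨z, hz⟩).trans ?_
      rw [h1, h2]
      exact (map_add _ _ _).symm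
    | inv y hy h1 =>
      refine (map_inv₀ _ (⟨y, hy⟩ : modularFunctionFieldFullC L (M * q))).trans ?_
      rw [h1]
      exact (map_inv₀ _ _).symm
    | mul y z hy hz h1 h2 =>
      refine (map_mul _ (⟨y, hy⟩ : modularFunctionFieldFullC L (M * q)) ⟨z, hz⟩).trans ?_
      rw [h1, h2]
      exact (map_mul _ _ _).symm
  have h2 := RingHom.congr_fun h (lvlEquiv L (M * q) f)
  simp only [RingHom.comp_apply, RingEquiv.toRingHom_eq_coe, RingHom.coe_coe,
    AlgEquiv.coe_ringEquiv, AlgEquiv.symm_apply_apply] at h2
  exact h2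

theorem intertwines_cInf {σ : L ≃ₐ[ℚ] L} {φ : k →+* k} (hσ : InducesOn L π σ φ) :
    IntertwinesRed (cInf M q A π hπs hπ0 hqM harch) (galAut (M * q) L σ) (fullMap M φ) := by
  choose b hb hbπ using hσ
  let sA : A →+* A :=
    { toFun := b
      map_one' := Subtype.ext (by rw [hb]; exact map_one σ)
      map_mul' := fun x y => Subtype.ext (by
        rw [MulMemClass.coe_mul, hb, hb, hb]; exact map_mul σ _ _)
      map_zero' := Subtype.ext (by rw [hb]; exact map_zero σ)
      map_add' := fun x y => Subtype.ext (by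
        rw [AddMemClass.coe_add, hb, hb, hb]; exact map_add σ _ _) }
  have e1 : ∀ Y : LaurentSeries A, coeffMap (A.subtype : A →+* L) (coeffMap sA Y) =
      coeffMap (σ : L →+* L) (coeffMap (A.subtype : A →+* L) Y) := fun Y => by
    rw [coeffMap_coeffMap, coeffMap_coeffMap]
    exact coeffMap_congr (RingHom.ext fun a => hb a) _
  have e2 : ∀ Y : LaurentSeries A, coeffMap π (coeffMap sA Y) = coeffMap φ (coeffMap π Y) :=
    fun Y => by
    rw [coeffMap_coeffMap, coeffMap_coeffMap]
    exact coeffMap_congr (RingHom.ext fun a => hbπ a) _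
  intro f r h
  rw [cInf_red] at h ⊢
  obtain ⟨Y, Y', hY, hY', hne, hf, hr⟩ := h
  refine ⟨coeffMap sA Y, coeffMap sA Y', ?_, ?_, ?_, ?_, ?_⟩
  · rw [e1]; exact coeffMap_mem_laurentBaseChange σ hY
  · rw [e1]; exact coeffMap_mem_laurentBaseChange σ hY'
  · rw [e2]
    exact fun h0 => hne (coeffMap_injective' φ.injective (h0.trans (map_zero _).symm))
  · rw [e1, e1, ← hf, map_mul]
    rfl
  · rw [e2, e2, ← hr, map_mul, coe_fullMap]

theorem intertwines_cZero {σ : L ≃ₐ[ℚ] L} {φ : k →+* k} (hσ : InducesOn L π σ φ) :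
    IntertwinesRed (cZero M q A π hπs hπ0 hqM harch) (galAut (M * q) L σ) (fullMap M φ) := by
  intro f r h
  rw [cZero_red] at h ⊢
  rw [wLvl_gal]
  exact intertwines_cInf M q A π hπs hπ0 hqM harch hσ _ _ h

/-! ### The operators at `q` -/

/-- The transpose of `U_q` is the Frobenius on the component of `∞`. -/
theorem cInf_normBeta {f : levelField (M * q) L} {r : modularFunctionFieldFullC k M}
    (h : (cInf M q A π hπs hπ0 hqM harch).Red f r) :
    (cInf M q A π hπs hπ0 hqM harch).Red (normBeta M q L (heckeAlphaBar L (M * q) q f))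
      (fullMap M (frobenius k q) r) := by
  rw [cInf_red] at h ⊢
  obtain ⟨Y, Y', hY, hY', hne, hf, hr⟩ := h
  obtain ⟨Z, hZ, hZπ⟩ := exists_normBeta_series M q L hqM A π Y
    (heckeAlphaBar L (M * q) q ⟨_, hY⟩) (coe_heckeAlphaBar (M * q) q ⟨_, hY⟩).symm
  obtain ⟨Z', hZ', hZπ'⟩ := exists_normBeta_series M q L hqM A π Y'
    (heckeAlphaBar L (M * q) q ⟨_, hY'⟩) (coe_heckeAlphaBar (M * q) q ⟨_, hY'⟩).symm
  refine ⟨Z, Z', hZ ▸ SetLike.coe_mem _, hZ' ▸ SetLike.coe_mem _, ?_, ?_, ?_⟩
  · rw [hZπ']
    exact fun h0 => hne (coeffMap_injective' (frobenius k q).injective (h0.trans (map_zero _).symm))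
  · have e : f * (⟨_, hY'⟩ : levelField (M * q) L) = ⟨_, hY⟩ := Subtype.ext hf
    rw [hZ, hZ', ← e, map_mul, normBeta_mul]
    rfl
  · rw [hZπ, hZπ', ← hr, map_mul, coe_fullMap]

/-- `U_q` is the Frobenius on the component of `0`. -/
theorem cZero_normAlpha {f : levelField (M * q) L} {r : modularFunctionFieldFullC k M}
    (h : (cZero M q A π hπs hπ0 hqM harch).Red f r) :
    (cZero M q A π hπs hπ0 hqM harch).Red
      (letI := algebraAlong (heckeAlphaBar L (M * q) q);
        Algebra.norm (levelField (M * q) L) (heckeBetaBar L (M * q) q f))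
      (fullMap M (frobenius k q) r) := by
  rw [cZero_red] at h ⊢
  rw [wLvl_normAlpha]
  exact cInf_normBeta M q A π hπs hπ0 hqM harch h

end FA.ModField
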