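import Fermat.Agent.ModField.Semistable.Glued
import Fermat.Agent.ModField.Semistable.RedMap

/-!
# A special fibre made of finitely many curves meeting at finitely many points

`SemiFibre` records constant reductions to the components, the specialisation of places to the
smooth points of the special fibre (`none` for the places of the tubes) and the glueing.  For a
`Twist` (an `n`-torsion class whose function reduces to `n`-th powers on every component) the
twisted reductions of a Riemann-Roch space have at least its dimension.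
-/

set_option autoImplicit false
set_option linter.style.haveILetI false
set_option linter.unusedSectionVars false

noncomputable section

namespace FA.ModField

open AlgebraicCurve FA.Curve FA.CurveRed

variable (K F k : Type*) [Field K] [Field F] [Algebra K F] [Field k] {ι : Type*} [Fintype ι]
  (Fk : ι → Type*) [∀ i, Field (Fk i)] [∀ i, Algebra k (Fk i)] (A : ValuationSubring K)
  (β σ : Type*) [Fintype β] [Fintype σ]

/-- The special fibre: components, branches at the singular points, specialisation. -/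
structure SemiFibre where
  /-- the reductions to the components -/
  C : ∀ i, ConstRed K F k (Fk i) A
  /-- the residue map -/
  π : A →+* k
  pi_eq : ∀ i, (C i).π = π
  scaled : ∀ i, (C i).Scaled
  /-- the branches over the singular points -/
  br : β → Σ i, Place k (Fk i)
  br_inj : Function.Injective br
  /-- the singular point of a branch -/
  pt : β → σ
  pt_surj : Function.Surjective pt
  /-- the specialisation of places, `none` on the tubes of the singular points -/
  spl : Place K F → Option (Σ i, Place k (Fk i))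
  spl_ne_br : ∀ P b, spl P ≠ some (br b)
  spl_surj : ∀ x, (∀ b, br b ≠ x) → ∃ P, spl P = some x
  div_red : ∀ i g r, (C i).Red g r → r ≠ 0 → ∀ Q : Place k (Fk i),
    (∀ b, br b ≠ ⟨i, Q⟩) → ∀ D : Divisor K F, (∀ P, D P = P.ord g) →
      Finsupp.mapDomain spl D (some ⟨i, Q⟩) = Q.ord r
  glue : ∀ (f : F) (r : ∀ i, Fk i), (∀ i, (C i).Red f (r i)) →
    (∀ P, spl P = none → AtLeast P 0 f) →
      ∃ v : σ → k, ∀ b, HasValue (br b).2 (r (br b).1) (v (pt b))
  connected : ∀ c : ι → k, (∀ b b', pt b = pt b' → c (br b).1 = c (br b').1) → ∀ i j, c i = c j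
  genus_le : (genus K F : ℤ) + Fintype.card σ + Fintype.card ι ≤
    (∑ i, (genus k (Fk i) : ℤ)) + Fintype.card β + 1

namespace SemiFibre

variable {K F k Fk A β σ} (X : SemiFibre K F k Fk A β σ)

theorem π_surjective [Nonempty ι] : Function.Surjective X.π := by
  rw [← X.pi_eq (Classical.arbitrary ι)]
  exact (X.C _).π_surjective

theorem π_eq_zero [Nonempty ι] (a : A) : X.π a = 0 ↔ A.valuation a < 1 := by
  rw [← X.pi_eq (Classical.arbitrary ι)]
  exact (X.C _).π_eq_zero a

theorem red_const (i : ι) (a : A) :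
    (X.C i).Red (algebraMap K F a) (algebraMap k (Fk i) (X.π a)) := by
  rw [← X.pi_eq i]
  exact ConstRed.red_const a

/-! ### Divisors on the components -/

/-- The part of the specialisation of a divisor on a component. -/
def push (D : Divisor K F) (i : ι) : Divisor k (Fk i) :=
  Finsupp.comapDomain (fun Q => some (⟨i, Q⟩ : Σ i, Place k (Fk i)))
    (Finsupp.mapDomain X.spl D)
    (fun _ _ _ _ h => eq_of_heq (Sigma.mk.inj (Option.some_injective _ h)).2)

theorem push_apply (D : Divisor K F) (i : ι) (Q : Place k (Fk i)) :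
    X.push D i Q = Finsupp.mapDomain X.spl D (some ⟨i, Q⟩) := by
  rw [push, Finsupp.comapDomain_apply]

theorem mapDomain_spl [DecidableEq (Option (Σ i, Place k (Fk i)))] (D : Divisor K F)
    (x : Option (Σ i, Place k (Fk i))) :
    Finsupp.mapDomain X.spl D x = ∑ P ∈ D.support, if X.spl P = x then D P else 0 := by
  rw [Finsupp.mapDomain, Finsupp.sum_apply, Finsupp.sum]
  exact Finset.sum_congr rfl fun P _ => Finsupp.single_apply

theorem push_add (D E : Divisor K F) (i : ι) : X.push (D + E) i = X.push D i + X.push E i := by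
  ext Q
  simp only [Finsupp.add_apply, push_apply, Finsupp.mapDomain_add]

theorem push_nsmul (m : ℕ) (D : Divisor K F) (i : ι) : X.push (m • D) i = m • X.push D i := by
  induction m with
  | zero => ext Q; simp [push_apply]
  | succ m ih => rw [succ_nsmul, succ_nsmul, push_add, ih]

theorem push_nonneg {D : Divisor K F} (h : 0 ≤ D) (i : ι) : 0 ≤ X.push D i := by
  classical
  refine Finsupp.le_def.2 fun Q => ?_
  rw [push_apply, mapDomain_spl, Finsupp.coe_zero, Pi.zero_apply]
  refine Finset.sum_nonneg fun P _ => ?_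
  split_ifs
  · simpa using Finsupp.le_def.1 h P
  · exact le_rfl

theorem push_mono {D E : Divisor K F} (h : D ≤ E) (i : ι) : X.push D i ≤ X.push E i := by
  rw [← sub_add_cancel E D, push_add]
  exact le_add_of_nonneg_left (X.push_nonneg (sub_nonneg.2 h) i)

theorem push_eq_zero {D : Divisor K F} {i : ι} {Q : Place k (Fk i)}
    (h : ∀ P, X.spl P = some ⟨i, Q⟩ → D P = 0) : X.push D i Q = 0 := by
  classical
  rw [push_apply, mapDomain_spl]
  refine Finset.sum_eq_zero fun P _ => ?_
  split_ifs with hP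
  · exact h P hP
  · rfl

theorem avoids_push (D : Divisor K F) : Avoids X.br (X.push D) := fun b =>
  X.push_eq_zero fun P hP => absurd hP (X.spl_ne_br P b)

/-- No point of the divisor lies in a tube. -/
def Clean (D : Divisor K F) : Prop := ∀ P, X.spl P = none → D P = 0

theorem clean_zero : X.Clean 0 := fun _ _ => rfl

variable {X} in
theorem Clean.add {D E : Divisor K F} (hD : X.Clean D) (hE : X.Clean E) : X.Clean (D + E) :=
  fun P hP => by rw [Finsupp.add_apply, hD P hP, hE P hP, add_zero]

variable {X} in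
theorem Clean.nsmul {D : Divisor K F} (hD : X.Clean D) (m : ℕ) : X.Clean (m • D) :=
  fun P hP => by rw [Finsupp.smul_apply, hD P hP, smul_zero]

theorem clean_single {P : Place K F} {x : Σ i, Place k (Fk i)} (hP : X.spl P = some x) (m : ℤ) :
    X.Clean (Finsupp.single P m) := fun P' hP' =>
  Finsupp.single_eq_of_ne fun h => by rw [h, hP] at hP'; cases hP'

theorem degree_push [IsAlgClosed K] [IsAlgClosed k] (hF : IsFunctionField K F)
    (hk : ∀ i, IsFunctionField k (Fk i)) :
    ∀ D : Divisor K F, X.Clean D → ∑ i, Divisor.degree (X.push D i) = Divisor.degree D := by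
  classical
  intro D
  induction D using Finsupp.induction with
  | zero =>
    intro _
    have : ∀ i, X.push 0 i = 0 := fun i => by ext Q; simp [push_apply]
    simp [this]
  | single_add P m D hP hm ih =>
    intro hc
    have hP0 : X.spl P ≠ none := fun h => hm (by
      have := hc P h
      rwa [Finsupp.add_apply, Finsupp.single_eq_same, Finsupp.notMem_support_iff.1 hP,
        add_zero] at this)
    obtain ⟨⟨j, Q⟩, hQ⟩ := Option.ne_none_iff_exists'.1 hP0
    have hD : X.Clean D := fun P' hP' => by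
      have := hc P' hP'
      rwa [Finsupp.add_apply, Finsupp.single_eq_of_ne (fun h => hP0 (by rw [← h]; exact hP')),
        zero_add] at this
    simp only [push_add, map_add, Finset.sum_add_distrib, ih hD]
    congr 1
    have h1 : X.push (Finsupp.single P m) j = Finsupp.single Q m := by
      ext Q'
      rw [push_apply, Finsupp.mapDomain_single, hQ, Finsupp.single_apply, Finsupp.single_apply]
      refine if_congr ?_ rfl rfl
      exact ⟨fun h => eq_of_heq (Sigma.mk.inj (Option.some_injective _ h)).2, fun h => by rw [h]⟩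
    have h2 : ∀ i, i ≠ j → X.push (Finsupp.single P m) i = 0 := fun i hi => by
      ext Q'
      rw [push_apply, Finsupp.mapDomain_single, hQ, Finsupp.single_apply, if_neg, Finsupp.zero_apply]
      exact fun h => hi (congrArg Sigma.fst (Option.some_injective _ h)).symm
    rw [Finset.sum_eq_single j (fun i _ hi => by rw [h2 i hi, map_zero])
      (fun h => absurd (Finset.mem_univ j) h), h1, Divisor.degree_single, Divisor.degree_single,
      hF.deg_eq_one, (hk j).deg_eq_one]

variable [IsAlgClosed K] (hF : IsFunctionField K F)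

include hF

theorem push_divOf {i : ι} {g : F} {r : Fk i} (h : (X.C i).Red g r) (hr : r ≠ 0)
    {Q : Place k (Fk i)} (hQ : ∀ b, X.br b ≠ ⟨i, Q⟩) : X.push (divOf hF g) i Q = Q.ord r := by
  rw [push_apply]
  exact X.div_red i g r h hr Q hQ _ fun P => divOf_apply hF g P

omit [IsAlgClosed K] hF in
/-- `f` has no pole over a point. -/
def NoPole (x : Σ i, Place k (Fk i)) (f : F) : Prop :=
  ∀ P : Place K F, X.spl P = some x → AtLeast P 0 f

theorem sum_le_ord {i : ι} {f : F} {r : Fk i} (h : (X.C i).Red f r) (hr : r ≠ 0)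
    {Q : Place k (Fk i)} (hb : ∀ b, X.br b ≠ ⟨i, Q⟩) (hQ : X.NoPole ⟨i, Q⟩ f)
    (S : Finset (Place K F)) (hS : ∀ P ∈ S, X.spl P = some ⟨i, Q⟩) :
    ∑ P ∈ S, P.ord f ≤ Q.ord r := by
  classical
  rw [← X.push_divOf hF h hr hb, push_apply, mapDomain_spl, ← Finset.sum_filter]
  have hf := h.ne_zero hr
  calc ∑ P ∈ S, P.ord f = ∑ P ∈ S.filter (fun P => P ∈ (divOf hF f).support), P.ord f :=
        (Finset.sum_filter_of_ne (p := fun P => P ∈ (divOf hF f).support) fun P _ hne =>
          Finsupp.mem_support_iff.2 (by simpa using hne)).symm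
    _ ≤ _ := by
      simp only [divOf_apply]
      refine Finset.sum_le_sum_of_subset_of_nonneg (fun P hP => ?_) fun P hP _ =>
        (atLeast_iff hf).1 (hQ P (Finset.mem_filter.1 hP).2)
      rw [Finset.mem_filter] at hP ⊢
      exact ⟨hP.2, hS P hP.1⟩

theorem red_ord_nonneg {i : ι} {f : F} {r : Fk i} (h : (X.C i).Red f r) {Q : Place k (Fk i)}
    (hb : ∀ b, X.br b ≠ ⟨i, Q⟩) (hQ : X.NoPole ⟨i, Q⟩ f) : AtLeast Q 0 r := by
  rcases eq_or_ne r 0 with hr | hr
  · exact Or.inl hr
  · exact Or.inr (by simpa using X.sum_le_ord hF h hr hb hQ ∅ (by simp))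

variable [IsAlgClosed k] [Nonempty ι]

theorem hasValue_red {i : ι} {f : F} {r : Fk i} (h : (X.C i).Red f r) {Q : Place k (Fk i)}
    (hb : ∀ b, X.br b ≠ ⟨i, Q⟩) (hQ : X.NoPole ⟨i, Q⟩ f)
    {P : Place K F} (hP : X.spl P = some ⟨i, Q⟩) {c : K} (hc : HasValue P f c) :
    ∃ hcA : c ∈ A, HasValue Q r (X.π ⟨c, hcA⟩) := by
  have key : ∀ (g : F) (s : Fk i), (X.C i).Red g s → s ≠ 0 → X.NoPole ⟨i, Q⟩ g →
      AtLeast P 1 g → 1 ≤ Q.ord s := by
    intro g s hg hs hgQ hgP
    have h1 := X.sum_le_ord hF hg hs hb hgQ {P} (fun _ hP' => Finset.mem_singleton.1 hP' ▸ hP)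
    rw [Finset.sum_singleton] at h1
    have h2 := (atLeast_iff (hg.ne_zero hs)).1 hgP
    omega
  by_cases hcA : c ∈ A
  · refine ⟨hcA, ?_⟩
    by_cases hs : r - algebraMap k (Fk i) (X.π ⟨c, hcA⟩) = 0
    · exact Or.inl hs
    · exact Or.inr (key _ _ (h.sub (X.red_const i ⟨c, hcA⟩)) hs
        (fun P' hP' => (hQ P' hP').sub (atLeast_algebraMap c)) hc)
  · exfalso
    have hci : c⁻¹ ∈ A := (A.mem_or_inv_mem c).resolve_left hcA
    have hc0 : c ≠ 0 := fun h0 => hcA (h0 ▸ zero_mem A)
    have h0 : X.π ⟨c⁻¹, hci⟩ = 0 := by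
      rw [X.π_eq_zero]
      show A.valuation c⁻¹ < 1
      rw [map_inv₀]
      exact inv_lt_one_of_one_lt₀ (lt_of_not_ge fun h => hcA ((A.valuation_le_one_iff c).1 h))
    have hg := ConstRed.red_one.sub ((X.red_const i ⟨c⁻¹, hci⟩).mul h)
    rw [h0, map_zero, zero_mul, sub_zero] at hg
    have hgP : AtLeast P 1 (1 - algebraMap K F c⁻¹ * f) := by
      have := (hc.smul c⁻¹).neg
      rw [inv_mul_cancel₀ hc0, map_one, neg_sub] at this
      exact this
    have := key _ _ hg one_ne_zero
      (fun P' hP' => (AtLeast.sub (Or.inr (by simp)) ((hQ P' hP').smul c⁻¹))) hgP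
    simp at this

omit hF [IsAlgClosed k] in
/-- One scalar makes a family integral on every component, with a nonzero reduction somewhere. -/
theorem exists_joint_scale {f : ι → F} (hf : ∀ i, f i ≠ 0) :
    ∃ (a : K) (r : ∀ i, Fk i), a ≠ 0 ∧ (∀ i, (X.C i).Red (algebraMap K F a * f i) (r i)) ∧
      ∃ i, r i ≠ 0 := by
  choose e g r he hfe hg hr using fun i => exists_scaled (X.scaled i) (hf i)
  obtain ⟨j, hj, hmax⟩ := ConstRed.exists_max_coeff A e ⟨Classical.arbitrary ι, he _⟩
  have key : ∀ i, (X.C i).Red (algebraMap K F (e j)⁻¹ * f i)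
      (algebraMap k (Fk i) (X.π ⟨e i / e j, hmax i⟩) * r i) := fun i => by
    have h := (X.red_const i ⟨e i / e j, hmax i⟩).mul (hg i)
    have heq : algebraMap K F ((⟨e i / e j, hmax i⟩ : A) : K) * g i =
        algebraMap K F (e j)⁻¹ * f i := by
      rw [hfe i, ← mul_assoc, ← map_mul, inv_mul_eq_div]
    rwa [heq] at h
  refine ⟨(e j)⁻¹, _, inv_ne_zero hj, key, j, mul_ne_zero ?_ (hr j)⟩
  rw [show (⟨e j / e j, hmax j⟩ : A) = 1 from Subtype.ext (div_self hj), map_one, map_one]
  exact one_ne_zero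

/-! ### Twisted reductions -/

omit hF [IsAlgClosed K] [IsAlgClosed k] [Nonempty ι] in
/-- A class killed by `n`, with its function reducing to `n`-th powers on all components. -/
structure Twist (n : ℕ) where
  D : Divisor.degZero (K := K) (F := F)
  g : F
  g_ne : g ≠ 0
  div_eq : ∀ P, (n : ℤ) * (D : Divisor K F) P = P.ord g
  c : ι → K
  c_ne : ∀ i, c i ≠ 0
  h : ∀ i, Fk i
  h_ne : ∀ i, h i ≠ 0
  red : ∀ i, (X.C i).Red (algebraMap K F ((c i)⁻¹ ^ n) * g) (h i ^ n)

variable {X} {n : ℕ}

omit hF [IsAlgClosed K] [IsAlgClosed k] [Nonempty ι] in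
/-- The twisted reduction. -/
def Twist.TRed (t : X.Twist n) (f : F) (H : ∀ i, Fk i) : Prop :=
  ∀ i, ∃ r, (X.C i).Red (algebraMap K F (t.c i) * f) r ∧ H i = r * t.h i

variable (t : X.Twist n)

omit hF [IsAlgClosed K] [IsAlgClosed k] [Nonempty ι] in
theorem Twist.TRed.add {f f' : F} {H H' : ∀ i, Fk i} (h : t.TRed f H) (h' : t.TRed f' H') :
    t.TRed (f + f') (H + H') := fun i => by
  obtain ⟨r, hr, e⟩ := h i
  obtain ⟨r', hr', e'⟩ := h' i
  exact ⟨r + r', by rw [mul_add]; exact hr.add hr', by rw [Pi.add_apply, e, e', add_mul]⟩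

omit hF [IsAlgClosed K] [IsAlgClosed k] [Nonempty ι] in
theorem Twist.tred_zero : t.TRed 0 0 := fun i =>
  ⟨0, by rw [mul_zero]; exact ConstRed.red_zero, by rw [Pi.zero_apply, zero_mul]⟩

omit hF [IsAlgClosed K] [IsAlgClosed k] [Nonempty ι] in
theorem Twist.TRed.smul {f : F} {H : ∀ i, Fk i} (h : t.TRed f H) (a : A) :
    t.TRed (algebraMap K F a * f) (X.π a • H) := fun i => by
  obtain ⟨r, hr, e⟩ := h i
  refine ⟨algebraMap k (Fk i) (X.π a) * r, ?_, ?_⟩
  · rw [mul_left_comm]
    exact (X.red_const i a).mul hr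
  · rw [Pi.smul_apply, e, Algebra.smul_def, mul_assoc]

omit hF [IsAlgClosed K] [IsAlgClosed k] [Nonempty ι] in
theorem Twist.TRed.pow {f : F} {H : ∀ i, Fk i} (h : t.TRed f H) (i : ι) :
    (X.C i).Red (f ^ n * t.g) (H i ^ n) := by
  obtain ⟨r, hr, e⟩ := h i
  have h1 := (hr.pow n).mul (t.red i)
  have heq : (algebraMap K F (t.c i) * f) ^ n * (algebraMap K F ((t.c i)⁻¹ ^ n) * t.g) =
      f ^ n * t.g := by
    rw [mul_pow, mul_mul_mul_comm, ← map_pow, ← map_mul, ← mul_pow,
      mul_inv_cancel₀ (t.c_ne i), one_pow, map_one, one_mul]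
  rwa [heq, ← mul_pow, ← e] at h1

omit [IsAlgClosed k] [Nonempty ι] hF in
theorem Twist.atLeast_pow_mul {E : Divisor K F} {f : F}
    (hf : f ∈ riemannRochSpace ((t.D : Divisor K F) + E)) (P : Place K F) :
    AtLeast P (-((n : ℤ) * E P)) (f ^ n * t.g) := by
  have h1 := FA.Curve.mem_riemannRochSpace.1 hf P
  refine ((FA.Curve.atLeast_pow h1 n).mul (atLeast_ord t.g)).mono (le_of_eq ?_)
  rw [← t.div_eq P, Finsupp.add_apply]
  ring

omit [IsAlgClosed k] [Nonempty ι] in
theorem Twist.TRed.ord_ge {E : Divisor K F} {f : F} {H : ∀ i, Fk i} (hn : n ≠ 0)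
    (hf : f ∈ riemannRochSpace ((t.D : Divisor K F) + E)) (h : t.TRed f H) (i : ι)
    {Q : Place k (Fk i)} (hb : ∀ b, X.br b ≠ ⟨i, Q⟩) : AtLeast Q (-X.push E i Q) (H i) := by
  rcases eq_or_ne (H i) 0 with h0 | h0
  · exact Or.inl h0
  have hred := h.pow t i
  have hr : H i ^ n ≠ 0 := pow_ne_zero _ h0
  have hne := hred.ne_zero hr
  have hle : 0 ≤ divOf hF (f ^ n * t.g) + n • E := Finsupp.le_def.2 fun P => by
    have := (atLeast_iff hne).1 (t.atLeast_pow_mul hf P)
    simp only [Finsupp.coe_zero, Pi.zero_apply, Finsupp.add_apply, divOf_apply,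
      Finsupp.smul_apply, nsmul_eq_mul]
    omega
  have h1 := Finsupp.le_def.1 (X.push_nonneg hle i) Q
  rw [push_add, Finsupp.add_apply, X.push_divOf hF hred hr hb, push_nsmul, Finsupp.smul_apply,
    place_ord_pow, nsmul_eq_mul] at h1
  simp only [Finsupp.coe_zero, Pi.zero_apply] at h1
  refine Or.inr ?_
  have h2 : (0 : ℤ) ≤ n * (Q.ord (H i) + X.push E i Q) := by rw [mul_add]; exact h1
  have h3 := nonneg_of_mul_nonneg_right h2 (by exact_mod_cast Nat.pos_of_ne_zero hn)
  omega

omit [IsAlgClosed k] [Nonempty ι] hF in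
theorem Twist.TRed.glue {E : Divisor K F} (hE : X.Clean E) {f : F} {H : ∀ i, Fk i}
    (hf : f ∈ riemannRochSpace ((t.D : Divisor K F) + E)) (h : t.TRed f H) :
    ∃ v : σ → k, ∀ b, HasValue (X.br b).2 (H (X.br b).1 ^ n) (v (X.pt b)) :=
  X.glue _ _ (h.pow t) fun P hP => by
    have := t.atLeast_pow_mul hf P
    rwa [hE P hP, mul_zero, neg_zero] at this

omit [Nonempty ι] in
theorem Twist.TRed.mem {E : Divisor K F} (hn : n ≠ 0) (hE : X.Clean E) {f : F} {H : ∀ i, Fk i}
    (hf : f ∈ riemannRochSpace ((t.D : Divisor K F) + E)) (h : t.TRed f H) (i : ι) :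
    H i ∈ riemannRochSpace (X.push E i) := by
  rw [FA.Curve.mem_riemannRochSpace]
  intro Q
  by_cases hb : ∀ b, X.br b ≠ ⟨i, Q⟩
  · exact h.ord_ge hF t hn hf i hb
  · push Not at hb
    obtain ⟨b, hb⟩ := hb
    obtain ⟨v, hv⟩ := h.glue t hE hf
    have h1 := (hv b).atLeast
    have h2 := X.avoids_push E b
    rw [hb] at h1 h2
    rw [h2, neg_zero]
    rcases eq_or_ne (H i) 0 with h0 | h0
    · exact Or.inl h0
    rw [atLeast_iff (pow_ne_zero _ h0), place_ord_pow] at h1
    exact Or.inr (nonneg_of_mul_nonneg_right h1 (by exact_mod_cast Nat.pos_of_ne_zero hn))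

omit hF [IsAlgClosed k] [IsAlgClosed K] in
/-- The twisted reductions of `L(D + E)`. -/
def Twist.space (E : Divisor K F) : Submodule k (∀ i, Fk i) where
  carrier := {H | ∃ f ∈ riemannRochSpace ((t.D : Divisor K F) + E), t.TRed f H}
  add_mem' := fun ⟨f, hf, h⟩ ⟨f', hf', h'⟩ => ⟨f + f', add_mem hf hf', h.add t h'⟩
  zero_mem' := ⟨0, zero_mem _, t.tred_zero⟩
  smul_mem' := fun a H ⟨f, hf, h⟩ => by
    obtain ⟨b, rfl⟩ := X.π_surjective a
    exact ⟨algebraMap K F b * f, by rw [← Algebra.smul_def]; exact Submodule.smul_mem _ _ hf,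
      h.smul t b⟩

omit hF [IsAlgClosed k] [IsAlgClosed K] in
theorem Twist.space_mono {E E' : Divisor K F} (h : E ≤ E') : t.space E ≤ t.space E' :=
  fun _ ⟨f, hf, hH⟩ => ⟨f, riemannRochSpace_mono (add_le_add le_rfl h) hf, hH⟩

variable (hk : ∀ i, IsFunctionField k (Fk i))

include hk

theorem Twist.space_le {E : Divisor K F} (hn : n ≠ 0) (hE : X.Clean E) :
    t.space E ≤ evalSpace X.br (X.push E) ⊤ := by
  rintro H ⟨f, hf, h⟩
  choose v hv using fun b => exists_value_of_avoids X.br hk (X.avoids_push E)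
    (r := H) (fun i => h.mem hF t hn hE hf i) b
  exact ⟨fun i => h.mem hF t hn hE hf i, v, trivial, hv⟩

theorem Twist.finite_space {E : Divisor K F} (hn : n ≠ 0) (hE : X.Clean E) :
    Module.Finite k (t.space E) :=
  haveI := finite_evalSpace X.br hk (X.push E) ⊤
  Submodule.finiteDimensional_of_le (t.space_le hF hk hn hE)

/-- A family in a subspace of `L(D + E)` with independent twisted reductions. -/
theorem Twist.exists_lift_basis (E : Divisor K F) (m : ℕ) :
    ∀ V : Submodule K F, V ≤ riemannRochSpace ((t.D : Divisor K F) + E) →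
      Module.finrank K V = m → ∃ H : Fin m → ∀ i, Fk i,
        (∀ j, ∃ f ∈ V, t.TRed f (H j)) ∧ LinearIndependent k H := by
  classical
  induction m with
  | zero =>
    intro V _ _
    exact ⟨Fin.elim0, fun i => i.elim0, linearIndependent_empty_type⟩
  | succ m ih =>
    intro V hV hdim
    haveI := finite_riemannRochSpace hF ((t.D : Divisor K F) + E)
    haveI : Module.Finite K V := Submodule.finiteDimensional_of_le hV
    obtain ⟨f, hfV, hf0⟩ := Submodule.exists_mem_ne_zero_of_ne_bot (p := V) fun h => by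
      rw [h, finrank_bot] at hdim; omega
    obtain ⟨a₀, r, ha₀, hr, i, hri⟩ := X.exists_joint_scale
      (f := fun i => algebraMap K F (t.c i) * f)
      fun i => mul_ne_zero (by simpa using t.c_ne i) hf0
    set e := algebraMap K F a₀ * f
    set H₀ : ∀ i, Fk i := fun i => r i * t.h i
    have he : ∀ i, (X.C i).Red (algebraMap K F (t.c i) * e) (r i) := fun i => by
      rw [mul_left_comm]; exact hr i
    have heV : e ∈ V := by rw [show e = a₀ • f from (Algebra.smul_def _ _).symm]; exact V.smul_mem _ hfV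
    -- a general point of the component `i`
    haveI := infinite_places (hk i)
    set bad : Set (Place k (Fk i)) :=
      ((fun Q => some (⟨i, Q⟩ : Σ i, Place k (Fk i))) ⁻¹'
        ↑(((t.D : Divisor K F) + E).support.image X.spl)) ∪
      ((fun Q => (⟨i, Q⟩ : Σ i, Place k (Fk i))) ⁻¹' Set.range X.br) ∪
      {Q | Q.ord (r i) ≠ 0} ∪ {Q | Q.ord (t.h i) ≠ 0}
    have hbad : bad.Finite :=
      ((((Finset.finite_toSet _).preimage
        (fun _ _ _ _ h => eq_of_heq (Sigma.mk.inj (Option.some_injective _ h)).2)).union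
        ((Set.finite_range X.br).preimage (fun _ _ _ _ h => sigma_mk_injective h))).union
        (FA.Curve.finite_support (hk i) (r i))).union (FA.Curve.finite_support (hk i) (t.h i))
    obtain ⟨Q, hQ⟩ := hbad.infinite_compl.nonempty
    simp only [bad, Set.mem_compl_iff, Set.mem_union, Set.mem_preimage, Finset.coe_image,
      Set.mem_image, SetLike.mem_coe, Set.mem_range, Set.mem_ofPred_eq, not_or, not_exists,
      not_and, not_not] at hQ
    obtain ⟨⟨⟨hQD, hQb⟩, hQr⟩, hQh⟩ := hQ
    obtain ⟨P, hP⟩ := X.spl_surj ⟨i, Q⟩ hQb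
    have hD : ∀ P', X.spl P' = some ⟨i, Q⟩ → ((t.D : Divisor K F) + E) P' = 0 := fun P' hP' => by
      by_contra hne
      exact hQD P' (Finsupp.mem_support_iff.2 hne) hP'
    have hnp : ∀ f' ∈ V, X.NoPole ⟨i, Q⟩ (algebraMap K F (t.c i) * f') := fun f' hf' P' hP' => by
      have := FA.Curve.mem_riemannRochSpace.1 (hV hf') P'
      rw [hD P' hP', neg_zero] at this
      exact this.smul _
    obtain ⟨a, ha⟩ := exists_hasValue hF (hnp e heV P hP)
    obtain ⟨haA, haQ⟩ := X.hasValue_red hF (he i) hQb (hnp e heV) hP ha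
    have hH₀Q : ¬ AtLeast Q 1 (H₀ i) := by
      rw [atLeast_iff (mul_ne_zero hri (t.h_ne i)), Q.ord_mul hri (t.h_ne i), hQr, hQh]
      omega
    have ha0 : a ≠ 0 := by
      rintro rfl
      rw [show (⟨(0 : K), haA⟩ : A) = 0 from rfl, map_zero, hasValue_zero_iff] at haQ
      rw [atLeast_iff hri, hQr] at haQ
      omega
    set V' := V ⊓ riemannRochSpace ((t.D : Divisor K F) + E - Finsupp.single P 1)
    haveI : Module.Finite K V' := Submodule.finiteDimensional_of_le inf_le_left
    have hmemV' : ∀ f', f' ∈ V' ↔ f' ∈ V ∧ AtLeast P 1 f' := by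
      intro f'
      refine ⟨fun h' => ⟨h'.1, ?_⟩, fun h' => ⟨h'.1, ?_⟩⟩
      · have := FA.Curve.mem_riemannRochSpace.1 h'.2 P
        rwa [Finsupp.sub_apply, hD P hP, Finsupp.single_eq_same, zero_sub, neg_neg] at this
      · rw [SetLike.mem_coe, FA.Curve.mem_riemannRochSpace]
        intro w
        rcases eq_or_ne w P with rfl | hw
        · rw [Finsupp.sub_apply, hD w hP, Finsupp.single_eq_same, zero_sub, neg_neg]
          exact h'.2
        · simpa [Finsupp.single_eq_of_ne hw] using FA.Curve.mem_riemannRochSpace.1 (hV h'.1) w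
    have hc : algebraMap K F (t.c i) ≠ 0 := by simpa using t.c_ne i
    have hsup : V ≤ V' ⊔ Submodule.span K {e} := by
      intro f' hf'
      obtain ⟨b, hb⟩ := exists_hasValue hF (hnp f' hf' P hP)
      rw [Submodule.mem_sup]
      refine ⟨f' - algebraMap K F (b / a) * e, (hmemV' _).2 ⟨?_, ?_⟩,
        algebraMap K F (b / a) * e, ?_, by ring⟩
      · rw [← Algebra.smul_def]; exact V.sub_mem hf' (V.smul_mem _ heV)
      · have := hb.sub (ha.smul (b / a))
        rw [div_mul_cancel₀ _ ha0, sub_self, hasValue_zero_iff] at this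
        have h2 := this.smul (t.c i)⁻¹
        have heq : algebraMap K F (t.c i)⁻¹ * (algebraMap K F (t.c i) * f' -
            algebraMap K F (b / a) * (algebraMap K F (t.c i) * e)) =
            f' - algebraMap K F (b / a) * e := by
          rw [map_inv₀]; field_simp
        rwa [heq] at h2
      · exact Submodule.mem_span_singleton.2 ⟨b / a, Algebra.smul_def _ _⟩
    have he' : e ∉ V' := fun h' => ha0 (ha.unique (hasValue_zero_iff.2
      (((hmemV' _).1 h').2.smul _)))
    have hlt : Module.finrank K V' < Module.finrank K V :=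
      Submodule.finrank_lt_finrank_of_lt (lt_of_le_of_ne inf_le_left fun h => he' (h ▸ heV))
    have hge : Module.finrank K V ≤ Module.finrank K V' + 1 := by
      refine (Submodule.finrank_mono hsup).trans
        ((Submodule.finrank_add_le_finrank_add_finrank _ _).trans (add_le_add le_rfl ?_))
      exact (finrank_span_le_card ({e} : Set F)).trans (by simp)
    obtain ⟨H, hH, hli⟩ := ih V' (inf_le_left.trans hV) (by omega)
    refine ⟨Fin.cons H₀ H, fun j => ?_, ?_⟩
    · refine Fin.cases ⟨e, heV, fun i' => ⟨r i', he i', rfl⟩⟩ (fun j => ?_) j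
      obtain ⟨f', hf', h'⟩ := hH j
      exact ⟨f', ((hmemV' _).1 hf').1, h'⟩
    · rw [linearIndependent_finCons]
      refine ⟨hli, fun hmem => hH₀Q ?_⟩
      have hall : ∀ z ∈ Submodule.span k (Set.range H), AtLeast Q 1 (z i) := by
        intro z hz
        induction hz using Submodule.span_induction with
        | mem y hy =>
          obtain ⟨j, rfl⟩ := hy
          obtain ⟨f', hf', h'⟩ := hH j
          obtain ⟨r', hr', e'⟩ := h' i
          obtain ⟨hf'V, hf'P⟩ := (hmemV' _).1 hf'
          obtain ⟨h0, hv⟩ := X.hasValue_red hF hr' hQb (hnp _ hf'V) hP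
            (hasValue_zero_iff.2 (hf'P.smul _))
          rw [show (⟨(0 : K), h0⟩ : A) = 0 from rfl, map_zero, hasValue_zero_iff] at hv
          rw [e']
          refine (hv.mul (atLeast_ord (t.h i))).mono ?_
          rw [hQh]; omega
        | zero => exact atLeast_zero
        | add x y _ _ hx hy => exact hx.add hy
        | smul b x _ hx => rw [Pi.smul_apply, Algebra.smul_def]; exact hx.smul b
      exact hall H₀ hmem

/-- The twisted reductions have at least the dimension of `L(D + E)`. -/
theorem Twist.ell_le_finrank {E : Divisor K F} (hn : n ≠ 0) (hE : X.Clean E) :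
    ell ((t.D : Divisor K F) + E) ≤ Module.finrank k (t.space E) := by
  haveI := t.finite_space hF hk hn hE
  obtain ⟨H, hH, hli⟩ := t.exists_lift_basis hF hk E _ (riemannRochSpace _) le_rfl rfl
  have h := Submodule.finrank_mono (R := k) (s := Submodule.span k (Set.range H))
    (t := t.space E) (Submodule.span_le.2 (Set.range_subset_iff.2 hH))
  rw [finrank_span_eq_card hli, Fintype.card_fin] at h
  exact Int.ofNat_le.2 h

end SemiFibre

end FA.ModField
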