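import Fermat.Agent.ModField.Semistable.ComplexConj
import Fermat.Agent.JTorsion.Unramified
import Fermat.Agent.Period.Integral

/-!
# The even and odd parts of the lattice are faithful

Complex conjugation is `- jLat` on the lattice; it corresponds to `(f, g) ↦ (f, -g)` on pairs of
forms, so the Hecke algebra acts faithfully on both eigenspaces.
-/

set_option autoImplicit false
set_option linter.style.haveILetI false
set_option linter.unusedSectionVars false
set_option synthInstance.maxHeartbeats 200000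
set_option maxHeartbeats 800000

noncomputable section

namespace FA.ModField

open FA.Level FA.JTorsion ModularCurve ModularCurve.Period CongruenceSubgroup

local notation "Qb" => AlgebraicClosure ℚ

variable (N : ℕ) [NeZero N]

theorem pairPeriod_mem_parabolic (p : FormPair N) :
    pairPeriod N p ∈ parabolicHoms ℂ (Gamma0 N) ℂ :=
  mem_parabolicHoms_iff.2 fun γ hγ => by
    have h3 : periodHomPair N p ∈ parabolicHoms ℂ (Gamma0 N) ℂ :=
      (Fermat.Agent.S21.result N).2 ▸ LinearMap.mem_range_self _ _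
    exact mem_parabolicHoms_iff.1 h3 _ (by rw [wConj_trace]; exact hγ)

/-- Composition with `J` is `(f, g) ↦ (f, -g)`. -/
theorem pairPeriod_jConj (p : FormPair N) (γ : Gamma0 N) :
    pairPeriod N p (Additive.ofMul (jConjGamma0 N γ)) =
      pairPeriod N (p.1, -p.2) (Additive.ofMul γ) := by
  obtain ⟨pml, hpml, hdef⟩ := periodHomPair_def N FA.Period.existsPeriodMapLinear
  obtain ⟨f, g⟩ := p
  have hval : ∀ (u v : CuspForm (Gamma0 N) 2) (x : Gamma0 N),
      pairPeriod N (u, v) (Additive.ofMul x) =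
        (pml u (Additive.ofMul (wConj N x)) +
            pml u (Additive.ofMul (wConj N (jConjGamma0 N x)))) +
          (pml v (Additive.ofMul (wConj N x)) -
            pml v (Additive.ofMul (wConj N (jConjGamma0 N x)))) := fun u v x => by
    rw [pairPeriod, LinearMap.comp_apply, twistW_apply, hdef, ← jConj_wConj]
    rfl
  rw [hval, hval, jConjGamma0_jConjGamma0, map_neg, AddMonoidHom.neg_apply, AddMonoidHom.neg_apply]
  ring

variable [Algebra Qb ℂ]

/-- The pair of forms of a lattice element. -/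
theorem exists_pair_lat (x : LatMod N (∅ : Set ℕ)) :
    ∃ p : FormPair N, pairPeriod N p = toComplex N (LatMod.val N _ x) ∧
      pairPeriod N (p.1, -p.2) = toComplex N (LatMod.val N _ (jLat N (∅ : Set ℕ) x)) := by
  obtain ⟨p, hp⟩ := exists_pairPeriod_eq N (toComplex_mem N (LatMod.val N _ x))
  refine ⟨p, hp, AddMonoidHom.ext fun g => ?_⟩
  obtain ⟨γ, rfl⟩ := Additive.ofMul.surjective g
  rw [← pairPeriod_jConj, hp, toComplex_apply, toComplex_apply]
  exact congrArg (fun z : ℤ => (z : ℂ)) (val_jLat (∅ : Set ℕ) x γ).symm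

theorem jLat_jLat (x : LatMod N (∅ : Set ℕ)) :
    jLat N (∅ : Set ℕ) (jLat N (∅ : Set ℕ) x) = x := by
  refine (LatMod.val N _).injective (Subtype.ext (AddMonoidHom.ext fun g => ?_))
  obtain ⟨γ, rfl⟩ := Additive.ofMul.surjective g
  rw [val_jLat, val_jLat]
  congr 2
  exact Period.jConjGamma0_jConjGamma0 N γ

theorem pair_smul (t : CuspForm.heckeAlgebra N 2 (∅ : Set ℕ)) (x : LatMod N (∅ : Set ℕ)) (p : FormPair N)
    (hp : pairPeriod N p = toComplex N (LatMod.val N _ x)) :
    pairPeriod N ((t : Module.End ℂ (CuspForm (Gamma0 N) 2)) p.1,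
        (t : Module.End ℂ (CuspForm (Gamma0 N) 2)) p.2) =
      toComplex N (LatMod.val N _ (t • x)) := by
  rw [LatMod.val_smul]
  exact compat_latRep N (∅ : Set ℕ) t _ p hp

theorem jLat_smul (t : CuspForm.heckeAlgebra N 2 (∅ : Set ℕ)) (x : LatMod N (∅ : Set ℕ)) :
    jLat N (∅ : Set ℕ) (t • x) = t • jLat N (∅ : Set ℕ) x := by
  obtain ⟨p, hp, hpj⟩ := exists_pair_lat N x
  obtain ⟨p', hp', hpj'⟩ := exists_pair_lat N (t • x)
  have e : p' = ((t : Module.End ℂ (CuspForm (Gamma0 N) 2)) p.1,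
      (t : Module.End ℂ (CuspForm (Gamma0 N) 2)) p.2) :=
    pairPeriod_injective N (hp'.trans (pair_smul N t x p hp).symm)
  subst e
  have h1 := pair_smul N t _ (p.1, -p.2) hpj
  rw [map_neg] at h1
  exact (LatMod.val N _).injective (toComplex_injective N (hpj'.symm.trans h1))

/-- The eigenspace of `jLat` with eigenvalue `ε`. -/
def jPart (ε : ℤ) : Submodule (CuspForm.heckeAlgebra N 2 (∅ : Set ℕ)) (LatMod N (∅ : Set ℕ)) where
  carrier := {x | jLat N (∅ : Set ℕ) x = ε • x}
  add_mem' {x y} hx hy := by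
    show jLat N (∅ : Set ℕ) (x + y) = _
    rw [map_add, show jLat N (∅ : Set ℕ) x = _ from hx, show jLat N (∅ : Set ℕ) y = _ from hy,
      smul_add]
  zero_mem' := by
    show jLat N (∅ : Set ℕ) 0 = _
    rw [map_zero, smul_zero]
  smul_mem' t x hx := by
    show jLat N (∅ : Set ℕ) (t • x) = _
    rw [jLat_smul, show jLat N (∅ : Set ℕ) x = _ from hx, smul_comm]

theorem mem_jPart {ε : ℤ} {x : LatMod N (∅ : Set ℕ)} :
    x ∈ jPart N ε ↔ jLat N (∅ : Set ℕ) x = ε • x := Iff.rfl

theorem add_jLat_mem {ε : ℤ} (hε : ε * ε = 1) (x : LatMod N (∅ : Set ℕ)) :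
    x + ε • jLat N (∅ : Set ℕ) x ∈ jPart N ε := by
  rw [mem_jPart, map_add, map_zsmul, jLat_jLat, smul_add, smul_smul, hε, one_smul]
  exact add_comm _ _

/-- An operator vanishing on an eigenspace of `jLat` vanishes. -/
theorem eq_zero_of_jPart {ε : ℤ} (hε : ε = 1 ∨ ε = -1) {t : CuspForm.heckeAlgebra N 2 (∅ : Set ℕ)}
    (h : ∀ x ∈ jPart N ε, t • x = 0) : t = 0 := by
  have hεε : ε * ε = 1 := by rcases hε with rfl | rfl <;> norm_num
  let T := (t : Module.End ℂ (CuspForm (Gamma0 N) 2))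
  let D : FormPair N →ₗ[ℂ] FormPair N :=
    if ε = 1 then T.prodMap 0 else (0 : Module.End ℂ (CuspForm (Gamma0 N) 2)).prodMap T
  let S : Submodule ℂ (Additive (Gamma0 N) →+ ℂ) := (LinearMap.ker D).map (pairPeriod N)
  have hspan : Submodule.span ℂ (Set.range (toComplex N)) ≤ S := by
    rw [Submodule.span_le]
    rintro _ ⟨φ, rfl⟩
    set x := (LatMod.val N (∅ : Set ℕ)).symm φ with hx
    obtain ⟨p, hp, hpj⟩ := exists_pair_lat N x
    refine ⟨p, ?_, by rw [hp, hx, AddEquiv.apply_symm_apply]⟩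
    have h2 := h _ (add_jLat_mem N hεε x)
    have h3 : pairPeriod N ((T (p.1 + (ε : ℂ) • p.1), T (p.2 + (ε : ℂ) • -p.2))) = 0 := by
      have e := pair_smul N t (x + ε • jLat N (∅ : Set ℕ) x) (p + (ε : ℂ) • (p.1, -p.2)) (by
        rw [map_add, map_smul, hp, hpj, map_add, map_zsmul, map_add, map_zsmul,
          Int.cast_smul_eq_zsmul])
      rw [h2, map_zero, map_zero] at e
      exact e
    obtain ⟨h4, h5⟩ := Prod.ext_iff.1 (pairPeriod_injective N (h3.trans (map_zero _).symm))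
    show D p = 0
    rcases hε with rfl | rfl
    · simp only [D, if_true, LinearMap.prodMap_apply, LinearMap.zero_apply]
      rw [Int.cast_one, one_smul, ← two_smul ℂ p.1, map_smul] at h4
      exact Prod.ext ((smul_eq_zero.1 h4).resolve_left two_ne_zero) rfl
    · simp only [D, show ((-1 : ℤ) = 1) = False by norm_num, if_false, LinearMap.prodMap_apply,
        LinearMap.zero_apply]
      simp only [Int.cast_neg, Int.cast_one, neg_smul, one_smul, neg_neg] at h5
      rw [← two_smul ℂ p.2,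
        map_smul] at h5
      exact Prod.ext rfl ((smul_eq_zero.1 h5).resolve_left two_ne_zero)
  refine Subtype.ext (LinearMap.ext fun f => ?_)
  have key : ∀ q : FormPair N, D q = 0 := fun q => by
    obtain ⟨p, hp, hpe⟩ := hspan (parabolicHoms_le_span N (pairPeriod_mem_parabolic N q))
    rw [pairPeriod_injective N hpe] at hp
    exact LinearMap.mem_ker.1 hp
  rcases hε with rfl | rfl
  · have e := congrArg Prod.fst (key (f, 0))
    simpa [D, T] using e
  · have e := congrArg Prod.snd (key (0, f))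
    simpa [D, T] using e

/-- Saturation separately on the two eigenspaces. -/
theorem exists_conj_saturation (p : ℕ) (hp : p ≠ 0) :
    ∃ c : ℕ, ∀ (n : ℕ) (a b : CuspForm.heckeAlgebra N 2 (∅ : Set ℕ)),
      (∀ x : LatMod N (∅ : Set ℕ), ∃ y, a • x + b • jLat N (∅ : Set ℕ) x = p ^ (n + c) • y) →
      (∃ t, a + b = p ^ n • t) ∧ ∃ t, a - b = p ^ n • t := by
  haveI := latMod_free N (∅ : Set ℕ)
  have hinj : ∀ ε : ℤ, Function.Injective
      ((jPart N ε).subtype.toAddMonoidHom.toIntLinearMap) := fun ε => Subtype.val_injective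
  have hfin : ∀ ε : ℤ, Module.Finite ℤ (jPart N ε) := fun ε =>
    Module.Finite.of_injective _ (hinj ε)
  have hfree : ∀ ε : ℤ, Module.Free ℤ (jPart N ε) := fun ε => by
    haveI := hfin ε
    haveI : Module.IsTorsionFree ℤ (jPart N ε) :=
      Function.Injective.moduleIsTorsionFree _ (hinj ε) fun r x => map_zsmul _ r x
    exact Module.free_of_finite_type_torsion_free'
  haveI := hfree 1
  haveI := hfree (-1)
  haveI := hfin 1
  haveI := hfin (-1)
  have hsat : ∀ ε : ℤ, ε = 1 ∨ ε = -1 → ∃ c, ∀ (n : ℕ) (t : CuspForm.heckeAlgebra N 2 (∅ : Set ℕ)),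
      (∀ x : jPart N ε, ∃ y, t • x = p ^ (n + c) • y) → ∃ t', t = p ^ n • t' := fun ε hε => by
    haveI := hfree ε
    haveI := hfin ε
    exact exists_saturation p hp fun t ht => eq_zero_of_jPart N hε fun x hx =>
      congrArg Subtype.val (ht ⟨x, hx⟩)
  obtain ⟨c₁, hc₁⟩ := hsat 1 (Or.inl rfl)
  obtain ⟨c₂, hc₂⟩ := hsat (-1) (Or.inr rfl)
  refine ⟨c₁ + c₂, fun n a b h => ?_⟩
  have hdiv : ∀ (ε : ℤ) (t : CuspForm.heckeAlgebra N 2 (∅ : Set ℕ)), (∀ x ∈ jPart N ε, t • x = a • x + b • jLat N _ x) →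
      ∀ x : jPart N ε, ∃ y, t • x = p ^ (n + (c₁ + c₂)) • y := fun ε t ht x => by
    obtain ⟨y, hy⟩ := h (x : LatMod N (∅ : Set ℕ))
    have e := (ht _ x.2).trans hy
    refine ⟨⟨y, ?_⟩, Subtype.ext e⟩
    have hm : p ^ (n + (c₁ + c₂)) • y ∈ jPart N ε := e ▸ (jPart N ε).smul_mem t x.2
    rw [mem_jPart, map_nsmul] at hm
    rw [mem_jPart]
    refine smul_right_injective _
      (Int.natCast_ne_zero.2 (pow_ne_zero (n + (c₁ + c₂)) hp) : ((p ^ (n + (c₁ + c₂)) : ℕ) : ℤ) ≠ 0) ?_
    show ((p ^ (n + (c₁ + c₂)) : ℕ) : ℤ) • jLat N (∅ : Set ℕ) y =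
      ((p ^ (n + (c₁ + c₂)) : ℕ) : ℤ) • ε • y
    rw [natCast_zsmul, natCast_zsmul, hm, smul_comm]
  constructor
  · obtain ⟨t, ht⟩ := hc₁ (n + c₂) (a + b) (by
      rw [show n + c₂ + c₁ = n + (c₁ + c₂) by omega]
      exact hdiv 1 (a + b) fun x hx => by
        rw [(mem_jPart N).1 hx, one_smul, add_smul])
    exact ⟨p ^ c₂ • t, by rw [ht, ← mul_nsmul', ← pow_add]⟩
  · obtain ⟨t, ht⟩ := hc₂ (n + c₁) (a - b) (by
      rw [show n + c₁ + c₂ = n + (c₁ + c₂) by omega]
      exact hdiv (-1) (a - b) fun x hx => by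
        rw [(mem_jPart N).1 hx, neg_smul, one_smul, smul_neg, sub_smul, sub_eq_add_neg])
    exact ⟨p ^ c₁ • t, by rw [ht, ← mul_nsmul', ← pow_add]⟩

end FA.ModField
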