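import Fermat.Agent.ModField.Semistable.RedModular
import Fermat.Prelude.Def_ModularCurve_HeckeOperatorTotal

/-!
# The reductions of torsion points of `J₀(M q)` on the two components
-/

set_option autoImplicit false
set_option linter.style.haveILetI false
set_option linter.unusedSectionVars false
set_option synthInstance.maxHeartbeats 200000
set_option maxHeartbeats 800000

noncomputable section

namespace FA.ModField

open ModularCurve AlgebraicCurve FA.Curve FA.CurveRed FA.Level

variable (M : ℕ) [NeZero M] (q : ℕ) [hq : Fact q.Prime] [hq0 : NeZero q]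
variable {L : Type} [Field L] [Algebra ℚ L] [Algebra L ℂ] [IsAlgClosed L]
variable (A : ValuationSubring L) {k : Type} [Field k] [IsAlgClosed k] [CharP k q] (π : A →+* k)
  (hπs : Function.Surjective π) (hπ0 : ∀ a : A, π a = 0 ↔ A.valuation a < 1) (hqM : ¬ q ∣ M)
  (harch : ∀ c : L, c ≠ 0 → ∃ m : ℕ, A.valuation ((q : L) ^ m) < A.valuation c) (n : ℕ)

/-- The reduction of torsion classes to the component of `∞`. -/
def redTorInf : Pic0.torsion L (levelField (M * q) L) n →+
    RedTarget k (modularFunctionFieldFullC k M) n :=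
  redTor n (isFunctionField_level L (M * q)) (scaled_cInf M q A π hπs hπ0 hqM harch)

/-- The reduction of torsion classes to the component of `0`. -/
def redTorZero : Pic0.torsion L (levelField (M * q) L) n →+
    RedTarget k (modularFunctionFieldFullC k M) n :=
  redTor n (isFunctionField_level L (M * q)) (scaled_cZero M q A π hπs hπ0 hqM harch)

theorem redTorInf_gal {σ : L ≃ₐ[ℚ] L} {φ : k →+* k} (hσ : InducesOn L π σ φ)
    (x : Pic0.torsion L (levelField (M * q) L) n) :
    redTorInf M q A π hπs hπ0 hqM harch n (galAut (M * q) L σ • x) =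
      mapRedTarget n (fullMap M φ) (fullMap_const M φ)
        (redTorInf M q A π hπs hπ0 hqM harch n x) :=
  redTor_smul n (isFunctionField_level L (M * q)) _
    (intertwines_cInf M q A π hπs hπ0 hqM harch hσ) (fullMap_const M φ) x

theorem redTorZero_gal {σ : L ≃ₐ[ℚ] L} {φ : k →+* k} (hσ : InducesOn L π σ φ)
    (x : Pic0.torsion L (levelField (M * q) L) n) :
    redTorZero M q A π hπs hπ0 hqM harch n (galAut (M * q) L σ • x) =
      mapRedTarget n (fullMap M φ) (fullMap_const M φ)
        (redTorZero M q A π hπs hπ0 hqM harch n x) :=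
  redTor_smul n (isFunctionField_level L (M * q)) _
    (intertwines_cZero M q A π hπs hπ0 hqM harch hσ) (fullMap_const M φ) x

theorem fullMap_one_eq : fullMap M (RingHom.id k) = RingHom.id (modularFunctionFieldFullC k M) :=
  RingHom.ext (fullMap_id M)

theorem mapRedTarget_congr {K E : Type*} [Field K] [Field E] [Algebra K E] {θ θ' : E →+* E}
    (h : θ = θ') (hθ : ∀ a : K, θ (algebraMap K E a) ∈ (algebraMap K E).range)
    (x : RedTarget K E n) :
    mapRedTarget n θ hθ x = mapRedTarget n θ' (h ▸ hθ) x := by
  subst h; rfl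

/-- Inertia does not move the reductions. -/
theorem redTor_gal_inertia {σ : L ≃ₐ[ℚ] L} (hσ : InducesOn L π σ (RingHom.id k))
    (x : Pic0.torsion L (levelField (M * q) L) n) :
    redTorInf M q A π hπs hπ0 hqM harch n (galAut (M * q) L σ • x) =
        redTorInf M q A π hπs hπ0 hqM harch n x ∧
      redTorZero M q A π hπs hπ0 hqM harch n (galAut (M * q) L σ • x) =
        redTorZero M q A π hπs hπ0 hqM harch n x := by
  constructor
  · rw [redTorInf_gal M q A π hπs hπ0 hqM harch n hσ, mapRedTarget_congr n (fullMap_one_eq M)]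
    exact mapRedTarget_id n _
  · rw [redTorZero_gal M q A π hπs hπ0 hqM harch n hσ, mapRedTarget_congr n (fullMap_one_eq M)]
    exact mapRedTarget_id n _

theorem heckeInputs_level (N ℓ : ℕ) [NeZero N] [NeZero ℓ] : HeckeInputsAlong L N ℓ := by
  have h1 := isFunctionField_level L N
  have h2 := isFunctionField_level L (N * ℓ)
  haveI hP : HasPrincipalDivisors L
      (laurentBaseChange L (modularFunctionFieldFull (N * ℓ))) :=
    FA.Curve.hasPrincipalDivisors h2
  exact heckeInputsAlong_intro (FA.Curve.isIntegral_toRingHom h1 h2 _)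
    (FA.Curve.isIntegral_toRingHom h1 h2 _) (FA.Curve.fundamentalIdentityAlong h1 h2 _ _)
    (FA.Curve.finiteAlong h1 h2 _) (FA.Curve.normFormulaAlong h1 h2 _ _)

/-- On the component of `0` the operator `U_q` is the Frobenius of coefficients. -/
theorem redTorZero_hecke (x y : Pic0.torsion L (levelField (M * q) L) n)
    (hy : (y : Pic0 L (levelField (M * q) L)) =
      heckeOperatorAlong L (M * q) q (x : Pic0 L (levelField (M * q) L))) :
    redTorZero M q A π hπs hπ0 hqM harch n y =
      mapRedTarget n (fullMap M (frobenius k q)) (fullMap_const M (frobenius k q))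
        (redTorZero M q A π hπs hπ0 hqM harch n x) := by
  obtain ⟨hα, hβ, hP, hfin, hFI, hN⟩ := heckeInputs_level (L := L) (M * q) q
  haveI := hP
  rw [heckeOperatorAlong_eq hα hβ hFI hfin hN] at hy
  exact redTor_correspondence n (isFunctionField_level L (M * q))
    (scaled_cZero M q A π hπs hπ0 hqM harch) (heckeBetaBar L (M * q) q)
    (heckeAlphaBar L (M * q) q) hβ hα hFI hfin hN (fullMap_const M (frobenius k q))
    (fun f r hr _ => cZero_normAlpha M q A π hπs hπ0 hqM harch hr) x y hy

/-- A Frobenius element and `U_q` agree on the component of `0`. -/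
theorem redTorZero_hecke_eq_gal {σ : L ≃ₐ[ℚ] L} (hσ : InducesOn L π σ (frobenius k q))
    (x y : Pic0.torsion L (levelField (M * q) L) n)
    (hy : (y : Pic0 L (levelField (M * q) L)) =
      heckeOperatorAlong L (M * q) q (x : Pic0 L (levelField (M * q) L))) :
    redTorZero M q A π hπs hπ0 hqM harch n y =
      redTorZero M q A π hπs hπ0 hqM harch n (galAut (M * q) L σ • x) :=
  (redTorZero_hecke M q A π hπs hπ0 hqM harch n x y hy).trans
    (redTorZero_gal M q A π hπs hπ0 hqM harch n hσ x).symm

end FA.ModField
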