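import Fermat.Agent.ModField.Semistable.FibreAt
import Fermat.Agent.ModField.Semistable.RedPoints
import Fermat.Agent.ModField.Semistable.Inject
import Fermat.Agent.ModField.Semistable.PushCompat
import Fermat.Agent.ModField.Semistable.ConjLattice

/-!
# The trace of Frobenius at `q` on the `q`-new torsion of `J₀(M q)`

Where the pushforward to level `M` vanishes, `e = U² - h U + q` lands in the toric kernel, on which
a power of Frobenius is a scalar; complex conjugation then forces `e` to vanish.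
-/

set_option autoImplicit false
set_option linter.style.haveILetI false
set_option linter.unusedSectionVars false
set_option synthInstance.maxHeartbeats 200000
set_option maxHeartbeats 800000

noncomputable section

namespace FA.ModField

open ModularCurve AlgebraicCurve FA.Curve FA.CurveRed FA.Level FA.JTorsion

local notation "Qb" => AlgebraicClosure ℚ

theorem redTor_congr_red {K F k Fk : Type} [Field K] [Field F] [Algebra K F] [Field k] [Field Fk]
    [Algebra k Fk] [IsAlgClosed K] [IsAlgClosed k] {A : ValuationSubring K}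
    {C C' : ConstRed K F k Fk A} (h : C = C')
    (n : ℕ) (hF : IsFunctionField K F) (hC : C.Scaled) (hC' : C'.Scaled)
    (x : Pic0.torsion K F n) : redTor n hF hC x = redTor n hF hC' x := by
  subst h; rfl

/-- An additive map seeing `U` as `a` kills `U² - h U + q`. -/
theorem frobRel_vanish {R X Y : Type} [CommRing R] [AddCommGroup X] [Module R X] [AddCommGroup Y]
    (r : X →+ Y) (a a' : Module.End R X) (ha : ∀ y, a (a' y) = y) {U h : R} {q : ℕ}
    (hU : ∀ y, r (U • y) = r (a y)) (hh : ∀ y, a y + q • a' y = h • y) (y : X) :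
    r ((U * U - h * U + (q : R)) • y) = 0 := by
  have h3 : r (U • U • y) = r (U • a y) := (hU _).trans (congrArg r (map_smul a U y))
  have h4 : r (U • a' y) = r y := by rw [hU, ha]
  rw [add_smul, sub_smul, mul_smul, mul_smul, Nat.cast_smul_eq_nsmul, smul_comm h U y, ← hh,
    smul_add, smul_comm U q, map_add, map_sub, map_add, map_nsmul, map_nsmul, h3, h4]
  abel

/-- A scalar element and an involution under a quadratic relation. -/
theorem frobConj_relation {R X G : Type} [CommRing R] [AddCommGroup X] [Module R X] [Group G]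
    (g : G →* Module.End R X) {s c : G} {a v P : ℕ} {h' : R} {Z : X}
    (hkill : ∀ x : X, P • x = 0) (hv : P ∣ v + a) (hc : ∀ z, g c (g c z) = z)
    (hs : g s Z = a • Z) (hsc : g s (g c Z) = a • g c Z)
    (hrel : g (s * c) Z + v • g (s * c)⁻¹ Z = h' • Z) :
    a • (h' • Z) = (a * (a - 1)) • g c Z := by
  have hinv : ∀ z, g c⁻¹ z = g c z := fun z => by
    have h1 := congrArg (g c⁻¹) (hc z)
    rw [← Module.End.mul_apply (g c⁻¹), ← map_mul, inv_mul_cancel, map_one,
      Module.End.one_apply] at h1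
    exact h1.symm
  have h1 : g (s * c) Z = a • g c Z := by rw [map_mul, Module.End.mul_apply, hsc]
  have h0 : a • g s⁻¹ Z = Z := by
    rw [← map_nsmul, ← hs, ← Module.End.mul_apply, ← map_mul, inv_mul_cancel, map_one,
      Module.End.one_apply]
  have h2 : a • g (s * c)⁻¹ Z = g c Z := by
    rw [mul_inv_rev, map_mul, Module.End.mul_apply, ← map_nsmul, h0, hinv]
  have h5 : v • g c Z + a • g c Z = 0 := by
    obtain ⟨d, hd⟩ := hv
    rw [← add_nsmul, hd, mul_comm, mul_nsmul', hkill, nsmul_zero]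
  rw [← hrel, h1, smul_add, smul_comm a v, h2, eq_neg_of_add_eq_zero_left h5, ← mul_nsmul',
    Nat.mul_sub, mul_one, sub_nsmul _ (Nat.le_mul_self _), ← sub_eq_add_neg]
  try abel

theorem exists_lat_of_mk {R X : Type} [CommRing R] [AddCommGroup X] [Module R X]
    (S : Submodule R X) {P : ℕ} (hS : ∀ z ∈ S, ∃ y, P • y = z) (h' e f : R) (x x' : X) (a b : ℕ)
    (h : a • (h' • e • f • (Submodule.Quotient.mk x : X ⧸ S)) =
      b • (e • f • (Submodule.Quotient.mk (-x') : X ⧸ S))) :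
    ∃ y, P • y = ((a : R) * h' * e * f) • x + ((b : R) * e * f) • x' := by
  refine hS _ ((Submodule.Quotient.mk_eq_zero S).1 ?_)
  rw [← Nat.cast_smul_eq_nsmul R, ← Nat.cast_smul_eq_nsmul R] at h
  simp only [Submodule.Quotient.mk_add, Submodule.Quotient.mk_smul, mul_smul]
  rw [h, Submodule.Quotient.mk_neg]
  simp only [smul_neg]
  exact neg_add_cancel _

variable (M q : ℕ) [NeZero M] [hq : Fact q.Prime] [hq0 : NeZero q] [Algebra Qb ℂ]
variable (A : ValuationSubring Qb) {k : Type} [Field k] [IsAlgClosed k] [CharP k q] (π : A →+* k)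
  (hπs : Function.Surjective π) (hπ0 : ∀ a : A, π a = 0 ↔ A.valuation a < 1) (hqM : ¬ q ∣ M)
  (harch : ∀ c : Qb, c ≠ 0 → ∃ m : ℕ, A.valuation ((q : Qb) ^ m) < A.valuation c)
variable (p : ℕ) [hp : Fact p.Prime] [NeZero p]

/-- `U_q` in the full Hecke algebra. -/
def uQ : HFull (M * q) :=
  CuspForm.heckeAlgebra.U (k := 2) hq.out (dvd_mul_left q M) (Set.notMem_empty _)

/-- The torsion class of an element of the lattice modulo `p ^ n`. -/
def torsCls (n : ℕ) : ModN (M * q) (∅ : Set ℕ) (p ^ n) →+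
    Pic0.torsion Qb (levelField (M * q) Qb) (p ^ n) :=
  (toTors (M * q) (∅ : Set ℕ) (p ^ n)).codRestrict _ fun z =>
    Pic0.mem_torsion.2 ((natCast_zsmul _ _).trans (nsmul_toTors (M * q) (∅ : Set ℕ) (p ^ n) z))

theorem coe_torsCls (n : ℕ) (z : ModN (M * q) (∅ : Set ℕ) (p ^ n)) :
    ((torsCls M q p n z : Pic0.torsion Qb (levelField (M * q) Qb) (p ^ n)) :
      Pic0 Qb (levelField (M * q) Qb)) = toTors (M * q) (∅ : Set ℕ) (p ^ n) z := rfl

theorem torsCls_galMod (n : ℕ) (σ : GalQ) (z : ModN (M * q) (∅ : Set ℕ) (p ^ n)) :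
    torsCls M q p n (galMod (M * q) (∅ : Set ℕ) (p ^ n) σ z) =
      galAut (M * q) Qb σ • torsCls M q p n z := by
  refine Subtype.ext ?_
  rw [SemilinearAut.coe_torsion_smul, coe_torsCls, coe_torsCls, toTors_galMod]
  exact galois_smul_pic0_def _ σ _

theorem toTors_uQ (n : ℕ) (z : ModN (M * q) (∅ : Set ℕ) (p ^ n)) :
    toTors (M * q) (∅ : Set ℕ) (p ^ n) (uQ M q • z) =
      heckeOperatorAlong Qb (M * q) q (toTors (M * q) (∅ : Set ℕ) (p ^ n) z) :=
  toTors_U_smul (M * q) (p ^ n) hq.out (dvd_mul_left q M) (Set.notMem_empty _) z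

section Kill

variable {t₁ : HFull (M * q)} (hkl : ∀ (n : ℕ) (z : ModN (M * q) (∅ : Set ℕ) (p ^ n)),
  pushLvl M q (toTors (M * q) (∅ : Set ℕ) (p ^ n) (t₁ • z)) = 0)

include hqM hkl

/-- On the part killed by the pushforward the involution is `- U_q`. -/
theorem wAut_torsCls_of_kill (n : ℕ) (z : ModN (M * q) (∅ : Set ℕ) (p ^ n)) :
    wAut M q Qb hqM • torsCls M q p n (t₁ • z) = - torsCls M q p n (uQ M q • t₁ • z) := by
  refine eq_neg_of_add_eq_zero_right (Subtype.ext ?_)
  obtain ⟨D, hD⟩ := Pic0.mk_surjective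
    ((torsCls M q p n (t₁ • z) : Pic0.torsion Qb (levelField (M * q) Qb) (p ^ n)) :
      Pic0 Qb (levelField (M * q) Qb))
  have h := heckeOperatorAlong_add_wAut M q Qb hqM (pow_ne_zero n (NeZero.ne p))
    (torsCls M q p n (t₁ • z)) hD
    (pushDown_principal M q (by
      rw [hD, coe_torsCls]
      exact hkl n z))
  rw [coe_torsCls, ← toTors_uQ] at h
  exact h

theorem uQ_sq_mul_of_kill : uQ M q * uQ M q * t₁ = t₁ := by
  haveI := latMod_free (M * q) (∅ : Set ℕ)
  haveI : Module.Finite ℤ (HFull (M * q)) := FA.Period.moduleFinite_heckeAlgebra (M * q) 2 _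
  obtain ⟨c, hc⟩ := exists_saturation p (NeZero.ne p)
    (fun _ h => latMod_faithful (M * q) (∅ : Set ℕ) h)
  suffices key : ∀ n, ∃ y, (uQ M q * uQ M q * t₁ - t₁) - p ^ n • y ∈
      (⊥ : Submodule ℤ (HFull (M * q))) by
    obtain ⟨m, hm, hmem⟩ := exists_nsmul_mem_of_forall_pow ⊥ hp.out.one_lt key
    exact sub_eq_zero.1 ((smul_eq_zero.1 ((Submodule.mem_bot ℤ).1 hmem)).resolve_left hm)
  intro n
  have hz : ∀ z : ModN (M * q) (∅ : Set ℕ) (p ^ (n + c)),
      (uQ M q * uQ M q * t₁ - t₁) • z = 0 := fun z => by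
    refine toTors_injective (M * q) _ _ ?_
    rw [sub_smul, map_sub, map_zero, sub_eq_zero]
    have h1 := wAut_torsCls_of_kill M q hqM p hkl (n + c) (uQ M q • z)
    have h2 := wAut_torsCls_of_kill M q hqM p hkl (n + c) z
    have e : t₁ • uQ M q • z = uQ M q • t₁ • z := smul_comm _ _ _
    have h1' := congrArg Subtype.val h1
    have h2' := congrArg Subtype.val h2
    simp only [SemilinearAut.coe_torsion_smul, NegMemClass.coe_neg, coe_torsCls, e] at h1' h2'
    rw [mul_smul, mul_smul]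
    have h3 : wAut M q Qb hqM • -(toTors (M * q) (∅ : Set ℕ) (p ^ (n + c)) (uQ M q • t₁ • z) :
        Pic0 Qb (levelField (M * q) Qb)) =
        (toTors (M * q) (∅ : Set ℕ) (p ^ (n + c)) (t₁ • z) :
          Pic0 Qb (levelField (M * q) Qb)) := by
      rw [← h2', wAut_smul_smul]
    rw [smul_neg, h1', neg_neg] at h3
    exact h3
  obtain ⟨y, hy⟩ := hc n (uQ M q * uQ M q * t₁ - t₁) fun x => by
    obtain ⟨y, hy⟩ := (mem_nMultiples (M * q) (∅ : Set ℕ)).1
      ((Submodule.Quotient.mk_eq_zero _).1 (hz (Submodule.Quotient.mk x)))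
    exact ⟨y, hy.symm⟩
  exact ⟨y, (Submodule.mem_bot ℤ).2 (by rw [hy, sub_self])⟩

include hπs hπ0 harch

/-- On the part killed by the pushforward the component of `∞` sees the one of `0`. -/
theorem redTorInf_torsCls_of_kill (n : ℕ) (z : ModN (M * q) (∅ : Set ℕ) (p ^ n)) :
    redTorInf M q A π hπs hπ0 hqM harch (p ^ n) (torsCls M q p n (t₁ • z)) =
      - redTorZero M q A π hπs hπ0 hqM harch (p ^ n) (torsCls M q p n (uQ M q • t₁ • z)) := by
  have h := redTorZero_eq_wAut M q Qb hqM A π hπs hπ0 harch (p ^ n)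
    (wAut M q Qb hqM • torsCls M q p n (t₁ • z))
  have e : wAut M q Qb hqM • wAut M q Qb hqM • torsCls M q p n (t₁ • z) =
      torsCls M q p n (t₁ • z) := Subtype.ext (by
    rw [SemilinearAut.coe_torsion_smul, SemilinearAut.coe_torsion_smul, wAut_smul_smul])
  rw [e, wAut_torsCls_of_kill M q hqM p hkl n z, map_neg] at h
  exact h.symm

variable {A π hπs hπ0 harch}

/-- `(U² - h U + q) f` lands in the toric kernel. -/
theorem frobRel_mem_toricKer_of_kill (D : FibreData M q A π hπs hπ0 hqM harch) {σ : GalQ}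
    (hσ : InducesOn Qb π σ (frobenius k q)) (n : ℕ) {h : HFull (M * q)}
    (hh : ∀ z : ModN (M * q) (∅ : Set ℕ) (p ^ n),
      galMod (M * q) (∅ : Set ℕ) (p ^ n) σ z + q • galMod (M * q) (∅ : Set ℕ) (p ^ n) σ⁻¹ z = h • z)
    (z : ModN (M * q) (∅ : Set ℕ) (p ^ n)) :
    torsCls M q p n ((uQ M q * uQ M q - h * uQ M q + (q : HFull (M * q))) • t₁ • z) ∈
      D.X.toricKer (isFunctionField_level Qb (M * q)) (p ^ n) := by
  set e := uQ M q * uQ M q - h * uQ M q + (q : HFull (M * q))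
  let R : ModN (M * q) (∅ : Set ℕ) (p ^ n) →+ RedTarget k (modularFunctionFieldFullC k M) (p ^ n) :=
    (redTorZero M q A π hπs hπ0 hqM harch (p ^ n)).comp (torsCls M q p n)
  have he : ∀ y, R (e • y) = 0 := fun y => frobRel_vanish (U := uQ M q) (h := h) (q := q) (Y := RedTarget k (modularFunctionFieldFullC k M) (p ^ n)) R (galMod (M * q) (∅ : Set ℕ) (p ^ n) σ)
    (galMod (M * q) (∅ : Set ℕ) (p ^ n) σ⁻¹)
    (fun y => by
      rw [← Module.End.mul_apply, ← map_mul, mul_inv_cancel, map_one, Module.End.one_apply])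
    (fun y => by
      show redTorZero M q A π hπs hπ0 hqM harch (p ^ n) (torsCls M q p n _) =
        redTorZero M q A π hπs hπ0 hqM harch (p ^ n) (torsCls M q p n _)
      rw [torsCls_galMod]
      exact redTorZero_hecke_eq_gal M q A π hπs hπ0 hqM harch (p ^ n) hσ _ _ (toTors_uQ M q p n y))
    hh y
  have h0 : redTorZero M q A π hπs hπ0 hqM harch (p ^ n) (torsCls M q p n (e • t₁ • z)) = 0 :=
    he _
  have h1 : redTorInf M q A π hπs hπ0 hqM harch (p ^ n) (torsCls M q p n (e • t₁ • z)) = 0 := by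
    rw [smul_comm e t₁ z, redTorInf_torsCls_of_kill M q A π hπs hπ0 hqM harch p hkl n (e • z),
      smul_comm t₁ e z, smul_comm (uQ M q) e]
    refine Eq.trans (congrArg Neg.neg (he _)) ?_
    exact neg_zero (G := RedTarget k (modularFunctionFieldFullC k M) (p ^ n))
  refine (SemiFibre.mem_toricKer _).2 fun i => ?_
  fin_cases i
  · exact (redTor_congr_red D.C_inf _ _ _ (scaled_cInf M q A π hπs hπ0 hqM harch) _).trans h1
  · exact (redTor_congr_red D.C_zero _ _ _ (scaled_cZero M q A π hπs hπ0 hqM harch) _).trans h0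

/-- The trace of Frobenius at `q` is `(q + 1) U_q` on the operators killed at level `M`. -/
theorem exists_frob_relation_lin_of_kill (D : FibreData M q A π hπs hπ0 hqM harch) (hA : A.LiesOverPrime q)
    (hqp : q ≠ p) {σ : GalQ} (hσq : A.IsFrobeniusAt σ q) (hσ : InducesOn Qb π σ (frobenius k q)) :
    ∃ K c : ℕ, K ≠ 0 ∧ ∀ (n : ℕ) (h : HFull (M * q)),
      (∀ z : ModN (M * q) (∅ : Set ℕ) (p ^ (n + c)),
        galMod (M * q) (∅ : Set ℕ) (p ^ (n + c)) σ z +
          q • galMod (M * q) (∅ : Set ℕ) (p ^ (n + c)) σ⁻¹ z = h • z) →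
      ∃ y, K • (((1 : HFull (M * q)) + (q : HFull (M * q)) - h * uQ M q) * t₁) = p ^ n • y := by
  classical
  obtain ⟨m, hm, S, hSs, hSθ, hSe⟩ := D.symm_frob σ hσ
  obtain ⟨c, hc⟩ := exists_conj_saturation (M * q) p (NeZero.ne p)
  obtain ⟨cj, hcj⟩ := exists_isConj
  have hqm : 1 < q ^ m := Nat.one_lt_pow hm.ne' hq.out.one_lt
  refine ⟨2 * (q ^ m * (q ^ m - 1)), c, mul_ne_zero two_ne_zero
    (mul_ne_zero (by omega) (Nat.sub_ne_zero_of_lt hqm)), fun n h hh => ?_⟩
  set N := M * q with hN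
  set P := p ^ (n + c)
  let g := galMod N (∅ : Set ℕ) P
  let e := uQ M q * uQ M q - h * uQ M q + (q : HFull N)
  have hkill : ∀ z : ModN N (∅ : Set ℕ) P, P • z = 0 := fun z =>
    toTors_injective N _ _ (by rw [map_nsmul, nsmul_toTors, map_zero])
  have hval : A.valuation ((P : ℕ) : Qb) = 1 :=
    FA.CurveRed.valuation_natCast_eq_one A hq.out hA fun hd =>
      hqp ((Nat.prime_dvd_prime_iff_eq hq.out hp.out).1 (hq.out.dvd_of_dvd_pow hd))
  have hFrob : ∀ z, g (σ ^ m) (e • t₁ • z) = q ^ m • (e • t₁ • z) := fun z => by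
    refine toTors_injective N _ _ ?_
    have hk := SemiFibre.Symm.smul_eq_nsmul (isFunctionField_level Qb N)
      (fun _ => isFunctionField_fullC k M) S (m := q ^ m) hSθ hSe
      (pow_ne_zero (n + c) (NeZero.ne p)) hval
      (frobRel_mem_toricKer_of_kill M q hqM p hkl D hσ (n + c) hh z)
    rw [hSs, ← torsCls_galMod, ← map_nsmul] at hk
    exact congrArg Subtype.val hk
  let bad : Finset ℕ := insert p N.primeFactors
  obtain ⟨h', hh', -, -⟩ := exists_hecke_of_gal p (n + c) hkill g (Q := PUnit)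
    (Subsingleton.elim _ _) 1
    { toFun := fun _ => PUnit.unit, map_one' := rfl, map_mul' := fun _ _ => rfl,
      map_zero' := rfl, map_add' := fun _ _ => rfl }
    (exists_field_galMod N (∅ : Set ℕ) P) ⟨⊥, inferInstance, fun _ _ => Subsingleton.elim _ _⟩
    bad (Finset.mem_insert_self _ _)
    (fun ℓ hℓ hℓbad C hC τ hτ => by
      simp only [bad, Finset.mem_insert, Nat.mem_primeFactors, not_or] at hℓbad
      have hℓN : ¬ ℓ ∣ N := fun hd => hℓbad.2 ⟨hℓ, hd, NeZero.ne N⟩
      exact ⟨_, fun x => galMod_frobenius N (∅ : Set ℕ) P (goodRed_all N) hℓ hℓN (fun hd =>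
          hℓbad.1 ((Nat.prime_dvd_prime_iff_eq hℓ hp.out).1 (hℓ.dvd_of_dvd_pow hd))) hC
          (Set.notMem_empty _) hτ x, Subsingleton.elim _ _, Subsingleton.elim _ _⟩)
    (σ ^ m * cj)
  set v := ((cycMod p (n + c) (σ ^ m * cj) : (ZMod P)ˣ) : ZMod P).val
  have hv : P ∣ v + q ^ m := by
    haveI : NeZero P := ⟨pow_ne_zero _ (NeZero.ne p)⟩
    rw [← ZMod.natCast_eq_zero_iff, Nat.cast_add, ZMod.natCast_zmod_val, map_mul, map_pow,
      Units.val_mul, Units.val_pow_eq_pow_val, cycMod_frobenius p (n + c) hq.out hqp hA hσq,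
      cycMod_conj p (n + c) hcj, Nat.cast_pow, mul_neg, mul_one, neg_add_cancel]
  have hconj : ∀ z, g cj (g cj z) = z := fun z => by
    obtain ⟨x, rfl⟩ := Submodule.Quotient.mk_surjective _ z
    rw [galMod_conj hcj, galMod_conj hcj, map_neg, neg_neg, jLat_jLat]
  have hrel : ∀ x : LatMod N (∅ : Set ℕ), ∃ y,
      ((q ^ m : HFull N) * h' * e * t₁) • x +
        (((q ^ m * (q ^ m - 1) : ℕ) : HFull N) * e * t₁) • jLat N (∅ : Set ℕ) x = P • y := by
    intro x
    have hcZ : g cj (e • t₁ • (Submodule.Quotient.mk x : ModN N (∅ : Set ℕ) P)) =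
        e • t₁ • g cj (Submodule.Quotient.mk x) := by rw [map_smul, map_smul]
    have h3 := frobConj_relation g hkill hv hconj (hFrob (Submodule.Quotient.mk x))
      (by rw [hcZ]; exact hFrob _) (hh' _)
    rw [hcZ, galMod_conj hcj] at h3
    obtain ⟨y, hy⟩ := exists_lat_of_mk (nMultiples N (∅ : Set ℕ) P)
      (fun z hz => (mem_nMultiples N (∅ : Set ℕ)).1 hz) h' e t₁ x (jLat N (∅ : Set ℕ) x) (q ^ m)
      (q ^ m * (q ^ m - 1)) h3
    exact ⟨y, by rw [hy, Nat.cast_pow]⟩
  obtain ⟨⟨a, ha⟩, ⟨b, hb⟩⟩ := hc n _ _ hrel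
  refine ⟨a - b, ?_⟩
  have hsq := uQ_sq_mul_of_kill M q hqM p hkl
  rw [smul_sub (p ^ n) a b, ← ha, ← hb, nsmul_eq_mul, Nat.cast_mul, Nat.cast_two]
  simp only [e]
  linear_combination (-(2 * ((q ^ m * (q ^ m - 1) : ℕ) : HFull N))) * hsq

/-- The trace of Frobenius at `q` squares to `(q + 1)²` on the operators killed at level `M`. -/
theorem exists_frob_relation_of_kill (D : FibreData M q A π hπs hπ0 hqM harch) (hA : A.LiesOverPrime q)
    (hqp : q ≠ p) {σ : GalQ} (hσq : A.IsFrobeniusAt σ q) (hσ : InducesOn Qb π σ (frobenius k q)) :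
    ∃ K c : ℕ, K ≠ 0 ∧ ∀ (n : ℕ) (h : HFull (M * q)),
      (∀ z : ModN (M * q) (∅ : Set ℕ) (p ^ (n + c)),
        galMod (M * q) (∅ : Set ℕ) (p ^ (n + c)) σ z +
          q • galMod (M * q) (∅ : Set ℕ) (p ^ (n + c)) σ⁻¹ z = h • z) →
      ∃ y, K • ((((1 : HFull (M * q)) + (q : HFull (M * q))) ^ 2 - h ^ 2) * t₁) = p ^ n • y := by
  obtain ⟨K, c, hK, hk⟩ := exists_frob_relation_lin_of_kill M q hqM p hkl D hA hqp hσq hσ
  refine ⟨K, c, hK, fun n h hh => ?_⟩
  obtain ⟨y, hy⟩ := hk n h hh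
  refine ⟨y * ((1 : HFull (M * q)) + (q : HFull (M * q)) + h * uQ M q), ?_⟩
  have hsq := uQ_sq_mul_of_kill M q hqM p hkl
  rw [← smul_mul_assoc (p ^ n) y, ← hy, nsmul_eq_mul, nsmul_eq_mul]
  linear_combination ((K : HFull (M * q)) * h ^ 2) * hsq

end Kill

variable {B : Finset ℕ} (hpB : p ∈ B) {t : HFull (M * q) × HFull M}
  (ht : t ∈ pairRing (M * q) M (dvd_mul_right M q) B) (ht2 : t.2 = 0)

include hqM hpB ht ht2

theorem uQ_sq_mul : uQ M q * uQ M q * t.1 = t.1 :=
  uQ_sq_mul_of_kill M q hqM p (pushLvl_killer M q p hpB ht ht2)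

include hπs hπ0 harch

/-- On the operators killed at level `M` the component of `∞` sees the one of `0`. -/
theorem redTorInf_torsCls (n : ℕ) (z : ModN (M * q) (∅ : Set ℕ) (p ^ n)) :
    redTorInf M q A π hπs hπ0 hqM harch (p ^ n) (torsCls M q p n (t.1 • z)) =
      - redTorZero M q A π hπs hπ0 hqM harch (p ^ n) (torsCls M q p n (uQ M q • t.1 • z)) :=
  redTorInf_torsCls_of_kill M q A π hπs hπ0 hqM harch p (pushLvl_killer M q p hpB ht ht2) n z

variable {A π hπs hπ0 harch}

/-- The trace of Frobenius at `q` is `(q + 1) U_q` on the operators killed at level `M`. -/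
theorem exists_frob_relation_lin (D : FibreData M q A π hπs hπ0 hqM harch) (hA : A.LiesOverPrime q)
    (hqp : q ≠ p) {σ : GalQ} (hσq : A.IsFrobeniusAt σ q) (hσ : InducesOn Qb π σ (frobenius k q)) :
    ∃ K c : ℕ, K ≠ 0 ∧ ∀ (n : ℕ) (h : HFull (M * q)),
      (∀ z : ModN (M * q) (∅ : Set ℕ) (p ^ (n + c)),
        galMod (M * q) (∅ : Set ℕ) (p ^ (n + c)) σ z +
          q • galMod (M * q) (∅ : Set ℕ) (p ^ (n + c)) σ⁻¹ z = h • z) →
      ∃ y, K • (((1 : HFull (M * q)) + (q : HFull (M * q)) - h * uQ M q) * t.1) = p ^ n • y :=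
  exists_frob_relation_lin_of_kill M q hqM p (pushLvl_killer M q p hpB ht ht2) D hA hqp hσq hσ

/-- The trace of Frobenius at `q` squares to `(q + 1)²` on the operators killed at level `M`. -/
theorem exists_frob_relation (D : FibreData M q A π hπs hπ0 hqM harch) (hA : A.LiesOverPrime q)
    (hqp : q ≠ p) {σ : GalQ} (hσq : A.IsFrobeniusAt σ q) (hσ : InducesOn Qb π σ (frobenius k q)) :
    ∃ K c : ℕ, K ≠ 0 ∧ ∀ (n : ℕ) (h : HFull (M * q)),
      (∀ z : ModN (M * q) (∅ : Set ℕ) (p ^ (n + c)),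
        galMod (M * q) (∅ : Set ℕ) (p ^ (n + c)) σ z +
          q • galMod (M * q) (∅ : Set ℕ) (p ^ (n + c)) σ⁻¹ z = h • z) →
      ∃ y, K • ((((1 : HFull (M * q)) + (q : HFull (M * q))) ^ 2 - h ^ 2) * t.1) = p ^ n • y :=
  exists_frob_relation_of_kill M q hqM p (pushLvl_killer M q p hpB ht ht2) D hA hqp hσq hσ

end FA.ModField
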