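import Fermat.Agent.ModField.Semistable.RedPoints

/-!
# `U_q + w_q` is the composite of the degeneracy maps

On torsion classes with trivial pushforward to level `M` it vanishes.
-/

set_option autoImplicit false
set_option linter.style.haveILetI false
set_option linter.unusedSectionVars false
set_option synthInstance.maxHeartbeats 200000
set_option maxHeartbeats 400000

noncomputable section

namespace FA.ModField

open ModularCurve AlgebraicCurve FA.Curve FA.CurveRed

variable (M : ℕ) [NeZero M] (q : ℕ) [hq : Fact q.Prime] [hq0 : NeZero q]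
variable (L : Type) [Field L] [Algebra ℚ L] [Algebra L ℂ] [IsAlgClosed L] (hqM : ¬ q ∣ M)

theorem ord_norm_push {K F F' : Type} [Field K] [Field F] [Algebra K F] [Field F'] [Algebra K F']
    (ψ : F →ₐ[K] F') (hψ : ψ.toRingHom.IsIntegral) (hfin : FiniteAlong K ψ)
    (hN : NormFormulaAlong K ψ hfin) {n : ℤ} {D : Divisor K F'} {g : F'} (hg : g ≠ 0)
    (hgD : ∀ P, n * D P = P.ord g) :
    (letI := algebraAlong ψ; Algebra.norm F g) ≠ 0 ∧
      ∀ P : Place K F, n * Divisor.pushforwardAlong ψ hψ D P =
        P.ord (letI := algebraAlong ψ; Algebra.norm F g) := by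
  letI := algebraAlong ψ
  haveI := isScalarTower_along ψ
  haveI := isIntegral_along ψ hψ
  haveI : Module.Finite F F' := hfin
  refine ⟨Algebra.norm_ne_zero_iff.2 hg, fun P => ?_⟩
  rw [← smul_eq_mul, ← Finsupp.smul_apply, ← map_zsmul]
  exact hN g hg _ (fun w => by rw [Finsupp.smul_apply, smul_eq_mul, hgD w]) P

theorem ord_norm_correspondence {K F F' : Type} [Field K] [Field F] [Algebra K F] [Field F']
    [Algebra K F'] [HasPrincipalDivisors K F'] (φ ψ : F →ₐ[K] F') (hφ : φ.toRingHom.IsIntegral)
    (hψ : ψ.toRingHom.IsIntegral) (hfin : FiniteAlong K ψ) (hN : NormFormulaAlong K ψ hfin)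
    {n : ℤ} {D : Divisor K F} {g : F} (hg : g ≠ 0) (hgD : ∀ P, n * D P = P.ord g) :
    (letI := algebraAlong ψ; Algebra.norm F (φ g)) ≠ 0 ∧
      ∀ P : Place K F, n * Divisor.correspondence φ ψ hφ hψ D P =
        P.ord (letI := algebraAlong ψ; Algebra.norm F (φ g)) := by
  refine ord_norm_push ψ hψ hfin hN ((map_ne_zero φ.toRingHom).2 hg) fun w => ?_
  rw [Divisor.pullbackAlong_apply, Place.ord_restrictAlong φ hφ, ← hgD]
  ring

theorem wLvl_beta (x : levelField M L) :
    wLvl M q L hqM (heckeBetaBar L M q x) = heckeAlphaBar L M q x := by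
  suffices h : (wLvl M q L hqM).toAlgHom.comp (heckeBetaBar L M q) = heckeAlphaBar L M q from
    congrArg (fun g => g x) h
  refine algHom_ext_lvl L fun d _ hd => Subtype.ext ?_
  have hdd : d * q ∣ M * q := mul_dvd_mul_right hd q
  have hs : swapDiv q (d * q) = d := by
    rw [swapDiv, if_pos (dvd_mul_left q d), Nat.mul_div_cancel _ hq.out.pos]
  haveI : NeZero (swapDiv q (d * q)) := hs.symm ▸ ‹NeZero d›
  have e : heckeBetaBar L M q (lvlGenD L M d hd) = lvlGenD L (M * q) (d * q) hdd := Subtype.ext (by
    refine (coe_heckeBetaBar M q _).trans ?_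
    rw [coe_lvlGenD, coe_lvlGenD, qExpand_qExpand]
    exact qExpand_congr (mul_comm q d) _)
  show (wLvl M q L hqM (heckeBetaBar L M q (lvlGenD L M d hd)) : LaurentSeries L) =
    (heckeAlphaBar L M q _ : LaurentSeries L)
  rw [e, coe_heckeAlphaBar, coe_wLvl_gen, coe_lvlGenD]
  exact qExpand_congr hs _

theorem wLvl_alpha (x : levelField M L) :
    wLvl M q L hqM (heckeAlphaBar L M q x) = heckeBetaBar L M q x := by
  rw [← wLvl_beta M q L hqM x, wLvl_wLvl]

/-- The norm down to level `M` along the inclusion. -/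
def normDownAlpha (g : levelField (M * q) L) : levelField M L :=
  letI := algebraAlong (heckeAlphaBar L M q)
  Algebra.norm (levelField M L) g

/-- The norm down to level `M` along `β`. -/
def normDownBeta (g : levelField (M * q) L) : levelField M L :=
  letI := algebraAlong (heckeBetaBar L M q)
  Algebra.norm (levelField M L) g

theorem normDownBeta_wLvl (g : levelField (M * q) L) :
    normDownBeta M q L (wLvl M q L hqM g) = normDownAlpha M q L g := by
  have h := @Algebra.norm_eq_of_equiv_equiv (levelField M L) (levelField (M * q) L)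
    (levelField M L) (levelField (M * q) L) _ _ _ _
    (algebraAlong (heckeAlphaBar L M q)) (algebraAlong (heckeBetaBar L M q))
    (RingEquiv.refl _) (wLvl M q L hqM).toRingEquiv
    (RingHom.ext fun x => (wLvl_alpha M q L hqM x).symm) g
  exact h.symm

include hqM in
theorem finrank_beta_down : finrankAlong L (heckeBetaBar L M q) = q + 1 :=
  (finrankAlong_congr (heckeBetaBar L M q) (heckeAlphaBar L M q) AlgEquiv.refl
    (wLvl M q L hqM) (wLvl_beta M q L hqM)).trans (finrank_alpha M q hqM L)

/-- The conjugates along `β` to level `M`. -/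
def conjDown (ζ : Lˣ) : Option (Fin q) → (levelField (M * q) L →+* LaurentSeries L)
  | none => (qExpand L q).comp ((levelField (M * q) L).val.toRingHom.comp
      (wLvl M q L hqM).toAlgHom.toRingHom)
  | some b => (twist (ζ ^ (b : ℕ))).comp (levelField (M * q) L).val.toRingHom

theorem conjDown_none (ζ : Lˣ) (x : levelField (M * q) L) :
    conjDown M q L hqM ζ none x =
      qExpand L q ((wLvl M q L hqM x : levelField (M * q) L) : LaurentSeries L) := by
  rfl

theorem conjDown_some (ζ : Lˣ) (b : Fin q) (x : levelField (M * q) L) :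
    conjDown M q L hqM ζ (some b) x = twist (ζ ^ (b : ℕ)) (x : LaurentSeries L) := by
  rfl

theorem conjDown_injective {ζ : Lˣ} (hz : IsPrimitiveRoot (ζ : L) q) :
    Function.Injective (conjDown M q L hqM ζ) := by
  haveI : NeZero (q * q) := ⟨mul_ne_zero hq.out.ne_zero hq.out.ne_zero⟩
  have hnd : ¬ ((q * q : ℕ) : ℤ) ∣ (-1 : ℤ) := by
    rw [Int.dvd_neg, show (1 : ℤ) = ((1 : ℕ) : ℤ) from rfl, Int.natCast_dvd_natCast, Nat.dvd_one]
    exact fun h => hq.out.ne_one (Nat.eq_one_of_mul_eq_one_left h)
  have e : levelJ (M * q) L = heckeAlphaBar L M q (levelJ M L) :=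
    Subtype.ext (coe_heckeAlphaBar M q (levelJ M L)).symm
  have hn : (conjDown M q L hqM ζ none (levelJ (M * q) L)).coeff (-1) = 0 := by
    rw [conjDown_none, e, wLvl_alpha, coe_heckeBetaBar, qExpand_qExpand, coe_levelJ,
      qExpand_coeff_of_not_dvd (q * q) _ hnd]
  have hb : ∀ b : Fin q, (conjDown M q L hqM ζ (some b) (levelJ (M * q) L)).coeff (-1) =
      (((ζ ^ (b : ℕ))⁻¹ : Lˣ) : L) := fun b => by
    rw [conjDown_some, coe_levelJ, twist_coeff, jqModC_coeff_neg_one, mul_one, zpow_neg, zpow_one]
  intro i j h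
  have h1 := congrArg (fun s : LaurentSeries L => s.coeff (-1))
    (RingHom.congr_fun h (levelJ (M * q) L))
  rcases i with _ | b <;> rcases j with _ | b'
  · rfl
  · exact absurd (hn.symm.trans (h1.trans (hb b'))).symm (Units.ne_zero _)
  · exact absurd ((hb b).symm.trans (h1.trans hn)) (Units.ne_zero _)
  · have h2 := (hb b).symm.trans (h1.trans (hb b'))
    rw [Units.val_inj, inv_inj] at h2
    exact congrArg some (Fin.ext ((IsPrimitiveRoot.coe_units_iff.1 hz).pow_inj b.2 b'.2 h2))

theorem conjDown_beta {ζ : Lˣ} (hζq : ζ ^ q = 1) (i : Option (Fin q)) (x : levelField M L) :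
    conjDown M q L hqM ζ i (heckeBetaBar L M q x) = qExpand L q (x : LaurentSeries L) := by
  cases i with
  | none => rw [conjDown_none, wLvl_beta, coe_heckeAlphaBar]
  | some b =>
    rw [conjDown_some, coe_heckeBetaBar, twist_qExpand, ← pow_mul, mul_comm, pow_mul, hζq, one_pow,
      twist_one_apply]

theorem coe_normDownBeta (g : levelField (M * q) L) :
    (normDownBeta M q L g : LaurentSeries L) =
      (normBeta M q L (heckeAlphaBar L (M * q) q g) : LaurentSeries L) *
        ((wLvl M q L hqM g : levelField (M * q) L) : LaurentSeries L) := by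
  haveI : CharZero L := charZero_of_injective_algebraMap (algebraMap ℚ L).injective
  haveI : NeZero (q : L) := ⟨Nat.cast_ne_zero.2 hq.out.ne_zero⟩
  obtain ⟨z, hz⟩ := HasEnoughRootsOfUnity.exists_primitiveRoot L q
  obtain ⟨ζ, rfl⟩ := hz.isUnit hq.out.ne_zero
  letI := algebraAlong (heckeBetaBar L M q)
  haveI : FiniteDimensional (levelField M L) (levelField (M * q) L) :=
    finiteAlong (isFunctionField_level L _) (isFunctionField_level L _) (heckeBetaBar L M q)
  haveI := charZero_levelField M (L := L)
  have hζq : ζ ^ q = 1 := Units.ext (by rw [Units.val_pow_eq_pow_val, hz.pow_eq_one, Units.val_one])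
  have hcard : Fintype.card (Option (Fin q)) =
      Module.finrank (levelField M L) (levelField (M * q) L) := by
    rw [Fintype.card_option, Fintype.card_fin]
    exact (finrank_beta_down M q L hqM).symm
  have key : qExpand L q (normDownBeta M q L g : LaurentSeries L) =
      ∏ i, conjDown M q L hqM ζ i g :=
    norm_conj (F := levelField M L) ((qExpand L q).comp (levelField M L).val.toRingHom)
      (conjDown M q L hqM ζ) (conjDown_injective M q L hqM hz)
      (fun i => RingHom.ext (conjDown_beta M q L hqM hζq i)) hcard inferInstance g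
  refine qExpand_injective q ?_
  rw [map_mul, qExpand_normBeta M q L hqM hz, key, Fintype.prod_option, conjDown_none, mul_comm]
  refine congrArg₂ (· * ·) (Finset.prod_congr rfl fun b _ => ?_) rfl
  rw [conjDown_some, coe_heckeAlphaBar]

/-- `U_q + w_q = β^* α_*` on functions. -/
theorem normAlpha_mul_wLvl (g : levelField (M * q) L) :
    (letI := algebraAlong (heckeAlphaBar L (M * q) q);
      Algebra.norm (levelField (M * q) L) (heckeBetaBar L (M * q) q g)) * wLvl M q L hqM g =
      heckeBetaBar L M q (normDownAlpha M q L g) := by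
  have h1 : heckeAlphaBar L M q (normDownBeta M q L (wLvl M q L hqM g)) =
      normBeta M q L (heckeAlphaBar L (M * q) q (wLvl M q L hqM g)) * g := by
    apply Subtype.ext
    rw [coe_heckeAlphaBar, coe_normDownBeta M q L hqM, wLvl_wLvl]
    rfl
  have h2 := congrArg (wLvl M q L hqM) h1
  rw [wLvl_alpha, normDownBeta_wLvl, map_mul, ← wLvl_normAlpha, wLvl_wLvl] at h2
  exact h2.symm

/-- The involution as a semilinear automorphism. -/
def wAut : SemilinearAut L (levelField (M * q) L) :=
  SemilinearAut.ofAlgAut (wLvl M q L hqM)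

theorem wAut_smul (g : levelField (M * q) L) : wAut M q L hqM • g = wLvl M q L hqM g := rfl

theorem wAut_mul_self : wAut M q L hqM * wAut M q L hqM = 1 := by
  rw [wAut, ← map_mul, show wLvl M q L hqM * wLvl M q L hqM = 1 from
    AlgEquiv.ext (wLvl_wLvl M q L hqM), map_one]

theorem wAut_smul_smul (x : Pic0 L (levelField (M * q) L)) :
    wAut M q L hqM • wAut M q L hqM • x = x := by
  rw [← mul_smul, wAut_mul_self, one_smul]

/-- The pushforward of a divisor to level `M` along the inclusion. -/
def pushDown (D : Divisor L (levelField (M * q) L)) : Divisor L (levelField M L) :=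
  Divisor.pushforwardAlong (heckeAlphaBar L M q)
    (isIntegral_toRingHom (isFunctionField_level L M) (isFunctionField_level L (M * q))
      (heckeAlphaBar L M q)) D

/-- `U_q + w_q` kills torsion classes with trivial pushforward. -/
theorem heckeOperatorAlong_add_wAut {n : ℕ} (hn : n ≠ 0)
    (x : Pic0.torsion L (levelField (M * q) L) n)
    {D : Divisor.degZero (K := L) (F := levelField (M * q) L)}
    (hD : Pic0.mk D = (x : Pic0 L (levelField (M * q) L)))
    (hpush : pushDown M q L (D : Divisor L (levelField (M * q) L)) ∈ Divisor.principal) :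
    heckeOperatorAlong L (M * q) q (x : Pic0 L (levelField (M * q) L)) +
      wAut M q L hqM • (x : Pic0 L (levelField (M * q) L)) = 0 := by
  obtain ⟨g, hg, hgD⟩ : ∃ g : levelField (M * q) L, g ≠ 0 ∧
      ∀ P, (n : ℤ) * (D : Divisor L (levelField (M * q) L)) P = P.ord g := by
    have h : Pic0.mk ((n : ℤ) • D) = 0 := by
      have := Pic0.mem_torsion.1 x.2
      rw [← hD] at this
      exact this
    rw [Pic0.mk, QuotientAddGroup.eq_zero_iff, AddSubgroup.mem_addSubgroupOf] at h
    obtain ⟨g, hg, hgD⟩ := h
    exact ⟨g, hg, fun P => by simpa using hgD P⟩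
  obtain ⟨h, hh, hhD⟩ := hpush
  have hFM := isFunctionField_level L M
  have hFN := isFunctionField_level L (M * q)
  haveI := FA.Curve.hasPrincipalDivisors hFN
  obtain ⟨hα, hβ, hP, hfin, hFI, hN⟩ := heckeInputs_level (L := L) (M * q) q
  haveI := hP
  -- the norm of `g`
  have hfinM := finiteAlong hFM hFN (heckeAlphaBar L M q)
  obtain ⟨hng, hngD⟩ := ord_norm_push (heckeAlphaBar L M q)
    (isIntegral_toRingHom hFM hFN (heckeAlphaBar L M q)) hfinM
    (normFormulaAlong hFM hFN (heckeAlphaBar L M q) hfinM) hg hgD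
  change normDownAlpha M q L g ≠ 0 at hng
  have hd1 : ∀ P : Place L (levelField M L),
      P.ord (normDownAlpha M q L g) = P.ord (h ^ n) := fun P => by
    rw [FA.ModField.place_ord_pow, ← hhD P]
    exact (hngD P).symm
  obtain ⟨c, hc, hch⟩ := exists_const_of_ord_eq hFM hng (pow_ne_zero n hh) hd1
  -- the divisor of `U g * w g`
  set U := Divisor.correspondence (heckeBetaBar L (M * q) q) (heckeAlphaBar L (M * q) q) hβ hα
    (D : Divisor L (levelField (M * q) L)) with hU
  set W : Divisor L (levelField (M * q) L) :=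
    ((SemilinearAut.degZeroSMulHom (wAut M q L hqM) D : Divisor.degZero) :
      Divisor L (levelField (M * q) L))
  set hb := heckeBetaBar L M q h
  have hb0 : hb ≠ 0 := (map_ne_zero (heckeBetaBar L M q).toRingHom).2 hh
  have hWord : ∀ P : Place L (levelField (M * q) L),
      (n : ℤ) * W P = P.ord (wLvl M q L hqM g) := fun P => by
    show (n : ℤ) * ((SemilinearAut.degZeroSMulHom (wAut M q L hqM) D : Divisor.degZero) :
      Divisor L (levelField (M * q) L)) P = _
    rw [SemilinearAut.coe_degZeroSMulHom, SemilinearAut.divisor_smul_apply, hgD]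
    have := SemilinearAut.ord_smul (wAut M q L hqM) ((wAut M q L hqM)⁻¹ • P) g
    rw [smul_inv_smul, wAut_smul] at this
    exact this.symm
  obtain ⟨hng0, hUord⟩ := ord_norm_correspondence (heckeBetaBar L (M * q) q)
    (heckeAlphaBar L (M * q) q) hβ hα hfin hN hg hgD
  set ng : levelField (M * q) L := (letI := algebraAlong (heckeAlphaBar L (M * q) q);
    Algebra.norm (levelField (M * q) L) (heckeBetaBar L (M * q) q g))
  have hid : ng * wLvl M q L hqM g =
      algebraMap L (levelField (M * q) L) c * hb ^ n := by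
    have h3 : ng * wLvl M q L hqM g = heckeBetaBar L M q (normDownAlpha M q L g) :=
      normAlpha_mul_wLvl M q L hqM g
    rw [h3, hch, map_mul, map_pow, AlgHom.commutes]
  have hsum : ∀ P : Place L (levelField (M * q) L), U P + W P = P.ord hb := fun P => by
    have e := congrArg P.ord hid
    rw [P.ord_mul hng0 ((map_ne_zero_iff _ (wLvl M q L hqM).injective).2 hg), ← hUord,
      ← hWord, P.ord_mul ((map_ne_zero _).2 hc) (pow_ne_zero n hb0), place_ord_algebraMap,
      zero_add, FA.ModField.place_ord_pow] at e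
    exact mul_left_cancel₀ (Int.natCast_ne_zero.2 hn) (by rw [mul_add]; exact e)
  rw [← hD, heckeOperatorAlong_eq hα hβ hFI hfin hN, heckePic0Bar, Pic0.correspondence_mk,
    SemilinearAut.pic0_smul_mk, ← Pic0.mk_add, Pic0.mk, QuotientAddGroup.eq_zero_iff,
    AddSubgroup.mem_addSubgroupOf]
  exact ⟨hb, hb0, fun P => by
    rw [AddSubgroup.coe_add, Finsupp.add_apply, Pic0.coe_degZeroCorrespondence]
    exact hsum P⟩

/-- The component of `0` is the component of `∞` after `w_q`. -/
theorem redTorZero_eq_wAut (A : ValuationSubring L) {k : Type} [Field k] [IsAlgClosed k]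
    [CharP k q] (π : A →+* k) (hπs : Function.Surjective π)
    (hπ0 : ∀ a : A, π a = 0 ↔ A.valuation a < 1)
    (harch : ∀ c : L, c ≠ 0 → ∃ m : ℕ, A.valuation ((q : L) ^ m) < A.valuation c) (n : ℕ)
    (x : Pic0.torsion L (levelField (M * q) L) n) :
    redTorZero M q A π hπs hπ0 hqM harch n x =
      redTorInf M q A π hπs hπ0 hqM harch n (wAut M q L hqM • x) := by
  obtain ⟨D, g, hD, hg, hgD⟩ := exists_torsion_fn n x
  obtain ⟨c, f, r, hc, e, hfr, hr⟩ :=
    exists_scaled (scaled_cZero M q A π hπs hπ0 hqM harch) hg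
  rw [redTorZero, redTorInf, redTor_mk n _ _ x hD hg hgD, redFn_eq n hc e hfr hr,
    redTor_mk n _ _ (wAut M q L hqM • x)
      (D := SemilinearAut.degZeroSMulHom (wAut M q L hqM) D) (g := wAut M q L hqM • g)
      (by rw [SemilinearAut.coe_torsion_smul, ← hD, SemilinearAut.pic0_smul_mk])
      (fun h0 => hg (smul_left_cancel _ (h0.trans (smul_zero (wAut M q L hqM)).symm)))
      (fun P => by
        rw [SemilinearAut.coe_degZeroSMulHom, SemilinearAut.divisor_smul_apply, hgD]
        have := SemilinearAut.ord_smul (wAut M q L hqM) ((wAut M q L hqM)⁻¹ • P) g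
        rw [smul_inv_smul] at this
        exact this.symm),
    redFn_eq n hc (g := wLvl M q L hqM f) (r := r) ?_ ((cZero_red M q A π hπs hπ0 hqM harch).1 hfr)
      hr]
  rw [wAut_smul, e, map_mul, AlgEquiv.commutes]

end FA.ModField
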