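import Fermat.Agent.ModField.Semistable.Fibre

/-!
# The toric datum of a torsion class

For a class `x` whose reductions vanish on all components, the twisted reductions of a large
Riemann-Roch space are glued by units `u b` on the branches, well defined up to units on the
singular points and on the components: a homomorphism, compatible with semilinear automorphisms.
-/

set_option autoImplicit false
set_option linter.style.haveILetI false
set_option linter.unusedSectionVars false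

noncomputable section

namespace FA.ModField

open AlgebraicCurve FA.Curve FA.CurveRed

section Pow

variable {K F k Fk : Type*} [Field K] [IsAlgClosed K] [Field F] [Algebra K F] [Field k] [Field Fk]
  [Algebra k Fk] {A : ValuationSubring K} {C : ConstRed K F k Fk A}

/-- A function is integral as soon as a power of it has a nonzero reduction. -/
theorem exists_red_of_pow (hC : C.Scaled) {n : ℕ} (hn : n ≠ 0) {q : F} {y : Fk}
    (h : C.Red (q ^ n) y) (hy : y ≠ 0) : ∃ r, C.Red q r ∧ r ^ n = y := by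
  have hq : q ≠ 0 := fun h0 => h.ne_zero hy (by rw [h0, zero_pow hn])
  obtain ⟨e, q₀, r₀, he, rfl, hq₀, hr₀⟩ := exists_scaled hC hq
  rw [mul_pow, ← map_pow] at h
  obtain ⟨heA, hy'⟩ := (hq₀.pow n).smul_cancel (pow_ne_zero n hr₀) h
  have he' : e ∈ A := by
    rw [← A.valuation_le_one_iff] at heA ⊢
    rw [map_pow] at heA
    exact (pow_le_one_iff hn).1 heA
  refine ⟨_, (ConstRed.red_const ⟨e, he'⟩).mul hq₀, ?_⟩
  rw [hy', mul_pow, ← map_pow, ← map_pow]
  rfl

omit [IsAlgClosed K] in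
/-- A function with a constant power is constant. -/
theorem exists_const_of_pow [IsAlgClosed k] (hk : IsFunctionField k Fk) {n : ℕ} (hn : n ≠ 0)
    {r : Fk} {a : k} (h : r ^ n = algebraMap k Fk a) : ∃ b, r = algebraMap k Fk b := by
  by_contra hno
  push Not at hno
  obtain ⟨Q, hQ⟩ := exists_ord_neg hk (transcendental_of_not_const hno)
  have := congrArg Q.ord h
  rw [place_ord_pow, place_ord_algebraMap] at this
  rcases mul_eq_zero.1 this with h0 | h0
  · exact hn (by exact_mod_cast h0)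
  · omega

end Pow

namespace SemiFibre

variable {K F k : Type*} [Field K] [Field F] [Algebra K F] [Field k] {ι : Type*} [Fintype ι]
  {Fk : ι → Type*} [∀ i, Field (Fk i)] [∀ i, Algebra k (Fk i)] {A : ValuationSubring K}
  {β σ : Type*} [Fintype β] [Fintype σ] (X : SemiFibre K F k Fk A β σ)

/-- A branch at each singular point. -/
def sec : σ → β := Function.surjInv X.pt_surj

theorem pt_sec (s : σ) : X.pt (X.sec s) = s := Function.surjInv_eq X.pt_surj s

theorem push_single_same {P : Place K F} {i : ι} {Q : Place k (Fk i)}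
    (hP : X.spl P = some ⟨i, Q⟩) (m : ℤ) : X.push (Finsupp.single P m) i = Finsupp.single Q m := by
  classical
  ext Q'
  rw [push_apply, Finsupp.mapDomain_single, hP, Finsupp.single_apply, Finsupp.single_apply]
  exact if_congr ⟨fun h => eq_of_heq (Sigma.mk.inj (Option.some_injective _ h)).2,
    fun h => by rw [h]⟩ rfl rfl

variable [IsAlgClosed K] [IsAlgClosed k] [Nonempty ι] (hF : IsFunctionField K F)
  (hk : ∀ i, IsFunctionField k (Fk i))

include hF hk

/-- There are effective divisors off the tubes beyond which divisors are large. -/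
theorem exists_clean_big : ∃ E₀ : Divisor K F, 0 ≤ E₀ ∧ X.Clean E₀ ∧
    ∀ E, E₀ ≤ E → IsBig X.br (X.push E) := by
  classical
  obtain ⟨N, hN⟩ := exists_big_bound X.br hk
  have hpick : ∀ i, ∃ (Q : Place k (Fk i)) (P : Place K F), X.spl P = some ⟨i, Q⟩ := fun i => by
    haveI := infinite_places (hk i)
    obtain ⟨Q, hQ⟩ := ((Set.finite_range X.br).preimage (f := fun Q => (⟨i, Q⟩ : Σ i, Place k (Fk i)))
      (fun _ _ _ _ h => eq_of_heq (Sigma.mk.inj h).2)).infinite_compl.nonempty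
    obtain ⟨P, hP⟩ := X.spl_surj ⟨i, Q⟩ fun b hb => hQ ⟨b, hb⟩
    exact ⟨Q, P, hP⟩
  choose Q P hP using hpick
  have hpos : ∀ i, 0 ≤ Finsupp.single (P i) (N : ℤ) := fun i =>
    Finsupp.single_nonneg.2 (Nat.cast_nonneg N)
  refine ⟨∑ i, Finsupp.single (P i) (N : ℤ), Finset.sum_nonneg fun i _ => hpos i, fun R hR => ?_,
    fun E hE => hN _ (X.avoids_push E) fun i => ?_⟩
  · rw [Finset.sum_apply']
    exact Finset.sum_eq_zero fun i _ => X.clean_single (hP i) _ R hR
  · have h1 := degree_mono (hk i) (X.push_mono ((Finset.single_le_sum (fun j _ => hpos j)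
      (Finset.mem_univ i)).trans hE) i)
    rwa [X.push_single_same (hP i), Divisor.degree_single, (hk i).deg_eq_one, Nat.cast_one,
      mul_one] at h1

variable {X} {n : ℕ} (t : X.Twist n)

omit hF hk [IsAlgClosed k] [IsAlgClosed K] in
/-- The values at the branches of the twisted reductions. -/
def Twist.valSpace (E : Divisor K F) : Submodule k (β → k) where
  carrier := {v | ∃ H ∈ t.space E, ∀ b, HasValue (X.br b).2 (H (X.br b).1) (v b)}
  add_mem' := fun ⟨H, hH, h⟩ ⟨H', hH', h'⟩ => ⟨H + H', add_mem hH hH', fun b => (h b).add (h' b)⟩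
  zero_mem' := ⟨0, zero_mem _, fun b => by
    simpa using hasValue_algebraMap (X.br b).2 (0 : k)⟩
  smul_mem' := fun a v ⟨H, hH, h⟩ => ⟨a • H, Submodule.smul_mem _ a hH, fun b => by
    rw [Pi.smul_apply, Algebra.smul_def]
    exact (h b).smul a⟩

omit hF hk [IsAlgClosed k] in
theorem Twist.valSpace_pow {E : Divisor K F} (hE : X.Clean E) {v : β → k}
    (hv : v ∈ t.valSpace E) : ∃ w : σ → k, ∀ b, v b ^ n = w (X.pt b) := by
  obtain ⟨H, ⟨f, hf, hH⟩, hval⟩ := hv
  obtain ⟨w, hw⟩ := hH.glue t hE hf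
  exact ⟨w, fun b => (hasValue_pow (hval b) n).unique (hw b)⟩

theorem Twist.valSpace_key (hn : n ≠ 0) {E : Divisor K F} (hE : X.Clean E)
    (hbig : IsBig X.br (X.push E)) :
    Function.Bijective (fun v : t.valSpace E => fun s => (v : β → k) (X.sec s)) ∧
      t.space E = evalSpace X.br (X.push E) (t.valSpace E) := by
  classical
  haveI := finite_evalSpace X.br hk (X.push E) (t.valSpace E)
  let φ : t.valSpace E →ₗ[k] (σ → k) :=
    { toFun := fun v s => (v : β → k) (X.sec s)
      map_add' := fun _ _ => rfl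
      map_smul' := fun _ _ => rfl }
  have hinj : Function.Injective φ := by
    rw [← LinearMap.ker_eq_bot, Submodule.eq_bot_iff]
    intro v hv
    obtain ⟨w, hw⟩ := t.valSpace_pow hE v.2
    refine Subtype.ext (funext fun b => eq_zero_of_pow_eq_zero (n := n) ?_)
    rw [hw b, ← X.pt_sec (X.pt b), ← hw (X.sec (X.pt b)),
      show (v : β → k) (X.sec (X.pt b)) = 0 from congrFun hv _, zero_pow hn]
  have hle : t.space E ≤ evalSpace X.br (X.push E) (t.valSpace E) := fun H hH => by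
    obtain ⟨hHT, v, -, hv⟩ := t.space_le hF hk hn hE hH
    exact ⟨hHT, v, ⟨H, hH, hv⟩, hv⟩
  have h1 := t.ell_le_finrank hF hk hn hE
  have h2 := Submodule.finrank_mono hle
  have h3 := finrank_evalSpace X.br hk X.br_inj hbig (t.valSpace E)
  have h4 : Module.finrank k (t.valSpace E) ≤ Fintype.card σ := by
    have := LinearMap.finrank_le_finrank_of_injective hinj
    rwa [Module.finrank_fintype_fun_eq_card] at this
  have h5 := riemann_inequality hF ((t.D : Divisor K F) + E)
  have hD : Divisor.degree (t.D : Divisor K F) = 0 := t.D.2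
  rw [map_add, hD, zero_add] at h5
  have h6 := X.genus_le
  have h7 : ∑ i, ell (X.push E i) =
      Divisor.degree E + Fintype.card ι - ∑ i, (genus k (Fk i) : ℤ) := by
    rw [Finset.sum_congr rfl fun i _ => (hbig.2 i).1, Finset.sum_sub_distrib,
      Finset.sum_add_distrib, X.degree_push hF hk E hE]
    simp
  refine ⟨⟨hinj, ?_⟩, Submodule.eq_of_le_of_finrank_le hle (by omega)⟩
  exact (LinearMap.injective_iff_surjective_of_finrank_eq_finrank
    (by rw [Module.finrank_fintype_fun_eq_card]; omega)).1 hinj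

omit hF hk [IsAlgClosed K] [IsAlgClosed k] in
/-- Units on the branches gluing the twisted reductions of every Riemann-Roch space. -/
def Twist.IsDatum (u : β → k) : Prop := (∀ b, u b ≠ 0) ∧
  ∀ E, X.Clean E → ∀ H ∈ t.space E,
    ∃ v : σ → k, ∀ b, HasValue (X.br b).2 (H (X.br b).1) (v (X.pt b) * u b)

theorem Twist.exists_datum (hn : n ≠ 0) : ∃ u, t.IsDatum u := by
  classical
  obtain ⟨E₀, hE₀pos, hE₀, hbig⟩ := X.exists_clean_big hF hk
  have key := fun E (hE : X.Clean E) (h0 : E₀ ≤ E) => t.valSpace_key hF hk hn hE (hbig E h0)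
  obtain ⟨⟨u, hu⟩, hu1⟩ := (key E₀ hE₀ le_rfl).1.2 fun _ => 1
  have hu1' : ∀ s, u (X.sec s) = 1 := congrFun hu1
  obtain ⟨w, hw⟩ := t.valSpace_pow hE₀ hu
  have hw1 : ∀ s, w s = 1 := fun s => by
    rw [← X.pt_sec s, ← hw (X.sec s), hu1', one_pow]
  have hu0 : ∀ b, u b ≠ 0 := fun b h0 => by
    have := hw b
    rw [h0, zero_pow hn, hw1] at this
    exact zero_ne_one this
  refine ⟨u, hu0, fun E hE H hH => ?_⟩
  set E' := E ⊔ 0 + E₀ with hE'
  have hE'c : X.Clean E' := Clean.add (fun P hP => by rw [Finsupp.sup_apply, hE P hP]; simp) hE₀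
  have h0E' : E₀ ≤ E' := le_add_of_nonneg_left le_sup_right
  have hEE' : E ≤ E' := le_add_of_le_of_nonneg le_sup_left hE₀pos
  obtain ⟨hbij, -⟩ := key E' hE'c h0E'
  have hmono : ∀ v ∈ t.valSpace E₀, v ∈ t.valSpace E' := fun v ⟨G, hG, hv⟩ =>
    ⟨G, t.space_mono h0E' hG, hv⟩
  have hsingle : ∀ s, ∃ d : t.valSpace E', ∀ s',
      (d : β → k) (X.sec s') = if s' = s then 1 else 0 := fun s => by
    obtain ⟨d, hd⟩ := hbij.2 fun s' => if s' = s then 1 else 0
    exact ⟨d, congrFun hd⟩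
  choose δ hδ using hsingle
  have hoff : ∀ s b, X.pt b ≠ s → (δ s : β → k) b = 0 := fun s b hb => by
    obtain ⟨z, hz⟩ := t.valSpace_pow hE'c (δ s).2
    refine eq_zero_of_pow_eq_zero (n := n) ?_
    rw [hz b, ← X.pt_sec (X.pt b), ← hz (X.sec (X.pt b)), hδ, if_neg hb, zero_pow hn]
  have hdec : ∀ v : t.valSpace E', ∀ b,
      (v : β → k) b = (v : β → k) (X.sec (X.pt b)) * (δ (X.pt b) : β → k) b := by
    intro v b
    have hv : v = ∑ s, (v : β → k) (X.sec s) • δ s := hbij.1 (funext fun s' => by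
      show (v : β → k) (X.sec s') = _
      simp only [AddSubmonoidClass.coe_finsetSum, Finset.sum_apply, SetLike.val_smul,
        Pi.smul_apply, smul_eq_mul, hδ, mul_ite, mul_one, mul_zero]
      rw [Finset.sum_ite_eq, if_pos (Finset.mem_univ _)])
    conv_lhs => rw [hv]
    simp only [AddSubmonoidClass.coe_finsetSum, Finset.sum_apply, SetLike.val_smul,
      Pi.smul_apply, smul_eq_mul]
    exact Finset.sum_eq_single _ (fun s _ hs => by rw [hoff s b hs.symm, mul_zero])
      (fun h => absurd (Finset.mem_univ _) h)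
  have hδu : ∀ b, (δ (X.pt b) : β → k) b = u b := fun b => by
    have := hdec ⟨u, hmono u hu⟩ b
    change u b = u (X.sec (X.pt b)) * _ at this
    rw [hu1', one_mul] at this
    exact this.symm
  obtain ⟨hHT, v, -, hv⟩ := t.space_le hF hk hn hE hH
  refine ⟨fun s => v (X.sec s), fun b => ?_⟩
  have := hdec ⟨v, H, t.space_mono hEE' hH, hv⟩ b
  rw [← hδu b]
  rw [← this]
  exact hv b

variable {t}

theorem Twist.IsDatum.exists_test (hn : n ≠ 0) {u : β → k} (hu : t.IsDatum u) (v : σ → k) :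
    ∃ E, X.Clean E ∧ ∃ H ∈ t.space E, ∀ b,
      HasValue (X.br b).2 (H (X.br b).1) (v (X.pt b) * u b) := by
  classical
  obtain ⟨E, -, hE, hbig⟩ := X.exists_clean_big hF hk
  obtain ⟨⟨hinj, hsurj⟩, heq⟩ := t.valSpace_key hF hk hn hE (hbig E le_rfl)
  obtain ⟨⟨z, hzmem⟩, hz⟩ := hsurj fun s => v s * u (X.sec s)
  obtain ⟨H, hH, hval⟩ := hzmem
  obtain ⟨v', hv'⟩ := hu.2 E hE H hH
  have hvv : ∀ s, v' s = v s := fun s => by
    have h2 : z (X.sec s) = v s * u (X.sec s) := congrFun hz s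
    have h1 := (hv' (X.sec s)).unique (hval (X.sec s))
    rw [X.pt_sec, h2] at h1
    exact mul_right_cancel₀ (hu.1 _) h1
  exact ⟨E, hE, H, hH, fun b => hvv (X.pt b) ▸ hv' b⟩

theorem Twist.IsDatum.test (hn : n ≠ 0) {u : β → k} (hu : t.IsDatum u) :
    ∃ E, X.Clean E ∧ ∃ H ∈ t.space E, ∀ b, HasValue (X.br b).2 (H (X.br b).1) (u b) := by
  obtain ⟨E, hE, H, hH, h⟩ := hu.exists_test hF hk hn fun _ => 1
  exact ⟨E, hE, H, hH, fun b => by simpa using h b⟩

theorem Twist.IsDatum.pow_eq (hn : n ≠ 0) {u : β → k} (hu : t.IsDatum u) {b b' : β}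
    (h : X.pt b = X.pt b') : u b ^ n = u b' ^ n := by
  obtain ⟨E, hE, H, ⟨f, hf, hH⟩, hval⟩ := hu.test hF hk hn
  obtain ⟨w, hw⟩ := hH.glue t hE hf
  rw [(hasValue_pow (hval b) n).unique (hw b), (hasValue_pow (hval b') n).unique (hw b'), h]

omit hF hk [IsAlgClosed K] [IsAlgClosed k] [Nonempty ι] in
variable (X) in
/-- Units on the singular points and on the components, seen on the branches. -/
def glueHom : (σ → kˣ) × (ι → kˣ) →* (β → kˣ) where
  toFun p b := p.1 (X.pt b) * p.2 (X.br b).1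
  map_one' := funext fun _ => by simp
  map_mul' p q := funext fun _ => by simp [mul_mul_mul_comm]

omit hF hk [IsAlgClosed K] [IsAlgClosed k] [Nonempty ι] in
variable (X) in
/-- The target of the toric datum. -/
abbrev ToricTarget : Type _ := Additive ((β → kˣ) ⧸ X.glueHom.range)

omit hF hk [IsAlgClosed K] [IsAlgClosed k] [Nonempty ι] in
variable (X) in
/-- The class of a vector of nonzero scalars on the branches. -/
def cls (u : β → k) : X.ToricTarget :=
  open Classical in
  if h : ∀ b, u b ≠ 0 then Additive.ofMul (QuotientGroup.mk fun b => Units.mk0 (u b) (h b)) else 0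

omit hF hk [IsAlgClosed K] [IsAlgClosed k] [Nonempty ι] in
theorem cls_mul {u u' : β → k} (h : ∀ b, u b ≠ 0) (h' : ∀ b, u' b ≠ 0) :
    X.cls (fun b => u b * u' b) = X.cls u + X.cls u' := by
  rw [cls, cls, cls, dif_pos h, dif_pos h', dif_pos fun b => mul_ne_zero (h b) (h' b), ← ofMul_mul,
    ← QuotientGroup.mk_mul]
  refine congrArg _ (congrArg _ (funext fun b => Units.ext ?_))
  rfl

omit hF hk [IsAlgClosed K] [IsAlgClosed k] [Nonempty ι] in
theorem cls_eq_of_mul {u u' : β → k} (h : ∀ b, u b ≠ 0) (h' : ∀ b, u' b ≠ 0) (v : σ → k)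
    (c : ι → k) (hc : ∀ i, c i ≠ 0) (he : ∀ b, u b = v (X.pt b) * c (X.br b).1 * u' b) :
    X.cls u = X.cls u' := by
  classical
  rw [cls, cls, dif_pos h, dif_pos h']
  refine congrArg _ ((QuotientGroup.eq_iff_div_mem).2 ?_)
  refine ⟨(fun s => if hs : v s = 0 then 1 else Units.mk0 _ hs, fun i => Units.mk0 _ (hc i)), ?_⟩
  funext b
  refine Units.ext ?_
  have hv : v (X.pt b) ≠ 0 := fun h0 => h b (by rw [he b, h0, zero_mul, zero_mul])
  show ((if hs : v (X.pt b) = 0 then 1 else Units.mk0 _ hs) * Units.mk0 _ (hc _) : kˣ).val =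
    ((Units.mk0 (u b) (h b)) / Units.mk0 (u' b) (h' b) : kˣ).val
  rw [dif_neg hv, Units.val_div_eq_div_val, Units.val_mk0, Units.val_mk0, Units.val_mul,
    Units.val_mk0, Units.val_mk0, he b, mul_div_cancel_right₀ _ (h' b)]

omit hF hk [IsAlgClosed K] [IsAlgClosed k] [Nonempty ι] in
theorem cls_eq_zero_iff {u : β → k} (h : ∀ b, u b ≠ 0) :
    X.cls u = 0 ↔ ∃ (s : σ → kˣ) (c : ι → kˣ), ∀ b, u b = (s (X.pt b) : k) * c (X.br b).1 := by
  rw [cls, dif_pos h, ofMul_eq_zero, QuotientGroup.eq_one_iff]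
  constructor
  · rintro ⟨⟨s, c⟩, e⟩
    exact ⟨s, c, fun b => (congrArg Units.val (congrFun e b)).symm⟩
  · rintro ⟨s, c, e⟩
    exact ⟨(s, c), funext fun b => Units.ext (e b).symm⟩

omit hF hk [IsAlgClosed K] [IsAlgClosed k] in
open Classical in
/-- The toric datum of a twist, up to gluing. -/
def Twist.toric (t : X.Twist n) : X.ToricTarget :=
  if h : ∃ u, t.IsDatum u then X.cls h.choose else 0

theorem Twist.IsDatum.toric_eq (hn : n ≠ 0) {u : β → k} (hu : t.IsDatum u) :
    t.toric = X.cls u := by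
  have h : ∃ u, t.IsDatum u := ⟨u, hu⟩
  rw [Twist.toric, dif_pos h]
  obtain ⟨E, hE, H, hH, hval⟩ := h.choose_spec.test hF hk hn
  obtain ⟨v, hv⟩ := hu.2 E hE H hH
  exact cls_eq_of_mul h.choose_spec.1 hu.1 v (fun _ => 1) (fun _ => one_ne_zero) fun b => by
    rw [(hval b).unique (hv b), mul_one]

omit hF hk [IsAlgClosed k] [IsAlgClosed K] [Nonempty ι] in
/-- The product of two twists. -/
def Twist.mul (t t' : X.Twist n) : X.Twist n where
  D := t.D + t'.D
  g := t.g * t'.g
  g_ne := mul_ne_zero t.g_ne t'.g_ne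
  div_eq P := by
    rw [AddSubgroup.coe_add, Finsupp.add_apply, mul_add, t.div_eq, t'.div_eq,
      P.ord_mul t.g_ne t'.g_ne]
  c i := t.c i * t'.c i
  c_ne i := mul_ne_zero (t.c_ne i) (t'.c_ne i)
  h i := t.h i * t'.h i
  h_ne i := mul_ne_zero (t.h_ne i) (t'.h_ne i)
  red i := by
    rw [mul_inv, mul_pow, map_mul, mul_mul_mul_comm, mul_pow]
    exact (t.red i).mul (t'.red i)

theorem Twist.toric_mul (hn : n ≠ 0) (t t' : X.Twist n) :
    (t.mul t').toric = t.toric + t'.toric := by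
  obtain ⟨u, hu⟩ := t.exists_datum hF hk hn
  obtain ⟨u', hu'⟩ := t'.exists_datum hF hk hn
  obtain ⟨u'', hu''⟩ := (t.mul t').exists_datum hF hk hn
  obtain ⟨E, hE, H, ⟨f, hf, hH⟩, hval⟩ := hu.test hF hk hn
  obtain ⟨E', hE', H', ⟨f', hf', hH'⟩, hval'⟩ := hu'.test hF hk hn
  have hmem : (fun i => H i * H' i) ∈ (t.mul t').space (E + E') := by
    refine ⟨f * f', ?_, fun i => ?_⟩
    · rw [FA.Curve.mem_riemannRochSpace] at hf hf' ⊢
      intro P
      refine ((hf P).mul (hf' P)).mono (le_of_eq ?_)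
      simp only [Twist.mul, AddSubgroup.coe_add, Finsupp.add_apply]
      ring
    · obtain ⟨r, hr, e⟩ := hH i
      obtain ⟨r', hr', e'⟩ := hH' i
      refine ⟨r * r', ?_, ?_⟩
      · simp only [Twist.mul]
        rw [map_mul, mul_mul_mul_comm]
        exact hr.mul hr'
      · simp only [Twist.mul, e, e']
        ring
  obtain ⟨v, hv⟩ := hu''.2 _ (hE.add hE') _ hmem
  rw [hu.toric_eq hF hk hn, hu'.toric_eq hF hk hn, hu''.toric_eq hF hk hn, ← cls_mul hu.1 hu'.1]
  symm
  refine cls_eq_of_mul (fun b => mul_ne_zero (hu.1 b) (hu'.1 b)) hu''.1 v (fun _ => 1)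
    (fun _ => one_ne_zero) fun b => ?_
  rw [mul_one, (hasValue_mul (hval b) (hval' b)).unique (hv b)]

omit hF hk [IsAlgClosed k] [IsAlgClosed K] [Nonempty ι] in
/-- The inverse twist. -/
def Twist.inv (t : X.Twist n) : X.Twist n where
  D := -t.D
  g := t.g⁻¹
  g_ne := inv_ne_zero t.g_ne
  div_eq P := by rw [AddSubgroup.coe_neg, Finsupp.neg_apply, mul_neg, t.div_eq, P.ord_inv]
  c i := (t.c i)⁻¹
  c_ne i := inv_ne_zero (t.c_ne i)
  h i := (t.h i)⁻¹
  h_ne i := inv_ne_zero (t.h_ne i)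
  red i := by
    have h := (t.red i).inv (pow_ne_zero n (t.h_ne i))
    rwa [mul_inv, ← map_inv₀, ← inv_pow, ← inv_pow] at h

theorem Twist.toric_principal (hn : n ≠ 0) (t : X.Twist n) {z : F} (hz : z ≠ 0)
    (hD : ∀ P, (t.D : Divisor K F) P = P.ord z) : t.toric = 0 := by
  obtain ⟨κ, hκ, e⟩ := exists_const_of_ord_eq hF t.g_ne (pow_ne_zero n hz) fun P => by
    rw [place_ord_pow, ← t.div_eq, hD]
  obtain ⟨μ, hμ⟩ := IsAlgClosed.exists_pow_nat_eq κ (Nat.pos_of_ne_zero hn)
  have hμ0 : μ ≠ 0 := fun h => hκ (by rw [← hμ, h, zero_pow hn])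
  set f : F := (algebraMap K F μ * z)⁻¹ with hfdef
  have hf0 : f ≠ 0 := inv_ne_zero (mul_ne_zero (by simpa using hμ0) hz)
  have hfg : f ^ n * t.g = 1 := by
    rw [e, ← hμ, map_pow, ← mul_pow, ← mul_pow, hfdef,
      inv_mul_cancel₀ (mul_ne_zero (by simpa using hμ0) hz), one_pow]
  have hfmem : f ∈ riemannRochSpace ((t.D : Divisor K F) + 0) := by
    rw [add_zero, FA.Curve.mem_riemannRochSpace]
    intro P
    refine Or.inr (le_of_eq ?_)
    rw [hfdef, P.ord_inv, P.ord_mul (by simpa using hμ0) hz, place_ord_algebraMap, hD, zero_add]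
  have hone : ∀ i, ∃ (r : Fk i) (ζ : k), (X.C i).Red (algebraMap K F (t.c i) * f) r ∧
      r * t.h i = algebraMap k (Fk i) ζ ∧ ζ ≠ 0 := fun i => by
    have hid : (algebraMap K F (t.c i) * f) ^ n =
        (algebraMap K F ((t.c i)⁻¹ ^ n) * t.g)⁻¹ := by
      refine eq_inv_of_mul_eq_one_left ?_
      rw [mul_pow, mul_mul_mul_comm, ← map_pow, ← map_mul, ← mul_pow,
        mul_inv_cancel₀ (t.c_ne i), one_pow, map_one, one_mul, hfg]
    have h := (t.red i).inv (pow_ne_zero n (t.h_ne i))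
    rw [← hid] at h
    obtain ⟨r, hr, hrn⟩ := exists_red_of_pow (X.scaled i) hn h
      (inv_ne_zero (pow_ne_zero n (t.h_ne i)))
    have h1 : (r * t.h i) ^ n = algebraMap k (Fk i) 1 := by
      rw [mul_pow, hrn, inv_mul_cancel₀ (pow_ne_zero n (t.h_ne i)), map_one]
    obtain ⟨ζ, hζ⟩ := exists_const_of_pow (hk i) hn h1
    refine ⟨r, ζ, hr, hζ, fun h0 => ?_⟩
    rw [hζ, h0, map_zero, zero_pow hn, map_one] at h1
    exact zero_ne_one h1
  choose r ζ hr hζ hζ0 using hone
  obtain ⟨u, hu⟩ := t.exists_datum hF hk hn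
  obtain ⟨v, hv⟩ := hu.2 0 X.clean_zero (fun i => algebraMap k (Fk i) (ζ i))
    ⟨f, hfmem, fun i => ⟨r i, hr i, (hζ i).symm⟩⟩
  rw [hu.toric_eq hF hk hn, cls_eq_zero_iff hu.1]
  have hrel : ∀ b, v (X.pt b) * u b = ζ (X.br b).1 := fun b =>
    (hv b).unique (hasValue_algebraMap _ _)
  have hv0 : ∀ s, v s ≠ 0 := fun s h0 => hζ0 (X.br (X.sec s)).1 (by
    rw [← hrel, X.pt_sec, h0, zero_mul])
  refine ⟨fun s => (Units.mk0 _ (hv0 s))⁻¹, fun i => Units.mk0 _ (hζ0 i), fun b => ?_⟩
  rw [Units.val_inv_eq_inv_val, Units.val_mk0, Units.val_mk0, ← hrel b,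
    inv_mul_cancel_left₀ (hv0 _)]

theorem Twist.toric_congr (hn : n ≠ 0) {t t' : X.Twist n}
    (h : Pic0.mk t.D = Pic0.mk t'.D) : t.toric = t'.toric := by
  rw [Pic0.mk, Pic0.mk, QuotientAddGroup.eq, AddSubgroup.mem_addSubgroupOf] at h
  obtain ⟨z, hz, hzD⟩ := h
  have h1 := Twist.toric_principal hF hk hn (t'.mul t.inv) hz fun P => by
    rw [← hzD]
    simp only [Twist.mul, Twist.inv, AddSubgroup.coe_add, AddSubgroup.coe_neg, Finsupp.add_apply,
      Finsupp.neg_apply]
    ring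
  have h2 := Twist.toric_principal hF hk hn (t.mul t.inv) one_ne_zero fun P => by
    rw [P.ord_one]
    simp [Twist.mul, Twist.inv]
  have h1' := (Twist.toric_mul hF hk hn t' t.inv).symm.trans h1
  have h2' := (Twist.toric_mul hF hk hn t t.inv).symm.trans h2
  exact (eq_neg_of_add_eq_zero_left h2').trans (eq_neg_of_add_eq_zero_left h1').symm

/-! ### The homomorphism on torsion classes -/

omit hk [IsAlgClosed k] [Nonempty ι] in
variable (X n) in
/-- Classes killed by `n` whose reductions vanish on all components. -/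
def toricKer : AddSubgroup (Pic0.torsion K F n) :=
  ⨅ i, (redTor n hF (X.scaled i)).ker

omit hk [IsAlgClosed k] [Nonempty ι] in
theorem mem_toricKer {x : Pic0.torsion K F n} :
    x ∈ X.toricKer hF n ↔ ∀ i, redTor n hF (X.scaled i) x = 0 := by
  simp [toricKer, AddSubgroup.mem_iInf]

omit hk [IsAlgClosed k] [Nonempty ι] in
theorem Twist.mem_toricKer (t : X.Twist n) {x : Pic0.torsion K F n}
    (hx : Pic0.mk t.D = (x : Pic0 K F)) : x ∈ X.toricKer hF n := by
  refine (SemiFibre.mem_toricKer hF).2 fun i => ?_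
  rw [redTor_mk n hF (X.scaled i) x hx t.g_ne t.div_eq,
    redFn_eq n (pow_ne_zero n (t.c_ne i)) (g := algebraMap K F ((t.c i)⁻¹ ^ n) * t.g) ?_
      (t.red i) (pow_ne_zero n (t.h_ne i)), redCls_pow]
  rw [← mul_assoc, ← map_mul, ← mul_pow, mul_inv_cancel₀ (t.c_ne i), one_pow, map_one, one_mul]

omit hk [Nonempty ι] in
theorem exists_twist (hn : n ≠ 0) {x : Pic0.torsion K F n} (hx : x ∈ X.toricKer hF n)
    {D : Divisor.degZero (K := K) (F := F)} {g : F} (hD : Pic0.mk D = (x : Pic0 K F))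
    (hg : g ≠ 0) (hgD : ∀ P, (n : ℤ) * (D : Divisor K F) P = P.ord g) :
    ∃ t : X.Twist n, t.D = D := by
  have hone : ∀ i, ∃ (c : K) (h : Fk i), c ≠ 0 ∧ h ≠ 0 ∧
      (X.C i).Red (algebraMap K F (c⁻¹ ^ n) * g) (h ^ n) := fun i => by
    obtain ⟨c₀, g₀, r, hc₀, e, hg₀, hr⟩ := exists_scaled (X.scaled i) hg
    have h0 := (SemiFibre.mem_toricKer hF).1 hx i
    rw [redTor_mk n hF (X.scaled i) x hD hg hgD, redFn_eq n hc₀ e hg₀ hr,
      redCls_eq_zero_iff n hr] at h0
    obtain ⟨a, h, ha, hrh⟩ := h0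
    obtain ⟨a', ha'⟩ := IsAlgClosed.exists_pow_nat_eq a (Nat.pos_of_ne_zero hn)
    obtain ⟨c, hc⟩ := IsAlgClosed.exists_pow_nat_eq c₀ (Nat.pos_of_ne_zero hn)
    have hc' : c ≠ 0 := fun h => hc₀ (by rw [← hc, h, zero_pow hn])
    refine ⟨c, algebraMap k (Fk i) a' * h, hc', mul_ne_zero ?_ ?_, ?_⟩
    · rw [_root_.map_ne_zero]
      exact fun h => ha (by rw [← ha', h, zero_pow hn])
    · exact fun h' => hr (by rw [hrh, h', zero_pow hn, mul_zero])
    · rw [mul_pow, ← map_pow, ha', ← hrh, inv_pow, hc, e, ← mul_assoc, ← map_mul,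
        inv_mul_cancel₀ hc₀, map_one, one_mul]
      exact hg₀
  choose c h hc hh hred using hone
  exact ⟨⟨D, g, hg, hgD, c, hc, h, hh, hred⟩, rfl⟩

omit hk in
theorem exists_twist_mk (hn : n ≠ 0) (x : X.toricKer hF n) :
    ∃ t : X.Twist n, Pic0.mk t.D = ((x : Pic0.torsion K F n) : Pic0 K F) := by
  obtain ⟨D, g, hD, hg, hgD⟩ := exists_torsion_fn n (x : Pic0.torsion K F n)
  obtain ⟨t, ht⟩ := exists_twist hF hn x.2 hD hg hgD
  exact ⟨t, by rw [ht]; exact hD⟩

variable (X) in
/-- The toric datum of a class. -/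
def toricHom (hn : n ≠ 0) : X.toricKer hF n →+ X.ToricTarget :=
  AddMonoidHom.mk' (M := X.toricKer hF n) (G := X.ToricTarget)
    (fun x => (exists_twist_mk hF hn x).choose.toric) fun x y => by
    refine (Twist.toric_congr hF hk hn ?_).trans (Twist.toric_mul hF hk hn
      (exists_twist_mk hF hn x).choose (exists_twist_mk hF hn y).choose)
    rw [(exists_twist_mk hF hn (x + y)).choose_spec, AddSubgroup.coe_add, AddSubgroup.coe_add]
    exact (congrArg₂ (· + ·) (exists_twist_mk hF hn x).choose_spec.symm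
      (exists_twist_mk hF hn y).choose_spec.symm).trans (Pic0.mk_add _ _).symm

theorem toricHom_mk (hn : n ≠ 0) (x : X.toricKer hF n) (t : X.Twist n)
    (ht : Pic0.mk t.D = ((x : Pic0.torsion K F n) : Pic0 K F)) :
    X.toricHom hF hk hn x = t.toric :=
  Twist.toric_congr hF hk hn ((exists_twist_mk hF hn x).choose_spec.trans ht.symm)

/-! ### Semilinear automorphisms -/

omit hF hk [IsAlgClosed K] [IsAlgClosed k] [Nonempty ι] in
variable (X) in
/-- A semilinear automorphism respecting the special fibre. -/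
structure Symm where
  s : SemilinearAut K F
  θ : ∀ i, Fk i →+* Fk i
  θk : k →+* k
  e : β ≃ β
  intertwines : ∀ i, IntertwinesRed (X.C i) s (θ i)
  θ_const : ∀ i a, θ i (algebraMap k (Fk i) a) = algebraMap k (Fk i) (θk a)
  comp_e : ∀ b, (X.br (e b)).1 = (X.br b).1
  pt_e : ∀ b b', X.pt (e b) = X.pt (e b') ↔ X.pt b = X.pt b'
  value : ∀ b (H : ∀ i, Fk i) v, HasValue (X.br b).2 (H (X.br b).1) v →
    HasValue (X.br (e b)).2 (θ _ (H (X.br (e b)).1)) (θk v)
  tube : ∀ P, X.spl (s • P) = none → X.spl P = none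

variable (S : X.Symm)

omit hF hk [IsAlgClosed K] [IsAlgClosed k] [Nonempty ι] in
/-- The action on vectors of units on the branches. -/
def Symm.onUnits : (β → kˣ) →* (β → kˣ) where
  toFun u b := Units.map S.θk.toMonoidHom (u (S.e.symm b))
  map_one' := funext fun _ => map_one _
  map_mul' _ _ := funext fun _ => map_mul _ _ _

omit hF hk [IsAlgClosed K] [IsAlgClosed k] [Nonempty ι] in
/-- The action on the target of the toric datum. -/
def Symm.onTarget : X.ToricTarget →+ X.ToricTarget :=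
  MonoidHom.toAdditive (QuotientGroup.map X.glueHom.range X.glueHom.range S.onUnits (by
    rintro _ ⟨⟨v, c⟩, rfl⟩
    refine ⟨(fun s => Units.map S.θk.toMonoidHom (v (X.pt (S.e.symm (X.sec s)))),
      fun i => Units.map S.θk.toMonoidHom (c i)), funext fun b => ?_⟩
    have h1 : X.pt (S.e.symm (X.sec (X.pt b))) = X.pt (S.e.symm b) := by
      rw [← S.pt_e, Equiv.apply_symm_apply, Equiv.apply_symm_apply, X.pt_sec]
    have h2 : (X.br (S.e.symm b)).1 = (X.br b).1 := by
      have := S.comp_e (S.e.symm b)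
      rw [Equiv.apply_symm_apply] at this
      exact this.symm
    show Units.map S.θk.toMonoidHom (v (X.pt (S.e.symm (X.sec (X.pt b))))) *
      Units.map S.θk.toMonoidHom (c (X.br b).1) =
      Units.map S.θk.toMonoidHom (v (X.pt (S.e.symm b)) * c (X.br (S.e.symm b)).1)
    rw [h1, h2, map_mul]))

omit hF hk [IsAlgClosed K] [IsAlgClosed k] [Nonempty ι] in
theorem Symm.onTarget_cls {u : β → k} (h : ∀ b, u b ≠ 0) :
    S.onTarget (X.cls u) = X.cls (fun b => S.θk (u (S.e.symm b))) := by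
  rw [cls, dif_pos h, cls, dif_pos fun b => (_root_.map_ne_zero S.θk).2 (h _)]
  exact congrArg Additive.ofMul (congrArg QuotientGroup.mk (funext fun b => Units.ext rfl))

omit hF hk [IsAlgClosed K] [IsAlgClosed k] [Nonempty ι] in
/-- The image of a twist. -/
def Symm.onTwist (t : X.Twist n) : X.Twist n where
  D := SemilinearAut.degZeroSMulHom S.s t.D
  g := S.s • t.g
  g_ne h0 := t.g_ne (smul_left_cancel S.s (h0.trans (smul_zero S.s).symm))
  div_eq P := by
    rw [SemilinearAut.coe_degZeroSMulHom, SemilinearAut.divisor_smul_apply, t.div_eq]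
    have := SemilinearAut.ord_smul S.s (S.s⁻¹ • P) t.g
    rw [smul_inv_smul] at this
    exact this.symm
  c i := SemilinearAut.baseAut S.s (t.c i)
  c_ne i := by simpa using t.c_ne i
  h i := S.θ i (t.h i)
  h_ne i := (_root_.map_ne_zero _).2 (t.h_ne i)
  red i := by
    have h := S.intertwines i _ _ (t.red i)
    rw [smul_mul', SemilinearAut.smul_algebraMap, map_pow, map_pow, map_inv₀] at h
    simpa [map_pow] using h

theorem toric_onTwist (hn : n ≠ 0) (t : X.Twist n) :
    (S.onTwist t).toric = S.onTarget t.toric := by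
  obtain ⟨u, hu⟩ := t.exists_datum hF hk hn
  obtain ⟨u', hu'⟩ := (S.onTwist t).exists_datum hF hk hn
  obtain ⟨E, hE, H, ⟨f, hf, hH⟩, hval⟩ := hu.test hF hk hn
  have hsmul : ∀ (G : Divisor K F) P, (S.s • G) P = G (S.s⁻¹ • P) := fun G P =>
    SemilinearAut.divisor_smul_apply S.s G P
  have hmem : (fun i => S.θ i (H i)) ∈ (S.onTwist t).space (S.s • E) := by
    refine ⟨S.s • f, ?_, fun i => ?_⟩
    · rw [FA.Curve.mem_riemannRochSpace] at hf ⊢
      intro P
      have h1 := hf (S.s⁻¹ • P)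
      rw [Finsupp.add_apply, hsmul]
      simp only [Symm.onTwist]
      rw [SemilinearAut.coe_degZeroSMulHom, hsmul]
      rcases h1 with h1 | h1
      · exact Or.inl (by rw [h1, smul_zero])
      · refine Or.inr ?_
        have := SemilinearAut.ord_smul S.s (S.s⁻¹ • P) f
        rw [smul_inv_smul] at this
        rw [this]
        simpa using h1
    · obtain ⟨r, hr, e⟩ := hH i
      refine ⟨S.θ i r, ?_, ?_⟩
      · have h := S.intertwines i _ _ hr
        rwa [smul_mul', SemilinearAut.smul_algebraMap] at h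
      · simp only [Symm.onTwist, e, map_mul]
  have hclean : X.Clean (S.s • E) := fun P hP => by
    rw [hsmul]
    exact hE _ (S.tube _ (by rwa [smul_inv_smul]))
  obtain ⟨v, hv⟩ := hu'.2 _ hclean _ hmem
  rw [hu.toric_eq hF hk hn, hu'.toric_eq hF hk hn, S.onTarget_cls hu.1]
  symm
  refine cls_eq_of_mul (fun b => (_root_.map_ne_zero S.θk).2 (hu.1 _)) hu'.1 v (fun _ => 1)
    (fun _ => one_ne_zero) fun b => ?_
  obtain ⟨b₀, rfl⟩ := S.e.surjective b
  rw [mul_one, Equiv.symm_apply_apply, (S.value b₀ H _ (hval b₀)).unique (hv (S.e b₀))]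

theorem toricHom_smul (hn : n ≠ 0) (x : X.toricKer hF n)
    (hsx : S.s • (x : Pic0.torsion K F n) ∈ X.toricKer hF n) :
    X.toricHom hF hk hn ⟨S.s • (x : Pic0.torsion K F n), hsx⟩ =
      S.onTarget (X.toricHom hF hk hn x) := by
  obtain ⟨t, ht⟩ := exists_twist_mk hF hn x
  rw [toricHom_mk hF hk hn x t ht, ← toric_onTwist hF hk S hn t]
  refine toricHom_mk hF hk hn _ _ ?_
  rw [show (S.onTwist t).D = SemilinearAut.degZeroSMulHom S.s t.D from rfl,
    ← SemilinearAut.pic0_smul_mk, ht]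
  exact (SemilinearAut.coe_torsion_smul S.s _).symm

omit hk [IsAlgClosed k] in
theorem smul_mem_toricKer {x : Pic0.torsion K F n} (hx : x ∈ X.toricKer hF n) :
    S.s • x ∈ X.toricKer hF n := by
  refine (SemiFibre.mem_toricKer hF).2 fun i => ?_
  rw [redTor_smul n hF (X.scaled i) (S.intertwines i)
      (fun a => ⟨S.θk a, (S.θ_const i a).symm⟩) x, (SemiFibre.mem_toricKer hF).1 hx i, map_zero]

omit hF hk [IsAlgClosed K] [IsAlgClosed k] [Nonempty ι] in
theorem Symm.onTarget_eq_self (hθ : S.θk = RingHom.id k) (he : S.e = Equiv.refl β)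
    (x : X.ToricTarget) : S.onTarget x = x := by
  obtain ⟨u, rfl⟩ : ∃ u : β → kˣ, Additive.ofMul (QuotientGroup.mk u) = x :=
    ⟨_, QuotientGroup.out_eq' (Additive.toMul x)⟩
  refine congrArg Additive.ofMul (congrArg QuotientGroup.mk (funext fun b => Units.ext ?_))
  show S.θk _ = _
  rw [hθ, he]
  rfl

omit hF hk [IsAlgClosed K] [IsAlgClosed k] [Nonempty ι] in
theorem Symm.onTarget_eq_nsmul {m : ℕ} (hθ : ∀ a, S.θk a = a ^ m) (he : S.e = Equiv.refl β)
    (x : X.ToricTarget) : S.onTarget x = m • x := by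
  obtain ⟨u, rfl⟩ : ∃ u : β → kˣ, Additive.ofMul (QuotientGroup.mk u) = x :=
    ⟨_, QuotientGroup.out_eq' (Additive.toMul x)⟩
  refine congrArg Additive.ofMul (congrArg QuotientGroup.mk (funext fun b => Units.ext ?_))
  show S.θk _ = ((u ^ m) b : kˣ).val
  rw [hθ, he, Pi.pow_apply, Units.val_pow_eq_pow_val]
  rfl

end SemiFibre

end FA.ModField
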