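import Fermat.Agent.ModField.Embeddings

/-!
# The Atkin–Lehner involution at `q ∥ M q` on the function field of `X₀(M q)`

It exchanges `j(dz)` and `j(dqz)` for `d ∣ M`.
-/

set_option autoImplicit false
set_option linter.style.haveILetI false
set_option linter.unusedSectionVars false
set_option synthInstance.maxHeartbeats 200000
set_option maxHeartbeats 1600000

noncomputable section

namespace FA.ModField

open UpperHalfPlane hiding I
open Complex HahnSeries CongruenceSubgroup ModularCurve IntermediateField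
open scoped MatrixGroups

/-- The partner of a divisor of `M q`. -/
def swapDiv (q d : ℕ) : ℕ := if q ∣ d then d / q else d * q

variable (M q : ℕ) [NeZero M] [hq : Fact q.Prime]

theorem dvd_of_dvd_mul_of_not_dvd {d : ℕ} (hd : d ∣ M * q) (h : ¬ q ∣ d) : d ∣ M :=
  ((hq.out.coprime_iff_not_dvd.2 h).symm).dvd_of_dvd_mul_right hd

theorem div_dvd_of_dvd_mul {d : ℕ} (hd : d ∣ M * q) (h : q ∣ d) : d / q ∣ M := by
  obtain ⟨e, rfl⟩ := h
  rw [Nat.mul_div_cancel_left _ hq.out.pos]
  exact Nat.dvd_of_mul_dvd_mul_left hq.out.pos (mul_comm M q ▸ hd)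

theorem swapDiv_dvd {d : ℕ} (hd : d ∣ M * q) : swapDiv q d ∣ M * q := by
  unfold swapDiv
  split_ifs with h
  · exact (Nat.div_dvd_of_dvd h).trans hd
  · exact mul_dvd_mul_right (dvd_of_dvd_mul_of_not_dvd M q hd h) q

theorem swapDiv_swapDiv (hqM : ¬ q ∣ M) {d : ℕ} (hd : d ∣ M * q) :
    swapDiv q (swapDiv q d) = d := by
  unfold swapDiv
  by_cases h : q ∣ d
  · rw [if_pos h, if_neg fun h' => hqM (h'.trans (div_dvd_of_dvd_mul M q hd h)),
      Nat.div_mul_cancel h]
  · rw [if_neg h, if_pos (dvd_mul_left q d), Nat.mul_div_cancel _ hq.out.pos]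

/-- The divisors of `M q`. -/
abbrev DivOf : Type := (M * q).divisors

theorem DivOf.dvd (d : DivOf M q) : (d : ℕ) ∣ M * q := Nat.dvd_of_mem_divisors d.2

instance DivOf.neZero (d : DivOf M q) : NeZero (d : ℕ) :=
  ⟨(Nat.pos_of_mem_divisors d.2).ne'⟩

/-- The partner. -/
def DivOf.swap (d : DivOf M q) : DivOf M q :=
  ⟨swapDiv q d, Nat.mem_divisors.2 ⟨swapDiv_dvd M q (DivOf.dvd M q d),
    mul_ne_zero (NeZero.ne M) hq.out.ne_zero⟩⟩

theorem DivOf.swap_swap (hqM : ¬ q ∣ M) (d : DivOf M q) : DivOf.swap M q (DivOf.swap M q d) = d :=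
  Subtype.ext (swapDiv_swapDiv M q hqM (DivOf.dvd M q d))

/-- `z ↦ W z` for an Atkin–Lehner matrix `W` at `q`. -/
theorem exists_alPoint (hqM : ¬ q ∣ M) (z : ℍ) :
    ∃ z' : ℍ, ∀ d : DivOf M q,
      jfun (scaleH (d : ℕ) z') = jfun (scaleH (DivOf.swap M q d : ℕ) z) := by
  have hqz : IsCoprime (q : ℤ) (M : ℤ) := by
    rw [Int.isCoprime_iff_gcd_eq_one, Int.gcd_natCast_natCast]
    exact hq.out.coprime_iff_not_dvd.2 hqM
  obtain ⟨x, y, hxy⟩ := hqz
  set a : ℤ := -y
  have hdet : (q : ℤ) * x - (M : ℤ) * a = 1 := by simp only [a]; linarith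
  let γ : SL(2, ℤ) := ⟨!![1, a; (M : ℤ), (q : ℤ) * x], by
    rw [Matrix.det_fin_two_of]; linarith⟩
  haveI : NeZero q := ⟨hq.out.ne_zero⟩
  refine ⟨γ • scaleH q z, fun d => ?_⟩
  by_cases h : q ∣ (d : ℕ)
  · obtain ⟨e, he⟩ := h
    obtain ⟨f, hf⟩ : e ∣ M := by
      have := div_dvd_of_dvd_mul M q (DivOf.dvd M q d) ⟨e, he⟩
      rwa [he, Nat.mul_div_cancel_left _ hq.out.pos] at this
    haveI : NeZero e := ⟨fun h0 => (NeZero.ne (d : ℕ)) (by rw [he, h0, mul_zero])⟩
    have hswap : (DivOf.swap M q d : ℕ) = e := by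
      show swapDiv q (d : ℕ) = e
      rw [swapDiv, if_pos ⟨e, he⟩, he, Nat.mul_div_cancel_left _ hq.out.pos]
    let γ' : SL(2, ℤ) := ⟨!![(q : ℤ), (e : ℤ) * a; (f : ℤ), x], by
      rw [Matrix.det_fin_two_of]
      have : (M : ℤ) = (e : ℤ) * f := by exact_mod_cast hf
      rw [this] at hdet; linarith⟩
    have key : scaleH (d : ℕ) (γ • scaleH q z) =
        γ' • scaleH (DivOf.swap M q d : ℕ) z := by
      refine UpperHalfPlane.ext ?_
      rw [coe_scaleH, UpperHalfPlane.coe_specialLinearGroup_apply,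
        UpperHalfPlane.coe_specialLinearGroup_apply, coe_scaleH, coe_scaleH, hswap, he]
      have hM : (M : ℂ) = (e : ℂ) * f := by exact_mod_cast hf
      have hq0 : (q : ℂ) ≠ 0 := Nat.cast_ne_zero.2 hq.out.ne_zero
      simp [γ, γ', hM]
      rw [show (e : ℂ) * f * (q * z) + q * x = q * (f * (e * z) + x) by ring]
      by_cases hden : (f : ℂ) * (e * z) + x = 0
      · simp [hden]
      field_simp
    rw [key, jfun_smul]
  · obtain ⟨f, hf⟩ := dvd_of_dvd_mul_of_not_dvd M q (DivOf.dvd M q d) h
    have hswap : (DivOf.swap M q d : ℕ) = (d : ℕ) * q := by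
      show swapDiv q (d : ℕ) = _
      rw [swapDiv, if_neg h]
    let γ' : SL(2, ℤ) := ⟨!![1, ((d : ℕ) : ℤ) * a; (f : ℤ), (q : ℤ) * x], by
      rw [Matrix.det_fin_two_of]
      have : (M : ℤ) = ((d : ℕ) : ℤ) * f := by exact_mod_cast hf
      rw [this] at hdet; linarith⟩
    have key : scaleH (d : ℕ) (γ • scaleH q z) =
        γ' • scaleH (DivOf.swap M q d : ℕ) z := by
      refine UpperHalfPlane.ext ?_
      rw [coe_scaleH, UpperHalfPlane.coe_specialLinearGroup_apply,
        UpperHalfPlane.coe_specialLinearGroup_apply, coe_scaleH, coe_scaleH, hswap]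
      have hM : (M : ℂ) = ((d : ℕ) : ℂ) * f := by exact_mod_cast hf
      simp [γ, γ', hM]
      rw [show ((d : ℕ) : ℂ) * f * (q * z) + q * x = f * ((d : ℕ) * q * z) + q * x by ring,
        ← mul_div_assoc]
      congr 1
      ring
    rw [key, jfun_smul]

variable (L : Type) [Field L] [Algebra L ℂ]

instance neZero_mul_level : NeZero (M * q) := ⟨mul_ne_zero (NeZero.ne M) hq.out.ne_zero⟩

/-- Polynomials in the generators. -/
def genEval : MvPolynomial (DivOf M q) L →ₐ[L] genAlg L (M * q) :=
  MvPolynomial.aeval fun d => algGen (d : ℕ) (DivOf.dvd M q d)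

theorem genEval_surjective : Function.Surjective (genEval M q L) := by
  rintro ⟨x, hx⟩
  induction hx using Algebra.adjoin_induction with
  | mem y hy =>
    obtain ⟨d, hne, hd, rfl⟩ := hy
    exact ⟨MvPolynomial.X ⟨d, Nat.mem_divisors.2 ⟨hd, NeZero.ne _⟩⟩, by
      simp [genEval, algGen]⟩
  | algebraMap c => exact ⟨MvPolynomial.C c, by simp [genEval]⟩
  | add y z hy hz h1 h2 =>
    obtain ⟨P, hP⟩ := h1
    obtain ⟨Q, hQ⟩ := h2
    exact ⟨P + Q, by rw [map_add, hP, hQ]; rfl⟩
  | mul y z hy hz h1 h2 =>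
    obtain ⟨P, hP⟩ := h1
    obtain ⟨Q, hQ⟩ := h2
    exact ⟨P * Q, by rw [map_mul, hP, hQ]; rfl⟩

theorem funHom_genEval (P : MvPolynomial (DivOf M q) L) (z : ℍ) :
    funHom (genEval M q L P) z =
      MvPolynomial.eval₂ (algebraMap L ℂ) (fun d : DivOf M q => jfun (scaleH (d : ℕ) z)) P := by
  induction P using MvPolynomial.induction_on with
  | C a =>
    rw [MvPolynomial.eval₂_C, genEval, MvPolynomial.aeval_C, funHom_algebraMap]
  | add P Q hP hQ => rw [map_add, map_add, Pi.add_apply, hP, hQ, MvPolynomial.eval₂_add]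
  | mul_X P d hP =>
    rw [map_mul, map_mul, Pi.mul_apply, hP, MvPolynomial.eval₂_mul, MvPolynomial.eval₂_X]
    simp [genEval, funHom_gen]

/-- The exchanged polynomial. -/
def swapPoly : MvPolynomial (DivOf M q) L →ₐ[L] MvPolynomial (DivOf M q) L :=
  MvPolynomial.rename (DivOf.swap M q)

theorem genEval_swap_eq_zero (hqM : ¬ q ∣ M) {P : MvPolynomial (DivOf M q) L}
    (h : genEval M q L P = 0) : genEval M q L (swapPoly M q L P) = 0 := by
  refine funHom_injective ?_
  rw [map_zero]
  funext z
  obtain ⟨z', hz'⟩ := exists_alPoint M q hqM z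
  rw [funHom_genEval, swapPoly, MvPolynomial.eval₂_rename, Pi.zero_apply]
  have h0 := funHom_genEval M q L P z'
  rw [h, map_zero, Pi.zero_apply] at h0
  rw [h0]
  congr 1
  exact funext fun d => (hz' d).symm

variable (hqM : ¬ q ∣ M)

theorem genEval_swap_congr {P Q : MvPolynomial (DivOf M q) L} (hqM : ¬ q ∣ M)
    (h : genEval M q L P = genEval M q L Q) :
    genEval M q L (swapPoly M q L P) = genEval M q L (swapPoly M q L Q) := by
  rw [← sub_eq_zero, ← map_sub, ← map_sub]
  exact genEval_swap_eq_zero M q L hqM (by rw [map_sub, h, sub_self])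

/-- The involution on the algebra of the generators. -/
def alAlg : genAlg L (M * q) →ₐ[L] genAlg L (M * q) where
  toFun a := genEval M q L (swapPoly M q L (genEval_surjective M q L a).choose)
  map_one' := by
    rw [genEval_swap_congr M q L hqM (Q := 1)
      ((genEval_surjective M q L 1).choose_spec.trans (map_one _).symm), map_one, map_one]
  map_mul' a b := by
    rw [← map_mul, ← map_mul]
    exact genEval_swap_congr M q L hqM ((genEval_surjective M q L (a * b)).choose_spec.trans
      (by rw [map_mul, (genEval_surjective M q L a).choose_spec,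
        (genEval_surjective M q L b).choose_spec]))
  map_zero' := genEval_swap_eq_zero M q L hqM (genEval_surjective M q L 0).choose_spec
  map_add' a b := by
    rw [← map_add, ← map_add]
    exact genEval_swap_congr M q L hqM ((genEval_surjective M q L (a + b)).choose_spec.trans
      (by rw [map_add, (genEval_surjective M q L a).choose_spec,
        (genEval_surjective M q L b).choose_spec]))
  commutes' c := by
    rw [genEval_swap_congr M q L hqM (Q := algebraMap L _ c)
      ((genEval_surjective M q L _).choose_spec.trans (AlgHom.commutes _ c).symm),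
      AlgHom.commutes, AlgHom.commutes]

theorem alAlg_genEval (P : MvPolynomial (DivOf M q) L) :
    alAlg M q L hqM (genEval M q L P) = genEval M q L (swapPoly M q L P) :=
  genEval_swap_congr M q L hqM (genEval_surjective M q L (genEval M q L P)).choose_spec

theorem swapPoly_swapPoly (hqM : ¬ q ∣ M) (P : MvPolynomial (DivOf M q) L) :
    swapPoly M q L (swapPoly M q L P) = P := by
  rw [swapPoly, MvPolynomial.rename_rename,
    show DivOf.swap M q ∘ DivOf.swap M q = id from funext (DivOf.swap_swap M q hqM),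
    MvPolynomial.rename_id]
  rfl

theorem alAlg_alAlg (a : genAlg L (M * q)) : alAlg M q L hqM (alAlg M q L hqM a) = a := by
  obtain ⟨P, rfl⟩ := genEval_surjective M q L a
  rw [alAlg_genEval, alAlg_genEval, swapPoly_swapPoly M q L hqM]

theorem alAlg_injective : Function.Injective (alAlg M q L hqM) :=
  Function.LeftInverse.injective (alAlg_alAlg M q L hqM)

/-- The involution as a map into the field. -/
def alToField : genAlg L (M * q) →ₐ[L] modularFunctionFieldFullC L (M * q) :=
  (IsScalarTower.toAlgHom L (genAlg L (M * q)) (modularFunctionFieldFullC L (M * q))).comp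
    (alAlg M q L hqM)

theorem alToField_injective : Function.Injective (alToField M q L hqM) :=
  (FaithfulSMul.algebraMap_injective (genAlg L (M * q))
    (modularFunctionFieldFullC L (M * q))).comp (alAlg_injective M q L hqM)

/-- The Atkin–Lehner involution of the function field. -/
def alHom : modularFunctionFieldFullC L (M * q) →ₐ[L] modularFunctionFieldFullC L (M * q) :=
  IsFractionRing.liftAlgHom (K := modularFunctionFieldFullC L (M * q))
    (alToField_injective M q L hqM)

theorem alHom_coe (a : genAlg L (M * q)) :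
    alHom M q L hqM (algebraMap (genAlg L (M * q)) (modularFunctionFieldFullC L (M * q)) a) =
      algebraMap (genAlg L (M * q)) (modularFunctionFieldFullC L (M * q))
        (alAlg M q L hqM a) :=
  IsFractionRing.lift_algebraMap (alToField_injective M q L hqM) a

theorem alHom_gen (d : ℕ) [NeZero d] (hd : d ∣ M * q) [NeZero (swapDiv q d)] :
    (alHom M q L hqM ⟨qExpand L d (jqModC L), jqModCd_mem_full L (M * q) hd⟩ : LaurentSeries L) =
      qExpand L (swapDiv q d) (jqModC L) := by
  let d' : DivOf M q := ⟨d, Nat.mem_divisors.2 ⟨hd, NeZero.ne _⟩⟩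
  have h := alHom_coe M q L hqM (genEval M q L (MvPolynomial.X d'))
  rw [alAlg_genEval, swapPoly, MvPolynomial.rename_X] at h
  simp only [genEval, MvPolynomial.aeval_X] at h
  exact congrArg Subtype.val h

theorem alHom_alHom (f : modularFunctionFieldFullC L (M * q)) :
    alHom M q L hqM (alHom M q L hqM f) = f := by
  obtain ⟨a, b, hb, e⟩ := exists_fraction_eq f
  have hb' : algebraMap (genAlg L (M * q)) (modularFunctionFieldFullC L (M * q)) b ≠ 0 :=
    (map_ne_zero_iff _ (FaithfulSMul.algebraMap_injective _ _)).2 hb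
  change f * algebraMap _ _ b = algebraMap _ _ a at e
  have h := congrArg (fun y => alHom M q L hqM (alHom M q L hqM y)) e
  simp only [map_mul, alHom_coe, alAlg_alAlg] at h
  exact mul_right_cancel₀ hb' (h.trans e.symm)

/-- The Atkin–Lehner involution as an automorphism. -/
def alEquiv : modularFunctionFieldFullC L (M * q) ≃ₐ[L] modularFunctionFieldFullC L (M * q) :=
  AlgEquiv.ofAlgHom (alHom M q L hqM) (alHom M q L hqM)
    (AlgHom.ext (alHom_alHom M q L hqM)) (AlgHom.ext (alHom_alHom M q L hqM))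

theorem alEquiv_apply (f : modularFunctionFieldFullC L (M * q)) :
    alEquiv M q L hqM f = alHom M q L hqM f := rfl

theorem alHom_alpha (d : ℕ) [NeZero d] (hd : d ∣ M) [NeZero (d * q)] :
    (alHom M q L hqM ⟨qExpand L d (jqModC L),
      jqModCd_mem_full L (M * q) (hd.trans (dvd_mul_right M q))⟩ : LaurentSeries L) =
      qExpand L (d * q) (jqModC L) := by
  have h : swapDiv q d = d * q := if_neg fun h => hqM (h.trans hd)
  haveI : NeZero (swapDiv q d) := h ▸ inferInstance
  rw [alHom_gen M q L hqM d (hd.trans (dvd_mul_right M q))]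
  exact qExpand_congr h _

theorem alHom_beta (d : ℕ) [NeZero d] (hd : d ∣ M) [NeZero (d * q)] :
    (alHom M q L hqM ⟨qExpand L (d * q) (jqModC L),
      jqModCd_mem_full L (M * q) (mul_dvd_mul_right hd q)⟩ : LaurentSeries L) =
      qExpand L d (jqModC L) := by
  have h : swapDiv q (d * q) = d := by
    rw [swapDiv, if_pos (dvd_mul_left q d), Nat.mul_div_cancel _ hq.out.pos]
  haveI : NeZero (swapDiv q (d * q)) := h.symm ▸ ‹NeZero d›
  rw [alHom_gen M q L hqM (d * q) (mul_dvd_mul_right hd q)]
  exact qExpand_congr h _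

end FA.ModField
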