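import Fermat.Agent.ModField.Semistable.RedModular
import Fermat.Agent.ModField.Semistable.Toric
import Fermat.Agent.ModField.Congruence.Galois

/-!
# What is used about the special fibre of `X₀(M q)` at `q`

The two components with the reductions `cInf`, `cZero`, the branches at the crossings, and the
symmetries attached to the elements of the decomposition group.
-/

set_option autoImplicit false
set_option linter.style.haveILetI false
set_option linter.unusedSectionVars false
set_option synthInstance.maxHeartbeats 200000
set_option maxHeartbeats 400000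

noncomputable section

namespace FA.ModField

open ModularCurve AlgebraicCurve FA.Curve FA.CurveRed

variable (M : ℕ) [NeZero M] (q : ℕ) [hq : Fact q.Prime] [hq0 : NeZero q]
variable {L : Type} [Field L] [Algebra ℚ L] [Algebra L ℂ] [IsAlgClosed L]
variable (A : ValuationSubring L) {k : Type} [Field k] [IsAlgClosed k] [CharP k q] (π : A →+* k)
  (hπs : Function.Surjective π) (hπ0 : ∀ a : A, π a = 0 ↔ A.valuation a < 1) (hqM : ¬ q ∣ M)
  (harch : ∀ c : L, c ≠ 0 → ∃ m : ℕ, A.valuation ((q : L) ^ m) < A.valuation c)

/-- The special fibre of `X₀(M q)` at `q` with its symmetries. -/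
structure FibreData : Type 1 where
  /-- the branches -/
  β : Type
  /-- the crossings -/
  σ : Type
  fintypeβ : Fintype β
  fintypeσ : Fintype σ
  /-- the fibre -/
  X : SemiFibre L (levelField (M * q) L) k (fun _ : Fin 2 => modularFunctionFieldFullC k M) A β σ
  C_inf : X.C 0 = cInf M q A π hπs hπ0 hqM harch
  C_zero : X.C 1 = cZero M q A π hπs hπ0 hqM harch
  /-- the elements inducing the identity on constants fix all branches -/
  symm_inertia : ∀ s : L ≃ₐ[ℚ] L, InducesOn L π s (RingHom.id k) →
    ∃ S : X.Symm, S.s = galAut (M * q) L s ∧ S.θk = RingHom.id k ∧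
      (∀ i, S.θ i = RingHom.id (modularFunctionFieldFullC k M)) ∧ S.e = Equiv.refl β
  /-- some power of a Frobenius element fixes all branches -/
  symm_frob : ∀ s : L ≃ₐ[ℚ] L, InducesOn L π s (frobenius k q) →
    ∃ m : ℕ, 0 < m ∧ ∃ S : X.Symm, S.s = galAut (M * q) L (s ^ m) ∧
      (∀ a, S.θk a = a ^ q ^ m) ∧ S.e = Equiv.refl β

attribute [instance] FibreData.fintypeβ FibreData.fintypeσ

end FA.ModField
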