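import Fermat.Agent.ModField.Embeddings

/-!
# Automorphisms of a level field permuting the generators

An involution of the divisors realised on the upper half plane induces an automorphism of the
function field.
-/

set_option autoImplicit false
set_option linter.style.haveILetI false
set_option linter.unusedSectionVars false
set_option synthInstance.maxHeartbeats 200000
set_option maxHeartbeats 1600000

noncomputable section

namespace FA.ModField

open UpperHalfPlane hiding I
open Complex HahnSeries ModularCurve IntermediateField
open scoped MatrixGroups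

variable (N : ℕ) [NeZero N]

instance divisors_neZero (d : N.divisors) : NeZero (d : ℕ) :=
  ⟨(Nat.pos_of_mem_divisors d.2).ne'⟩

/-- An involution of the divisors of `N` realised on the upper half plane. -/
structure LevelPerm where
  /-- the permutation -/
  s : N.divisors → N.divisors
  s_s : ∀ d, s (s d) = d
  exists_point : ∀ z : ℍ, ∃ z' : ℍ, ∀ d : N.divisors,
    jfun (scaleH (d : ℕ) z') = jfun (scaleH (s d : ℕ) z)

variable (L : Type) [Field L] [Algebra L ℂ]

/-- Polynomials in the generators of level `N`. -/
def divEval : MvPolynomial N.divisors L →ₐ[L] genAlg L N :=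
  MvPolynomial.aeval fun d => algGen (d : ℕ) (Nat.dvd_of_mem_divisors d.2)

theorem divEval_surjective : Function.Surjective (divEval N L) := by
  rintro ⟨x, hx⟩
  induction hx using Algebra.adjoin_induction with
  | mem y hy =>
    obtain ⟨d, hne, hd, rfl⟩ := hy
    exact ⟨MvPolynomial.X ⟨d, Nat.mem_divisors.2 ⟨hd, NeZero.ne _⟩⟩, by
      simp [divEval, algGen]⟩
  | algebraMap c => exact ⟨MvPolynomial.C c, by simp [divEval]⟩
  | add y z hy hz h1 h2 =>
    obtain ⟨P, hP⟩ := h1
    obtain ⟨Q, hQ⟩ := h2
    exact ⟨P + Q, by rw [map_add, hP, hQ]; rfl⟩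
  | mul y z hy hz h1 h2 =>
    obtain ⟨P, hP⟩ := h1
    obtain ⟨Q, hQ⟩ := h2
    exact ⟨P * Q, by rw [map_mul, hP, hQ]; rfl⟩

theorem funHom_divEval (P : MvPolynomial N.divisors L) (z : ℍ) :
    funHom (divEval N L P) z =
      MvPolynomial.eval₂ (algebraMap L ℂ) (fun d : N.divisors => jfun (scaleH (d : ℕ) z)) P := by
  induction P using MvPolynomial.induction_on with
  | C a => rw [MvPolynomial.eval₂_C, divEval, MvPolynomial.aeval_C, funHom_algebraMap]
  | add P Q hP hQ => rw [map_add, map_add, Pi.add_apply, hP, hQ, MvPolynomial.eval₂_add]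
  | mul_X P d hP =>
    rw [map_mul, map_mul, Pi.mul_apply, hP, MvPolynomial.eval₂_mul, MvPolynomial.eval₂_X]
    simp [divEval, funHom_gen]

variable {N} (W : LevelPerm N)

theorem divEval_perm_eq_zero {P : MvPolynomial N.divisors L} (h : divEval N L P = 0) :
    divEval N L (MvPolynomial.rename W.s P) = 0 := by
  refine funHom_injective ?_
  rw [map_zero]
  funext z
  obtain ⟨z', hz'⟩ := W.exists_point z
  rw [funHom_divEval, MvPolynomial.eval₂_rename, Pi.zero_apply]
  have h0 := funHom_divEval N L P z'
  rw [h, map_zero, Pi.zero_apply] at h0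
  rw [h0]
  congr 1
  exact funext fun d => (hz' d).symm

theorem ker_divEval_le : RingHom.ker (divEval N L) ≤
    RingHom.ker ((divEval N L).comp (MvPolynomial.rename W.s)) := fun _ hP =>
  divEval_perm_eq_zero L W hP

/-- The permutation on the algebra of the generators. -/
def permAlg : genAlg L N →ₐ[L] genAlg L N :=
  AlgHom.liftOfSurjective (divEval N L) (divEval_surjective N L) _ (ker_divEval_le L W)

theorem permAlg_divEval (P : MvPolynomial N.divisors L) :
    permAlg L W (divEval N L P) = divEval N L (MvPolynomial.rename W.s P) :=
  AlgHom.liftOfSurjective_apply (divEval N L) (divEval_surjective N L)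
    ((divEval N L).comp (MvPolynomial.rename W.s)) (ker_divEval_le L W) P

theorem permAlg_permAlg (a : genAlg L N) : permAlg L W (permAlg L W a) = a := by
  obtain ⟨P, rfl⟩ := divEval_surjective N L a
  rw [permAlg_divEval, permAlg_divEval, MvPolynomial.rename_rename,
    show W.s ∘ W.s = id from funext W.s_s, MvPolynomial.rename_id]
  rfl

/-- The permutation with values in the field. -/
def permToField : genAlg L N →ₐ[L] modularFunctionFieldFullC L N :=
  (IsScalarTower.toAlgHom L (genAlg L N) (modularFunctionFieldFullC L N)).comp (permAlg L W)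

theorem permToField_injective : Function.Injective (permToField L W) :=
  (FaithfulSMul.algebraMap_injective (genAlg L N) (modularFunctionFieldFullC L N)).comp
    (Function.LeftInverse.injective (permAlg_permAlg L W))

/-- The permutation on the field. -/
def permHom : modularFunctionFieldFullC L N →ₐ[L] modularFunctionFieldFullC L N :=
  IsFractionRing.liftAlgHom (K := modularFunctionFieldFullC L N) (permToField_injective L W)

theorem permHom_coe (a : genAlg L N) :
    permHom L W (algebraMap (genAlg L N) (modularFunctionFieldFullC L N) a) =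
      algebraMap (genAlg L N) (modularFunctionFieldFullC L N) (permAlg L W a) :=
  IsFractionRing.lift_algebraMap (permToField_injective L W) a

theorem permHom_gen (d : ℕ) [NeZero d] (hd : d ∣ N) :
    (permHom L W ⟨qExpand L d (jqModC L), jqModCd_mem_full L N hd⟩ : LaurentSeries L) =
      qExpand L (W.s ⟨d, Nat.mem_divisors.2 ⟨hd, NeZero.ne _⟩⟩ : ℕ) (jqModC L) := by
  have h := permHom_coe L W
    (divEval N L (MvPolynomial.X ⟨d, Nat.mem_divisors.2 ⟨hd, NeZero.ne _⟩⟩))
  rw [permAlg_divEval, MvPolynomial.rename_X] at h
  simp only [divEval, MvPolynomial.aeval_X] at h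
  exact congrArg Subtype.val h

theorem permHom_permHom (f : modularFunctionFieldFullC L N) :
    permHom L W (permHom L W f) = f := by
  obtain ⟨a, b, hb, e⟩ := exists_fraction_eq f
  have hb' : algebraMap (genAlg L N) (modularFunctionFieldFullC L N) b ≠ 0 :=
    (map_ne_zero_iff _ (FaithfulSMul.algebraMap_injective _ _)).2 hb
  change f * algebraMap _ _ b = algebraMap _ _ a at e
  have h := congrArg (fun y => permHom L W (permHom L W y)) e
  simp only [map_mul, permHom_coe, permAlg_permAlg] at h
  exact mul_right_cancel₀ hb' (h.trans e.symm)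

/-- The permutation as an automorphism. -/
def permEquiv : modularFunctionFieldFullC L N ≃ₐ[L] modularFunctionFieldFullC L N :=
  AlgEquiv.ofAlgHom (permHom L W) (permHom L W)
    (AlgHom.ext (permHom_permHom L W)) (AlgHom.ext (permHom_permHom L W))

theorem permEquiv_apply (f : modularFunctionFieldFullC L N) :
    permEquiv L W f = permHom L W f := rfl

end FA.ModField
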