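import Fermat.Agent.ModField.Semistable.AtkinLehner
import Fermat.Agent.ModField.Semistable.LevelPerm
import Fermat.Agent.ModField.Bar
import Fermat.Agent.ModField.Congruence.Charpoly

/-!
# The Atkin–Lehner involution and the two degeneracy maps to level `M q²`
-/

set_option autoImplicit false
set_option linter.style.haveILetI false
set_option linter.unusedSectionVars false
set_option synthInstance.maxHeartbeats 200000
set_option maxHeartbeats 400000

noncomputable section

namespace FA.ModField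

open UpperHalfPlane hiding I
open Complex HahnSeries CongruenceSubgroup ModularCurve IntermediateField
open scoped MatrixGroups

variable (M q : ℕ) [NeZero M] [hq : Fact q.Prime]

/-- The partner of a divisor of `M q²`. -/
def swapSq (d : ℕ) : ℕ := if q * q ∣ d then d / (q * q) else if q ∣ d then d else d * (q * q)

theorem dvd_mul_sq_cases {d : ℕ} (hd : d ∣ M * q * q) :
    (∃ e, e ∣ M ∧ d = e) ∨ (∃ e, e ∣ M ∧ d = e * q) ∨ ∃ e, e ∣ M ∧ d = e * (q * q) := by
  rw [mul_assoc] at hd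
  obtain ⟨e, r, he, hr, rfl⟩ := exists_dvd_and_dvd_of_dvd_mul hd
  obtain ⟨i, hi, rfl⟩ := (Nat.dvd_prime_pow hq.out).1 (by rwa [sq] : r ∣ q ^ 2)
  interval_cases i
  · exact Or.inl ⟨e, he, by rw [pow_zero, mul_one]⟩
  · exact Or.inr (Or.inl ⟨e, he, by rw [pow_one]⟩)
  · exact Or.inr (Or.inr ⟨e, he, by rw [sq]⟩)

variable {M} in
theorem swapSq_low (hqM : ¬ q ∣ M) {e : ℕ} (he : e ∣ M) : swapSq q e = e * (q * q) := by
  have h : ¬ q ∣ e := fun h => hqM (h.trans he)
  rw [swapSq, if_neg fun h' => h ((dvd_mul_right q q).trans h'), if_neg h]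

variable {M} in
theorem swapSq_mid (hqM : ¬ q ∣ M) {e : ℕ} (he : e ∣ M) : swapSq q (e * q) = e * q := by
  have h : ¬ q ∣ e := fun h => hqM (h.trans he)
  rw [swapSq, if_neg fun h' => h (Nat.dvd_of_mul_dvd_mul_right hq.out.pos h'),
    if_pos (dvd_mul_left q e)]

theorem swapSq_high (e : ℕ) : swapSq q (e * (q * q)) = e := by
  rw [swapSq, if_pos (dvd_mul_left (q * q) e),
    Nat.mul_div_cancel _ (Nat.mul_pos hq.out.pos hq.out.pos)]

theorem swapSq_dvd (hqM : ¬ q ∣ M) {d : ℕ} (hd : d ∣ M * q * q) : swapSq q d ∣ M * q * q := by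
  rcases dvd_mul_sq_cases M q hd with ⟨e, he, rfl⟩ | ⟨e, he, rfl⟩ | ⟨e, he, rfl⟩
  · rw [swapSq_low q hqM he, mul_assoc]; exact mul_dvd_mul_right he _
  · rw [swapSq_mid q hqM he]; exact hd
  · rw [swapSq_high, mul_assoc]; exact he.trans (dvd_mul_right _ _)

theorem swapSq_swapSq (hqM : ¬ q ∣ M) {d : ℕ} (hd : d ∣ M * q * q) :
    swapSq q (swapSq q d) = d := by
  rcases dvd_mul_sq_cases M q hd with ⟨e, he, rfl⟩ | ⟨e, he, rfl⟩ | ⟨e, he, rfl⟩
  · rw [swapSq_low q hqM he, swapSq_high]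
  · rw [swapSq_mid q hqM he, swapSq_mid q hqM he]
  · rw [swapSq_high, swapSq_low q hqM he]

theorem sq_point (hqM : ¬ q ∣ M) (z : ℍ) :
    ∃ z' : ℍ, ∀ (d : ℕ) [NeZero d] [NeZero (swapSq q d)], d ∣ M * q * q →
      jfun (scaleH d z') = jfun (scaleH (swapSq q d) z) := by
  have hcop : IsCoprime ((q : ℤ) * q) (M : ℤ) := by
    have h : IsCoprime (q : ℤ) (M : ℤ) := by
      rw [Int.isCoprime_iff_gcd_eq_one, Int.gcd_natCast_natCast]
      exact hq.out.coprime_iff_not_dvd.2 hqM
    exact h.mul_left h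
  obtain ⟨x, y, hxy⟩ := hcop
  set a : ℤ := -y
  have hdet : (q : ℤ) * q * x - (M : ℤ) * a = 1 := by simp only [a]; linarith
  let γ : SL(2, ℤ) := ⟨!![1, a; (M : ℤ), (q : ℤ) * q * x], by
    rw [Matrix.det_fin_two_of]; linarith⟩
  haveI : NeZero (q * q) := ⟨mul_ne_zero hq.out.ne_zero hq.out.ne_zero⟩
  refine ⟨γ • scaleH (q * q) z, fun d _ _ hd => ?_⟩
  have hq0 : (q : ℂ) ≠ 0 := Nat.cast_ne_zero.2 hq.out.ne_zero
  rcases dvd_mul_sq_cases M q hd with ⟨e, ⟨f, hf⟩, rfl⟩ | ⟨e, ⟨f, hf⟩, rfl⟩ | ⟨e, ⟨f, hf⟩, rfl⟩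
  · have hs : swapSq q d = d * (q * q) := swapSq_low q hqM ⟨f, hf⟩
    let γ' : SL(2, ℤ) := ⟨!![1, (d : ℤ) * a; (f : ℤ), (q : ℤ) * q * x], by
      rw [Matrix.det_fin_two_of]
      have : (M : ℤ) = (d : ℤ) * f := by exact_mod_cast hf
      rw [this] at hdet; linarith⟩
    have key : scaleH d (γ • scaleH (q * q) z) = γ' • scaleH (swapSq q d) z := by
      refine UpperHalfPlane.ext ?_
      rw [coe_scaleH, UpperHalfPlane.coe_specialLinearGroup_apply,
        UpperHalfPlane.coe_specialLinearGroup_apply, coe_scaleH, coe_scaleH, hs]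
      have hM : (M : ℂ) = (d : ℂ) * f := by exact_mod_cast hf
      simp [γ, γ', hM]
      rw [show (d : ℂ) * f * (q * q * z) + q * q * x = f * (d * (q * q) * z) + q * q * x by ring,
        ← mul_div_assoc]
      congr 1
      ring
    rw [key, jfun_smul]
  · have hs : swapSq q (e * q) = e * q := swapSq_mid q hqM ⟨f, hf⟩
    let γ' : SL(2, ℤ) := ⟨!![(q : ℤ), (e : ℤ) * a; (f : ℤ), (q : ℤ) * x], by
      rw [Matrix.det_fin_two_of]
      have : (M : ℤ) = (e : ℤ) * f := by exact_mod_cast hf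
      rw [this] at hdet; linarith⟩
    have key : scaleH (e * q) (γ • scaleH (q * q) z) = γ' • scaleH (swapSq q (e * q)) z := by
      refine UpperHalfPlane.ext ?_
      rw [coe_scaleH, UpperHalfPlane.coe_specialLinearGroup_apply,
        UpperHalfPlane.coe_specialLinearGroup_apply, coe_scaleH, coe_scaleH, hs]
      have hM : (M : ℂ) = (e : ℂ) * f := by exact_mod_cast hf
      simp [γ, γ', hM]
      rw [show (e : ℂ) * f * (q * q * z) + q * q * x = q * (f * (e * q * z) + q * x) by ring]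
      by_cases hden : (f : ℂ) * (e * q * z) + q * x = 0
      · simp [hden]
      field_simp
    rw [key, jfun_smul]
  · have hs : swapSq q (e * (q * q)) = e := swapSq_high q e
    haveI : NeZero e := hs ▸ ‹NeZero (swapSq q (e * (q * q)))›
    let γ' : SL(2, ℤ) := ⟨!![(q : ℤ) * q, (e : ℤ) * a; (f : ℤ), x], by
      rw [Matrix.det_fin_two_of]
      have : (M : ℤ) = (e : ℤ) * f := by exact_mod_cast hf
      rw [this] at hdet; linarith⟩
    have key : scaleH (e * (q * q)) (γ • scaleH (q * q) z) =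
        γ' • scaleH (swapSq q (e * (q * q))) z := by
      refine UpperHalfPlane.ext ?_
      rw [coe_scaleH, UpperHalfPlane.coe_specialLinearGroup_apply,
        UpperHalfPlane.coe_specialLinearGroup_apply, coe_scaleH, coe_scaleH, hs]
      have hM : (M : ℂ) = (e : ℂ) * f := by exact_mod_cast hf
      simp [γ, γ', hM]
      rw [show (e : ℂ) * f * (q * q * z) + q * q * x = q * q * (f * (e * z) + x) by ring]
      by_cases hden : (f : ℂ) * (e * z) + x = 0
      · simp [hden]
      field_simp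
    rw [key, jfun_smul]

instance neZero_mul_sq : NeZero (M * q * q) :=
  ⟨mul_ne_zero (mul_ne_zero (NeZero.ne M) hq.out.ne_zero) hq.out.ne_zero⟩

/-- The permutation of the divisors of `M q²`. -/
def sqPerm (hqM : ¬ q ∣ M) : LevelPerm (M * q * q) where
  s d := ⟨swapSq q d, Nat.mem_divisors.2
    ⟨swapSq_dvd M q hqM (Nat.dvd_of_mem_divisors d.2), NeZero.ne _⟩⟩
  s_s d := Subtype.ext (swapSq_swapSq M q hqM (Nat.dvd_of_mem_divisors d.2))
  exists_point z := by
    obtain ⟨z', hz'⟩ := sq_point M q hqM z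
    refine ⟨z', fun d => ?_⟩
    haveI : NeZero (swapSq q (d : ℕ)) :=
      ⟨(Nat.pos_of_dvd_of_pos (swapSq_dvd M q hqM (Nat.dvd_of_mem_divisors d.2))
        (NeZero.pos _)).ne'⟩
    exact hz' d (Nat.dvd_of_mem_divisors d.2)

variable (L : Type) [Field L] [Algebra ℚ L] [Algebra L ℂ] (hqM : ¬ q ∣ M)

/-- The two descriptions of the level field. -/
def lvlEquiv (N : ℕ) [NeZero N] : levelField N L ≃ₐ[L] modularFunctionFieldFullC L N :=
  AlgEquiv.ofAlgHom (IntermediateField.inclusion (laurentBaseChange_full L N).le)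
    (IntermediateField.inclusion (laurentBaseChange_full L N).ge)
    (by ext x; simp)
    (by ext x; simp)

theorem coe_lvlEquiv (N : ℕ) [NeZero N] (f : levelField N L) :
    ((lvlEquiv L N f : modularFunctionFieldFullC L N) : LaurentSeries L) = (f : LaurentSeries L) :=
  IntermediateField.coe_inclusion (laurentBaseChange_full L N).le f

theorem coe_lvlEquiv_symm (N : ℕ) [NeZero N] (f : modularFunctionFieldFullC L N) :
    (((lvlEquiv L N).symm f : levelField N L) : LaurentSeries L) = (f : LaurentSeries L) :=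
  IntermediateField.coe_inclusion (laurentBaseChange_full L N).ge f

/-- The Atkin–Lehner involution at level `M q`. -/
def wLvl : levelField (M * q) L ≃ₐ[L] levelField (M * q) L :=
  ((lvlEquiv L (M * q)).trans (alEquiv M q L hqM)).trans (lvlEquiv L (M * q)).symm

/-- The involution at level `M q²`. -/
def wSq : levelField (M * q * q) L ≃ₐ[L] levelField (M * q * q) L :=
  ((lvlEquiv L (M * q * q)).trans (permEquiv L (sqPerm M q hqM))).trans
    (lvlEquiv L (M * q * q)).symm

theorem wLvl_wLvl (f : levelField (M * q) L) : wLvl M q L hqM (wLvl M q L hqM f) = f := by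
  simp [wLvl, alEquiv_apply, alHom_alHom]

/-- The generator `j(dz)` of a level field. -/
def lvlGenD (N d : ℕ) [NeZero N] [NeZero d] (hd : d ∣ N) : levelField N L :=
  (lvlEquiv L N).symm ⟨qExpand L d (jqModC L), jqModCd_mem_full L N hd⟩

theorem coe_lvlGenD (N d : ℕ) [NeZero N] [NeZero d] (hd : d ∣ N) :
    (lvlGenD L N d hd : LaurentSeries L) = qExpand L d (jqModC L) := rfl

theorem algHom_ext_lvl {N : ℕ} [NeZero N] {F : Type} [Field F] [Algebra L F]
    {φ ψ : levelField N L →ₐ[L] F}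
    (h : ∀ (d : ℕ) [NeZero d] (hd : d ∣ N), φ (lvlGenD L N d hd) = ψ (lvlGenD L N d hd)) :
    φ = ψ := by
  have h2 : φ.comp (lvlEquiv L N).symm.toAlgHom = ψ.comp (lvlEquiv L N).symm.toAlgHom := by
    refine IntermediateField.algHom_ext_of_eq_adjoin L rfl ?_
    rintro _ ⟨d, hne, hd, rfl⟩
    haveI := hne
    exact h d hd
  refine AlgHom.ext fun f => ?_
  simpa using congrArg (fun g => g (lvlEquiv L N f)) h2

theorem coe_wLvl_gen (d : ℕ) [NeZero d] (hd : d ∣ M * q) [NeZero (swapDiv q d)] :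
    (wLvl M q L hqM (lvlGenD L (M * q) d hd) : LaurentSeries L) =
      qExpand L (swapDiv q d) (jqModC L) :=
  alHom_gen M q L hqM d hd

theorem coe_wSq_gen (d : ℕ) [NeZero d] (hd : d ∣ M * q * q) (f : levelField (M * q * q) L)
    (hf : (f : LaurentSeries L) = qExpand L d (jqModC L)) [NeZero (swapSq q d)] :
    (wSq M q L hqM f : LaurentSeries L) = qExpand L (swapSq q d) (jqModC L) := by
  have e : f = lvlGenD L (M * q * q) d hd := Subtype.ext hf
  rw [e]
  exact permHom_gen L (sqPerm M q hqM) d hd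

variable [hq0 : NeZero q]

theorem wSq_beta (f : levelField (M * q) L) :
    wSq M q L hqM (heckeBetaBar L (M * q) q f) =
      heckeAlphaBar L (M * q) q (wLvl M q L hqM f) := by
  suffices h : (wSq M q L hqM).toAlgHom.comp (heckeBetaBar L (M * q) q) =
      (heckeAlphaBar L (M * q) q).comp (wLvl M q L hqM).toAlgHom from
    congrArg (fun g => g f) h
  refine algHom_ext_lvl L fun d _ hd => Subtype.ext ?_
  haveI : NeZero (swapDiv q d) :=
    ⟨(Nat.pos_of_dvd_of_pos (swapDiv_dvd M q hd) (NeZero.pos _)).ne'⟩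
  have hdd : d * q ∣ M * q * q := mul_dvd_mul_right hd q
  have hs : swapSq q (d * q) = swapDiv q d := by
    by_cases h : q ∣ d
    · obtain ⟨e, rfl⟩ : ∃ e, d = e * q := ⟨d / q, (Nat.div_mul_cancel h).symm⟩
      rw [mul_assoc, swapSq_high, swapDiv, if_pos h, Nat.mul_div_cancel _ hq.out.pos]
    · rw [swapSq_mid q hqM (dvd_of_dvd_mul_of_not_dvd M q hd h), swapDiv, if_neg h]
  haveI : NeZero (swapSq q (d * q)) := hs.symm ▸ ‹NeZero (swapDiv q d)›
  show (wSq M q L hqM _ : LaurentSeries L) = (heckeAlphaBar L (M * q) q _ : LaurentSeries L)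
  rw [coe_heckeAlphaBar, coe_wSq_gen M q L hqM (d * q) hdd]
  swap
  · refine (coe_heckeBetaBar (M * q) q _).trans ?_
    rw [coe_lvlGenD, qExpand_qExpand]
    exact qExpand_congr (mul_comm q d) _
  exact (qExpand_congr hs _).trans (coe_wLvl_gen M q L hqM d hd).symm

theorem wSq_alpha (f : levelField (M * q) L) :
    wSq M q L hqM (heckeAlphaBar L (M * q) q f) =
      heckeBetaBar L (M * q) q (wLvl M q L hqM f) := by
  have h := wSq_beta M q L hqM (wLvl M q L hqM f)
  rw [wLvl_wLvl] at h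
  rw [← h]
  simp [wSq, permEquiv_apply, permHom_permHom]

end FA.ModField
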