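import Fermat.Agent.Curve.Value
import Fermat.Agent.ModField.Congruence.Fibre
import Mathlib.LinearAlgebra.Dimension.Constructions

/-!
# Functions on finitely many curves with conditions at finitely many points

For reduced divisors of large degree, evaluation at the chosen points is surjective, so subspaces
cut out by linear conditions on the values have the expected dimension.
-/

set_option autoImplicit false
set_option linter.style.haveILetI false
set_option linter.unusedSectionVars false

noncomputable section

namespace FA.ModField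

open AlgebraicCurve FA.Curve

variable {k : Type*} [Field k] [IsAlgClosed k] {ι : Type*} [Fintype ι]
  {Fk : ι → Type*} [∀ i, Field (Fk i)] [∀ i, Algebra k (Fk i)]
  {β : Type*} [Fintype β] (br : β → Σ i, Place k (Fk i))

open Classical in
/-- The part of a finite set of points lying on one component, as a divisor. -/
def compDiv (T : Finset (Σ i, Place k (Fk i))) (i : ι) : Divisor k (Fk i) :=
  ∑ Q ∈ T.preimage (Sigma.mk i) sigma_mk_injective.injOn, Finsupp.single Q 1

theorem compDiv_apply [DecidableEq (Σ i, Place k (Fk i))] (T : Finset (Σ i, Place k (Fk i)))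
    (i : ι) (Q : Place k (Fk i)) :
    compDiv T i Q = if (⟨i, Q⟩ : Σ i, Place k (Fk i)) ∈ T then 1 else 0 := by
  classical
  rw [compDiv, Finset.sum_apply']
  simp only [Finsupp.single_apply, Finset.sum_ite_eq', Finset.mem_preimage]

theorem compDiv_nonneg (T : Finset (Σ i, Place k (Fk i))) (i : ι) : 0 ≤ compDiv T i :=
  Finset.sum_nonneg fun _ _ => Finsupp.single_nonneg.2 zero_le_one

theorem degree_compDiv (hk : ∀ i, IsFunctionField k (Fk i)) (T : Finset (Σ i, Place k (Fk i)))
    (i : ι) : Divisor.degree (compDiv T i) =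
      ((T.preimage (Sigma.mk i) sigma_mk_injective.injOn).card : ℤ) := by
  classical
  rw [compDiv, map_sum]
  simp [(hk i).deg_eq_one]

theorem sum_card_compDiv (T : Finset (Σ i, Place k (Fk i))) :
    ∑ i, (T.preimage (Sigma.mk i) sigma_mk_injective.injOn).card = T.card := by
  classical
  rw [← Finset.card_sigma]
  congr 1
  ext ⟨i, Q⟩
  simp

theorem compDiv_mono {T T' : Finset (Σ i, Place k (Fk i))} (h : T ⊆ T') (i : ι) :
    compDiv T i ≤ compDiv T' i := by
  classical
  refine Finsupp.le_def.2 fun Q => ?_
  rw [compDiv_apply, compDiv_apply]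
  split_ifs with h1 h2
  · exact le_rfl
  · exact absurd (h h1) h2
  · exact zero_le_one
  · exact le_rfl

open Classical in
/-- The chosen points. -/
def brSet : Finset (Σ i, Place k (Fk i)) := Finset.univ.image br

theorem mem_brSet (b : β) : br b ∈ brSet br := by
  classical
  exact Finset.mem_image_of_mem _ (Finset.mem_univ b)

/-- The tuple of divisors avoids the chosen points. -/
def Avoids (T : ∀ i, Divisor k (Fk i)) : Prop := ∀ b, T (br b).1 (br b).2 = 0

/-- Tuples bounded by `T` with values at the chosen points in `U`. -/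
def evalSpace (T : ∀ i, Divisor k (Fk i)) (U : Submodule k (β → k)) :
    Submodule k (∀ i, Fk i) where
  carrier := {r | (∀ i, r i ∈ riemannRochSpace (T i)) ∧
    ∃ v ∈ U, ∀ b, HasValue (br b).2 (r (br b).1) (v b)}
  add_mem' := fun {r s} hr hs => ⟨fun i => add_mem (hr.1 i) (hs.1 i), by
    obtain ⟨v, hv, hrv⟩ := hr.2
    obtain ⟨w, hw, hsw⟩ := hs.2
    exact ⟨v + w, add_mem hv hw, fun b => (hrv b).add (hsw b)⟩⟩
  zero_mem' := ⟨fun i => zero_mem _, 0, zero_mem _, fun b => by
    simpa using hasValue_algebraMap (br b).2 (0 : k)⟩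
  smul_mem' := fun c r hr => ⟨fun i => Submodule.smul_mem _ c (hr.1 i), by
    obtain ⟨v, hv, hrv⟩ := hr.2
    refine ⟨c • v, Submodule.smul_mem _ c hv, fun b => ?_⟩
    rw [Pi.smul_apply, Algebra.smul_def]
    exact (hrv b).smul c⟩

theorem evalSpace_mono {T : ∀ i, Divisor k (Fk i)} {U U' : Submodule k (β → k)}
    (h : U ≤ U') : evalSpace br T U ≤ evalSpace br T U' :=
  fun _ ⟨hr, v, hv, hrv⟩ => ⟨hr, v, h hv, hrv⟩

theorem evalSpace_mono_left {T T' : ∀ i, Divisor k (Fk i)} {U : Submodule k (β → k)}
    (h : ∀ i, T i ≤ T' i) : evalSpace br T U ≤ evalSpace br T' U :=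
  fun _ ⟨hr, hv⟩ => ⟨fun i => riemannRochSpace_mono (h i) (hr i), hv⟩

variable (hk : ∀ i, IsFunctionField k (Fk i))

include hk

theorem exists_value_of_avoids {T : ∀ i, Divisor k (Fk i)} (hT : Avoids br T)
    {r : ∀ i, Fk i} (hr : ∀ i, r i ∈ riemannRochSpace (T i)) (b : β) :
    ∃ v, HasValue (br b).2 (r (br b).1) v := by
  classical
  refine exists_hasValue (hk _) ?_
  have h := FA.Curve.mem_riemannRochSpace.1 (hr (br b).1) (br b).2
  rwa [hT b, neg_zero] at h

theorem finite_evalSpace (T : ∀ i, Divisor k (Fk i)) (U : Submodule k (β → k)) :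
    Module.Finite k (evalSpace br T U) := by
  haveI := fun i => finite_riemannRochSpace (hk i) (T i)
  let f : evalSpace br T U →ₗ[k] (∀ i, riemannRochSpace (T i)) :=
    { toFun := fun r i => ⟨(r : ∀ i, Fk i) i, r.2.1 i⟩
      map_add' := fun _ _ => rfl
      map_smul' := fun _ _ => rfl }
  exact Module.Finite.of_injective f fun r s h => Subtype.ext (funext fun i =>
    congrArg Subtype.val (congrFun h i))

/-- `T` is large: evaluation is surjective and the dimension is that of Riemann. -/
def IsBig (T : ∀ i, Divisor k (Fk i)) : Prop :=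
  Avoids br T ∧ ∀ i, ell (T i) = Divisor.degree (T i) + 1 - genus k (Fk i) ∧
    ell (T i - compDiv (brSet br) i) =
      Divisor.degree (T i - compDiv (brSet br) i) + 1 - genus k (Fk i)

/-- A bound beyond which divisors avoiding the chosen points are large. -/
theorem exists_big_bound : ∃ N : ℕ, ∀ T : ∀ i, Divisor k (Fk i), Avoids br T →
    (∀ i, (N : ℤ) ≤ Divisor.degree (T i)) → IsBig br T := by
  classical
  choose c hc using fun i => exists_threshold (hk i)
  refine ⟨(∑ i, (c i).toNat) + ∑ i, (Divisor.degree (compDiv (brSet br) i)).toNat,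
    fun T hT hdeg => ⟨hT, fun i => ?_⟩⟩
  have h1 := Finset.single_le_sum (f := fun i => (c i).toNat) (fun _ _ => Nat.zero_le _)
    (Finset.mem_univ i)
  have h2 := Finset.single_le_sum (f := fun i => (Divisor.degree (compDiv (brSet br) i)).toNat)
    (fun _ _ => Nat.zero_le _) (Finset.mem_univ i)
  have := hdeg i
  rw [Nat.cast_add] at this
  exact ⟨hc i _ (by omega), hc i _ (by rw [map_sub]; omega)⟩

/-- Evaluation at the chosen points. -/
def evalMap {T : ∀ i, Divisor k (Fk i)} (hT : Avoids br T) :
    evalSpace br T ⊤ →ₗ[k] (β → k) where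
  toFun r b := (exists_value_of_avoids br hk hT r.2.1 b).choose
  map_add' r s := funext fun b =>
    (exists_value_of_avoids br hk hT (r + s).2.1 b).choose_spec.unique
      ((exists_value_of_avoids br hk hT r.2.1 b).choose_spec.add
        (exists_value_of_avoids br hk hT s.2.1 b).choose_spec)
  map_smul' c r := funext fun b =>
    (exists_value_of_avoids br hk hT (c • r).2.1 b).choose_spec.unique (by
      rw [Submodule.coe_smul, Pi.smul_apply, Algebra.smul_def]
      exact (exists_value_of_avoids br hk hT r.2.1 b).choose_spec.smul c)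

theorem evalMap_spec {T : ∀ i, Divisor k (Fk i)} (hT : Avoids br T)
    (r : evalSpace br T ⊤) (b : β) :
    HasValue (br b).2 ((r : ∀ i, Fk i) (br b).1) (evalMap br hk hT r b) :=
  (exists_value_of_avoids br hk hT r.2.1 b).choose_spec

theorem mem_evalSpace_iff {T : ∀ i, Divisor k (Fk i)} (hT : Avoids br T)
    (U : Submodule k (β → k)) (r : evalSpace br T ⊤) :
    (r : ∀ i, Fk i) ∈ evalSpace br T U ↔ evalMap br hk hT r ∈ U := by
  constructor
  · rintro ⟨-, v, hv, hrv⟩
    rwa [show evalMap br hk hT r = v from
      funext fun b => (evalMap_spec br hk hT r b).unique (hrv b)]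
  · exact fun h => ⟨r.2.1, _, h, evalMap_spec br hk hT r⟩

theorem finrank_evalSpace_top {T : ∀ i, Divisor k (Fk i)} (hT : Avoids br T) :
    (Module.finrank k (evalSpace br T ⊤) : ℤ) = ∑ i, ell (T i) := by
  haveI := fun i => finite_riemannRochSpace (hk i) (T i)
  let e : evalSpace br T ⊤ ≃ₗ[k] (∀ i, riemannRochSpace (T i)) :=
    { toFun := fun r i => ⟨(r : ∀ i, Fk i) i, r.2.1 i⟩
      invFun := fun r => ⟨fun i => (r i : Fk i), fun i => (r i).2, by
        choose v hv using fun b =>
          exists_value_of_avoids br hk hT (r := fun i => (r i : Fk i)) (fun i => (r i).2) b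
        exact ⟨v, trivial, hv⟩⟩
      map_add' := fun _ _ => rfl
      map_smul' := fun _ _ => rfl
      left_inv := fun _ => rfl
      right_inv := fun _ => rfl }
  rw [e.finrank_eq, Module.finrank_pi_fintype]
  push_cast
  rfl

theorem finrank_ker_evalMap {T : ∀ i, Divisor k (Fk i)} (hT : Avoids br T) :
    (Module.finrank k (LinearMap.ker (evalMap br hk hT)) : ℤ) =
      ∑ i, ell (T i - compDiv (brSet br) i) := by
  classical
  haveI := fun i => finite_riemannRochSpace (hk i) (T i - compDiv (brSet br) i)
  have hmem : ∀ r : evalSpace br T ⊤, evalMap br hk hT r = 0 ↔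
      ∀ i, (r : ∀ i, Fk i) i ∈ riemannRochSpace (T i - compDiv (brSet br) i) := by
    intro r
    constructor
    · intro h i
      rw [FA.Curve.mem_riemannRochSpace]
      intro Q
      rw [Finsupp.sub_apply, compDiv_apply]
      by_cases hQ : (⟨i, Q⟩ : Σ i, Place k (Fk i)) ∈ brSet br
      · obtain ⟨b, -, hb⟩ := Finset.mem_image.1 hQ
        have hTb := hT b
        rw [hb] at hTb
        rw [if_pos hQ, hTb]
        have h1 := evalMap_spec br hk hT r b
        rw [h, Pi.zero_apply, hasValue_zero_iff] at h1
        rw [hb] at h1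
        simpa using h1
      · rw [if_neg hQ, sub_zero]
        exact FA.Curve.mem_riemannRochSpace.1 (r.2.1 i) Q
    · intro h
      funext b
      refine (evalMap_spec br hk hT r b).unique (hasValue_zero_iff.2 ?_)
      have h1 := FA.Curve.mem_riemannRochSpace.1 (h (br b).1) (br b).2
      rw [Finsupp.sub_apply, compDiv_apply, if_pos (mem_brSet br b), hT b] at h1
      simpa using h1
  have hle : ∀ i, riemannRochSpace (T i - compDiv (brSet br) i) ≤
      riemannRochSpace (T i) := fun i =>
    riemannRochSpace_mono (sub_le_self _ (compDiv_nonneg _ i))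
  let e : LinearMap.ker (evalMap br hk hT) ≃ₗ[k]
      (∀ i, riemannRochSpace (T i - compDiv (brSet br) i)) :=
    { toFun := fun r i => ⟨((r : evalSpace br T ⊤) : ∀ i, Fk i) i, (hmem r).1 r.2 i⟩
      invFun := fun r => ⟨⟨fun i => (r i : Fk i), fun i => hle i (r i).2, by
          choose v hv using fun b => exists_value_of_avoids br hk hT
            (r := fun i => (r i : Fk i)) (fun i => hle i (r i).2) b
          exact ⟨v, trivial, hv⟩⟩, (hmem _).2 fun i => (r i).2⟩
      map_add' := fun _ _ => rfl
      map_smul' := fun _ _ => rfl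
      left_inv := fun _ => rfl
      right_inv := fun _ => rfl }
  rw [e.finrank_eq, Module.finrank_pi_fintype]
  push_cast
  rfl

theorem sum_degree_brSet (hbr : Function.Injective br) :
    ∑ i, Divisor.degree (compDiv (brSet br) i) = (Fintype.card β : ℤ) := by
  classical
  rw [Finset.sum_congr rfl fun i _ => degree_compDiv hk (brSet br) i, ← Nat.cast_sum,
    sum_card_compDiv, brSet, Finset.card_image_of_injective _ hbr, Finset.card_univ]

variable {T : ∀ i, Divisor k (Fk i)}

theorem evalMap_surjective (hbr : Function.Injective br) (hT : IsBig br T) :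
    Function.Surjective (evalMap br hk hT.1) := by
  haveI := finite_evalSpace br hk T ⊤
  rw [← LinearMap.range_eq_top]
  apply Submodule.eq_top_of_finrank_eq
  have h := LinearMap.finrank_range_add_finrank_ker (evalMap br hk hT.1)
  have h1 : ((Module.finrank k (LinearMap.range (evalMap br hk hT.1)) : ℤ)) +
      ∑ i, ell (T i - compDiv (brSet br) i) = ∑ i, ell (T i) := by
    rw [← finrank_ker_evalMap br hk hT.1, ← finrank_evalSpace_top br hk hT.1]
    exact_mod_cast h
  rw [Finset.sum_congr rfl fun i _ => (hT.2 i).2, Finset.sum_congr rfl fun i _ => (hT.2 i).1] at h1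
  simp only [map_sub, Finset.sum_sub_distrib, Finset.sum_add_distrib,
    sum_degree_brSet br hk hbr] at h1
  rw [Module.finrank_fintype_fun_eq_card]
  omega

/-- The dimension of a space cut out by values. -/
theorem finrank_evalSpace (hbr : Function.Injective br) (hT : IsBig br T)
    (U : Submodule k (β → k)) :
    (Module.finrank k (evalSpace br T U) : ℤ) + Fintype.card β =
      ∑ i, ell (T i) + Module.finrank k U := by
  classical
  haveI := finite_evalSpace br hk T ⊤
  haveI := finite_evalSpace br hk T U
  have hle := evalSpace_mono br (T := T) (le_top : U ≤ ⊤)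
  set V : Submodule k (evalSpace br T ⊤) := U.comap (evalMap br hk hT.1)
  have hV : Module.finrank k (evalSpace br T U) = Module.finrank k V := by
    let e : evalSpace br T U ≃ₗ[k] V :=
      { toFun := fun r => ⟨⟨r, hle r.2⟩, (mem_evalSpace_iff br hk hT.1 U ⟨r, hle r.2⟩).1 r.2⟩
        invFun := fun r => ⟨(r : evalSpace br T ⊤), (mem_evalSpace_iff br hk hT.1 U _).2 r.2⟩
        map_add' := fun _ _ => rfl
        map_smul' := fun _ _ => rfl
        left_inv := fun _ => rfl
        right_inv := fun _ => rfl }
    exact e.finrank_eq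
  let g : V →ₗ[k] U := (evalMap br hk hT.1).restrict fun _ h => h
  have hg : Function.Surjective g := fun u => by
    obtain ⟨r, hr⟩ := evalMap_surjective br hk hbr hT (u : β → k)
    exact ⟨⟨r, show evalMap br hk hT.1 r ∈ U by rw [hr]; exact u.2⟩, Subtype.ext hr⟩
  have hker : Module.finrank k (LinearMap.ker g) =
      Module.finrank k (LinearMap.ker (evalMap br hk hT.1)) := by
    let e : LinearMap.ker g ≃ₗ[k] LinearMap.ker (evalMap br hk hT.1) :=
      { toFun := fun r => ⟨((r : V) : evalSpace br T ⊤), congrArg Subtype.val r.2⟩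
        invFun := fun r => ⟨⟨r, show evalMap br hk hT.1 r ∈ U by
          rw [show evalMap br hk hT.1 r = 0 from r.2]; exact zero_mem U⟩, Subtype.ext r.2⟩
        map_add' := fun _ _ => rfl
        map_smul' := fun _ _ => rfl
        left_inv := fun _ => rfl
        right_inv := fun _ => rfl }
    exact e.finrank_eq
  have h := LinearMap.finrank_range_add_finrank_ker (K := k) (V := V) g
  rw [LinearMap.range_eq_top.2 hg, finrank_top, hker] at h
  have htop := finrank_ker_evalMap br hk hT.1
  rw [Finset.sum_congr rfl fun i _ => (hT.2 i).2] at htop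
  simp only [map_sub, Finset.sum_sub_distrib, Finset.sum_add_distrib,
    sum_degree_brSet br hk hbr] at htop
  rw [Finset.sum_congr rfl fun i _ => (hT.2 i).1]
  simp only [Finset.sum_sub_distrib, Finset.sum_add_distrib]
  rw [hV, ← h]
  push_cast
  omega

end FA.ModField
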