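import Fermat.Agent.ModField.Semistable.Toric

/-!
# The glued curve: nonspecial points and coordinates on the discs

Functions on the glued special fibre with poles bounded by a clean divisor lift as soon as the
divisor is large.  This gives a set of `genus` smooth points allowing only constant glued functions,
and coordinates on the residue disc of every smooth point.
-/

set_option autoImplicit false
set_option linter.style.haveILetI false
set_option linter.unusedSectionVars false

noncomputable section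

namespace FA.ModField.SemiFibre

open AlgebraicCurve FA.Curve FA.CurveRed

variable {K F k : Type*} [Field K] [Field F] [Algebra K F] [Field k] {ι : Type*} [Fintype ι]
  {Fk : ι → Type*} [∀ i, Field (Fk i)] [∀ i, Algebra k (Fk i)] {A : ValuationSubring K}
  {β σ : Type*} [Fintype β] [Fintype σ] (X : SemiFibre K F k Fk A β σ)

/-- Values on the branches coming from the singular points. -/
def gluedVals : Submodule k (β → k) := LinearMap.range (LinearMap.funLeft k k X.pt)

theorem mem_gluedVals {u : β → k} : u ∈ X.gluedVals ↔ ∃ v : σ → k, ∀ b, v (X.pt b) = u b :=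
  LinearMap.mem_range.trans ⟨fun ⟨v, h⟩ => ⟨v, congrFun h⟩, fun ⟨v, h⟩ => ⟨v, funext h⟩⟩

theorem finrank_gluedVals : Module.finrank k X.gluedVals = Fintype.card σ := by
  rw [gluedVals, LinearMap.finrank_range_of_inj, Module.finrank_fintype_fun_eq_card]
  exact LinearMap.funLeft_injective_of_surjective k k X.pt X.pt_surj

/-- Glued functions with poles bounded by `T`. -/
def gluedSpace (T : ∀ i, Divisor k (Fk i)) : Submodule k (∀ i, Fk i) :=
  evalSpace X.br T X.gluedVals

variable [IsAlgClosed K] [IsAlgClosed k] [Nonempty ι] (hF : IsFunctionField K F)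
  (hk : ∀ i, IsFunctionField k (Fk i))

include hk

omit [IsAlgClosed K] in
/-- Glued functions without poles are constant. -/
theorem exists_eq_const {T : ∀ i, Divisor k (Fk i)} {H : ∀ i, Fk i} (hH : H ∈ X.gluedSpace T)
    (h : ∀ i, ∀ Q : Place k (Fk i), AtLeast Q 0 (H i)) : ∃ a, ∀ i, H i = algebraMap k (Fk i) a := by
  have hc : ∀ i, ∃ a, H i = algebraMap k (Fk i) a := fun i => by
    by_contra hno
    push Not at hno
    obtain ⟨Q, hQ⟩ := exists_ord_neg (hk i) (transcendental_of_not_const hno)
    rcases h i Q with h0 | h0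
    · exact hno 0 (by rw [h0, map_zero])
    · omega
  choose a ha using hc
  obtain ⟨-, u, hu, hval⟩ := hH
  obtain ⟨v, hv⟩ := X.mem_gluedVals.1 hu
  have hab : ∀ b, a (X.br b).1 = v (X.pt b) := fun b => by
    have := hval b
    rw [ha] at this
    rw [hv b, this.unique (hasValue_algebraMap _ _)]
  refine ⟨a (Classical.arbitrary ι), fun i => ?_⟩
  rw [ha i, X.connected a (fun b b' h => by rw [hab, hab, h]) i (Classical.arbitrary ι)]

omit [IsAlgClosed K] in
theorem one_mem_gluedSpace {T : ∀ i, Divisor k (Fk i)} (hT : ∀ i, 0 ≤ T i) :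
    (1 : ∀ i, Fk i) ∈ X.gluedSpace T := by
  refine ⟨fun i => ?_, fun _ => 1, X.mem_gluedVals.2 ⟨fun _ => 1, fun _ => rfl⟩, fun b => ?_⟩
  · rw [FA.Curve.mem_riemannRochSpace]
    intro Q
    have := Finsupp.le_def.1 (hT i) Q
    simp only [Finsupp.coe_zero, Pi.zero_apply] at this
    refine Or.inr ?_
    rw [Pi.one_apply, Q.ord_one]
    omega
  · simpa using hasValue_algebraMap (X.br b).2 (1 : k)

include hF

/-- The trivial twist. -/
def trivTwist : X.Twist 1 where
  D := 0
  g := 1
  g_ne := one_ne_zero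
  div_eq P := by simp [P.ord_one]
  c _ := 1
  c_ne _ := one_ne_zero
  h _ := 1
  h_ne _ := one_ne_zero
  red i := by simpa using ConstRed.red_one (C := X.C i)

theorem isDatum_trivTwist : X.trivTwist.IsDatum fun _ => 1 := by
  refine ⟨fun _ => one_ne_zero, ?_⟩
  rintro E hE H ⟨f, hf, hH⟩
  have hred : ∀ i, (X.C i).Red f (H i) := fun i => by
    simpa [trivTwist] using hH.pow X.trivTwist i
  obtain ⟨v, hv⟩ := X.glue f H hred fun P hP => by
    have := FA.Curve.mem_riemannRochSpace.1 hf P
    simpa [trivTwist, hE P hP] using this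
  exact ⟨v, fun b => by simpa using hv b⟩

/-- Glued functions with large pole bound lift. -/
theorem space_trivTwist {E : Divisor K F} (hE : X.Clean E) (hbig : IsBig X.br (X.push E)) :
    X.trivTwist.space E = X.gluedSpace (X.push E) := by
  obtain ⟨⟨-, hsurj⟩, heq⟩ := X.trivTwist.valSpace_key hF hk one_ne_zero hE hbig
  rw [heq, gluedSpace]
  refine congrArg _ (le_antisymm (fun u hu => ?_) fun u hu => ?_)
  · obtain ⟨H, hH, hval⟩ := hu
    obtain ⟨v, hv⟩ := (X.isDatum_trivTwist hF hk).2 E hE H hH
    exact X.mem_gluedVals.2 ⟨v, fun b => by simpa using (hv b).unique (hval b)⟩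
  · obtain ⟨v, hv⟩ := X.mem_gluedVals.1 hu
    obtain ⟨⟨z, hz⟩, hzv⟩ := hsurj v
    obtain ⟨H, hH, hval⟩ := id hz
    obtain ⟨v', hv'⟩ := (X.isDatum_trivTwist hF hk).2 E hE H hH
    have h1 : ∀ b, z b = v' (X.pt b) := fun b => (hval b).unique (by simpa using hv' b)
    have h2 : ∀ s, v' s = v s := fun s => by
      rw [← congrFun hzv s]
      show v' s = z (X.sec s)
      rw [h1, X.pt_sec]
    rwa [show u = z from funext fun b => by rw [h1, h2, hv]]

theorem exists_lift {E : Divisor K F} (hE : X.Clean E) (hbig : IsBig X.br (X.push E))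
    {H : ∀ i, Fk i} (hH : H ∈ X.gluedSpace (X.push E)) :
    ∃ f ∈ riemannRochSpace E, ∀ i, (X.C i).Red f (H i) := by
  rw [← X.space_trivTwist hF hk hE hbig] at hH
  obtain ⟨f, hf, h⟩ := hH
  exact ⟨f, by simpa [trivTwist] using hf, fun i => by simpa [trivTwist] using h.pow X.trivTwist i⟩

omit hF [IsAlgClosed K] in
/-- Places over a finite set of smooth points, as a divisor. -/
theorem exists_over {S : Finset (Σ i, Place k (Fk i))} (hS : ∀ x ∈ S, ∀ b, X.br b ≠ x) :
    ∃ P : S → Place K F, (∀ x, X.spl (P x) = some x.1) ∧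
      X.Clean (∑ x, Finsupp.single (P x) 1) ∧
      X.push (∑ x, Finsupp.single (P x) 1) = compDiv S := by
  classical
  choose P hP using fun x : S => X.spl_surj x.1 (hS x.1 x.2)
  refine ⟨P, hP, fun R hR => ?_, funext fun i => Finsupp.ext fun Q => ?_⟩
  · rw [Finset.sum_apply']
    exact Finset.sum_eq_zero fun x _ => X.clean_single (hP x) _ R hR
  · rw [push_apply, compDiv_apply, Finsupp.mapDomain_finsetSum, Finset.sum_apply']
    simp only [Finsupp.mapDomain_single, hP, Finsupp.single_apply, Option.some_inj]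
    rw [Finset.sum_coe_sort S fun x => if x = (⟨i, Q⟩ : Σ i, Place k (Fk i)) then (1 : ℤ) else 0,
      Finset.sum_ite_eq']

/-- The dimension of a large space of glued functions. -/
theorem finrank_gluedSpace {S : Finset (Σ i, Place k (Fk i))} (hS : ∀ x ∈ S, ∀ b, X.br b ≠ x)
    (hbig : IsBig X.br (compDiv S)) :
    (Module.finrank k (X.gluedSpace (compDiv S)) : ℤ) = S.card + 1 - genus K F := by
  classical
  obtain ⟨P, -, hclean, hpush⟩ := X.exists_over hk hS
  rw [← hpush] at hbig ⊢
  set E := ∑ x : S, Finsupp.single (P x) (1 : ℤ) with hE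
  have hdeg : Divisor.degree E = S.card := by simp [hE, hF.deg_eq_one]
  have h1 := X.trivTwist.ell_le_finrank hF hk one_ne_zero hclean
  rw [X.space_trivTwist hF hk hclean hbig] at h1
  have h2 := riemann_inequality hF ((X.trivTwist.D : Divisor K F) + E)
  have hD : (X.trivTwist.D : Divisor K F) = 0 := rfl
  rw [hD, zero_add] at h1 h2
  have h3 := finrank_evalSpace X.br hk X.br_inj hbig X.gluedVals
  rw [X.finrank_gluedVals] at h3
  have h4 : ∑ i, ell (X.push E i) =
      Divisor.degree E + Fintype.card ι - ∑ i, (genus k (Fk i) : ℤ) := by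
    rw [Finset.sum_congr rfl fun i _ => (hbig.2 i).1, Finset.sum_sub_distrib,
      Finset.sum_add_distrib, X.degree_push hF hk E hclean]
    simp
  have h5 := X.genus_le
  rw [gluedSpace] at h1 ⊢
  omega

omit hF [IsAlgClosed K] in
/-- Many smooth points on every component, away from a finite set. -/
theorem exists_points (N : ℕ) (avoid : Finset (Σ i, Place k (Fk i))) :
    ∃ S : Finset (Σ i, Place k (Fk i)), (∀ x ∈ S, ∀ b, X.br b ≠ x) ∧ Disjoint S avoid ∧
      ∀ i, (N : ℤ) ≤ Divisor.degree (compDiv S i) := by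
  classical
  have hpick : ∀ i, ∃ s : Finset (Place k (Fk i)), s.card = N ∧
      ∀ Q ∈ s, (⟨i, Q⟩ : Σ i, Place k (Fk i)) ∉ avoid ∪ brSet X.br := fun i => by
    haveI := infinite_places (hk i)
    obtain ⟨s, hs, hcard⟩ := ((avoid ∪ brSet X.br).finite_toSet.preimage
      (f := fun Q => (⟨i, Q⟩ : Σ i, Place k (Fk i)))
      (fun _ _ _ _ h => eq_of_heq (Sigma.mk.inj h).2)).infinite_compl.exists_subset_card_eq N
    exact ⟨s, hcard, fun Q hQ => hs hQ⟩
  choose s hs hsmem using hpick
  refine ⟨Finset.univ.sigma s, fun x hx b hb => ?_, Finset.disjoint_left.2 fun x hx hxa => ?_,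
    fun i => ?_⟩
  · exact hsmem x.1 x.2 (Finset.mem_sigma.1 hx).2
      (Finset.mem_union_right _ (hb ▸ mem_brSet X.br b))
  · exact hsmem x.1 x.2 (Finset.mem_sigma.1 hx).2 (Finset.mem_union_left _ hxa)
  · rw [degree_compDiv hk, show (Finset.univ.sigma s).preimage (Sigma.mk i)
      sigma_mk_injective.injOn = s i by ext Q; simp, hs]

omit hF [IsAlgClosed K] in
theorem avoids_compDiv {S : Finset (Σ i, Place k (Fk i))} (hS : ∀ x ∈ S, ∀ b, X.br b ≠ x) :
    Avoids X.br (compDiv S) := fun b => by
  classical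
  rw [compDiv_apply, if_neg]
  exact fun h => hS _ h b rfl

/-- `genus` points of a large set of smooth points allowing only constant glued functions. -/
theorem exists_nonspecial_sub {S₀ : Finset (Σ i, Place k (Fk i))}
    (hS₀ : ∀ x ∈ S₀, ∀ b, X.br b ≠ x) (hbig : IsBig X.br (compDiv S₀))
    (hcard : genus K F ≤ S₀.card) :
    ∃ S : Finset (Σ i, Place k (Fk i)), S ⊆ S₀ ∧ S.card = genus K F ∧
      ∀ H ∈ X.gluedSpace (compDiv S), ∃ a, ∀ i, H i = algebraMap k (Fk i) a := by
  classical
  suffices h : ∀ m : ℕ, ∀ S : Finset (Σ i, Place k (Fk i)), S.card = m → S ⊆ S₀ →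
      (∀ x ∈ S, ∀ b, X.br b ≠ x) → genus K F ≤ m →
      (Module.finrank k (X.gluedSpace (compDiv S)) : ℤ) = m + 1 - genus K F →
      ∃ S : Finset (Σ i, Place k (Fk i)), S ⊆ S₀ ∧ S.card = genus K F ∧
        ∀ H ∈ X.gluedSpace (compDiv S), ∃ a, ∀ i, H i = algebraMap k (Fk i) a from
    h _ S₀ rfl subset_rfl hS₀ hcard (X.finrank_gluedSpace hF hk hS₀ hbig)
  intro m
  induction m using Nat.strong_induction_on with
  | _ m ih =>
    intro S hSm hsub₀ hS hg hdim
    haveI := finite_evalSpace X.br hk (compDiv S) X.gluedVals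
    have hone : Submodule.span k {(1 : ∀ i, Fk i)} ≤ X.gluedSpace (compDiv S) :=
      (Submodule.span_singleton_le_iff_mem _ _).2
        (X.one_mem_gluedSpace hk fun i => compDiv_nonneg S i)
    have hrank1 : Module.finrank k (Submodule.span k {(1 : ∀ i, Fk i)}) = 1 :=
      finrank_span_singleton fun h => one_ne_zero (congrFun h (Classical.arbitrary ι))
    by_cases hall : ∀ H ∈ X.gluedSpace (compDiv S), ∃ a, ∀ i, H i = algebraMap k (Fk i) a
    · refine ⟨S, hsub₀, ?_, hall⟩
      have hle : X.gluedSpace (compDiv S) ≤ Submodule.span k {(1 : ∀ i, Fk i)} := fun H hH => by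
        obtain ⟨a, ha⟩ := hall H hH
        exact Submodule.mem_span_singleton.2 ⟨a, funext fun i => by
          rw [Pi.smul_apply, Pi.one_apply, Algebra.smul_def, mul_one, ha]⟩
      have h1 := Submodule.finrank_mono hle
      omega
    push Not at hall
    obtain ⟨H₀, hH₀, hH₀c⟩ := hall
    -- some point of `S` is a pole of `H₀`
    obtain ⟨i, Q, hQ⟩ : ∃ i, ∃ Q : Place k (Fk i), ¬ AtLeast Q 0 (H₀ i) := by
      by_contra hno
      push Not at hno
      obtain ⟨a, ha⟩ := X.exists_eq_const hk hH₀ hno
      obtain ⟨i, hi⟩ := hH₀c a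
      exact hi (ha i)
    have hxS : (⟨i, Q⟩ : Σ i, Place k (Fk i)) ∈ S := by
      by_contra h
      have h1 := FA.Curve.mem_riemannRochSpace.1 (hH₀.1 i) Q
      rw [compDiv_apply, if_neg h, neg_zero] at h1
      exact hQ h1
    set S' := S.erase ⟨i, Q⟩
    have hsplit : compDiv S i = compDiv S' i + Finsupp.single Q 1 := by
      ext Q'
      rw [Finsupp.add_apply, compDiv_apply, compDiv_apply, Finsupp.single_apply]
      by_cases h : Q = Q'
      · subst h; simp [S', hxS]
      · simp [S', h, Ne.symm h]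
    have hnot : H₀ i ∉ riemannRochSpace (compDiv S' i) := fun h => hQ (by
      have h1 := FA.Curve.mem_riemannRochSpace.1 h Q
      rwa [compDiv_apply, if_neg (show (⟨i, Q⟩ : Σ i, Place k (Fk i)) ∉ S' from
        Finset.notMem_erase _ _), neg_zero] at h1)
    have hsup : X.gluedSpace (compDiv S) ≤
        X.gluedSpace (compDiv S') ⊔ Submodule.span k {H₀} := by
      intro H hH
      have hHi : H i ∈ riemannRochSpace (compDiv S' i + Finsupp.single Q 1) := hsplit ▸ hH.1 i
      obtain ⟨y, hy, z, hz, hyz⟩ := Submodule.mem_sup.1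
        (codim_single (hk i) (compDiv S' i) Q (hsplit ▸ hH₀.1 i) hnot hHi)
      obtain ⟨a, rfl⟩ := Submodule.mem_span_singleton.1 hz
      refine Submodule.mem_sup.2 ⟨H - a • H₀, ?_, a • H₀, Submodule.mem_span_singleton.2 ⟨a, rfl⟩,
        sub_add_cancel _ _⟩
      obtain ⟨hsub, v, hv, hval⟩ := Submodule.sub_mem _ hH (Submodule.smul_mem _ a hH₀)
      refine ⟨fun j => ?_, v, hv, hval⟩
      rw [FA.Curve.mem_riemannRochSpace]
      intro Q'
      by_cases h : (⟨j, Q'⟩ : Σ i, Place k (Fk i)) = ⟨i, Q⟩
      · obtain ⟨rfl, h⟩ := Sigma.mk.inj h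
        cases h
        have h1 := FA.Curve.mem_riemannRochSpace.1 hy Q'
        rwa [show y = (H - a • H₀) j from eq_sub_of_add_eq hyz] at h1
      · have h1 := FA.Curve.mem_riemannRochSpace.1 (hsub j) Q'
        rw [compDiv_apply] at h1 ⊢
        simpa [S', h] using h1
    haveI := finite_evalSpace X.br hk (compDiv S') X.gluedVals
    haveI : Module.Finite k (Submodule.span k {H₀}) :=
      Module.Finite.span_of_finite k (Set.finite_singleton H₀)
    have hge : Module.finrank k (X.gluedSpace (compDiv S)) ≤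
        Module.finrank k (X.gluedSpace (compDiv S')) + 1 := by
      haveI : Module.Finite k (X.gluedSpace (compDiv S')) :=
        finite_evalSpace X.br hk (compDiv S') X.gluedVals
      refine (Submodule.finrank_mono hsup).trans
        ((Submodule.finrank_add_le_finrank_add_finrank _ _).trans (add_le_add le_rfl ?_))
      exact (finrank_span_le_card ({H₀} : Set (∀ i, Fk i))).trans (by simp)
    have hlt : Module.finrank k (X.gluedSpace (compDiv S')) <
        Module.finrank k (X.gluedSpace (compDiv S)) := by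
      haveI : Module.Finite k (X.gluedSpace (compDiv S)) :=
        finite_evalSpace X.br hk (compDiv S) X.gluedVals
      refine Submodule.finrank_lt_finrank_of_lt (lt_of_le_of_ne
        (evalSpace_mono_left X.br (compDiv_mono (Finset.erase_subset _ _))) fun h => hnot ?_)
      rw [← h] at hH₀
      exact hH₀.1 i
    have h2le : 2 ≤ Module.finrank k (X.gluedSpace (compDiv S)) := by
      have hne : Submodule.span k {(1 : ∀ i, Fk i)} ≠ X.gluedSpace (compDiv S) := fun h => by
        rw [← h, Submodule.mem_span_singleton] at hH₀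
        obtain ⟨a, rfl⟩ := hH₀
        obtain ⟨j, hj⟩ := hH₀c a
        exact hj (by rw [Pi.smul_apply, Pi.one_apply, Algebra.smul_def, mul_one])
      haveI : Module.Finite k (X.gluedSpace (compDiv S)) :=
        finite_evalSpace X.br hk (compDiv S) X.gluedVals
      have h3 := Submodule.finrank_lt_finrank_of_lt (lt_of_le_of_ne hone hne)
      omega
    have hm : 0 < m := hSm ▸ Finset.card_pos.2 ⟨_, hxS⟩
    exact ih (m - 1) (by omega) S' (by simp [S', Finset.card_erase_of_mem hxS, hSm])
      ((Finset.erase_subset _ _).trans hsub₀)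
      (fun x hx => hS x (Finset.mem_of_mem_erase hx)) (by omega) (by omega)

/-- `genus` smooth points allowing only constant glued functions. -/
theorem exists_nonspecial_glued : ∃ S : Finset (Σ i, Place k (Fk i)),
    (∀ x ∈ S, ∀ b, X.br b ≠ x) ∧ S.card = genus K F ∧
      ∀ H ∈ X.gluedSpace (compDiv S), ∃ a, ∀ i, H i = algebraMap k (Fk i) a := by
  classical
  obtain ⟨N, hN⟩ := exists_big_bound X.br hk
  obtain ⟨S₀, hS₀, -, hdeg⟩ := X.exists_points hk (N + genus K F) ∅
  have hbig : IsBig X.br (compDiv S₀) := hN _ (X.avoids_compDiv hk hS₀) fun i => by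
    have := hdeg i
    push_cast at this
    omega
  have hcard : genus K F ≤ S₀.card := by
    have h1 := hdeg (Classical.arbitrary ι)
    rw [degree_compDiv hk] at h1
    have h2 : (S₀.preimage (Sigma.mk (Classical.arbitrary ι)) sigma_mk_injective.injOn).card ≤
        S₀.card := by
      rw [← sum_card_compDiv S₀]
      exact Finset.single_le_sum
        (f := fun i => (S₀.preimage (Sigma.mk i) sigma_mk_injective.injOn).card)
        (fun _ _ => Nat.zero_le _) (Finset.mem_univ _)
    push_cast at h1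
    omega
  obtain ⟨S, hsub, h⟩ := X.exists_nonspecial_sub hF hk hS₀ hbig hcard
  exact ⟨S, fun x hx => hS₀ x (hsub hx), h⟩

/-- A coordinate on the disc of a smooth point. -/
def IsCoord (x : Σ i, Place k (Fk i)) (t : F) : Prop :=
  ∃ r : Fk x.1, (X.C x.1).Red t r ∧ x.2.ord r = 1 ∧ X.NoPole x t

theorem exists_coord (x : Σ i, Place k (Fk i)) (hx : ∀ b, X.br b ≠ x) :
    ∃ t : F, X.IsCoord x t := by
  classical
  obtain ⟨i, Q⟩ := x
  obtain ⟨N, hN⟩ := exists_big_bound X.br hk
  obtain ⟨S, hS, hdisj, hdeg⟩ := X.exists_points hk (N + 2) {⟨i, Q⟩}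
  have hxS : (⟨i, Q⟩ : Σ i, Place k (Fk i)) ∉ S := fun h =>
    Finset.disjoint_left.1 hdisj h (Finset.mem_singleton_self _)
  set T : ℕ → ∀ j, Divisor k (Fk j) := fun m => Function.update (compDiv S) i
    (compDiv S i - Finsupp.single Q (m : ℤ)) with hT
  have hTi : ∀ m, T m i = compDiv S i - Finsupp.single Q (m : ℤ) := fun m =>
    Function.update_self _ _ _
  have hTne : ∀ m j, j ≠ i → T m j = compDiv S j := fun m j hj => Function.update_of_ne hj _ _
  have hbig : ∀ m ≤ 2, IsBig X.br (T m) := fun m hm => hN _ (fun b => by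
    rcases eq_or_ne (X.br b).1 i with h | h
    · generalize hb : X.br b = y at h ⊢
      obtain ⟨j, Q'⟩ := y
      simp only at h
      subst h
      rw [hTi, Finsupp.sub_apply, compDiv_apply, if_neg (fun h => hS _ h b hb),
        Finsupp.single_eq_of_ne (fun h : Q' = Q => hx b (by rw [hb, h])), sub_zero]
    · rw [hTne m _ h]
      exact X.avoids_compDiv hk hS b) fun j => by
    have := hdeg j
    push_cast at this
    rcases eq_or_ne j i with rfl | h
    · rw [hTi, map_sub, Divisor.degree_single, (hk j).deg_eq_one]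
      push_cast
      omega
    · rw [hTne m j h]; omega
  have hrank : ∀ m ≤ 2, (Module.finrank k (X.gluedSpace (T m)) : ℤ) + m =
      Module.finrank k (X.gluedSpace (T 0)) := fun m hm => by
    have h1 := finrank_evalSpace X.br hk X.br_inj (hbig m hm) X.gluedVals
    have h0 := finrank_evalSpace X.br hk X.br_inj (hbig 0 (by omega)) X.gluedVals
    have hell : ∑ j, ell (T 0 j) = ∑ j, ell (T m j) + m := by
      rw [← Finset.add_sum_erase _ _ (Finset.mem_univ i), ← Finset.add_sum_erase _ _
        (Finset.mem_univ i), Finset.sum_congr rfl (fun j hj => by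
          rw [hTne 0 j (Finset.ne_of_mem_erase hj), ← hTne m j (Finset.ne_of_mem_erase hj)]),
        ((hbig m hm).2 i).1, ((hbig 0 (by omega)).2 i).1, hTi, hTi, map_sub, map_sub,
        Divisor.degree_single, Divisor.degree_single, (hk i).deg_eq_one]
      push_cast
      ring
    rw [gluedSpace, gluedSpace]
    omega
  have hmono : ∀ m m', m ≤ m' → X.gluedSpace (T m') ≤ X.gluedSpace (T m) := fun m m' h =>
    evalSpace_mono_left X.br fun j => by
      rcases eq_or_ne j i with rfl | hj
      · rw [hTi, hTi]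
        exact sub_le_sub_left (Finsupp.single_mono (by exact_mod_cast h)) _
      · rw [hTne m j hj, hTne m' j hj]
  obtain ⟨H, hH, hH2⟩ : ∃ H ∈ X.gluedSpace (T 1), H ∉ X.gluedSpace (T 2) := by
    by_contra hno
    push Not at hno
    haveI : Module.Finite k (X.gluedSpace (T 2)) := finite_evalSpace X.br hk (T 2) X.gluedVals
    have h := Submodule.finrank_mono hno
    have h1 := hrank 1 (by omega)
    have h2 := hrank 2 le_rfl
    omega
  have hord : Q.ord (H i) = 1 := by
    have h1 := FA.Curve.mem_riemannRochSpace.1 (hH.1 i) Q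
    rw [hTi, Finsupp.sub_apply, compDiv_apply, if_neg hxS, Finsupp.single_eq_same] at h1
    by_contra hne
    refine hH2 ⟨fun j => ?_, hH.2⟩
    rw [FA.Curve.mem_riemannRochSpace]
    intro Q'
    by_cases hj : j = i
    · subst hj
      rcases eq_or_ne Q' Q with rfl | hQ'
      · rw [hTi, Finsupp.sub_apply, compDiv_apply, if_neg hxS, Finsupp.single_eq_same]
        rcases h1 with h1 | h1
        · exact Or.inl h1
        · exact Or.inr (by push_cast at h1 ⊢; omega)
      · have := FA.Curve.mem_riemannRochSpace.1 (hH.1 j) Q'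
        rw [hTi, Finsupp.sub_apply, Finsupp.single_eq_of_ne hQ'] at this ⊢
        exact this
    · have := FA.Curve.mem_riemannRochSpace.1 (hH.1 j) Q'
      rwa [hTne 1 j hj, ← hTne 2 j hj] at this
  obtain ⟨P, hP, hclean, hpush⟩ := X.exists_over hk hS
  have hbig0 : IsBig X.br (compDiv S) := hN _ (X.avoids_compDiv hk hS) fun j => by
    have := hdeg j
    push_cast at this
    omega
  have h0 : X.gluedSpace (T 0) = X.gluedSpace (X.push (∑ x : S, Finsupp.single (P x) 1)) := by
    rw [hpush]
    refine congrArg _ (funext fun j => ?_)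
    rcases eq_or_ne j i with rfl | hj
    · rw [hTi]; simp
    · rw [hTne 0 j hj]
  obtain ⟨t, ht, hred⟩ := X.exists_lift hF hk hclean (hpush.symm ▸ hbig0)
    (h0 ▸ hmono 0 1 (by omega) hH)
  refine ⟨t, H i, hred i, hord, fun R hR => ?_⟩
  have h1 := FA.Curve.mem_riemannRochSpace.1 ht R
  rwa [Finset.sum_apply', Finset.sum_eq_zero fun x _ => Finsupp.single_eq_of_ne fun h => hxS (by
    have := hP x
    rw [← h, hR] at this
    exact Option.some_injective _ this ▸ x.2), neg_zero] at h1

omit hk [IsAlgClosed k] [Nonempty ι] in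
/-- The coordinate of a place of the disc. -/
theorem IsCoord.exists_value [IsAlgClosed k] [Nonempty ι] {x : Σ i, Place k (Fk i)}
    (hx : ∀ b, X.br b ≠ x) {t : F} (ht : X.IsCoord x t) {P : Place K F} (hP : X.spl P = some x) :
    ∃ a : K, HasValue P t a ∧ A.valuation a < 1 ∧ P.ord (t - algebraMap K F a) = 1 ∧
      ∀ P', X.spl P' = some x → P' ≠ P → P'.ord (t - algebraMap K F a) = 0 := by
  classical
  obtain ⟨i, Q⟩ := x
  obtain ⟨r, htr, hord, hnp⟩ := ht
  obtain ⟨a, ha⟩ := exists_hasValue hF (hnp P hP)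
  obtain ⟨haA, hav⟩ := X.hasValue_red hF htr hx hnp hP ha
  have hr0 : r ≠ 0 := fun h => by rw [h, Q.ord_zero] at hord; omega
  have hzero : HasValue Q r 0 := hasValue_zero_iff.2 (Or.inr hord.ge)
  have hπ : X.π ⟨a, haA⟩ = 0 := hav.unique hzero
  have hred := htr.sub (X.red_const i ⟨a, haA⟩)
  rw [hπ, map_zero, sub_zero] at hred
  replace hred : (X.C i).Red (t - algebraMap K F a) r := hred
  have hne := hred.ne_zero hr0
  have hnp' : X.NoPole ⟨i, Q⟩ (t - algebraMap K F a) :=
    fun P' hP' => (hnp P' hP').sub (atLeast_algebraMap a)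
  have h1 := (atLeast_iff hne).1 ha
  have hsingle := X.sum_le_ord hF hred hr0 hx hnp' {P}
    (fun _ h => Finset.mem_singleton.1 h ▸ hP)
  rw [Finset.sum_singleton, hord] at hsingle
  refine ⟨a, ha, (X.π_eq_zero _).1 hπ, le_antisymm hsingle h1, fun P' hP' hPP' => ?_⟩
  have h2 := X.sum_le_ord hF hred hr0 hx hnp' {P, P'} (by
    intro z hz
    rcases Finset.mem_insert.1 hz with rfl | hz
    · exact hP
    · rw [Finset.mem_singleton.1 hz]; exact hP')
  rw [Finset.sum_pair hPP'.symm, hord] at h2
  have h3 := (atLeast_iff hne).1 (hnp' P' hP')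
  omega

end FA.ModField.SemiFibre
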