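import Fermat.Agent.CurveRed.Ext
import Mathlib.RingTheory.IntegralClosure.Algebra.Basic
import Mathlib.Algebra.Polynomial.Identities

/-!
# A branch of a finite extension with the residue field of the base

If `F = E(y)` with `y` a root of an integral polynomial whose reduction has the residue of `y` as
a simple root in the residue field of `E`, then every element of `F` scales to an integral element
with reduction in that residue field (Newton approximation of `y` inside `E`).
-/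

set_option autoImplicit false
set_option linter.style.haveILetI false
set_option linter.unusedSectionVars false

noncomputable section

namespace FA.ModField

open FA.CurveRed Polynomial

variable {K E F k Ek B : Type*} [Field K] [Field E] [Field F] [Algebra K E] [Algebra K F]
  [Field k] [Field Ek] [Field B] [Algebra k Ek] [Algebra k B] {A : ValuationSubring K}
  {C₀ : ConstRed K E k Ek A} {C : ConstRed K F k B A} (ι : E →ₐ[K] F) (κ : Ek →ₐ[k] B)
  (hcompat : ∀ e r, C₀.Red e r → C.Red (ι e) (κ r))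

include hcompat

/-- The map of integral elements. -/
def branchHom : C₀.G →+* C.G :=
  (ι.toRingHom.comp C₀.G.subtype).codRestrict C.G fun e =>
    (hcompat _ _ (ConstRed.red_of_mem e)).1

theorem coe_branchHom (e : C₀.G) : (branchHom ι κ hcompat e : F) = ι (e : E) := rfl

variable {ι κ}

/-- Newton approximations of the root. -/
theorem exists_newton {p : C₀.G[X]} {y : C.G} (hroot : p.eval₂ (branchHom ι κ hcompat) y = 0)
    {ρ : Ek} {y₀ : C₀.G} (hy₀ : C₀.red y₀ = ρ)
    (hsimple : (p.map C₀.red).derivative.eval ρ ≠ 0) {t : A} (ht : C₀.π t = 0) {w₀ : C.G}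
    (hw₀ : (y : F) - ι (y₀ : E) = algebraMap K F (t : K) * w₀) (m : ℕ) :
    ∃ (ym : C₀.G) (w : C.G), C₀.red ym = ρ ∧
      (y : F) - ι (ym : E) = algebraMap K F ((t : K) ^ 2 ^ m) * w := by
  induction m with
  | zero => exact ⟨y₀, w₀, hy₀, by simpa using hw₀⟩
  | succ m ih =>
    obtain ⟨ym, w, hym, hw⟩ := ih
    set d : C₀.G := p.derivative.eval ym
    have hd : C₀.red d ≠ 0 := by
      rw [show C₀.red d = (p.map C₀.red).derivative.eval ρ by
        rw [← hym, Polynomial.derivative_map, Polynomial.eval_map, Polynomial.eval₂_hom]]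
      exact hsimple
    obtain ⟨hdi, hdr⟩ := C₀.red_inv d hd
    set di : C₀.G := ⟨(d : E)⁻¹, hdi⟩
    have hd0 : (d : E) ≠ 0 := fun h => hd (by
      rw [show d = 0 from Subtype.ext h, map_zero])
    have hdi1 : d * di = 1 := Subtype.ext (mul_inv_cancel₀ hd0)
    set φ := branchHom ι κ hcompat
    have htG : algebraMap K F ((t : K) ^ 2 ^ m) ∈ C.G := C.algebraMap_mem (t ^ 2 ^ m)
    obtain ⟨e, hedef⟩ : ∃ e : C.G, e = ⟨algebraMap K F ((t : K) ^ 2 ^ m), htG⟩ * w := ⟨_, rfl⟩
    have hye : y = φ ym + e := Subtype.ext (by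
      rw [hedef]
      show (y : F) = ι (ym : E) + algebraMap K F ((t : K) ^ 2 ^ m) * w
      rw [← hw, add_sub_cancel])
    obtain ⟨R, hR⟩ := Polynomial.binomExpansion (p.map φ) (φ ym) e
    rw [← hye, Polynomial.eval_map, hroot, Polynomial.derivative_map, Polynomial.eval_map,
      Polynomial.eval_map, Polynomial.eval₂_hom, Polynomial.eval₂_hom] at hR
    -- the next approximation
    set u : C₀.G := p.eval ym * di
    refine ⟨ym - u, -(R * w ^ 2 * φ di), ?_, ?_⟩
    · have hp0 : C₀.red (p.eval ym) = 0 := by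
        have hsmall : C.red e = 0 := by
          have h1 : C.red ⟨algebraMap K F ((t : K) ^ 2 ^ m), htG⟩ = 0 := by
            refine (C.red_algebraMap (t ^ 2 ^ m)).trans ?_
            have hπ : C.π t = 0 := by rw [C.π_eq_zero, ← C₀.π_eq_zero]; exact ht
            rw [map_pow, hπ, zero_pow (pow_ne_zero m two_ne_zero), map_zero]
          rw [hedef, map_mul, h1, zero_mul]
        have h2 := congrArg C.red hR
        simp only [map_zero, map_add, map_mul, map_pow, hsmall, mul_zero, ne_eq, OfNat.ofNat_ne_zero,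
          not_false_eq_true, zero_pow, add_zero] at h2
        have h3 : C.red (φ (p.eval ym)) = κ (C₀.red (p.eval ym)) :=
          (ConstRed.red_of_mem (φ (p.eval ym))).unique
            (hcompat _ _ (ConstRed.red_of_mem (p.eval ym)))
        rw [h3, eq_comm, _root_.map_eq_zero] at h2
        exact h2
      rw [map_sub, hym, map_mul, hp0, zero_mul, sub_zero]
    · have hφd : φ d * φ di = 1 := by rw [← map_mul, hdi1, map_one]
      have key : y - φ (ym - u) = -(R * e ^ 2 * φ di) := by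
        rw [map_sub, map_mul, hye]
        linear_combination (φ di) * (hR.symm) - e * hφd
      have key' := congrArg Subtype.val key
      rw [hedef] at key'
      show (y : F) - ι ((ym - u : C₀.G) : E) = algebraMap K F ((t : K) ^ 2 ^ (m + 1)) * _
      refine Eq.trans key' ?_
      simp only [Subring.coe_neg, Subring.coe_mul, SubmonoidClass.coe_pow, mul_pow]
      simp only [pow_succ (2 : ℕ), pow_mul, map_pow]
      ring

variable [IsAlgClosed K] (hC₀ : C₀.Scaled)

include hC₀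

/-- Scaling with reductions in the residue field of the base. -/
theorem exists_branch_scale {p : C₀.G[X]} (hp : p.Monic) {y : C.G}
    (hroot : p.eval₂ (branchHom ι κ hcompat) y = 0) {ρ : Ek} {y₀ : C₀.G} (hy₀ : C₀.red y₀ = ρ)
    (hsimple : (p.map C₀.red).derivative.eval ρ ≠ 0) {t : A} (ht : C₀.π t = 0) {w₀ : C.G}
    (hw₀ : (y : F) - ι (y₀ : E) = algebraMap K F (t : K) * w₀)
    (htne : (t : K) ≠ 0) (harch : ∀ c : K, c ≠ 0 → ∃ m : ℕ, A.valuation ((t : K) ^ m) < A.valuation c)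
    (hgen : ∀ f : F, ∃ g : E[X], g.eval₂ ι.toRingHom (y : F) = f) {f : F} (hf : f ≠ 0) :
    ∃ (c : K) (g : F) (r : Ek), c ≠ 0 ∧ f = algebraMap K F c * g ∧ C.Red g (κ r) ∧ r ≠ 0 := by
  classical
  set φ := branchHom ι κ hcompat
  obtain ⟨g₀, hg₀⟩ := hgen f
  -- normalise the coefficients
  rcases ConstRed.exists_normalize (S := Set.univ) hC₀
      (fun i : Fin (g₀.natDegree + 1) => g₀.coeff i) (fun _ => trivial) with
    h | ⟨c₁, b, s, hc₁, hb, hbs, -⟩
  · exfalso
    refine hf ?_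
    rw [← hg₀, Polynomial.eval₂_eq_sum_range]
    refine Finset.sum_eq_zero fun i hi => ?_
    rw [h ⟨i, Finset.mem_range.1 hi⟩, map_zero, zero_mul]
  set G : C₀.G[X] := ∑ i : Fin (g₀.natDegree + 1),
    Polynomial.monomial (i : ℕ) (⟨b i, (hbs i).1⟩ : C₀.G)
  set f₁ : C.G := G.eval₂ φ y
  have hff₁ : f = algebraMap K F c₁ * (f₁ : F) := by
    rw [← hg₀, Polynomial.eval₂_eq_sum_range, ← Fin.sum_univ_eq_sum_range]
    simp only [f₁, G, Polynomial.eval₂_finsetSum, Polynomial.eval₂_monomial,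
      AddSubmonoidClass.coe_finsetSum, Subring.coe_mul, SubmonoidClass.coe_pow, Finset.mul_sum]
    refine Finset.sum_congr rfl fun i _ => ?_
    rw [coe_branchHom, hb i, map_mul, AlgHom.toRingHom_eq_coe, RingHom.coe_coe, AlgHom.commutes,
      mul_assoc]
  have hf₁ : f₁ ≠ 0 := fun h => hf (by rw [hff₁, h]; simp)
  -- `f₁` is not divisible by high powers of `t`
  have hbound : ∃ M : ℕ, ∀ w : C.G, (f₁ : F) ≠ algebraMap K F ((t : K) ^ M) * w := by
    letI : Algebra C₀.G C.G := φ.toAlgebra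
    have hy : IsIntegral C₀.G y := ⟨p, hp, hroot⟩
    have hfint : IsIntegral C₀.G f₁ := by
      rw [show f₁ = Polynomial.aeval y G from rfl]
      exact IsIntegral.of_mem_of_fg _ hy.fg_adjoin_singleton _ (Polynomial.aeval_mem_adjoin_singleton _ _)
    obtain ⟨Q, hQ, hQ0⟩ := hfint
    obtain ⟨Q', hQ', hndvd⟩ := Polynomial.exists_eq_pow_rootMultiplicity_mul_and_not_dvd Q
      hQ.ne_zero 0
    rw [map_zero, sub_zero] at hQ' hndvd
    rw [Polynomial.X_dvd_iff] at hndvd
    have hroot' : Q'.eval₂ φ f₁ = 0 := by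
      rw [hQ', Polynomial.eval₂_mul, Polynomial.eval₂_X_pow] at hQ0
      exact (mul_eq_zero.1 hQ0).resolve_left (pow_ne_zero _ hf₁)
    set q₀ := Q'.coeff 0
    have hdecomp : φ q₀ = -((Q'.divX).eval₂ φ f₁ * f₁) := by
      conv at hroot' => lhs; rw [← Q'.divX_mul_X_add]
      rw [Polynomial.eval₂_add, Polynomial.eval₂_mul, Polynomial.eval₂_X, Polynomial.eval₂_C]
        at hroot'
      exact eq_neg_of_add_eq_zero_right hroot'
    have hq₀ : (q₀ : E) ≠ 0 := fun h => hndvd (Subtype.ext h)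
    obtain ⟨c, g, r, hc, hq, hgr, hr⟩ := hC₀ _ (Set.mem_univ _) hq₀ |> fun ⟨c, g, r, h1, h2, h3⟩ =>
      (⟨c, g, r, fun h0 => hq₀ (by rw [h1, h0, map_zero, zero_mul]), h1, h2, h3⟩ :
        ∃ (c : K) (g : E) (r : Ek), c ≠ 0 ∧ (q₀ : E) = algebraMap K E c * g ∧ C₀.Red g r ∧ r ≠ 0)
    obtain ⟨M, hM⟩ := harch c hc
    refine ⟨M, fun w hw => ?_⟩
    set S : C.G := -((Q'.divX).eval₂ φ f₁ * w)
    have hS : algebraMap K F (c / (t : K) ^ M) * ι g = (S : F) := by
      have htM : (t : K) ^ M ≠ 0 := fun h0 => by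
        rw [h0, map_zero, zero_mul] at hw
        exact hf₁ (Subtype.ext hw)
      have h1 : algebraMap K F c * ι g = algebraMap K F ((t : K) ^ M) * (S : F) := by
        have h2 := congrArg Subtype.val hdecomp
        rw [coe_branchHom, hq, map_mul, AlgHom.commutes] at h2
        rw [h2]
        simp only [S, Subring.coe_neg, Subring.coe_mul, hw]
        ring
      rw [map_div₀, div_mul_eq_mul_div, h1, mul_div_cancel_left₀ _ (by simpa using htM)]
    have hsc := hS ▸ ConstRed.red_of_mem (C := C) S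
    obtain ⟨hA, -⟩ := (hcompat _ _ hgr).smul_cancel ((_root_.map_ne_zero κ).2 hr) hsc
    have h3 := (A.valuation_le_one_iff _).2 hA
    rw [map_div₀] at h3
    exact absurd ((div_le_one₀ (zero_lt_iff.2
      ((Valuation.ne_zero_iff _).2 (pow_ne_zero M htne)))).1 h3) (not_le.2 hM)
  obtain ⟨M, hM⟩ := hbound
  obtain ⟨ym, w, -, hw⟩ := exists_newton hcompat hroot hy₀ hsimple ht hw₀ M
  -- compare with the value at the approximation
  obtain ⟨R, hR⟩ := Polynomial.sub_dvd_eval_sub y (φ ym) (G.map φ)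
  rw [Polynomial.eval_map, Polynomial.eval_map, Polynomial.eval₂_hom] at hR
  set h₀ : C₀.G := G.eval ym
  have htM : ∃ a : A, (t : K) ^ 2 ^ M = (t : K) ^ M * a :=
    ⟨t ^ (2 ^ M - M), by
      rw [SubmonoidClass.coe_pow, ← pow_add, Nat.add_sub_cancel' (Nat.lt_two_pow_self).le]⟩
  have hdiff : (f₁ : F) = ι (h₀ : E) + algebraMap K F ((t : K) ^ 2 ^ M) * ((w * R : C.G) : F) := by
    have h := congrArg Subtype.val hR
    simp only [Subring.coe_mul, AddSubgroupClass.coe_sub] at h ⊢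
    rw [show ((φ ym : C.G) : F) = ι (ym : E) from rfl, hw] at h
    rw [← sub_eq_iff_eq_add']
    exact h.trans (mul_assoc _ _ _)
  obtain ⟨a, ha⟩ := htM
  have hh₀ : (h₀ : E) ≠ 0 := fun h0 => hM (⟨algebraMap K F (a : K), C.algebraMap_mem a⟩ * (w * R))
    (by
      rw [hdiff, h0, map_zero, zero_add, ha, map_mul, mul_assoc]
      rfl)
  obtain ⟨d, g₁, r₁, hd, hg₁, hr₁⟩ := hC₀ _ (Set.mem_univ _) hh₀
  have hd0 : d ≠ 0 := fun h => hh₀ (by rw [hd, h, map_zero, zero_mul])
  have hnot : d / (t : K) ^ 2 ^ M ∉ A := fun hmem => by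
    have ht0 : (t : K) ^ 2 ^ M ≠ 0 := pow_ne_zero _ htne
    exact hM ((⟨algebraMap K F (a : K), C.algebraMap_mem a⟩ : C.G) *
        (⟨algebraMap K F (d / (t : K) ^ 2 ^ M) * ι g₁,
          mul_mem (C.algebraMap_mem ⟨_, hmem⟩) (hcompat _ _ hg₁).1⟩ + w * R)) (by
      show _ = algebraMap K F ((t : K) ^ M) * (algebraMap K F (a : K) *
        (algebraMap K F (d / (t : K) ^ 2 ^ M) * ι g₁ + ((w * R : C.G) : F)))
      rw [hdiff, hd, map_mul, AlgHom.commutes, ← mul_assoc (algebraMap K F ((t : K) ^ M)),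
        ← map_mul, ← ha, mul_add, ← mul_assoc, ← map_mul, mul_div_cancel₀ _ ht0])
  set e : K := (t : K) ^ 2 ^ M / d
  have heA : ∃ he : e ∈ A, C.π ⟨e, he⟩ = 0 := by
    have hv : A.valuation e < 1 := by
      have h1 : 1 < A.valuation (d / (t : K) ^ 2 ^ M) :=
        lt_of_not_ge fun h => hnot ((A.valuation_le_one_iff _).1 h)
      rw [show e = (d / (t : K) ^ 2 ^ M)⁻¹ from (inv_div _ _).symm, map_inv₀]
      exact inv_lt_one_of_one_lt₀ h1
    exact ⟨(A.valuation_le_one_iff _).1 hv.le, (C.π_eq_zero _).2 hv⟩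
  obtain ⟨he, heπ⟩ := heA
  refine ⟨c₁ * d, ι g₁ + algebraMap K F e * ((w * R : C.G) : F), r₁, mul_ne_zero hc₁ hd0, ?_, ?_,
    hr₁⟩
  · rw [hff₁, hdiff, hd, map_mul, AlgHom.commutes, map_mul, mul_add, mul_add, mul_assoc,
      mul_assoc, ← mul_assoc (algebraMap K F d), ← map_mul, mul_div_cancel₀ _ hd0]
  · have h := (hcompat _ _ hg₁).add
      ((ConstRed.red_const (C := C) ⟨e, he⟩).mul (ConstRed.red_of_mem (w * R)))
    rwa [heπ, map_zero, zero_mul, add_zero] at h

/-- Reductions stay in the residue field of the base. -/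
theorem exists_branch_red {p : C₀.G[X]} (hp : p.Monic) {y : C.G}
    (hroot : p.eval₂ (branchHom ι κ hcompat) y = 0) {ρ : Ek} {y₀ : C₀.G} (hy₀ : C₀.red y₀ = ρ)
    (hsimple : (p.map C₀.red).derivative.eval ρ ≠ 0) {t : A} (ht : C₀.π t = 0) {w₀ : C.G}
    (hw₀ : (y : F) - ι (y₀ : E) = algebraMap K F (t : K) * w₀)
    (htne : (t : K) ≠ 0) (harch : ∀ c : K, c ≠ 0 → ∃ m : ℕ, A.valuation ((t : K) ^ m) < A.valuation c)
    (hgen : ∀ f : F, ∃ g : E[X], g.eval₂ ι.toRingHom (y : F) = f) {f : F} {R : B}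
    (hfR : C.Red f R) : ∃ r : Ek, κ r = R := by
  rcases eq_or_ne f 0 with rfl | hf
  · exact ⟨0, (map_zero κ).trans (ConstRed.red_zero.unique hfR)⟩
  obtain ⟨c, g, r, -, hfg, hg, hr⟩ :=
    exists_branch_scale hcompat hC₀ hp hroot hy₀ hsimple ht hw₀ htne harch hgen hf
  obtain ⟨hcA, hR⟩ := hg.smul_cancel ((_root_.map_ne_zero κ).2 hr) (hfg ▸ hfR)
  exact ⟨algebraMap k Ek (C.π ⟨c, hcA⟩) * r, by rw [hR, map_mul, AlgHom.commutes]⟩

end FA.ModField
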