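import Fermat.Agent.ModField.Semistable.Inject

/-!
# Unipotence of inertia on torsion of the Jacobian of a semistable curve

An automorphism inducing the identity on the components sends a torsion class into the toric
kernel, which it fixes; so its square difference vanishes.
-/

set_option autoImplicit false
set_option linter.style.haveILetI false
set_option linter.unusedSectionVars false

noncomputable section

namespace FA.ModField.SemiFibre

open AlgebraicCurve FA.Curve FA.CurveRed

variable {K F k : Type*} [Field K] [Field F] [Algebra K F] [Field k] {ι : Type*} [Fintype ι]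
  {Fk : ι → Type*} [∀ i, Field (Fk i)] [∀ i, Algebra k (Fk i)] {A : ValuationSubring K}
  {β σ : Type*} [Fintype β] [Fintype σ] {X : SemiFibre K F k Fk A β σ}
variable [IsAlgClosed K] [IsAlgClosed k] [Nonempty ι] (hF : IsFunctionField K F)
  (hk : ∀ i, IsFunctionField k (Fk i)) {n : ℕ}

/-- A symmetry that is the identity on every component and every branch. -/
structure IsTrivialSymm (S : X.Symm) : Prop where
  θ_eq : ∀ i, S.θ i = RingHom.id (Fk i)
  θk_eq : S.θk = RingHom.id k
  e_eq : S.e = Equiv.refl β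

include hF

theorem redTor_trivial_smul {S : X.Symm} (hS : ∀ i, S.θ i = RingHom.id (Fk i)) (i : ι)
    (x : Pic0.torsion K F n) :
    redTor n hF (X.scaled i) (S.s • x) = redTor n hF (X.scaled i) x := by
  have h : IntertwinesRed (X.C i) S.s (RingHom.id (Fk i)) := fun f r hr => by
    have h' := S.intertwines i f r hr
    rwa [hS i] at h'
  rw [redTor_smul n hF (X.scaled i) h (fun a => ⟨a, rfl⟩) x]
  exact mapRedTarget_id n _

theorem smul_sub_mem_toricKer {S : X.Symm} (hS : ∀ i, S.θ i = RingHom.id (Fk i))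
    (x : Pic0.torsion K F n) : S.s • x - x ∈ X.toricKer hF n :=
  (mem_toricKer hF).2 fun i => by
    rw [map_sub, redTor_trivial_smul hF hS i x]
    exact sub_self (redTor n hF (X.scaled i) x : RedTarget k (Fk i) n)

include hk

/-- `(S - 1)(T - 1) = 0` on torsion. -/
theorem smul_sub_comm {S T : X.Symm} (hS : IsTrivialSymm S) (hT : ∀ i, T.θ i = RingHom.id (Fk i))
    (hn : n ≠ 0) (hn1 : A.valuation (n : K) = 1) (x : Pic0.torsion K F n) :
    S.s • (T.s • x - x) = T.s • x - x :=
  S.smul_eq_self hF hk hS.θk_eq hS.e_eq hn hn1 (smul_sub_mem_toricKer hF hT x)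

/-- `(S - 1)² = 0` on torsion. -/
theorem smul_smul_add {S : X.Symm} (hS : IsTrivialSymm S)
    (hn : n ≠ 0) (hn1 : A.valuation (n : K) = 1) (x : Pic0.torsion K F n) :
    S.s • S.s • x + x = 2 • (S.s • x) := by
  have h := smul_sub_comm hF hk hS hS.θ_eq hn hn1 x
  rw [smul_sub, sub_eq_iff_eq_add] at h
  rw [h, two_nsmul]
  abel

/-- `(S - 1)(T - 1) x = 0` when `n x` is the class of a `T`-invariant divisor. -/
theorem smul_sub_comm_of_fixed {S T : X.Symm} (hS : IsTrivialSymm S)
    (hT : ∀ i, T.θ i = RingHom.id (Fk i)) (hn : n ≠ 0) (hn1 : A.valuation (n : K) = 1)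
    (x : Pic0 K F) (D₀ : Divisor.degZero (K := K) (F := F))
    (hD₀ : SemilinearAut.degZeroSMulHom T.s D₀ = D₀) (hx : n • x = Pic0.mk D₀) :
    S.s • (T.s • x - x) = T.s • x - x := by
  obtain ⟨D, rfl⟩ := Pic0.mk_surjective x
  obtain ⟨g, hg, hgD⟩ : ∃ g : F, g ≠ 0 ∧ ∀ P : Place K F,
      (n : ℤ) * (D : Divisor K F) P - (D₀ : Divisor K F) P = P.ord g := by
    have h : Pic0.mk (n • D - D₀) = 0 := by
      rw [← sub_self (Pic0.mk D₀)]
      conv_rhs => arg 1; rw [← hx]
      rfl
    rw [Pic0.mk, QuotientAddGroup.eq_zero_iff, AddSubgroup.mem_addSubgroupOf] at h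
    obtain ⟨g, hg, hgD⟩ := h
    exact ⟨g, hg, fun P => by simpa using hgD P⟩
  set x' : Pic0 K F := T.s • Pic0.mk D - Pic0.mk D with hx'
  have hmem : x' ∈ Pic0.torsion K F n := by
    rw [Pic0.mem_torsion]
    refine (natCast_zsmul x' n).trans ?_
    have h1 : n • x' = T.s • (n • Pic0.mk D) - n • Pic0.mk D := by
      rw [hx', nsmul_sub]
      exact congrArg (· - n • Pic0.mk D)
        (map_nsmul (DistribSMul.toAddMonoidHom (Pic0 K F) T.s) n (Pic0.mk D)).symm
    rw [h1, hx, SemilinearAut.pic0_smul_mk, hD₀, sub_self]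
  have hTg : T.s • g ≠ 0 := fun h0 => hg (smul_left_cancel T.s (h0.trans (smul_zero T.s).symm))
  have hk' : (⟨x', hmem⟩ : Pic0.torsion K F n) ∈ X.toricKer hF n := by
    refine (mem_toricKer hF).2 fun i => ?_
    rw [redTor_mk n hF (X.scaled i) _ (D := SemilinearAut.degZeroSMulHom T.s D - D)
      (g := T.s • g / g) (by
        rw [show Pic0.mk (SemilinearAut.degZeroSMulHom T.s D - D) =
          Pic0.mk (SemilinearAut.degZeroSMulHom T.s D) - Pic0.mk D from rfl,
          ← SemilinearAut.pic0_smul_mk])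
      (div_ne_zero hTg hg) (fun P => by
        have h1 := SemilinearAut.ord_smul T.s (T.s⁻¹ • P) g
        rw [smul_inv_smul] at h1
        have h2 : (D₀ : Divisor K F) (T.s⁻¹ • P) = (D₀ : Divisor K F) P := by
          conv_rhs => rw [← hD₀]
          rw [SemilinearAut.coe_degZeroSMulHom, SemilinearAut.divisor_smul_apply]
        rw [div_eq_mul_inv, P.ord_mul hTg (inv_ne_zero hg), P.ord_inv, h1, ← hgD, ← hgD, h2,
          AddSubgroupClass.coe_sub, Finsupp.sub_apply, SemilinearAut.coe_degZeroSMulHom,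
          SemilinearAut.divisor_smul_apply]
        ring)]
    obtain ⟨c, f, r, hc, e, hfr, hr⟩ := exists_scaled (X.scaled i) hg
    have hTf : (X.C i).Red (T.s • f) r := by
      have h := T.intertwines i f r hfr
      rwa [hT i] at h
    have hq : T.s • g / g =
        algebraMap K F (SemilinearAut.baseAut T.s c / c) * (T.s • f * f⁻¹) := by
      rw [e, smul_mul', SemilinearAut.smul_algebraMap, map_div₀]
      field_simp
    have hb : SemilinearAut.baseAut T.s c / c ≠ 0 := div_ne_zero (by simpa using hc) hc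
    rw [redFn_eq n hb hq (hTf.mul (hfr.inv hr)) (mul_ne_zero hr (inv_ne_zero hr)),
      mul_inv_cancel₀ hr, ← map_one (algebraMap k (Fk i)), redCls_const n one_ne_zero]
  exact congrArg Subtype.val (S.smul_eq_self hF hk hS.θk_eq hS.e_eq hn hn1 hk')

end FA.ModField.SemiFibre
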