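import Fermat.Agent.ModField.Semistable.PushQuad
import Fermat.Agent.ModField.Semistable.NewformFrobenius
import Fermat.Agent.Petersson.HeckeBound
import Mathlib.FieldTheory.IsAlgClosed.Basic

/-!
# An eigensystem of level `M q` with `U_q² = 1` does not occur at level `M`

The Frobenius relation on the operators killed by the pushforward gives `(q + 1)² = a_q²` for the
system of level `M`, against the strict bound `|a_q| < q + 1`.
-/

set_option autoImplicit false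
set_option linter.style.haveILetI false
set_option linter.unusedSectionVars false
set_option synthInstance.maxHeartbeats 200000
set_option maxHeartbeats 800000

noncomputable section

namespace FA.ModField

open ModularCurve AlgebraicCurve FA.Curve FA.CurveRed FA.Level FA.JTorsion CongruenceSubgroup

local notation "Qb" => AlgebraicClosure ℚ

variable (N M : ℕ) [NeZero N] [NeZero M] (hMN : M ∣ N)

/-- A good operator of the lower level has a multiple among the pairs. -/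
theorem exists_pair_snd_eq (B : Finset ℕ) {ℓ₀ : ℕ} (hℓ₀ : ℓ₀.Prime) (hℓ₀M : ¬ ℓ₀ ∣ M) :
    ∃ (m : ℕ), m ≠ 0 ∧ ∃ t ∈ pairRing N M hMN B,
      t.2 = m • CuspForm.heckeAlgebra.T (k := 2) hℓ₀ hℓ₀M (Set.notMem_empty _) := by
  classical
  obtain ⟨alg⟩ := exists_algebra_qbar
  letI := alg
  obtain ⟨p, hp, hp0⟩ : ∃ p : ℕ, p.Prime ∧ p ≠ ℓ₀ := by
    rcases eq_or_ne ℓ₀ 2 with rfl | h
    · exact ⟨3, Nat.prime_three, by norm_num⟩
    · exact ⟨2, Nat.prime_two, h.symm⟩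
  haveI : Fact p.Prime := ⟨hp⟩
  haveI : NeZero p := ⟨hp.ne_zero⟩
  let bad : Finset ℕ := insert p (B ∪ N.primeFactors)
  let D : Subring (HFull N × HFull M) := pairRing N M hMN bad
  let fM : D →+* HFull M := (RingHom.snd _ _).comp D.subtype
  haveI : Module.Finite ℤ (HFull M) := FA.Period.moduleFinite_heckeAlgebra M 2 _
  haveI := latMod_free M (∅ : Set ℕ)
  obtain ⟨cM, hcM⟩ := exists_saturation p hp.ne_zero
    (fun _ h => latMod_faithful M (∅ : Set ℕ) h)
  set T₀ := CuspForm.heckeAlgebra.T (k := 2) hℓ₀ hℓ₀M (Set.notMem_empty _)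
  let D₂ : Subring (HFull M) := D.map (RingHom.snd _ _)
  suffices key : ∀ k, ∃ y, T₀ - p ^ k • y ∈ D₂ by
    obtain ⟨m, hm, hmem⟩ :=
      exists_nsmul_mem_of_forall_pow D₂.toAddSubgroup.toIntSubmodule hp.one_lt key
    obtain ⟨t, ht, e⟩ : m • T₀ ∈ D.map (RingHom.snd (HFull N) (HFull M)) := hmem
    exact ⟨m, hm, t, pairRing_anti N M hMN
      (Finset.subset_union_left.trans (Finset.subset_insert _ _)) ht, e⟩
  intro k
  let n := k + cM
  have hkill : ∀ x : ModN M (∅ : Set ℕ) (p ^ n), p ^ n • x = 0 :=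
    fun x => toTors_injective M _ _ (by rw [map_nsmul, nsmul_toTors, map_zero])
  have hd : ∀ ℓ : ℕ, ℓ.Prime → ℓ ≠ p → ¬ ℓ ∣ p ^ n := fun ℓ hℓ hℓp h =>
    hℓp ((Nat.prime_dvd_prime_iff_eq hℓ hp).1 (hℓ.dvd_of_dvd_pow h))
  obtain ⟨C, hC⟩ := FA.Deform.exists_liesOverPrime hℓ₀
  obtain ⟨σ, hσ⟩ := FA.Deform.exists_isFrobeniusAt hℓ₀ hC
  obtain ⟨h, hx, -⟩ := exists_hecke_of_gal_pair p n fM fM hkill hkill
    (galMod M (∅ : Set ℕ) (p ^ n)) (galMod M (∅ : Set ℕ) (p ^ n))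
    (exists_field_galMod M (∅ : Set ℕ) (p ^ n)) (exists_field_galMod M (∅ : Set ℕ) (p ^ n))
    bad (Finset.mem_insert_self _ _)
    (fun ℓ hℓ hℓbad C hC τ hτ => by
      have hℓbad' := hℓbad
      simp only [bad, Finset.mem_insert, Finset.mem_union, Nat.mem_primeFactors, not_or] at hℓbad'
      have hℓN : ¬ ℓ ∣ N := fun hd => hℓbad'.2.2 ⟨hℓ, hd, NeZero.ne N⟩
      have e := fun x => galMod_frobenius M (∅ : Set ℕ) (p ^ n) (goodRed_all M) hℓ
        (fun h => hℓN (h.trans hMN)) (hd ℓ hℓ hℓbad'.1) hC (Set.notMem_empty _) hτ x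
      exact ⟨⟨_, pairT_mem N M hMN hℓ hℓN hℓbad⟩, e, e⟩) σ
  have he : ∀ z : LatMod M (∅ : Set ℕ), ∃ y, (T₀ - fM h) • z = p ^ n • y := fun z => by
    have e := hx (Submodule.Quotient.mk z)
    rw [cycMod_frobenius p n hℓ₀ hp0.symm hC hσ, ZMod.val_natCast,
      nsmul_mod_of_kill (hkill _), galMod_frobenius M _ _ (goodRed_all M) hℓ₀ hℓ₀M
        (hd ℓ₀ hℓ₀ hp0.symm) hC (Set.notMem_empty _) hσ] at e
    simp only [← Submodule.Quotient.mk_smul] at e
    rw [← sub_eq_zero, ← Submodule.Quotient.mk_sub, ← sub_smul,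
      Submodule.Quotient.mk_eq_zero, mem_nMultiples] at e
    obtain ⟨y, hy⟩ := e
    exact ⟨y, hy.symm⟩
  obtain ⟨y, hy⟩ := hcM k _ he
  refine ⟨y, ?_⟩
  rw [← hy, sub_sub_cancel]
  exact ⟨_, h.2, rfl⟩

variable {N M}

theorem hom_eq_of_mem_pairRing {R : Type} [CommRing R] (ψ : HFull N →+* R) (ψ' : HFull M →+* R)
    {B : Finset ℕ}
    (heq : ∀ (ℓ : ℕ) (hℓ : ℓ.Prime) (hℓN : ¬ ℓ ∣ N), ℓ ∉ B →
      ψ (CuspForm.heckeAlgebra.T hℓ hℓN (Set.notMem_empty _)) =
        ψ' (CuspForm.heckeAlgebra.T hℓ (fun h => hℓN (h.trans hMN)) (Set.notMem_empty _)))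
    {t : HFull N × HFull M} (ht : t ∈ pairRing N M hMN B) : ψ t.1 = ψ' t.2 := by
  induction ht using Subring.closure_induction with
  | mem x hx =>
    obtain ⟨ℓ, hℓ, hℓN, hB, rfl⟩ := hx
    exact heq ℓ hℓ hℓN hB
  | zero => rw [Prod.fst_zero, Prod.snd_zero, map_zero, map_zero]
  | one => rw [Prod.fst_one, Prod.snd_one, map_one, map_one]
  | add x y _ _ hx hy => rw [Prod.fst_add, Prod.snd_add, map_add, map_add, hx, hy]
  | neg x _ hx => rw [Prod.fst_neg, Prod.snd_neg, map_neg, map_neg, hx]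
  | mul x y _ _ hx hy => rw [Prod.fst_mul, Prod.snd_mul, map_mul, map_mul, hx, hy]

omit hMN in
/-- The trace at `q` of the lower level, in a ring finite over `ℤ`. -/
theorem sq_T_eq_of_coincide {q : ℕ} [hq : Fact q.Prime] [NeZero q] (hfib : HasFibreData)
    (hqM : ¬ q ∣ M) {R : Type} [CommRing R] [IsDomain R] [CharZero R] [Module.Finite ℤ R]
    (ψ : HFull (M * q) →+* R) (hU : ψ (uQ M q) ^ 2 = 1) (ψ' : HFull M →+* R) (B : Finset ℕ)
    (heq : ∀ (ℓ : ℕ) (hℓ : ℓ.Prime) (hℓN : ¬ ℓ ∣ M * q), ℓ ∉ B →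
      ψ (CuspForm.heckeAlgebra.T hℓ hℓN (Set.notMem_empty _)) =
        ψ' (CuspForm.heckeAlgebra.T hℓ (fun h => hℓN (h.mul_right q)) (Set.notMem_empty _))) :
    ψ' (CuspForm.heckeAlgebra.T hq.out hqM (Set.notMem_empty _)) ^ 2 = ((q : R) + 1) ^ 2 := by
  classical
  obtain ⟨alg⟩ := exists_algebra_qbar
  letI := alg
  obtain ⟨p, hp', hpq⟩ : ∃ p : ℕ, p.Prime ∧ p ≠ q := by
    rcases eq_or_ne q 2 with rfl | h
    · exact ⟨3, Nat.prime_three, by norm_num⟩
    · exact ⟨2, Nat.prime_two, h.symm⟩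
  haveI hp : Fact p.Prime := ⟨hp'⟩
  haveI : NeZero p := ⟨hp'.ne_zero⟩
  set T₀ := CuspForm.heckeAlgebra.T (k := 2) hq.out hqM (Set.notMem_empty _)
  let bad : Finset ℕ := insert p (B ∪ (M * q).primeFactors)
  have hBbad : B ⊆ bad := Finset.subset_union_left.trans (Finset.subset_insert _ _)
  have hψ : ∀ {t : HFull (M * q) × HFull M},
      t ∈ pairRing (M * q) M (dvd_mul_right M q) bad → ψ t.1 = ψ' t.2 := fun ht =>
    hom_eq_of_mem_pairRing (dvd_mul_right M q) ψ ψ' heq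
      (pairRing_anti (M * q) M (dvd_mul_right M q) hBbad ht)
  obtain ⟨m, hm, ta, hta, hta2⟩ :=
    exists_pair_snd_eq (M * q) M (dvd_mul_right M q) bad hq.out hqM
  obtain ⟨A, hA⟩ := FA.Deform.exists_liesOverPrime hq.out
  obtain ⟨σ, hσ⟩ := FA.Deform.exists_isFrobeniusAt hq.out hA
  haveI : IsAlgClosed (IsLocalRing.ResidueField A) := FA.Frob.residueField_isAlgClosed A
  haveI : CharP (IsLocalRing.ResidueField A) q := residueAt_charP hA
  haveI : Algebra.IsAlgebraic ℚ Qb := AlgebraicClosure.isAlgebraic ℚ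
  obtain ⟨D⟩ := hfib M q hqM A residueAt_eq_zero
    (fun c hc => exists_pow_lt_valuation hq.out hA c hc) hA
  have hkl := pushLvl_quad M q hqM p (Finset.mem_insert_self p _ : p ∈ bad) hta hta2
  obtain ⟨K, c, hK, hrel⟩ := exists_frob_relation_lin_of_kill M q hqM p hkl D hA hpq.symm hσ
    (inducesOn_frobenius hσ)
  haveI := latMod_free M (∅ : Set ℕ)
  obtain ⟨cM, hcM⟩ := exists_saturation p hp'.ne_zero
    (fun _ h => latMod_faithful M (∅ : Set ℕ) h)
  set a := ψ' T₀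
  set e := ψ (uQ M q)
  have key : ∀ j : ℕ, ∃ y : R,
      (K : R) * (m : R) * (((q : R) + 1) - a * e) ^ 2 - p ^ j • y ∈ (⊥ : Submodule ℤ R) := by
    intro j
    let n := j + cM + c
    have hkill : ∀ (N : ℕ) [NeZero N] (x : ModN N (∅ : Set ℕ) (p ^ n)), p ^ n • x = 0 :=
      fun N _ x => toTors_injective N _ _ (by rw [map_nsmul, nsmul_toTors, map_zero])
    have hd : ∀ ℓ : ℕ, ℓ.Prime → ℓ ≠ p → ¬ ℓ ∣ p ^ n := fun ℓ hℓ hℓp h =>
      hℓp ((Nat.prime_dvd_prime_iff_eq hℓ hp').1 (hℓ.dvd_of_dvd_pow h))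
    let P := pairRing (M * q) M (dvd_mul_right M q) bad
    obtain ⟨h, hxN, hxM⟩ := exists_hecke_of_gal_pair p n
      ((RingHom.fst (HFull (M * q)) (HFull M)).comp P.subtype)
      ((RingHom.snd (HFull (M * q)) (HFull M)).comp P.subtype) (hkill (M * q)) (hkill M)
      (galMod (M * q) (∅ : Set ℕ) (p ^ n)) (galMod M (∅ : Set ℕ) (p ^ n))
      (exists_field_galMod (M * q) (∅ : Set ℕ) (p ^ n)) (exists_field_galMod M (∅ : Set ℕ) (p ^ n))
      bad (Finset.mem_insert_self _ _)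
      (fun ℓ hℓ hℓbad C hC τ hτ => by
        have hℓbad' := hℓbad
        simp only [bad, Finset.mem_insert, Finset.mem_union, Nat.mem_primeFactors, not_or] at hℓbad'
        have hℓN : ¬ ℓ ∣ M * q := fun hd => hℓbad'.2.2 ⟨hℓ, hd, NeZero.ne (M * q)⟩
        exact ⟨⟨_, pairT_mem (M * q) M (dvd_mul_right M q) hℓ hℓN hℓbad⟩,
          fun x => galMod_frobenius (M * q) _ _ (goodRed_all (M * q)) hℓ hℓN
            (hd ℓ hℓ hℓbad'.1) hC (Set.notMem_empty _) hτ x,
          fun x => galMod_frobenius M _ _ (goodRed_all M) hℓ (fun h => hℓN (h.mul_right q))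
            (hd ℓ hℓ hℓbad'.1) hC (Set.notMem_empty _) hτ x⟩) σ
    rw [cycMod_frobenius p n hq.out hpq.symm hA hσ, ZMod.val_natCast] at hxN hxM
    obtain ⟨y₁, hy₁⟩ := hrel (j + cM) h.1.1 fun z => by
      have e := hxN z
      rwa [nsmul_mod_of_kill (hkill _ _)] at e
    have he : ∀ z : LatMod M (∅ : Set ℕ), ∃ y, (T₀ - h.1.2) • z = p ^ (j + c + cM) • y := fun z => by
      have e := hxM (Submodule.Quotient.mk z)
      rw [nsmul_mod_of_kill (hkill _ _), galMod_frobenius M _ _ (goodRed_all M) hq.out hqM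
        (hd q hq.out hpq.symm) hA (Set.notMem_empty _) hσ] at e
      simp only [← Submodule.Quotient.mk_smul] at e
      rw [← sub_eq_zero, ← Submodule.Quotient.mk_sub] at e
      have e' : ((T₀ - h.1.2) • z : LatMod M (∅ : Set ℕ)) ∈ nMultiples M (∅ : Set ℕ) (p ^ n) := by
        rw [sub_smul]
        exact (Submodule.Quotient.mk_eq_zero _).1 e
      obtain ⟨y, hy⟩ := (mem_nMultiples M (∅ : Set ℕ)).1 e'
      exact ⟨y, by rw [← hy, show n = j + c + cM by omega]⟩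
    obtain ⟨y₂, hy₂⟩ := hcM (j + c) _ he
    have e1 := congrArg ψ hy₁
    have e2 := congrArg ψ' hy₂
    simp only [nsmul_eq_mul, Nat.cast_pow, map_mul, map_pow, map_natCast, map_sub, map_add,
      map_one] at e1 e2
    rw [hψ h.2] at e1
    have e3 : ψ ta.1 = (m : R) * a := by
      rw [hψ hta, hta2, map_nsmul, nsmul_eq_mul]
    rw [e3] at e1
    refine ⟨(p : R) ^ cM * ψ y₁ -
      (K : R) * (m : R) * (((q : R) + 1) - a * e) * e * ((p : R) ^ c * ψ' y₂),
      (Submodule.mem_bot ℤ).2 ?_⟩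
    rw [nsmul_eq_mul, Nat.cast_pow]
    rw [pow_add] at e1 e2
    linear_combination e1 - (K : R) * (m : R) * (((q : R) + 1) - a * e) * e * e2 -
      (K : R) * (m : R) * (1 + (q : R) - ψ' h.1.2 * e) * hU
  obtain ⟨k, hk, hmem⟩ := exists_nsmul_mem_of_forall_pow ⊥ hp'.one_lt key
  have h0 : (K : R) * (m : R) * (((q : R) + 1) - a * e) ^ 2 = 0 :=
    ((smul_eq_zero.1 ((Submodule.mem_bot ℤ).1 hmem)).resolve_left hk)
  have h1 : ((q : R) + 1) - a * e = 0 := by
    rcases mul_eq_zero.1 h0 with h | h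
    · exact absurd h (mul_ne_zero (Nat.cast_ne_zero.2 hK) (Nat.cast_ne_zero.2 hm))
    · exact pow_eq_zero_iff two_ne_zero |>.1 h
  linear_combination -(((q : R) + 1) + a * e) * h1 - a ^ 2 * hU

omit hMN in
/-- **An eigensystem with `U_q² = 1` of level `M q` is not one of level `M`.** -/
theorem not_coincide {q : ℕ} [hq : Fact q.Prime] [NeZero q] (hfib : HasFibreData) (hqM : ¬ q ∣ M)
    {R : Type} [CommRing R] [IsDomain R] [CharZero R]
    (ψ : HFull (M * q) →+* R) (hU : ψ (uQ M q) ^ 2 = 1) (ψ' : HFull M →+* R) (B : Finset ℕ)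
    (heq : ∀ (ℓ : ℕ) (hℓ : ℓ.Prime) (hℓN : ¬ ℓ ∣ M * q), ℓ ∉ B →
      ψ (CuspForm.heckeAlgebra.T hℓ hℓN (Set.notMem_empty _)) =
        ψ' (CuspForm.heckeAlgebra.T hℓ (fun h => hℓN (h.mul_right q)) (Set.notMem_empty _))) :
    False := by
  classical
  haveI : Module.Finite ℤ (HFull (M * q)) := FA.Period.moduleFinite_heckeAlgebra (M * q) 2 _
  haveI : Module.Finite ℤ (HFull M) := FA.Period.moduleFinite_heckeAlgebra M 2 _
  let A : Subalgebra ℤ R := ψ.toIntAlgHom.range ⊔ ψ'.toIntAlgHom.range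
  haveI : Module.Finite ℤ ψ.toIntAlgHom.range :=
    Module.Finite.of_surjective ψ.toIntAlgHom.rangeRestrict.toLinearMap
      ψ.toIntAlgHom.rangeRestrict_surjective
  haveI : Module.Finite ℤ ψ'.toIntAlgHom.range :=
    Module.Finite.of_surjective ψ'.toIntAlgHom.rangeRestrict.toLinearMap
      ψ'.toIntAlgHom.rangeRestrict_surjective
  haveI : Module.Finite ℤ A := Subalgebra.finite_sup _ _
  haveI : CharZero A := ⟨fun i j h => Nat.cast_injective (R := R) (congrArg Subtype.val h)⟩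
  let φ : HFull (M * q) →+* A := ψ.codRestrict A fun x =>
    (le_sup_left : _ ≤ A) ⟨x, rfl⟩
  let φ' : HFull M →+* A := ψ'.codRestrict A fun x =>
    (le_sup_right : _ ≤ A) ⟨x, rfl⟩
  have hsq := sq_T_eq_of_coincide hfib hqM φ (Subtype.ext hU) φ' B
    fun ℓ hℓ hℓN hB => Subtype.ext (heq ℓ hℓ hℓN hB)
  haveI : Algebra.IsAlgebraic ℤ A := inferInstance
  let ι : A →ₐ[ℤ] ℂ := IsAlgClosed.lift
  let χ : HFull M →+* ℂ := ι.toRingHom.comp φ'
  obtain ⟨f, hf, hfe⟩ := exists_form_of_char M (RingHom.id (HFull M)) χ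
    fun a ha => by rw [show a = 0 from ha, map_zero]
  have hf' := hfe (CuspForm.heckeAlgebra.T hq.out hqM (Set.notMem_empty _))
  set μ := χ (CuspForm.heckeAlgebra.T hq.out hqM (Set.notMem_empty _))
  have hμ : μ ^ 2 = ((q : ℂ) + 1) ^ 2 := by
    have := congrArg ι hsq
    rw [map_pow, map_pow, map_add, map_natCast, map_one] at this
    exact this
  refine hf (FA.Petersson.eq_zero_of_norm_eigen f hq.out hqM hf' ?_)
  have h2 := congrArg norm hμ
  rw [norm_pow, norm_pow] at h2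
  have h3 : ‖(q : ℂ) + 1‖ = (q : ℝ) + 1 := by
    rw [show (q : ℂ) + 1 = (((q + 1 : ℕ)) : ℂ) by push_cast; ring, Complex.norm_natCast]
    push_cast
    ring
  rw [← h3]
  exact (sq_eq_sq₀ (norm_nonneg _) (norm_nonneg _)).1 h2

omit hMN in
/-- A character to an algebraically closed field extends along an injective integral map. -/
theorem exists_extend_closed {A₀ A L : Type} [CommRing A₀] [CommRing A] [Field L] [IsAlgClosed L]
    (f : A₀ →+* A) (hf : Function.Injective f) (hint : f.IsIntegral) (φ : A₀ →+* L) :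
    ∃ g : A →+* L, g.comp f = φ := by
  letI := f.toAlgebra
  haveI : Algebra.IsIntegral A₀ A := ⟨hint⟩
  haveI : (RingHom.ker φ).IsPrime := RingHom.ker_isPrime φ
  obtain ⟨Q, -, hQ, hcomap⟩ := Ideal.exists_ideal_over_prime_of_isIntegral (RingHom.ker φ)
    (⊥ : Ideal A) (by
      refine (RingHom.ker_eq_comap_bot _).symm.trans_le ?_
      rw [show RingHom.ker (algebraMap A₀ A) = ⊥ from (RingHom.injective_iff_ker_eq_bot _).1 hf]
      exact bot_le)
  haveI : Q.LiesOver (RingHom.ker φ) := ⟨hcomap.symm⟩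
  haveI : IsDomain (A ⧸ Q) := inferInstance
  letI : Algebra (A₀ ⧸ RingHom.ker φ) L := (RingHom.kerLift φ).toAlgebra
  haveI : FaithfulSMul (A₀ ⧸ RingHom.ker φ) L :=
    (faithfulSMul_iff_algebraMap_injective _ _).2 (RingHom.kerLift_injective φ)
  haveI : Algebra.IsAlgebraic (A₀ ⧸ RingHom.ker φ) (A ⧸ Q) :=
    haveI : Algebra.IsIntegral (A₀ ⧸ RingHom.ker φ) (A ⧸ Q) := inferInstance
    inferInstance
  let g : (A ⧸ Q) →ₐ[A₀ ⧸ RingHom.ker φ] L := IsAlgClosed.lift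
  exact ⟨g.toRingHom.comp (Ideal.Quotient.mk Q), RingHom.ext fun x =>
    (g.commutes (Ideal.Quotient.mk (RingHom.ker φ) x)).trans (RingHom.kerLift_mk φ x)⟩

omit hMN in
/-- An eigensystem with `U_q² = 1` is new at `q`. -/
theorem exists_T_ne_of_unit_square {q : ℕ} [hq : Fact q.Prime] [NeZero q] (hfib : HasFibreData)
    (hqM : ¬ q ∣ M) {S : Finset ℕ} {O R : Type} [CommRing O] [CommRing R] [IsDomain R] [CharZero R]
    (ι : O →+* R) (χ : CuspForm.heckeAlgebra (M * q) 2 (↑S : Set ℕ) →+* O)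
    (ψ : HFull (M * q) →+* R) (hU : ψ (uQ M q) ^ 2 = 1) (B : Finset ℕ)
    (heq : ∀ (ℓ : ℕ) (hℓ : ℓ.Prime) (hℓN : ¬ ℓ ∣ M * q) (hℓS : ℓ ∉ (↑S : Set ℕ)), ℓ ∉ B →
      ι (χ (CuspForm.heckeAlgebra.T (k := 2) hℓ hℓN hℓS)) =
        ψ (CuspForm.heckeAlgebra.T hℓ hℓN (Set.notMem_empty _)))
    (χ' : CuspForm.heckeAlgebra M 2 (↑S : Set ℕ) →+* O) :
    ∃ (ℓ : ℕ) (hℓ : ℓ.Prime) (hℓN : ¬ ℓ ∣ M * q) (hℓS : ℓ ∉ (↑S : Set ℕ)),
      χ' (CuspForm.heckeAlgebra.T (k := 2) hℓ (fun h => hℓN (h.mul_right q)) hℓS) ≠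
        χ (CuspForm.heckeAlgebra.T (k := 2) hℓ hℓN hℓS) := by
  classical
  by_contra hcon
  push Not at hcon
  haveI : Module.Finite ℤ (HFull M) := FA.Period.moduleFinite_heckeAlgebra M 2 _
  let L := AlgebraicClosure (FractionRing R)
  let j : R →+* L := (algebraMap (FractionRing R) L).comp (algebraMap R (FractionRing R))
  have hj : Function.Injective j :=
    (algebraMap (FractionRing R) L).injective.comp (IsFractionRing.injective R (FractionRing R))
  haveI : CharZero L := charZero_of_injective_algebraMap (R := FractionRing R)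
    (algebraMap (FractionRing R) L).injective
  have hint : (inclFull (N := M) S).IsIntegral := fun x => by
    obtain ⟨P, hP, hPx⟩ := IsIntegral.of_finite ℤ x
    refine ⟨P.map (algebraMap ℤ _), hP.map _, ?_⟩
    rw [Polynomial.eval₂_map, RingHom.ext_int ((inclFull (N := M) S).comp (algebraMap ℤ _))
      (algebraMap ℤ (HFull M))]
    exact hPx
  obtain ⟨ψ', hψ'⟩ := exists_extend_closed (inclFull (N := M) S) (inclFull_injective S) hint
    ((j.comp ι).comp χ')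
  refine not_coincide hfib hqM (j.comp ψ) (by rw [RingHom.comp_apply, ← map_pow, hU, map_one]) ψ'
    (B ∪ S) fun ℓ hℓ hℓN hℓb => ?_
  rw [Finset.mem_union, not_or] at hℓb
  have hℓS : ℓ ∉ (↑S : Set ℕ) := by simpa using hℓb.2
  have h1 := RingHom.congr_fun hψ'
    (CuspForm.heckeAlgebra.T (k := 2) hℓ (fun h => hℓN (h.mul_right q)) hℓS)
  refine (congrArg j (heq ℓ hℓ hℓN hℓS hℓb.1)).symm.trans ?_
  rw [RingHom.comp_apply, inclFull_T] at h1
  rw [h1, ← hcon ℓ hℓ hℓN hℓS]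
  rfl

end FA.ModField
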