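import Fermat.Agent.ModField.Semistable.Formal.Ordinary
import Fermat.Agent.LocalDef.OrdinaryOfConn
import Fermat.Agent.FlatModel.HeckeFlat
import Fermat.Agent.JTorsion.Unramified

/-!
# Ordinarity at a prime exactly dividing the level

Given the special fibres, the finite levels of a Hecke Galois datum have connected parts at `p`,
so the datum is ordinary as soon as it is residually.
-/

set_option autoImplicit false
set_option linter.style.haveILetI false
set_option linter.unusedSectionVars false
set_option synthInstance.maxHeartbeats 200000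
set_option maxHeartbeats 800000

noncomputable section

namespace FA.ModField

open IsLocalRing FA.LocalDef FA.JTorsion

local notation "Qb" => AlgebraicClosure ℚ

/-- The torsion at a prime exactly dividing the level has connected parts. -/
theorem hasConnPart_modN (hfib : HasFibreData) [Algebra Qb ℂ] {M q : ℕ} [NeZero M]
    [hq : Fact q.Prime] [NeZero (M * q)] (hqM : ¬ q ∣ M) {A : ValuationSubring Qb}
    (hA : A.LiesOverPrime q) (S : Set ℕ) (n : ℕ) [NeZero (q ^ n)]
    [Fintype (ModN (M * q) S (q ^ n))] :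
    HasConnPart A (ModN (M * q) S (q ^ n)) fun σ x => galMod (M * q) S (q ^ n) σ x := by
  haveI : NeZero q := ⟨hq.out.ne_zero⟩
  haveI : Algebra.IsAlgebraic ℚ Qb := AlgebraicClosure.isAlgebraic ℚ
  haveI : IsAlgClosed (ResidueField A) := FA.Frob.residueField_isAlgClosed A
  haveI : CharP (ResidueField A) q := residueAt_charP hA
  obtain ⟨D⟩ := hfib M q hqM A residueAt_eq_zero
    (fun c hc => exists_pow_lt_valuation hq.out hA c hc) hA
  exact D.hasConnPart hA S n

variable {p : ℕ} {N : ℕ} [NeZero N] {S : Finset ℕ}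
  {O : Type} [CommRing O] [IsDomain O] [IsDiscreteValuationRing O]
  [IsAdicComplete (maximalIdeal O) O]
  {θ : CuspForm.heckeAlgebra N 2 (↑S : Set ℕ) →+* ResidueField O}
  {T : Type} [CommRing T] [IsLocalRing T] [IsNoetherianRing T]
  [IsAdicComplete (maximalIdeal T) T] [Algebra O T] [IsLocalHom (algebraMap O T)]
  [Module.Finite O T] [Module.Free O T]

/-- **Ordinarity at a prime exactly dividing the level**, given the special fibres. -/
theorem isOrdinaryAt_of_fibreData (hfib : HasFibreData) [Finite (ResidueField O)]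
    (hp : p.Prime) (hp2 : p ≠ 2) (hpO : (p : O) ∈ maximalIdeal O) (hN : p ∣ N ∧ ¬ p ^ 2 ∣ N)
    (hNS : ∀ q : ℕ, q.Prime → q ∣ N → q ∈ S)
    (H : CuspForm.HeckeGaloisRepDatum N (↑S : Set ℕ) O θ T)
    (hres : (GaloisRepAdic.ofResidualGaloisRep H.ρ.residual).IsOrdinaryAt p) :
    H.ρ.IsOrdinaryAt p := by
  classical
  obtain ⟨alg⟩ := exists_algebra_qbar
  letI := alg
  obtain ⟨⟨M, rfl⟩, hN2⟩ := hN.imp_left fun h =>
    (⟨N / p, (Nat.div_mul_cancel h).symm⟩ : ∃ M, N = M * p)
  haveI : Fact p.Prime := ⟨hp⟩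
  haveI : NeZero M := ⟨fun h0 => NeZero.ne (M * p) (by rw [h0, zero_mul])⟩
  have hpM : ¬ p ∣ M := fun hd => hN2 (by rw [sq]; exact mul_dvd_mul_right hd p)
  have hpS : p ∈ S := hNS p hp (dvd_mul_left p M)
  haveI hres' : Finite (ResidueField T) :=
    Finite.of_surjective (fun a : ResidueField O => ResidueField.map (algebraMap O T) a) fun y => by
      obtain ⟨a, ha⟩ := H.residue_surjective y
      exact ⟨residue O a, (ResidueField.map_residue (algebraMap O T) a).trans ha⟩
  refine isOrdinaryAt_of_connPart H.ρ hp2 (FA.FlatModel.natCast_mem_maximalIdeal hpO) hres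
    (S ∪ (M * p).primeFactors) (fun ℓ hℓ hℓS B hB τ hτ => ?_) fun A hA t inst => ?_
  · simp only [Finset.mem_union, Nat.mem_primeFactors, not_or] at hℓS
    have hℓN : ¬ ℓ ∣ M * p := fun h => hℓS.2 ⟨hℓ, h, NeZero.ne _⟩
    rw [← LinearMap.det_toMatrix (FA.Deform.repBasis H.ρ)]
    exact (trace_det_frobenius H (FA.Deform.repBasis H.ρ) ℓ hℓ hℓN (by simpa using hℓS.1) B hB τ
      hτ).2
  · haveI : Finite (T ⧸ maximalIdeal T ^ t) := by
      haveI : Finite (T ⧸ maximalIdeal T) := hres'
      exact Ideal.finite_quotient_pow (IsNoetherian.noetherian _) t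
    exact FA.FlatModel.transfer_of_datum hpO hpS H isTransfer_hasConnPart
      (fun n _ _ => hasConnPart_modN hfib hpM hA _ n) _

end FA.ModField
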