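import Fermat.Agent.ModField.Semistable.FrobRelation

/-!
# The quadratic relation of `U_q` after the pushforward to level `M`

`push (U x) + push (w x) = T (push x)` and `push (w U x) = q (push x)` on torsion classes, hence
`m U² - t U + m q` is killed by the pushforward when `t` is `m T_q` at level `M`.
-/

set_option autoImplicit false
set_option linter.style.haveILetI false
set_option linter.unusedSectionVars false
set_option synthInstance.maxHeartbeats 200000
set_option maxHeartbeats 800000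

noncomputable section

namespace FA.ModField

open ModularCurve AlgebraicCurve FA.Curve FA.CurveRed FA.Level FA.JTorsion

local notation "Qb" => AlgebraicClosure ℚ

variable (M q : ℕ) [NeZero M] [hq : Fact q.Prime] [hq0 : NeZero q] [Algebra Qb ℂ] (hqM : ¬ q ∣ M)

include hqM in
/-- The pushforward of `U_q + w_q` and of `w_q U_q`. -/
theorem pushLvl_hecke_rel {n : ℕ} (hn : n ≠ 0)
    (x : Pic0.torsion Qb (levelField (M * q) Qb) n) :
    pushLvl M q (heckeOperatorAlong Qb (M * q) q (x : Pic0 Qb (levelField (M * q) Qb))) +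
        pushLvl M q (wAut M q Qb hqM • (x : Pic0 Qb (levelField (M * q) Qb))) =
      heckeOperatorAlong Qb M q (pushLvl M q (x : Pic0 Qb (levelField (M * q) Qb))) ∧
    pushLvl M q (wAut M q Qb hqM • heckeOperatorAlong Qb (M * q) q
        (x : Pic0 Qb (levelField (M * q) Qb))) =
      q • pushLvl M q (x : Pic0 Qb (levelField (M * q) Qb)) := by
  have hFM := isFunctionField_level Qb M
  have hFN := isFunctionField_level Qb (M * q)
  haveI := FA.Curve.hasPrincipalDivisors hFN
  have hfinM := finiteAlong hFM hFN (heckeAlphaBar Qb M q)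
  have hintM := isIntegral_toRingHom hFM hFN (heckeAlphaBar Qb M q)
  have hNM := normFormulaAlong hFM hFN (heckeAlphaBar Qb M q) hfinM
  obtain ⟨D, hD⟩ := Pic0.mk_surjective (x : Pic0 Qb (levelField (M * q) Qb))
  obtain ⟨g, hg, hgD⟩ : ∃ g : levelField (M * q) Qb, g ≠ 0 ∧
      ∀ P, (n : ℤ) * (D : Divisor Qb (levelField (M * q) Qb)) P = P.ord g := by
    have h : Pic0.mk ((n : ℤ) • D) = 0 := by
      have := Pic0.mem_torsion.1 x.2
      rw [← hD] at this
      exact this
    rw [Pic0.mk, QuotientAddGroup.eq_zero_iff, AddSubgroup.mem_addSubgroupOf] at h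
    obtain ⟨g, hg, hgD⟩ := h
    exact ⟨g, hg, fun P => by simpa using hgD P⟩
  obtain ⟨hα, hβ, hP, hfin, hFI, hN⟩ := heckeInputs_level (L := Qb) (M * q) q
  obtain ⟨hα', hβ', hP', hfin', hFI', hN'⟩ := heckeInputs_level (L := Qb) M q
  haveI := hP
  haveI := hP'
  -- the divisors and their functions
  obtain ⟨hU0, hUord⟩ := ord_norm_correspondence (heckeBetaBar Qb (M * q) q)
    (heckeAlphaBar Qb (M * q) q) hβ hα hfin hN hg hgD
  set ng : levelField (M * q) Qb := (letI := algebraAlong (heckeAlphaBar Qb (M * q) q);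
    Algebra.norm (levelField (M * q) Qb) (heckeBetaBar Qb (M * q) q g))
  let U := Pic0.degZeroCorrespondence (heckeBetaBar Qb (M * q) q) (heckeAlphaBar Qb (M * q) q)
    hβ hα hFI D
  let W : Divisor.degZero (K := Qb) (F := levelField (M * q) Qb) →+
      Divisor.degZero (K := Qb) (F := levelField (M * q) Qb) :=
    SemilinearAut.degZeroSMulHom (wAut M q Qb hqM)
  have hw : ∀ (E : Divisor.degZero (K := Qb) (F := levelField (M * q) Qb))
      (e : levelField (M * q) Qb), (∀ P, (n : ℤ) * (E : Divisor Qb _) P = P.ord e) →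
      ∀ P, (n : ℤ) * (W E : Divisor Qb (levelField (M * q) Qb)) P =
        P.ord (wLvl M q Qb hqM e) := fun E e he P => by
    show (n : ℤ) * ((SemilinearAut.degZeroSMulHom (wAut M q Qb hqM) E : Divisor.degZero) :
      Divisor Qb (levelField (M * q) Qb)) P = _
    rw [SemilinearAut.coe_degZeroSMulHom, SemilinearAut.divisor_smul_apply, he]
    have := SemilinearAut.ord_smul (wAut M q Qb hqM) ((wAut M q Qb hqM)⁻¹ • P) e
    rw [smul_inv_smul, wAut_smul] at this
    exact this.symm
  have hw0 : ∀ {e : levelField (M * q) Qb}, e ≠ 0 → wLvl M q Qb hqM e ≠ 0 := fun he =>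
    (map_ne_zero_iff _ (wLvl M q Qb hqM).injective).2 he
  have hU : ∀ P, (n : ℤ) * (U : Divisor Qb (levelField (M * q) Qb)) P = P.ord ng := hUord
  have hpush : ∀ (E : Divisor.degZero (K := Qb) (F := levelField (M * q) Qb))
      (e : levelField (M * q) Qb), e ≠ 0 → (∀ P, (n : ℤ) * (E : Divisor Qb _) P = P.ord e) →
      normDownAlpha M q Qb e ≠ 0 ∧ ∀ P : Place Qb (levelField M Qb),
        (n : ℤ) * pushDown M q Qb (E : Divisor Qb (levelField (M * q) Qb)) P =
          P.ord (normDownAlpha M q Qb e) := fun E e he0 he =>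
    ord_norm_push (heckeAlphaBar Qb M q) hintM hfinM hNM he0 he
  obtain ⟨hG0, hG⟩ := hpush D g hg hgD
  obtain ⟨-, hPU⟩ := hpush U ng hU0 hU
  obtain ⟨hPW0, hPW⟩ := hpush (W D) _ (hw0 hg) (hw D g hgD)
  obtain ⟨hPWU0, hPWU⟩ := hpush (W U) _ (hw0 hU0) (hw U ng hU)
  obtain ⟨-, hT⟩ := ord_norm_correspondence (heckeBetaBar Qb M q) (heckeAlphaBar Qb M q) hβ' hα'
    hfin' hN' hG0 hG
  have hid : ng * wLvl M q Qb hqM g = heckeBetaBar Qb M q (normDownAlpha M q Qb g) :=
    normAlpha_mul_wLvl M q Qb hqM g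
  have hadd : pushDown M q Qb (U : Divisor Qb (levelField (M * q) Qb)) +
      pushDown M q Qb (W D : Divisor Qb (levelField (M * q) Qb)) =
      Divisor.correspondence (heckeBetaBar Qb M q) (heckeAlphaBar Qb M q) hβ' hα'
        (pushDown M q Qb (D : Divisor Qb (levelField (M * q) Qb))) := by
    refine Finsupp.ext fun P => mul_left_cancel₀ (Int.natCast_ne_zero.2 hn) ?_
    rw [Finsupp.add_apply, mul_add, hPU, hPW, hT]
    have h1 := (hpush U ng hU0 hU).1
    rw [← P.ord_mul h1 hPW0, ← hid]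
    refine congrArg P.ord ?_
    letI := algebraAlong (heckeAlphaBar Qb M q)
    exact (map_mul (Algebra.norm (levelField M Qb)) _ _).symm
  have hwU : pushDown M q Qb (W U : Divisor Qb (levelField (M * q) Qb)) =
      (q : ℕ) • pushDown M q Qb (D : Divisor Qb (levelField (M * q) Qb)) := by
    have hid2 : wLvl M q Qb hqM ng * g = heckeAlphaBar Qb M q (normDownAlpha M q Qb g) := by
      have h := congrArg (wLvl M q Qb hqM) hid
      rwa [map_mul, wLvl_wLvl, wLvl_beta] at h
    have hN2 : normDownAlpha M q Qb (wLvl M q Qb hqM ng) * normDownAlpha M q Qb g =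
        normDownAlpha M q Qb g ^ (q + 1) := by
      letI := algebraAlong (heckeAlphaBar Qb M q)
      haveI : Module.Finite (levelField M Qb) (levelField (M * q) Qb) := hfinM
      have h := congrArg (Algebra.norm (levelField M Qb)) hid2
      rw [map_mul] at h
      refine h.trans ?_
      refine (Algebra.norm_algebraMap (normDownAlpha M q Qb g)).trans ?_
      exact congrArg (normDownAlpha M q Qb g ^ ·) (finrank_alpha M q hqM Qb)
    rw [pow_succ] at hN2
    have e := mul_right_cancel₀ hG0 hN2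
    refine Finsupp.ext fun P => mul_left_cancel₀ (Int.natCast_ne_zero.2 hn) ?_
    rw [hPWU, e, Finsupp.smul_apply, FA.ModField.place_ord_pow, ← hG, nsmul_eq_mul]
    ring
  have hmk : ∀ E : Divisor.degZero (K := Qb) (F := levelField (M * q) Qb),
      pushLvl M q (Pic0.mk E) = Pic0.mk ⟨pushDown M q Qb (E : Divisor Qb (levelField (M * q) Qb)),
        Divisor.pushforwardAlong_mem_degZero _ hintM E.2⟩ := fun E => rfl
  have hUx : heckeOperatorAlong Qb (M * q) q (x : Pic0 Qb (levelField (M * q) Qb)) = Pic0.mk U := by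
    rw [← hD, heckeOperatorAlong_eq hα hβ hFI hfin hN]
    rfl
  rw [hUx, ← hD]
  rw [SemilinearAut.pic0_smul_mk, SemilinearAut.pic0_smul_mk, hmk, hmk, hmk, hmk,
    heckeOperatorAlong_eq hα' hβ' hFI' hfin' hN']
  refine ⟨?_, ?_⟩
  · rw [← Pic0.mk_add]
    refine Eq.trans ?_ (Pic0.correspondence_mk _ _ _ _ _ _ _ _).symm
    exact congrArg Pic0.mk (Subtype.ext hadd)
  · exact (congrArg Pic0.mk (Subtype.ext hwU)).trans (map_nsmul (QuotientAddGroup.mk' _) q _)

variable (p : ℕ) [hp : Fact p.Prime] [NeZero p]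

include hqM in
/-- The quadratic relation of `U_q`, pushed forward to level `M`. -/
theorem pushLvl_quad {B : Finset ℕ} (hpB : p ∈ B) {t : HFull (M * q) × HFull M}
    (ht : t ∈ pairRing (M * q) M (dvd_mul_right M q) B) {m : ℕ}
    (ht2 : t.2 = m • CuspForm.heckeAlgebra.T (k := 2) hq.out hqM (Set.notMem_empty _)) (n : ℕ)
    (z : ModN (M * q) (∅ : Set ℕ) (p ^ n)) :
    pushLvl M q (toTors (M * q) (∅ : Set ℕ) (p ^ n)
      (((m : HFull (M * q)) * (uQ M q * uQ M q) - t.1 * uQ M q + (m : HFull (M * q)) * q) • z)) =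
      0 := by
  set P := fun y => pushLvl M q (toTors (M * q) (∅ : Set ℕ) (p ^ n) y)
  have hn : p ^ n ≠ 0 := pow_ne_zero n (NeZero.ne p)
  have ht' : ∀ y, P (t.1 • y) = m • heckeOperatorAlong Qb M q (P y) := fun y => by
    obtain ⟨w, hw⟩ := exists_toTors_pushLvl M q p n y
    show pushLvl M q (toTors (M * q) (∅ : Set ℕ) (p ^ n) (t.1 • y)) =
      m • heckeOperatorAlong Qb M q (pushLvl M q (toTors (M * q) (∅ : Set ℕ) (p ^ n) y))
    rw [isPushCompat_of_mem M q p hpB ht n y w hw.symm, ht2, smul_assoc, map_nsmul,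
      toTors_T_smul, hw]
    rfl
  have h1 := (pushLvl_hecke_rel M q hqM hn (torsCls M q p n (uQ M q • z))).1
  have h2 := (pushLvl_hecke_rel M q hqM hn (torsCls M q p n z)).2
  rw [coe_torsCls] at h1 h2
  rw [← toTors_uQ] at h1 h2
  rw [h2] at h1
  show P _ = 0
  simp only [P, add_smul, sub_smul, mul_smul, Nat.cast_smul_eq_nsmul, map_add, map_sub, map_nsmul]
  have h3 := ht' (uQ M q • z)
  simp only [P] at h3
  rw [h3, ← h1, nsmul_add]
  abel

end FA.ModField
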