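import Fermat.Agent.ModField.Semistable.HenselBranch
import Fermat.Agent.ModField.Congruence.Integral
import Fermat.Agent.CurveRed.ModularBase
import Fermat.Agent.ModField.Bar
import Fermat.Agent.ModField.Igusa.Gauss
import Fermat.Agent.ModField.Semistable.AtkinLehner

/-!
# The `q`-expansion reduction of `X₀(M q)` at `q`: the component of `∞`

Integral series of level `M q` reduce, after scaling, into the function field of level `M`: the
root `j(qz)` of the modular polynomial is a simple root modulo `q`, hence a limit of Newton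
approximations at level `M`.
-/

set_option autoImplicit false
set_option linter.style.haveILetI false
set_option linter.unusedSectionVars false
set_option synthInstance.maxHeartbeats 400000
set_option maxHeartbeats 1600000

noncomputable section

namespace FA.ModField

open ModularCurve AlgebraicCurve FA.Curve FA.CurveRed FA.CurveRed.Modular Polynomial

variable (M q : ℕ) [NeZero M] [hq : Fact q.Prime]
variable {L : Type} [Field L] {k : Type} [Field k] (A : ValuationSubring L) (π : A →+* k)

/-- Integral series of level `M q`. -/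
def intBig : Subring (LaurentSeries A) :=
  (modularFunctionFieldFullC L (M * q)).toSubalgebra.toSubring.comap
    (coeffMap (A.subtype : A →+* L))

/-- Generic evaluation. -/
def upBig : intBig M q A →+* modularFunctionFieldFullC L (M * q) :=
  ((coeffMap (A.subtype : A →+* L)).comp (intBig M q A).subtype).codRestrict _ fun y => y.2

/-- Special evaluation. -/
def downBig : intBig M q A →+* LaurentSeries k := (coeffMap π).comp (intBig M q A).subtype

theorem upBig_injective : Function.Injective (upBig M q A) := fun _ _ h =>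
  Subtype.ext (coeffMap_injective' A.subtype_injective (congrArg Subtype.val h))

theorem C_mem_intBig (a : A) : (HahnSeries.C a : LaurentSeries A) ∈ intBig M q A := by
  show coeffMap _ _ ∈ modularFunctionFieldFullC L (M * q)
  rw [coeffMap_C]
  have h1 := (modularFunctionFieldFullC L (M * q)).algebraMap_mem (a : L)
  rwa [algebraMap_laurentSeries_eq_single, ← HahnSeries.C_apply] at h1

/-- Constants. -/
def constBig : A →+* intBig M q A :=
  (HahnSeries.C : A →+* LaurentSeries A).codRestrict _ (C_mem_intBig M q A)

variable (hπs : Function.Surjective π) (hπ0 : ∀ a : A, π a = 0 ↔ A.valuation a < 1)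

/-- The reduction of coefficients, with values in series. -/
def redBig : ConstRed L (modularFunctionFieldFullC L (M * q)) k (LaurentSeries k) A :=
  constRedOfQuot π (constBig M q A) (v := downBig M q A π) (upBig_injective M q A) hπs hπ0
    (fun a => Subtype.ext (by
      show coeffMap _ (HahnSeries.C a) = algebraMap L (LaurentSeries L) (a : L)
      rw [coeffMap_C, algebraMap_laurentSeries_eq_single, ← HahnSeries.C_apply]
      rfl))
    (fun a => by
      show coeffMap _ (HahnSeries.C a) = algebraMap k (LaurentSeries k) (π a)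
      rw [coeffMap_C, algebraMap_laurentSeries_eq_single, ← HahnSeries.C_apply])

theorem redBig_series (y : LaurentSeries A) {f : modularFunctionFieldFullC L (M * q)}
    (hf : coeffMap (A.subtype : A →+* L) y = f) :
    (redBig M q A π hπs hπ0).Red f (coeffMap π y) := by
  rw [redBig, constRedOfQuot_red]
  have hmem : y ∈ intBig M q A :=
    show coeffMap _ y ∈ modularFunctionFieldFullC L (M * q) from hf ▸ f.2
  have h := isQuot_apply (u := upBig M q A) (v := downBig M q A π) ⟨y, hmem⟩
  have e1 : upBig M q A ⟨y, hmem⟩ = f := Subtype.ext hf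
  rwa [e1] at h

variable (L) in
theorem fullC_le : modularFunctionFieldFullC L M ≤ modularFunctionFieldFullC L (M * q) := by
  rw [modularFunctionFieldFullC, IntermediateField.adjoin_le_iff]
  rintro _ ⟨d, hne, hd, rfl⟩
  haveI := hne
  exact jqModCd_mem_full L (M * q) (hd.trans (dvd_mul_right M q))

variable (L) in
/-- The inclusion of level `M` in level `M q`. -/
def inclLevel : modularFunctionFieldFullC L M →ₐ[L] modularFunctionFieldFullC L (M * q) :=
  IntermediateField.inclusion (fullC_le M q L)

theorem coe_inclLevel (x : modularFunctionFieldFullC L M) :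
    (inclLevel M q L x : LaurentSeries L) = (x : LaurentSeries L) :=
  IntermediateField.coe_inclusion _ x

theorem redBig_compat (e : modularFunctionFieldFullC L M) (r : modularFunctionFieldFullC k M)
    (h : (redN A π M hπs hπ0).Red e r) :
    (redBig M q A π hπs hπ0).Red (inclLevel M q L e)
      ((modularFunctionFieldFullC k M).val r) := by
  rw [redN, constRedOfQuot_red] at h
  rw [redBig, constRedOfQuot_red]
  obtain ⟨a, b, hb, ha, hr⟩ := h
  have hmem : ∀ c : intRing A π M, (c : LaurentSeries A) ∈ intBig M q A := fun c =>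
    show coeffMap _ _ ∈ modularFunctionFieldFullC L (M * q) from fullC_le M q L c.2.1
  refine ⟨⟨a, hmem a⟩, ⟨b, hmem b⟩, fun h0 => hb (Subtype.ext h0), Subtype.ext ?_, ?_⟩
  · show (inclLevel M q L e : LaurentSeries L) * coeffMap _ (b : LaurentSeries A) =
      coeffMap _ (a : LaurentSeries A)
    rw [coe_inclLevel]
    exact congrArg Subtype.val ha
  · show (r : LaurentSeries k) * coeffMap π (b : LaurentSeries A) =
      coeffMap π (a : LaurentSeries A)
    exact congrArg Subtype.val hr

variable [Algebra ℚ L] [Algebra L ℂ] [IsAlgClosed L]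

/-- The field of level `M q` is generated by `j(qz)` over level `M`. -/
theorem exists_poly_beta (hqM : ¬ q ∣ M) (f : levelField (M * q) L) :
    ∃ g : (levelField M L)[X],
      g.eval₂ (heckeAlphaBar L M q).toRingHom (heckeBetaBar L M q (levelJ M L)) = f := by
  classical
  letI := algebraAlong (heckeAlphaBar L M q)
  haveI : FiniteDimensional (levelField M L) (levelField (M * q) L) :=
    finiteAlong (isFunctionField_level L M) (isFunctionField_level L (M * q))
      (heckeAlphaBar L M q)
  haveI := charZero_levelField L M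
  set y : levelField (M * q) L := heckeBetaBar L M q (levelJ M L)
  have hy : IsIntegral (levelField M L) y := IsIntegral.of_finite _ y
  set P := minpoly (levelField M L) y
  set τ : levelField M L →+* LaurentSeries ℂ :=
    (qExpand ℂ M).comp ((qExpand ℂ q).comp (toCSer L))
  have hle : q + 1 ≤ P.natDegree := by
    set R := (P.map τ).roots.toFinset
    have hmem : ∀ i, cosEmb M q L hqM i y ∈ R := fun i => by
      rw [Multiset.mem_toFinset, Polynomial.mem_roots
        (Polynomial.map_monic_ne_zero (minpoly.monic hy)), Polynomial.IsRoot, Polynomial.eval_map]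
      have hτ : (cosEmb M q L hqM i).toRingHom.comp
          (algebraMap (levelField M L) (levelField (M * q) L)) = τ :=
        RingHom.ext fun x => (cosEmb_alpha M q L hqM i x).trans (qExpand_qExpand _ _ _).symm
      rw [← hτ]
      show P.eval₂ _ ((cosEmb M q L hqM i).toRingHom y) = 0
      refine (Polynomial.hom_eval₂ P _ (cosEmb M q L hqM i).toRingHom y).symm.trans ?_
      exact (congrArg _ (minpoly.aeval (levelField M L) y)).trans (map_zero _)
    have h1 : Fintype.card (Option (Fin q)) ≤ R.card :=
      Finset.card_le_card_of_injOn (s := Finset.univ) _ (fun i _ => hmem i)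
        (cosEmb_levelJ_injective M q hqM L).injOn
    rw [Fintype.card_option, Fintype.card_fin] at h1
    exact h1.trans ((Multiset.toFinset_card_le _).trans
      ((Polynomial.card_roots' _).trans Polynomial.natDegree_map_le))
  have htop : IntermediateField.adjoin (levelField M L) {y} = ⊤ := by
    refine IntermediateField.eq_of_le_of_finrank_le le_top ?_
    rw [IntermediateField.finrank_top', IntermediateField.adjoin.finrank hy]
    exact (finrank_alpha M q hqM L).le.trans hle
  have hf : f ∈ (IntermediateField.adjoin (levelField M L) {y}).toSubalgebra := by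
    rw [htop]; exact trivial
  rw [IntermediateField.adjoin_simple_toSubalgebra_of_isAlgebraic hy.isAlgebraic] at hf
  obtain ⟨g, hg⟩ := (Algebra.adjoin_singleton_eq_range_aeval _ y).le hf
  exact ⟨g, hg⟩

variable [IsAlgClosed k] [CharP k q]

include hπs hπ0 in
theorem natCast_level_ne_zero (hqM : ¬ q ∣ M) (r : ℕ) (hr : r.Prime) (hrM : r ∣ M) :
    (r : k) ≠ 0 := fun h =>
  hqM ((Nat.prime_dvd_prime_iff_eq hq.out hr).1 ((CharP.cast_eq_zero_iff k q r).1 h) ▸ hrM)

theorem exists_qExpand_sub_pow :
    ∃ z : LaurentSeries A, qExpand A q (jqModC A) - jqModC A ^ q =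
      (q : LaurentSeries A) * z := by
  have h0 : zRed q (qExpand ℤ q (jqModC ℤ) - jqModC ℤ ^ q) = 0 := by
    rw [map_sub, map_pow, zRed, coeffMap_qExpand, coeffMap_jqModC, pow_prime_eq_qExpand, sub_self]
  obtain ⟨z, hz⟩ := exists_eq_mul_of_zRed q h0
  refine ⟨coeffMap (Int.castRingHom A) z, ?_⟩
  have h := congrArg (coeffMap (Int.castRingHom A)) hz
  rwa [map_sub, map_pow, map_mul, map_natCast, coeffMap_qExpand, coeffMap_jqModC] at h

/-- Every function of level `M q` scales to a nonzero reduction of level `M`. -/
theorem exists_red_inf (hqM : ¬ q ∣ M)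
    (harch : ∀ c : L, c ≠ 0 → ∃ m : ℕ, A.valuation ((q : L) ^ m) < A.valuation c) :
    (∀ f : modularFunctionFieldFullC L (M * q), f ≠ 0 →
      ∃ (c : L) (g : modularFunctionFieldFullC L (M * q)) (r : modularFunctionFieldFullC k M),
        c ≠ 0 ∧ f = algebraMap L _ c * g ∧
          (redBig M q A π hπs hπ0).Red g ((modularFunctionFieldFullC k M).val r) ∧ r ≠ 0) ∧
    ∀ (f : modularFunctionFieldFullC L (M * q)) (R : LaurentSeries k),
      (redBig M q A π hπs hπ0).Red f R → R ∈ modularFunctionFieldFullC k M := by
  classical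
  haveI : CharZero L := charZero_of_injective_algebraMap (algebraMap ℚ L).injective
  haveI : NeZero q := ⟨hq.out.ne_zero⟩
  haveI : NeZero (M * q) := ⟨mul_ne_zero (NeZero.ne M) hq.out.ne_zero⟩
  have hk := natCast_level_ne_zero M q A π hπs hπ0 (k := k) hqM
  have hfull := laurentBaseChange_full L M
  have hfullN := laurentBaseChange_full L (M * q)
  set C₀ := redN A π M hπs hπ0
  set C := redBig M q A π hπs hπ0
  have hG : qExpand k q (jqModC k) = coeffMap π (jqModC A) ^ q := by
    rw [coeffMap_jqModC]
    have h := jqd_pow_prime (k := k) q 1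
    rw [qExpand_one_apply] at h
    exact h.symm
  -- the coefficients
  choose Y hY hYred using fun m => exists_coeff_series M q hqM L A π (levelJ M L) (jqModC A)
    (by rw [coe_levelJ, coeffMap_jqModC]) (jqModC k) hG m
  have hYup : ∀ m, coeffMap (A.subtype : A →+* L) (Y m) ∈ modularFunctionFieldFullC L M :=
    fun m => by rw [hY m, ← hfull]; exact ((heckePoly M q L (levelJ M L)).coeff m).2
  have hYdown : ∀ m, coeffMap π (Y m) ∈ modularFunctionFieldFullC k M := fun m =>
    mem_down (hπs := hπs) (hπ0 := hπ0) hk _ (hYup m)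
  let cm : ℕ → C₀.G := fun m => ⟨⟨_, hYup m⟩, (red_series (r := ⟨_, hYdown m⟩) (Y m) rfl rfl).1⟩
  have hcm : ∀ m, C₀.red (cm m) = ⟨_, hYdown m⟩ := fun m =>
    (ConstRed.red_of_mem (cm m)).unique (red_series (Y m) rfl rfl)
  set p : C₀.G[X] := X ^ (q + 1) + ∑ m ∈ Finset.range (q + 1), monomial m (cm m) with hpdef
  have hpmonic : p.Monic := monic_X_pow_add (lt_of_le_of_lt (degree_sum_le _ _)
    ((Finset.sup_lt_iff (WithBot.bot_lt_coe _)).2 fun m hm =>
      lt_of_le_of_lt (degree_monomial_le _ _) (WithBot.coe_lt_coe.2 (Finset.mem_range.1 hm))))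
  set P := heckePoly M q L (levelJ M L)
  have hPdeg := natDegree_heckePoly M q hqM L (levelJ M L)
  have hPeval : P = X ^ (q + 1) + ∑ m ∈ Finset.range (q + 1), monomial m (P.coeff m) := by
    conv_lhs => rw [P.as_sum_range_C_mul_X_pow, hPdeg, Finset.sum_range_succ]
    rw [show P.coeff (q + 1) = 1 from hPdeg ▸ (heckePoly_monic M q L (levelJ M L)).coeff_natDegree,
      map_one, one_mul, add_comm]
    simp only [C_mul_X_pow_eq_monomial]
  -- the root
  have hymem : qExpand L q (jqModC L) ∈ modularFunctionFieldFullC L (M * q) :=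
    jqModCd_mem_full L (M * q) (dvd_mul_left q M)
  have hyup : coeffMap (A.subtype : A →+* L) (qExpand A q (jqModC A)) =
      qExpand L q (jqModC L) := by rw [coeffMap_qExpand, coeffMap_jqModC]
  let y : C.G := ⟨⟨_, hymem⟩, (redBig_series M q A π hπs hπ0 _ hyup).1⟩
  set φ := branchHom (inclLevel M q L) (modularFunctionFieldFullC k M).val
    (redBig_compat M q A π hπs hπ0)
  have hroot : p.eval₂ φ y = 0 := by
    apply Subtype.ext
    apply Subtype.ext
    have h0 : P.eval₂ (heckeAlphaBar L M q).toRingHom (heckeBetaBar L M q (levelJ M L)) = 0 := by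
      letI := algebraAlong (heckeAlphaBar L M q)
      haveI : FiniteDimensional (levelField M L) (levelField (M * q) L) :=
        finiteAlong (isFunctionField_level L M) (isFunctionField_level L (M * q))
          (heckeAlphaBar L M q)
      exact aeval_mulCharpoly _
    rw [hPeval] at h0
    have h1 := congrArg (fun z : levelField (M * q) L => (z : LaurentSeries L)) h0
    simp only [eval₂_add, eval₂_X_pow, eval₂_finsetSum, eval₂_monomial, AddMemClass.coe_add,
      SubmonoidClass.coe_pow, AddSubmonoidClass.coe_finsetSum, MulMemClass.coe_mul,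
      ZeroMemClass.coe_zero, coe_heckeBetaBar, coe_levelJ] at h1
    simp only [hpdef, eval₂_add, eval₂_X_pow, eval₂_finsetSum, eval₂_monomial, AddMemClass.coe_add,
      SubmonoidClass.coe_pow, AddSubmonoidClass.coe_finsetSum, MulMemClass.coe_mul,
      ZeroMemClass.coe_zero, φ, coe_branchHom, coe_inclLevel]
    refine Eq.trans ?_ h1
    refine congrArg₂ (· + ·) rfl (Finset.sum_congr rfl fun m _ => ?_)
    rw [show ((heckeAlphaBar L M q).toRingHom (P.coeff m) : LaurentSeries L) =
      ((P.coeff m : levelField M L) : LaurentSeries L) from coe_heckeAlphaBar M q _, ← hY m]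
  -- the residue of the root
  have hjmem : jqModC L ∈ modularFunctionFieldFullC L M := jqModC_mem_full L M
  let y₀ : C₀.G := ⟨⟨_, hjmem⟩, (red_jElem (A := A) (π := π) (N := M)).1⟩ ^ q
  have hy₀ : C₀.red y₀ = jBar k M ^ q := by
    rw [map_pow]
    exact congrArg (· ^ q) ((ConstRed.red_of_mem _).unique red_jElem)
  have hκ : ((p.map C₀.red).map (modularFunctionFieldFullC k M).val.toRingHom) =
      (X - Polynomial.C (qExpand k q (jqModC k))) * (X ^ q - Polynomial.C (jqModC k)) := by
    set T : (LaurentSeries k)[X] :=
      (X - Polynomial.C (qExpand k q (jqModC k))) * (X ^ q - Polynomial.C (jqModC k))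
    have hTm : T.Monic := (monic_X_sub_C _).mul (monic_X_pow_sub_C _ hq.out.ne_zero)
    have hTd : T.natDegree = q + 1 := by
      rw [(monic_X_sub_C _).natDegree_mul (monic_X_pow_sub_C _ hq.out.ne_zero),
        natDegree_X_sub_C, natDegree_X_pow_sub_C, add_comm]
    have hT : T = X ^ (q + 1) + ∑ m ∈ Finset.range (q + 1), monomial m (T.coeff m) := by
      conv_lhs => rw [T.as_sum_range_C_mul_X_pow, hTd, Finset.sum_range_succ]
      rw [show T.coeff (q + 1) = 1 from hTd ▸ hTm.coeff_natDegree,
        map_one, one_mul, add_comm]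
      simp only [C_mul_X_pow_eq_monomial]
    rw [hT, hpdef]
    simp only [Polynomial.map_add, Polynomial.map_pow, Polynomial.map_X, Polynomial.map_sum,
      Polynomial.map_monomial]
    refine congrArg₂ (· + ·) rfl (Finset.sum_congr rfl fun m _ => congrArg _ ?_)
    rw [hcm]
    show coeffMap π (Y m) = _
    rw [hYred m, coeffMap_jqModC]
  have hsimple : (p.map C₀.red).derivative.eval (jBar k M ^ q) ≠ 0 := by
    intro h
    haveI : CharP (LaurentSeries k) q :=
      charP_of_injective_ringHom (f := (HahnSeries.C : k →+* LaurentSeries k))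
        HahnSeries.C_injective q
    have h1 := congrArg (modularFunctionFieldFullC k M).val.toRingHom h
    rw [← Polynomial.eval₂_hom, ← Polynomial.eval_map, ← Polynomial.derivative_map, hκ,
      map_zero] at h1
    have hG' : qExpand k q (jqModC k) = jqModC k ^ q := by rw [hG, coeffMap_jqModC]
    have he : (modularFunctionFieldFullC k M).val.toRingHom (jBar k M ^ q) =
        qExpand k q (jqModC k) := by
      rw [map_pow, hG']
      rfl
    rw [he, derivative_mul, derivative_sub, derivative_X, derivative_C, sub_zero, one_mul,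
      derivative_sub, derivative_X_pow, derivative_C, sub_zero, eval_add, eval_mul, eval_mul,
      eval_sub, eval_pow, eval_X, eval_C, eval_sub, eval_X, eval_C, sub_self, zero_mul, add_zero,
      sub_eq_zero, ← map_pow, ← hG', qExpand_qExpand] at h1
    have h2 := congrArg (fun s : LaurentSeries k => s.coeff (-1)) h1
    haveI : NeZero (q * q) := ⟨mul_ne_zero hq.out.ne_zero hq.out.ne_zero⟩
    simp only [jqModC_coeff_neg_one] at h2
    rw [qExpand_coeff_of_not_dvd (q * q)] at h2
    · exact zero_ne_one h2
    · rw [Int.dvd_neg, show (1 : ℤ) = ((1 : ℕ) : ℤ) from rfl, Int.natCast_dvd_natCast, Nat.dvd_one]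
      intro h'
      exact hq.out.ne_one (Nat.eq_one_of_mul_eq_one_left h')
  -- the divided difference
  obtain ⟨z, hz⟩ := exists_qExpand_sub_pow q A
  have hqL : (q : L) ≠ 0 := Nat.cast_ne_zero.2 hq.out.ne_zero
  have hzup : coeffMap (A.subtype : A →+* L) z ∈ modularFunctionFieldFullC L (M * q) := by
    have h := congrArg (coeffMap (A.subtype : A →+* L)) hz
    rw [map_sub, map_pow, map_mul, map_natCast, coeffMap_jqModC, hyup] at h
    have hne : (q : LaurentSeries L) ≠ 0 := by
      rw [← map_natCast (algebraMap L (LaurentSeries L)), _root_.map_ne_zero]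
      exact hqL
    have he : coeffMap (A.subtype : A →+* L) z =
        (qExpand L q (jqModC L) - jqModC L ^ q) * (q : LaurentSeries L)⁻¹ := by
      rw [h, mul_comm _ (coeffMap (A.subtype : A →+* L) z), mul_assoc, mul_inv_cancel₀ hne,
        mul_one]
    rw [he]
    exact mul_mem (sub_mem hymem (pow_mem (jqModC_mem_full L (M * q)) q))
      (inv_mem (natCast_mem _ q))
  let w₀ : C.G := ⟨⟨_, hzup⟩, (redBig_series M q A π hπs hπ0 z rfl).1⟩
  have hπq : C₀.π (q : A) = 0 := by
    show π (q : A) = 0
    rw [map_natCast, CharP.cast_eq_zero]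
  have hw₀ : (y : modularFunctionFieldFullC L (M * q)) - inclLevel M q L
      ((y₀ : C₀.G) : modularFunctionFieldFullC L M) =
        algebraMap L _ (((q : A) : A) : L) * (w₀ : modularFunctionFieldFullC L (M * q)) := by
    apply Subtype.ext
    have h := congrArg (coeffMap (A.subtype : A →+* L)) hz
    rw [map_sub, map_pow, map_mul, map_natCast, coeffMap_jqModC, hyup] at h
    rw [AddSubgroupClass.coe_sub, coe_inclLevel, MulMemClass.coe_mul]
    simp only [y, y₀, w₀, SubmonoidClass.coe_pow]
    refine h.trans ?_
    congr 1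
    rw [show ((((q : A)) : A) : L) = (q : L) from map_natCast A.subtype q]
    exact (map_natCast (algebraMap L (LaurentSeries L)) q).symm
  have hgen : ∀ f : modularFunctionFieldFullC L (M * q), ∃ g : (modularFunctionFieldFullC L M)[X],
      g.eval₂ (inclLevel M q L).toRingHom (y : modularFunctionFieldFullC L (M * q)) = f := by
    intro f
    obtain ⟨g, hg⟩ := exists_poly_beta M q hqM (L := L) ⟨(f : LaurentSeries L), hfullN.ge f.2⟩
    refine ⟨g.map (IntermediateField.inclusion hfull.le).toRingHom, Subtype.ext ?_⟩
    have h1 := congrArg (fun z : levelField (M * q) L => (z : LaurentSeries L)) hg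
    rw [Polynomial.eval₂_map]
    simp only [eval₂_eq_sum, Polynomial.sum, AddSubmonoidClass.coe_finsetSum, MulMemClass.coe_mul,
      SubmonoidClass.coe_pow, coe_heckeBetaBar, coe_levelJ] at h1 ⊢
    refine Eq.trans ?_ h1
    refine Finset.sum_congr rfl fun m _ => congrArg₂ (· * ·) ?_ rfl
    exact ((coe_inclLevel M q _).trans (IntermediateField.coe_inclusion _ _)).trans
      (coe_heckeAlphaBar M q _).symm
  have hsc : C₀.Scaled := scaledN hk
  have hne : (((q : A)) : L) ≠ 0 := by
    rw [show ((((q : A)) : A) : L) = (q : L) from map_natCast A.subtype q]; exact hqL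
  have harch' : ∀ c : L, c ≠ 0 → ∃ m : ℕ,
      A.valuation ((((q : A)) : L) ^ m) < A.valuation c := by
    rw [show ((((q : A)) : A) : L) = (q : L) from map_natCast A.subtype q]; exact harch
  refine ⟨fun f hf => exists_branch_scale (redBig_compat M q A π hπs hπ0) hsc hpmonic hroot hy₀
      hsimple hπq hw₀ hne harch' hgen hf, fun f R hR => ?_⟩
  obtain ⟨r, rfl⟩ := exists_branch_red (redBig_compat M q A π hπs hπ0) hsc hpmonic hroot hy₀
    hsimple hπq hw₀ hne harch' hgen hR
  exact r.2

variable (hqM : ¬ q ∣ M)
  (harch : ∀ c : L, c ≠ 0 → ∃ m : ℕ, A.valuation ((q : L) ^ m) < A.valuation c)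

/-- The reduction to the component of `∞`. -/
def redInf : ConstRed L (modularFunctionFieldFullC L (M * q)) k (modularFunctionFieldFullC k M) A
    where
  π := π
  π_surjective := hπs
  π_eq_zero := hπ0
  G := (redBig M q A π hπs hπ0).G
  algebraMap_mem := (redBig M q A π hπs hπ0).algebraMap_mem
  red := (redBig M q A π hπs hπ0).red.codRestrict _ fun g =>
    (exists_red_inf M q A π hπs hπ0 hqM harch).2 g _ (ConstRed.red_of_mem g)
  red_algebraMap a := Subtype.ext ((redBig M q A π hπs hπ0).red_algebraMap a)
  red_inv g hg := by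
    obtain ⟨h1, h2⟩ := (redBig M q A π hπs hπ0).red_inv g fun h0 => hg (Subtype.ext h0)
    exact ⟨h1, Subtype.ext h2⟩

theorem redInf_iff {f : modularFunctionFieldFullC L (M * q)} {r : modularFunctionFieldFullC k M} :
    (redInf M q A π hπs hπ0 hqM harch).Red f r ↔
      (redBig M q A π hπs hπ0).Red f (r : LaurentSeries k) :=
  ⟨fun ⟨h, e⟩ => ⟨h, congrArg Subtype.val e⟩, fun ⟨h, e⟩ => ⟨h, Subtype.ext e⟩⟩

theorem scaled_redInf : (redInf M q A π hπs hπ0 hqM harch).Scaled := fun f _ hf => by
  obtain ⟨c, g, r, -, he, hg, hr⟩ := (exists_red_inf M q A π hπs hπ0 hqM harch).1 f hf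
  exact ⟨c, g, r, he, (redInf_iff M q A π hπs hπ0 hqM harch).2 hg, hr⟩

theorem redInf_series (y : LaurentSeries A) {f : modularFunctionFieldFullC L (M * q)}
    (hf : coeffMap (A.subtype : A →+* L) y = f) :
    ∃ hr : coeffMap π y ∈ modularFunctionFieldFullC k M,
      (redInf M q A π hπs hπ0 hqM harch).Red f ⟨_, hr⟩ := by
  have h := redBig_series M q A π hπs hπ0 y hf
  exact ⟨(exists_red_inf M q A π hπs hπ0 hqM harch).2 f _ h,
    (redInf_iff M q A π hπs hπ0 hqM harch).2 h⟩

theorem redInf_compat (e : modularFunctionFieldFullC L M) (r : modularFunctionFieldFullC k M)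
    (h : (redN A π M hπs hπ0).Red e r) :
    (redInf M q A π hπs hπ0 hqM harch).Red (inclLevel M q L e) r :=
  (redInf_iff M q A π hπs hπ0 hqM harch).2 (redBig_compat M q A π hπs hπ0 e r h)

end FA.ModField
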