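import Fermat.Agent.ModField.Semistable.GluedPoints

/-!
# The second order relation on the discs of the glued special fibre

The coordinates of three effective divisors in linear progression, one point in each disc of a
nonspecial set of smooth points, satisfy a linear recurrence up to second order.
-/

set_option autoImplicit false
set_option linter.style.haveILetI false
set_option linter.unusedSectionVars false

noncomputable section

namespace FA.ModField.SemiFibre

open AlgebraicCurve FA.Curve FA.CurveRed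

variable {K F k : Type*} [Field K] [Field F] [Algebra K F] [Field k] {ι : Type*} [Fintype ι]
  {Fk : ι → Type*} [∀ i, Field (Fk i)] [∀ i, Algebra k (Fk i)] {A : ValuationSubring K}
  {β σ : Type*} [Fintype β] [Fintype σ] (X : SemiFibre K F k Fk A β σ)

theorem sum_single_over {J : Type*} [Fintype J] [DecidableEq (Place K F)]
    {Q : J → Σ i, Place k (Fk i)} (hQ : Function.Injective Q) {P : J → Place K F}
    (hP : ∀ j, X.spl (P j) = some (Q j)) {j : J} {P' : Place K F} (hP' : X.spl P' = some (Q j)) :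
    (∑ l, Finsupp.single (P l) (1 : ℤ)) P' = if P' = P j then 1 else 0 := by
  rw [Finset.sum_apply', Finset.sum_eq_single j
    (fun l _ hl => Finsupp.single_eq_of_ne fun h => hl (hQ (Option.some_injective _
      (by rw [← hP l, ← h, hP']))))
    (fun h => absurd (Finset.mem_univ j) h), Finsupp.single_apply]
  simp only [eq_comm]

theorem sum_single_off {J : Type*} [Fintype J] {Q : J → Σ i, Place k (Fk i)} {P : J → Place K F}
    (hP : ∀ j, X.spl (P j) = some (Q j)) {P' : Place K F}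
    (hP' : ∀ j, X.spl P' ≠ some (Q j)) : (∑ l, Finsupp.single (P l) (1 : ℤ)) P' = 0 := by
  rw [Finset.sum_apply']
  exact Finset.sum_eq_zero fun l _ => Finsupp.single_eq_of_ne fun h => hP' l (by rw [h, hP l])

variable [IsAlgClosed K] [IsAlgClosed k] [Nonempty ι] (hF : IsFunctionField K F)
  (hk : ∀ i, IsFunctionField k (Fk i))

include hF hk

/-- Functions with no zeros and poles after reduction reduce to one constant everywhere. -/
theorem exists_red_const {f : F} {r : ∀ i, Fk i} (hred : ∀ i, (X.C i).Red f (r i))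
    (htube : ∀ P, X.spl P = none → AtLeast P 0 f)
    (hpush : ∀ i Q, (∀ b, X.br b ≠ ⟨i, Q⟩) → X.push (divOf hF f) i Q = 0) :
    ∃ a, ∀ i, r i = algebraMap k (Fk i) a := by
  obtain ⟨v, hv⟩ := X.glue f r hred htube
  refine X.exists_eq_const hk (T := fun _ => 0) ⟨fun i => ?_, fun b => v (X.pt b),
    X.mem_gluedVals.2 ⟨v, fun _ => rfl⟩, hv⟩ fun i Q => ?_
  all_goals
    have key : ∀ Q : Place k (Fk i), AtLeast Q 0 (r i) := fun Q => by
      by_cases hb : ∀ b, X.br b ≠ ⟨i, Q⟩
      · rcases eq_or_ne (r i) 0 with h | h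
        · exact Or.inl h
        · exact Or.inr (by rw [← X.push_divOf hF (hred i) h hb, hpush i Q hb])
      · push Not at hb
        obtain ⟨b, hb⟩ := hb
        have := (hv b).atLeast
        rwa [hb] at this
  · rw [FA.Curve.mem_riemannRochSpace]
    intro Q
    simpa using key Q
  · exact key Q

theorem second_order {J : Type*} [Fintype J] [Nonempty J] {Q : J → Σ i, Place k (Fk i)}
    (hQ : Function.Injective Q) (hQb : ∀ j b, X.br b ≠ Q j)
    {S : Finset (Σ i, Place k (Fk i))} (hS : ∀ x, x ∈ S ↔ ∃ j, Q j = x)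
    (hell : ∀ H ∈ X.gluedSpace (compDiv S), ∃ a, ∀ i, H i = algebraMap k (Fk i) a)
    {t : J → F} (ht : ∀ j, X.IsCoord (Q j) (t j))
    {P Pp Pm : J → Place K F} (hP : ∀ j, X.spl (P j) = some (Q j))
    (hPp : ∀ j, X.spl (Pp j) = some (Q j)) (hPm : ∀ j, X.spl (Pm j) = some (Q j))
    {a ap am : J → K} (ha : ∀ j, HasValue (P j) (t j) (a j))
    (hap : ∀ j, HasValue (Pp j) (t j) (ap j)) (ham : ∀ j, HasValue (Pm j) (t j) (am j))
    {f : F} (hf : f ≠ 0) (hdiv : divOf hF f = (∑ j, Finsupp.single (Pp j) (1 : ℤ)) +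
      (∑ j, Finsupp.single (Pm j) (1 : ℤ)) - (∑ j, Finsupp.single (P j) (1 : ℤ)) -
      ∑ j, Finsupp.single (P j) (1 : ℤ))
    {γ : A.ValueGroup} (hγp : ∀ j, A.valuation (ap j - a j) ≤ γ)
    (hγm : ∀ j, A.valuation (am j - a j) ≤ γ) (j : J) :
    A.valuation (ap j + am j - 2 * a j) ≤ γ * γ := by
  classical
  have hcoord : ∀ (j : J) (Y : Place K F) (y : K), X.spl Y = some (Q j) → HasValue Y (t j) y →
      A.valuation y < 1 ∧ Y.ord (t j - algebraMap K F y) = 1 ∧
        ∀ P', X.spl P' = some (Q j) → P' ≠ Y → P'.ord (t j - algebraMap K F y) = 0 := by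
    intro j Y y hY hy
    obtain ⟨z, hz, h1, h2, h3⟩ := (ht j).exists_value X hF (hQb j) hY
    rw [hy.unique hz]
    exact ⟨h1, h2, h3⟩
  choose r hr hr1 hnp using ht
  have hr0 : ∀ j, r j ≠ 0 := fun j h => by simpa [h] using hr1 j
  have hsmall : ∀ y : K, A.valuation y < 1 → ∃ h : y ∈ A, X.π ⟨y, h⟩ = 0 := fun y hy =>
    ⟨(A.valuation_le_one_iff y).1 hy.le, (X.π_eq_zero _).2 hy⟩
  have hredsub : ∀ (j : J) (y : K), A.valuation y < 1 →
      (X.C (Q j).1).Red (t j - algebraMap K F y) (r j) := fun j y hy => by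
    obtain ⟨h, h0⟩ := hsmall y hy
    have := (hr j).sub (X.red_const _ ⟨y, h⟩)
    rw [h0, map_zero, sub_zero] at this
    exact this
  have hoff : ∀ Y : Place K F, (∀ j, X.spl Y ≠ some (Q j)) → divOf hF f Y = 0 := fun Y hY => by
    simp only [hdiv, Finsupp.sub_apply, Finsupp.add_apply, X.sum_single_off hP hY,
      X.sum_single_off hPp hY, X.sum_single_off hPm hY]
    simp
  -- normalise `f`
  obtain ⟨c₀, b₁, hc₀, hb₁, i₀, hi₀⟩ := X.exists_joint_scale (f := fun _ => f) fun _ => hf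
  set f₁ := algebraMap K F c₀ * f with hf₁def
  have hf₁0 : f₁ ≠ 0 := mul_ne_zero (by simpa using hc₀) hf
  have hordf₁ : ∀ Y : Place K F, Y.ord f₁ = divOf hF f Y := fun Y => by
    rw [divOf_apply, hf₁def, Y.ord_mul (by simpa using hc₀) hf, place_ord_algebraMap, zero_add]
  have htube : ∀ Y, X.spl Y = none → ∀ j, X.spl Y ≠ some (Q j) := fun Y hY j => by simp [hY]
  obtain ⟨b₀, hb₀⟩ := X.exists_red_const hF hk hb₁
    (fun Y hY => Or.inr (by rw [hordf₁, hoff Y (htube Y hY)])) fun i Q' _ => by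
      rw [push_apply, show divOf hF f₁ = divOf hF f from Finsupp.ext fun Y => by
        rw [divOf_apply, hordf₁], hdiv]
      simp only [Finsupp.mapDomain_sub, Finsupp.mapDomain_add, Finsupp.mapDomain_finsetSum,
        Finsupp.mapDomain_single, hP, hPp, hPm]
      simp
  -- a point off the discs
  haveI := infinite_places (hk i₀)
  obtain ⟨Q₀, hQ₀⟩ := (((Set.finite_range X.br).union (Set.finite_range Q)).preimage
    (f := fun Q' => (⟨i₀, Q'⟩ : Σ i, Place k (Fk i)))
    (fun _ _ _ _ h => eq_of_heq (Sigma.mk.inj h).2)).infinite_compl.nonempty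
  simp only [Set.mem_compl_iff, Set.mem_preimage, Set.mem_union, Set.mem_range, not_or,
    not_exists] at hQ₀
  obtain ⟨Ps, hPs⟩ := X.spl_surj ⟨i₀, Q₀⟩ hQ₀.1
  have hdiv0 : ∀ Y : Place K F, X.spl Y = some ⟨i₀, Q₀⟩ → divOf hF f Y = 0 := fun Y hY =>
    hoff Y fun j h => hQ₀.2 j (Option.some_injective _ (by rw [← h, hY]))
  have hnpf : X.NoPole ⟨i₀, Q₀⟩ f₁ := fun Y hY => Or.inr (by rw [hordf₁, hdiv0 Y hY])
  obtain ⟨e, he⟩ := exists_hasValue hF (hnpf Ps hPs)
  obtain ⟨heA, heQ⟩ := X.hasValue_red hF (hb₁ i₀) hQ₀.1 hnpf hPs he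
  rw [hb₀] at heQ hi₀
  have hπe : X.π ⟨e, heA⟩ = b₀ := heQ.unique (hasValue_algebraMap Q₀ b₀)
  have hb00 : b₀ ≠ 0 := fun h => hi₀ (by rw [h, map_zero])
  have he1 : A.valuation e = 1 := le_antisymm ((A.valuation_le_one_iff _).2 heA)
    (not_lt.1 fun h => hb00 (hπe ▸ (X.π_eq_zero _).2 h))
  have he0 : e ≠ 0 := fun h => by simp [h] at he1
  have heinv : e⁻¹ ∈ A := (A.valuation_le_one_iff _).1 (by rw [map_inv₀, he1, inv_one])
  set s : F := algebraMap K F e⁻¹ * f₁ with hs
  have hreds : ∀ i, (X.C i).Red s 1 := fun i => by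
    have h := (X.red_const i ⟨e⁻¹, heinv⟩).mul (hb₁ i)
    rw [hb₀ i, ← map_mul, show X.π ⟨e⁻¹, heinv⟩ * b₀ = 1 by
      rw [← hπe, ← map_mul, ← map_one X.π]
      exact congrArg X.π (Subtype.ext (inv_mul_cancel₀ he0)), map_one] at h
    exact h
  have hvals : HasValue Ps s 1 := by
    have := he.smul e⁻¹
    rwa [inv_mul_cancel₀ he0] at this
  have hs0 : s ≠ 0 := (hreds i₀).ne_zero one_ne_zero
  have hords : ∀ Y : Place K F, Y.ord s = divOf hF f Y := fun Y => by
    rw [hs, Y.ord_mul (by simpa using he0) hf₁0, place_ord_algebraMap, zero_add, hordf₁]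
  -- the scale of `s - 1`
  obtain ⟨c₁, u, ub, hu, hub, hub0⟩ : ∃ (c : K) (u : F) (ub : ∀ i, Fk i),
      s - 1 = algebraMap K F c * u ∧ (∀ i, (X.C i).Red u (ub i)) ∧
        (c ≠ 0 → ∃ i, ub i ≠ 0) := by
    rcases eq_or_ne (s - 1) 0 with h | h
    · exact ⟨0, 0, 0, by rw [h, mul_zero], fun i => ConstRed.red_zero, fun h => absurd rfl h⟩
    · obtain ⟨c, ub, hc, h2, h3⟩ := X.exists_joint_scale (f := fun _ => s - 1) fun _ => h
      exact ⟨c⁻¹, algebraMap K F c * (s - 1), ub, by
        rw [← mul_assoc, ← map_mul, inv_mul_cancel₀ hc, map_one, one_mul], h2, fun _ => h3⟩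
  set cand : Option J → K := fun o => o.elim c₁ fun j => ap j + am j - 2 * a j
  obtain ⟨o, -, ho⟩ := Finset.exists_max_image (Finset.univ : Finset (Option J))
    (fun o => A.valuation (cand o)) Finset.univ_nonempty
  by_contra hbig
  rw [not_le] at hbig
  have hlarge : γ * γ < A.valuation (cand o) :=
    lt_of_lt_of_le hbig (ho (some j) (Finset.mem_univ _))
  set c := cand o with hcdef
  have hc0 : c ≠ 0 := fun h => by simp [h] at hlarge
  have hvc : 0 < A.valuation c := zero_lt_iff.2 ((Valuation.ne_zero_iff _).2 hc0)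
  have hdivle : ∀ y : K, A.valuation y ≤ A.valuation c → y / c ∈ A := fun y hy =>
    (A.valuation_le_one_iff _).1 (by
      rw [map_div₀]; exact div_le_one_of_le₀ hy zero_le)
  set w : F := algebraMap K F c⁻¹ * (s - 1) with hw
  have hc1 : c₁ / c ∈ A := hdivle c₁ (ho none (Finset.mem_univ _))
  set wb : ∀ i, Fk i := fun i => algebraMap k (Fk i) (X.π ⟨c₁ / c, hc1⟩) * ub i with hwb
  have hredw : ∀ i, (X.C i).Red w (wb i) := fun i => by
    have h := (X.red_const i ⟨c₁ / c, hc1⟩).mul (hub i)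
    have heq : algebraMap K F ((⟨c₁ / c, hc1⟩ : A) : K) * u = w := by
      rw [hw, hu]
      show algebraMap K F (c₁ / c) * u = _
      rw [map_div₀, map_inv₀]; ring
    rw [heq] at h
    exact h
  -- the identity on each disc
  have hdisc : ∀ j : J, ∃ Xb : Fk (Q j).1, AtLeast (Q j).2 0 Xb ∧
      ∃ σA : (ap j + am j - 2 * a j) / c ∈ A,
        r j * r j * Xb =
          -(wb _ * (r j * r j)) - algebraMap k _ (X.π ⟨_, σA⟩) * r j := by
    intro j
    obtain ⟨hva, hoa, hoa'⟩ := hcoord j (P j) (a j) (hP j) (ha j)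
    obtain ⟨hvp, hop, hop'⟩ := hcoord j (Pp j) (ap j) (hPp j) (hap j)
    obtain ⟨hvm, hom, hom'⟩ := hcoord j (Pm j) (am j) (hPm j) (ham j)
    set τ := t j - algebraMap K F (a j) with hτ
    set τp := t j - algebraMap K F (ap j) with hτp
    set τm := t j - algebraMap K F (am j) with hτm
    have hrτ := hredsub j _ hva
    have hrτp := hredsub j _ hvp
    have hrτm := hredsub j _ hvm
    have hτ0 := hrτ.ne_zero (hr0 j)
    have hτp0 := hrτp.ne_zero (hr0 j)
    have hτm0 := hrτm.ne_zero (hr0 j)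
    have hrr : r j * r j ≠ 0 := mul_ne_zero (hr0 j) (hr0 j)
    set U := s * τ * τ / (τp * τm) with hU
    have hU0 : U ≠ 0 := div_ne_zero (mul_ne_zero (mul_ne_zero hs0 hτ0) hτ0)
      (mul_ne_zero hτp0 hτm0)
    have hUid : τp * τm * U = s * τ * τ := by
      rw [hU, mul_comm, div_mul_cancel₀ _ (mul_ne_zero hτp0 hτm0)]
    have hrU : (X.C (Q j).1).Red U 1 := by
      have h := (((hreds _).mul hrτ).mul hrτ).mul ((hrτp.mul hrτm).inv hrr)
      rw [one_mul, mul_inv_cancel₀ hrr, ← div_eq_mul_inv] at h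
      exact h
    have hUnp : X.NoPole (Q j) U := by
      intro Y hY
      refine Or.inr (le_of_eq ?_)
      rw [hU, div_eq_mul_inv, Y.ord_mul (mul_ne_zero (mul_ne_zero hs0 hτ0) hτ0)
        (inv_ne_zero (mul_ne_zero hτp0 hτm0)), Y.ord_inv, Y.ord_mul (mul_ne_zero hs0 hτ0) hτ0,
        Y.ord_mul hs0 hτ0, Y.ord_mul hτp0 hτm0, hords, hdiv]
      simp only [Finsupp.sub_apply, Finsupp.add_apply,
        X.sum_single_over hQ hP hY, X.sum_single_over hQ hPp hY, X.sum_single_over hQ hPm hY]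
      have e1 : Y.ord τ = if Y = P j then 1 else 0 := by
        split_ifs with h
        · rw [h]; exact hoa
        · exact hoa' Y hY h
      have e2 : Y.ord τp = if Y = Pp j then 1 else 0 := by
        split_ifs with h
        · rw [h]; exact hop
        · exact hop' Y hY h
      have e3 : Y.ord τm = if Y = Pm j then 1 else 0 := by
        split_ifs with h
        · rw [h]; exact hom
        · exact hom' Y hY h
      rw [e1, e2, e3]; ring
    have hσA : (ap j + am j - 2 * a j) / c ∈ A := hdivle _ (ho (some j) (Finset.mem_univ _))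
    have hπlt : A.valuation ((ap j - a j) * (am j - a j) / c) < 1 := by
      rw [map_div₀, map_mul, div_lt_one₀ hvc]
      exact lt_of_le_of_lt (mul_le_mul' (hγp j) (hγm j)) hlarge
    obtain ⟨hπA, hπ0⟩ := hsmall _ hπlt
    set X' := algebraMap K F c⁻¹ * (1 - U) with hX'
    have hXid : τ * τ * X' = -(w * (τ * τ)) +
        U * (-(algebraMap K F ((ap j + am j - 2 * a j) / c) * τ) +
          algebraMap K F ((ap j - a j) * (am j - a j) / c)) := by
      have hcF : algebraMap K F c ≠ 0 := by simpa using hc0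
      have hUid' : τp * τm * U = s * τ * τ := hUid
      have hp' : τp = τ - (algebraMap K F (ap j) - algebraMap K F (a j)) := by
        rw [hτp, hτ]; ring
      have hm' : τm = τ - (algebraMap K F (am j) - algebraMap K F (a j)) := by
        rw [hτm, hτ]; ring
      rw [hp', hm'] at hUid'
      simp only [hX', hw, map_div₀, map_inv₀, map_sub, map_add, map_mul, map_ofNat]
      field_simp
      linear_combination (-1 : F) * hUid'
    have hrX : (X.C (Q j).1).Red (τ * τ * X') (-(wb _ * (r j * r j)) +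
        1 * (-(algebraMap k _ (X.π ⟨_, hσA⟩) * r j) + algebraMap k _ (X.π ⟨_, hπA⟩))) := by
      rw [hXid]
      exact ((hredw _).mul (hrτ.mul hrτ)).neg.add
        (hrU.mul (((X.red_const _ ⟨_, hσA⟩).mul hrτ).neg.add (X.red_const _ ⟨_, hπA⟩)))
    have hXb := hrX.mul ((hrτ.mul hrτ).inv hrr)
    rw [mul_comm (τ * τ) X', mul_assoc, mul_inv_cancel₀ (mul_ne_zero hτ0 hτ0), mul_one] at hXb
    refine ⟨_, X.red_ord_nonneg hF hXb (hQb j) fun Y hY =>
      ((AtLeast.sub (Or.inr (by simp)) (hUnp Y hY))).smul c⁻¹, hσA, ?_⟩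
    rw [mul_comm (r j * r j), mul_assoc, inv_mul_cancel₀ hrr, mul_one, hπ0, map_zero]
    ring
  choose Xb hXb σA hid using hdisc
  have hwQ : ∀ j, AtLeast (Q j).2 (-1) (wb (Q j).1) := by
    intro j
    have h2 : wb (Q j).1 = -Xb j - algebraMap k _ (X.π ⟨_, σA j⟩) * (r j)⁻¹ := by
      apply mul_right_cancel₀ (mul_ne_zero (hr0 j) (hr0 j))
      rw [sub_mul, neg_mul, mul_comm (Xb j), hid j]
      field_simp [hr0 j]
      ring
    rw [h2]
    refine ((hXb j).neg.mono (by norm_num)).sub (AtLeast.smul (Or.inr ?_) _)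
    rw [(Q j).2.ord_inv, hr1 j]
  -- `wb` is a constant vanishing at `Ps`
  have hnpw : ∀ Y, (∀ j, X.spl Y ≠ some (Q j)) → AtLeast Y 0 w := fun Y hY =>
    (AtLeast.sub (Or.inr (by rw [hords, hoff Y hY])) (Or.inr (by simp))).smul _
  obtain ⟨v, hv⟩ := X.glue w wb hredw fun Y hY => hnpw Y (htube Y hY)
  have hmem : wb ∈ X.gluedSpace (compDiv S) := by
    refine ⟨fun i => ?_, fun b => v (X.pt b), X.mem_gluedVals.2 ⟨v, fun _ => rfl⟩, hv⟩
    rw [FA.Curve.mem_riemannRochSpace]
    intro Q'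
    by_cases hQ' : ∃ j, Q j = ⟨i, Q'⟩
    · rw [compDiv_apply, if_pos ((hS _).2 hQ')]
      obtain ⟨j, hj⟩ := hQ'
      have := hwQ j
      rw [hj] at this
      exact this
    · rw [compDiv_apply, if_neg (fun h => hQ' ((hS _).1 h)), neg_zero]
      by_cases hb : ∀ b, X.br b ≠ ⟨i, Q'⟩
      · push Not at hQ'
        exact X.red_ord_nonneg hF (hredw i) hb fun Y hY => hnpw Y fun j h =>
          hQ' j (Option.some_injective _ (by rw [← h, hY]))
      · push Not at hb
        obtain ⟨b, hb⟩ := hb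
        have := (hv b).atLeast
        rwa [hb] at this
  obtain ⟨wa, hwa⟩ := hell wb hmem
  have hwb0 : ∀ i, wb i = 0 := by
    have hwv : HasValue Ps w 0 := by
      have := ((hvals.sub (hasValue_algebraMap Ps 1)).smul c⁻¹)
      rwa [map_one, sub_self, mul_zero] at this
    obtain ⟨h0, hv'⟩ := X.hasValue_red hF (hredw i₀) hQ₀.1
      (fun Y hY => hnpw Y fun j h => hQ₀.2 j (Option.some_injective _ (by rw [← h, hY]))) hPs hwv
    rw [show (⟨(0 : K), h0⟩ : A) = 0 from rfl, map_zero, hwa] at hv'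
    have hwa0 : wa = 0 := (hasValue_algebraMap Q₀ wa).unique hv'
    intro i
    rw [hwa, hwa0, map_zero]
  -- `c` is attained
  rcases o with - | j
  · have hc₁ : c₁ ≠ 0 := hc0
    have hone : X.π ⟨c₁ / c, hc1⟩ = 1 := by
      rw [← map_one X.π]
      exact congrArg X.π (Subtype.ext (div_self hc₁))
    obtain ⟨i, hi⟩ := hub0 hc₁
    exact hi (by simpa [hwb, hone] using hwb0 i)
  · have hone : X.π ⟨_, σA j⟩ = 1 := by
      rw [← map_one X.π]
      exact congrArg X.π (Subtype.ext (div_self hc0))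
    have h2 := hid j
    rw [hwb0, hone, map_one, zero_mul, neg_zero, zero_sub, one_mul, mul_assoc,
      ← mul_neg_one, mul_right_inj' (hr0 j)] at h2
    have hX0 : Xb j ≠ 0 := fun h => by
      rw [h, mul_zero] at h2; exact one_ne_zero (neg_eq_zero.1 h2.symm)
    have h3 := congrArg (Q j).2.ord h2
    rw [(Q j).2.ord_mul (hr0 j) hX0, hr1 j, place_ord_neg, (Q j).2.ord_one] at h3
    have h4 := (atLeast_iff hX0).1 (hXb j)
    omega

end FA.ModField.SemiFibre
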